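import Fermat.Agent.S14.Defs

set_option autoImplicit false

open scoped NumberField nonZeroDivisors

namespace Fermat.Agent.S14

variable (p : ℕ) [Fact p.Prime]

/-- Abbreviation for the absolute Galois group used by the frozen statement. -/
abbrev GQ : Type := AlgebraicClosure ℚ ≃ₐ[ℚ] AlgebraicClosure ℚ

/-- **Slice G0**: if the kernel of the mod-`p` cyclotomic character acts trivially, the
extension splits. -/
def GSplit : Prop :=
  ∀ (V : Type) [AddCommGroup V] [Module (ZMod p) V] [DistribMulAction GQ V]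
    [SMulCommClass GQ (ZMod p) V] (C : Submodule (ZMod p) V),
    ExtCitation.IsAdmissibleExtensionCts p V C →
    (∀ σ : GQ, ExtCitation.cycloExp p σ = 1 → ∀ v : V, σ • v = v) →
    ExtCitation.SplitsGlobally C

/-- The finite-level datum extracted from a non-split admissible extension: a Galois number field
`M ⊇ K = ℚ(ζ_p)` with `[M : K] = p`, on whose group `Gal(M/K)` the group `Gal(M/ℚ)` acts through
`ω⁻¹`, unramified outside `p` and with trivial decomposition group over `K` at a prime above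
`p`. -/
def KummerDatum : Prop :=
  ∃ (K M : Type) (_ : Field K) (_ : Field M) (_ : NumberField K) (_ : NumberField M)
    (_ : Algebra K M) (_ : IsGalois ℚ M) (_ : IsCyclotomicExtension {p} ℚ K) (ζ : K)
    (_ : IsPrimitiveRoot ζ p),
    Module.finrank K M = p ∧
    (∀ (τ : M ≃ₐ[ℚ] M) (g : M ≃ₐ[K] M) (a : ℕ),
      τ (algebraMap K M ζ) = algebraMap K M ζ ^ a → ∀ x : M, τ.symm (g (τ x)) = (g ^ a) x) ∧
    (∀ P : Ideal (𝓞 M), P.IsPrime → P ≠ ⊥ → (p : 𝓞 M) ∉ P → ∀ τ : M ≃ₐ[ℚ] M,
      (∀ x : 𝓞 M, ∃ y ∈ P, (y : M) = τ (x : M) - (x : M)) → τ = 1) ∧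
    (∃ P : Ideal (𝓞 M), P.IsPrime ∧ (p : 𝓞 M) ∈ P ∧ ∀ g : M ≃ₐ[K] M,
      (∀ x : 𝓞 M, x ∈ P → ∃ y ∈ P, (y : M) = g (x : M)) → g = 1)

/-- **Slice G1a** (Galois side; uses the FROZEN `S13/Mink.lean` lifting lemmas): a non-split
admissible extension on which the kernel of the cyclotomic character acts non-trivially yields a
Kummer datum. -/
def GDatum : Prop :=
  ∀ (V : Type) [AddCommGroup V] [Module (ZMod p) V] [DistribMulAction GQ V]
    [SMulCommClass GQ (ZMod p) V] (C : Submodule (ZMod p) V),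
    ExtCitation.IsAdmissibleExtensionCts p V C →
    (∃ σ : GQ, ExtCitation.cycloExp p σ = 1 ∧ ∃ v : V, σ • v ≠ v) → KummerDatum p

/-- **Slice G1b** (number-field side; Mathlib Kummer theory + ramification): a Kummer datum
yields a counterexample to the Kummer core. -/
def GKummer : Prop :=
  KummerDatum p →
    ∃ (K : Type) (_ : Field K) (_ : NumberField K) (_ : IsCyclotomicExtension {p} ℚ K) (ζ : K)
      (hζ : IsPrimitiveRoot ζ p) (α : K), α ≠ 0 ∧ IsEigen p hζ α ∧ IsIdealPow p α ∧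
        IsLocalPow p hζ α ∧ ¬ ∃ β : K, α = β ^ p

theorem gBridge_of_slices (h0 : GSplit p) (ha : GDatum p) (hb : GKummer p) : GBridge p := by
  intro V _ _ _ _ C hadm hns
  refine hb (ha V C hadm ?_)
  by_contra hcon
  refine hns (h0 V C hadm (fun σ hσ v => ?_))
  by_contra hv
  exact hcon ⟨σ, hσ, v, hv⟩

end Fermat.Agent.S14
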