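import Fermat.Agent.S14.AIface
import Fermat.Agent.S14.GIface

set_option autoImplicit false

open scoped NumberField nonZeroDivisors

namespace Fermat.Agent.S14

variable (p : ℕ) [Fact p.Prime]

/-- All number-field slices for a given cyclotomic field (`p ≥ 5`). -/
structure CoreSlices {K : Type} [Field K] [NumberField K] [IsCyclotomicExtension {p} ℚ K]
    {ζ : K} (hζ : IsPrimitiveRoot ζ p) : Prop where
  hasL2 : HasL2 p hζ
  etaEigen : EtaEigen p hζ
  unitDim : UnitDim p hζ
  classChar : ClassChar p hζ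
  thaineRel : ThaineRel p hζ
  thaineCor : ThaineCor p hζ
  s2Upper : S2Upper p hζ
  xLower : XLower p hζ
  xSubS2 : XSubS2 p hζ
  caseA : CaseA p hζ
  caseB : CaseB p hζ

theorem kummerCore_of_coreSlices (h3 : 3 ≤ p)
    (h : ∀ (K : Type) [Field K] [NumberField K] [IsCyclotomicExtension {p} ℚ K] (ζ : K)
      (hζ : IsPrimitiveRoot ζ p), CoreSlices p hζ) : KummerCore p := by
  intro K _ _ _ ζ hζ α hα he hi hl
  have hs := h K ζ hζ
  exact kummerCore_of_slices p hζ hs.hasL2 hs.etaEigen hs.unitDim hs.classChar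
    (hs.thaineCor hs.thaineRel) (analytic_of_slices p hζ h3 hs.s2Upper hs.xLower hs.xSubS2)
    hs.caseA hs.caseB α hα he hi hl

/-- **Top-level assembly of S14 from the slices.** -/
theorem extVanishingCts_of_all (h3 : 3 ≤ p) (hG0 : GSplit p) (hG1 : GDatum p) (hG2 : GKummer p)
    (hKC3 : p = 3 → KummerCore p)
    (hcore : 5 ≤ p → ∀ (K : Type) [Field K] [NumberField K] [IsCyclotomicExtension {p} ℚ K]
      (ζ : K) (hζ : IsPrimitiveRoot ζ p), CoreSlices p hζ) :
    ExtCitation.ExtVanishingCts p := by
  refine extVanishingCts_of p (gBridge_of_slices p hG0 hG1 hG2) ?_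
  have hp : p.Prime := Fact.out
  rcases Nat.lt_or_ge p 5 with h | h
  · have : p = 3 := by
      interval_cases p
      · rfl
      · exact absurd hp (by decide)
    exact hKC3 this
  · exact kummerCore_of_coreSlices p h3 (hcore h)

end Fermat.Agent.S14
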