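import Fermat.Agent.S14.Iface

set_option autoImplicit false

/-!
# Slice CB of S14: `CaseB`

If `(α) = I ^ p` with `I` a non-principal fractional ideal and `α` is an `ω²`-eigen element modulo
`p`-th powers, then the class `x` of `I` satisfies `x ≠ 1`, `x ^ p = 1` and `σ x = x ^ (a²)`.

Everything is done with integral ideals: `I = (d)⁻¹ J`, `(e) = J ^ p`, `α d ^ p = e`; the relation
`σ α = α ^ (a²) γ ^ p` becomes `(v) ^ p (σ J) ^ p = (u) ^ p (J ^ (a²)) ^ p`, and `p`-th powers are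
injective on the ideals of a Dedekind domain.
-/

open scoped NumberField nonZeroDivisors

namespace Fermat.Agent.S14.CB

variable {K : Type} [Field K] [NumberField K]

/-- Clearing denominators: `(α) = I ^ n` gives an integral ideal `J` and integers `d`, `e`. -/
theorem exists_integral (n : ℕ) {α : K} (hα : α ≠ 0) (I : FractionalIdeal (𝓞 K)⁰ K)
    (hI : FractionalIdeal.spanSingleton (𝓞 K)⁰ α = I ^ n) :
    ∃ (d e : 𝓞 K) (J : Ideal (𝓞 K)), d ≠ 0 ∧ e ≠ 0 ∧
      I = FractionalIdeal.spanSingleton (𝓞 K)⁰ ((algebraMap (𝓞 K) K d)⁻¹) *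
        (J : FractionalIdeal (𝓞 K)⁰ K) ∧
      α * (algebraMap (𝓞 K) K d) ^ n = algebraMap (𝓞 K) K e ∧ Ideal.span {e} = J ^ n := by
  obtain ⟨d, J, hd, hIJ⟩ := FractionalIdeal.exists_eq_spanSingleton_mul I
  have hdK : (algebraMap (𝓞 K) K d) ≠ 0 := by
    simpa using (map_ne_zero_iff (algebraMap (𝓞 K) K) (FaithfulSMul.algebraMap_injective _ _)).mpr hd
  -- `(α d^n) = J^n`
  have hA : FractionalIdeal.spanSingleton (𝓞 K)⁰ ((algebraMap (𝓞 K) K d) ^ n) *
      FractionalIdeal.spanSingleton (𝓞 K)⁰ (((algebraMap (𝓞 K) K d)⁻¹) ^ n) = 1 := by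
    rw [FractionalIdeal.spanSingleton_mul_spanSingleton, ← mul_pow, mul_inv_cancel₀ hdK, one_pow,
      FractionalIdeal.spanSingleton_one]
  have h1 : FractionalIdeal.spanSingleton (𝓞 K)⁰ (α * (algebraMap (𝓞 K) K d) ^ n) =
      ((J ^ n : Ideal (𝓞 K)) : FractionalIdeal (𝓞 K)⁰ K) := by
    calc FractionalIdeal.spanSingleton (𝓞 K)⁰ (α * (algebraMap (𝓞 K) K d) ^ n)
        = FractionalIdeal.spanSingleton (𝓞 K)⁰ α *
            FractionalIdeal.spanSingleton (𝓞 K)⁰ ((algebraMap (𝓞 K) K d) ^ n) :=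
          (FractionalIdeal.spanSingleton_mul_spanSingleton _ _).symm
      _ = (FractionalIdeal.spanSingleton (𝓞 K)⁰ ((algebraMap (𝓞 K) K d) ^ n) *
            FractionalIdeal.spanSingleton (𝓞 K)⁰ (((algebraMap (𝓞 K) K d)⁻¹) ^ n)) *
            (J : FractionalIdeal (𝓞 K)⁰ K) ^ n := by
          rw [hI, hIJ, mul_pow, FractionalIdeal.spanSingleton_pow]
          ring
      _ = ((J ^ n : Ideal (𝓞 K)) : FractionalIdeal (𝓞 K)⁰ K) := by
          rw [hA, one_mul, FractionalIdeal.coeIdeal_pow]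
  have h2 : α * (algebraMap (𝓞 K) K d) ^ n ∈
      ((J ^ n : Ideal (𝓞 K)) : FractionalIdeal (𝓞 K)⁰ K) := by
    rw [← h1]; exact FractionalIdeal.mem_spanSingleton_self _ _
  obtain ⟨e, -, he⟩ := (FractionalIdeal.mem_coeIdeal _).mp h2
  have he0 : e ≠ 0 := by
    rintro rfl
    rw [map_zero] at he
    exact (mul_ne_zero hα (pow_ne_zero n hdK)) he.symm
  refine ⟨d, e, J, hd, he0, hIJ, he.symm, ?_⟩
  apply FractionalIdeal.coeIdeal_injective (K := K)
  change ((Ideal.span {e} : Ideal (𝓞 K)) : FractionalIdeal (𝓞 K)⁰ K) = ((J ^ n : Ideal (𝓞 K)) :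
    FractionalIdeal (𝓞 K)⁰ K)
  rw [FractionalIdeal.coeIdeal_span_singleton, he, h1]

end Fermat.Agent.S14.CB

namespace Fermat.Agent.S14

open CB

/-- **Slice CB.** -/
theorem caseB (p : ℕ) [Fact p.Prime] {K : Type} [Field K] [NumberField K]
    [IsCyclotomicExtension {p} ℚ K] {ζ : K} (hζ : IsPrimitiveRoot ζ p) : CaseB p hζ := by
  have hp0 : p ≠ 0 := (Fact.out : p.Prime).ne_zero
  intro α hα he I hI hnp
  obtain ⟨d, e, J, hd, he0, hIJ, hαd, hJ⟩ := exists_integral p hα I hI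
  have hdK : (algebraMap (𝓞 K) K d) ≠ 0 := by
    simpa using (map_ne_zero_iff (algebraMap (𝓞 K) K) (FaithfulSMul.algebraMap_injective _ _)).mpr hd
  have hJ0 : J ≠ ⊥ := by
    rintro rfl
    rw [Ideal.bot_pow hp0, Ideal.span_singleton_eq_bot] at hJ
    exact he0 hJ
  have hJmem : J ∈ (Ideal (𝓞 K))⁰ := mem_nonZeroDivisors_iff_ne_zero.mpr hJ0
  -- `J` is not principal
  have hJnp : ¬ Submodule.IsPrincipal J := by
    intro hprin
    obtain ⟨j, hj⟩ := hprin.principal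
    apply hnp
    refine ⟨(algebraMap (𝓞 K) K d)⁻¹ * algebraMap (𝓞 K) K j, ?_⟩
    rw [hIJ, hj, ← FractionalIdeal.spanSingleton_mul_spanSingleton]
    congr 1
    rw [← Ideal.span, FractionalIdeal.coeIdeal_span_singleton]
  refine ⟨ClassGroup.mk0 ⟨J, hJmem⟩, ?_, ?_, ?_⟩
  · rw [Ne, ClassGroup.mk0_eq_one_iff hJmem]
    exact hJnp
  · rw [← map_pow]
    have hpow : (⟨J, hJmem⟩ : (Ideal (𝓞 K))⁰) ^ p =
        ⟨Ideal.span {e}, mem_nonZeroDivisors_iff_ne_zero.mpr
          (by rw [Ne, Ideal.zero_eq_bot, Ideal.span_singleton_eq_bot]; exact he0)⟩ := by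
      apply Subtype.ext
      rw [SubmonoidClass.coe_pow]
      exact hJ.symm
    rw [hpow, ClassGroup.mk0_eq_one_iff]
    exact ⟨⟨e, rfl⟩⟩
  · intro σ a hσ
    obtain ⟨γ, hγ⟩ := he σ a hσ
    have hσα : σ α ≠ 0 := by simpa using hα
    have hγ0 : γ ≠ 0 := by
      rintro rfl
      rw [zero_pow hp0, mul_zero] at hγ
      exact hσα hγ
    -- the integral form of the eigen-relation
    have hg : ∀ x : 𝓞 K, algebraMap (𝓞 K) K (intAut K σ x) = σ (algebraMap (𝓞 K) K x) := fun x =>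
      algebraMap_galRestrict_apply ℤ σ x
    obtain ⟨u, v, hv, huv⟩ := IsFractionRing.div_surjective (𝓞 K)
      (γ * σ (algebraMap (𝓞 K) K d))
    have hv0 : v ≠ 0 := nonZeroDivisors.ne_zero hv
    have hvK : (algebraMap (𝓞 K) K v) ≠ 0 := by
      simpa using (map_ne_zero_iff (algebraMap (𝓞 K) K)
        (FaithfulSMul.algebraMap_injective _ _)).mpr hv0
    have hσd : σ (algebraMap (𝓞 K) K d) ≠ 0 := by simpa using hdK
    have hu0 : u ≠ 0 := by
      rintro rfl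
      rw [map_zero, zero_div] at huv
      exact (mul_ne_zero hγ0 hσd) huv.symm
    -- `g e * (d^(a²) v)^p = e^(a²) * u^p`
    have hkey : intAut K σ e * (d ^ (a ^ 2) * v) ^ p = e ^ (a ^ 2) * u ^ p := by
      apply FaithfulSMul.algebraMap_injective (𝓞 K) K
      rw [map_mul, map_pow, map_mul, map_pow, map_mul, map_pow, map_pow, hg, ← hαd, map_mul,
        map_pow, hγ]
      have hu : algebraMap (𝓞 K) K u = γ * σ (algebraMap (𝓞 K) K d) * algebraMap (𝓞 K) K v := by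
        rw [← huv, div_mul_cancel₀ _ hvK]
      rw [hu]
      ring
    rw [clAct, ClassGroup.mulEquiv_mk0, ← map_pow, ClassGroup.mk0_eq_mk0_iff]
    have hdv0 : d ^ (a ^ 2) * v ≠ 0 := mul_ne_zero (pow_ne_zero _ hd) hv0
    refine ⟨d ^ (a ^ 2) * v, u, hdv0, hu0, ?_⟩
    rw [Ideal.coe_mapNonZero, SubmonoidClass.coe_pow]
    apply pow_left_injective hp0
    change (Ideal.span {d ^ (a ^ 2) * v} * Ideal.map (intAut K σ : 𝓞 K →+* 𝓞 K) J) ^ p =
      (Ideal.span {u} * J ^ (a ^ 2)) ^ p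
    have hcoe : ((intAut K σ : 𝓞 K →+* 𝓞 K) e) = intAut K σ e := rfl
    rw [mul_pow, mul_pow, ← Ideal.map_pow, ← hJ, Ideal.map_span, Set.image_singleton,
      Ideal.span_singleton_pow, Ideal.span_singleton_mul_span_singleton, ← pow_mul,
      mul_comm (a ^ 2) p, pow_mul, ← hJ, Ideal.span_singleton_pow, Ideal.span_singleton_pow,
      Ideal.span_singleton_mul_span_singleton, hcoe, mul_comm ((d ^ (a ^ 2) * v) ^ p), hkey,
      mul_comm]

end Fermat.Agent.S14
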