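import Fermat.Agent.S14.Iface

/-!
# Slice B of S14: an `ω²`-eigenclass of order `p` yields an `ω²`-character of the class group

Pure finite-abelian-group argument (no Teichmüller lift).  Let `A` be a finite abelian group with
an action of a finite group `G` of order prime to `p`, `θ : G → 𝔽_p^×` multiplicative, and
`x ≠ 1`, `x ^ p = 1`, `σ x = x ^ θ(σ)`.  Take `k` maximal with `x = y₀ ^ (p ^ k)`, and
`N := {c | c ^ (p ^ k) ∈ A ^ (p ^ (k + 1))}`.  Then `A / N` is an `𝔽_p`-vector space in which the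
class of `y₀` is non-zero, and `σ y₀ ≡ y₀ ^ θ(σ)` modulo `N`.  Choose a functional `f` on `A / N`
not vanishing at `y₀` and average: `χ(c) := |G|⁻¹ ∑_σ θ(σ)⁻¹ f(σ c)`.
-/

set_option autoImplicit false

open scoped NumberField nonZeroDivisors

namespace Fermat.Agent.S14

namespace B

/-- In an `𝔽_p`-vector space, non-zero vectors are detected by additive maps to `ℤ/p`. -/
theorem exists_addHom_ne_zero_of_module (p : ℕ) [Fact p.Prime] {Q : Type*} [AddCommGroup Q]
    [Module (ZMod p) Q] (v : Q) (hv : v ≠ 0) : ∃ f : Q →+ ZMod p, f v ≠ 0 := by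
  by_contra hcon
  push Not at hcon
  exact hv ((Module.forall_dual_apply_eq_zero_iff (ZMod p) v).mp
    (fun φ => hcon φ.toAddMonoidHom))

/-- In an abelian group killed by `p`, non-zero elements are detected by characters with values
in `ℤ/p`. -/
theorem exists_addHom_ne_zero (p : ℕ) [Fact p.Prime] {Q : Type*} [AddCommGroup Q]
    (hQ : ∀ q : Q, p • q = 0) (v : Q) (hv : v ≠ 0) : ∃ f : Q →+ ZMod p, f v ≠ 0 :=
  @exists_addHom_ne_zero_of_module p _ Q _ (AddCommGroup.zmodModule hQ) v hv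

/-- A subgroup `N` containing all `p`-th powers and an element `y ∉ N`: there is a character with
values in `ℤ/p` killing `N` but not `y`. -/
theorem exists_hom_of_not_mem {A : Type*} [CommGroup A] (p : ℕ) [Fact p.Prime]
    (N : Subgroup A) (hN : ∀ c : A, c ^ p ∈ N) (y : A) (hy : y ∉ N) :
    ∃ f : A →* Multiplicative (ZMod p), (∀ c ∈ N, f c = 1) ∧ f y ≠ 1 := by
  classical
  have hQ : ∀ q : Additive (A ⧸ N), p • q = 0 := by
    intro q
    obtain ⟨c, hc⟩ := QuotientGroup.mk_surjective (Additive.toMul q)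
    have h1 : (Additive.toMul q) ^ p = 1 := by
      rw [← hc, ← QuotientGroup.mk_pow]
      exact (QuotientGroup.eq_one_iff _).mpr (hN c)
    have h2 : p • q = Additive.ofMul ((Additive.toMul q) ^ p) := rfl
    rw [h2, h1]; rfl
  have hy' : (Additive.ofMul (QuotientGroup.mk y : A ⧸ N)) ≠ 0 := by
    intro h
    have h3 : (QuotientGroup.mk y : A ⧸ N) = 1 := h
    exact hy ((QuotientGroup.eq_one_iff _).mp h3)
  obtain ⟨f, hf⟩ := exists_addHom_ne_zero p hQ _ hy'
  refine ⟨MonoidHom.mk' (fun c => Multiplicative.ofAdd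
    (f (Additive.ofMul (QuotientGroup.mk c : A ⧸ N)))) ?_, ?_, ?_⟩
  · intro a b
    rw [QuotientGroup.mk_mul, ofMul_mul, map_add, ofAdd_add]
  · intro c hc
    have h3 : (QuotientGroup.mk c : A ⧸ N) = 1 := (QuotientGroup.eq_one_iff _).mpr hc
    show Multiplicative.ofAdd (f (Additive.ofMul (QuotientGroup.mk c : A ⧸ N))) = 1
    rw [h3, ofMul_one, map_zero, ofAdd_zero]
  · intro h
    apply hf
    exact h

/-- An element of order `p` has a maximal `p`-power depth. -/
theorem exists_depth {A : Type*} [CommGroup A] [Finite A] (p : ℕ) [Fact p.Prime]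
    (x : A) (hx1 : x ≠ 1) (hxp : x ^ p = 1) :
    ∃ (k : ℕ) (y : A), y ^ (p ^ k) = x ∧ ∀ z : A, z ^ (p ^ (k + 1)) ≠ x := by
  classical
  have hp : p.Prime := Fact.out
  have hex : ∃ j : ℕ, ∀ z : A, z ^ (p ^ j) ≠ x := by
    refine ⟨Nat.card A, fun z hz => hx1 ?_⟩
    have h1 : z ^ (p ^ (Nat.card A + 1)) = 1 := by
      rw [pow_succ, pow_mul, hz, hxp]
    obtain ⟨i, -, hi⟩ := (Nat.dvd_prime_pow hp).mp (orderOf_dvd_of_pow_eq_one h1)
    have h2 : p ^ i ∣ Nat.card A := hi ▸ orderOf_dvd_natCard z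
    have h3 : i < Nat.card A :=
      lt_of_lt_of_le (Nat.lt_pow_self hp.one_lt) (Nat.le_of_dvd Nat.card_pos h2)
    have h4 : orderOf z ∣ p ^ Nat.card A := hi ▸ pow_dvd_pow p h3.le
    rw [← hz]
    exact orderOf_dvd_iff_pow_eq_one.mp h4
  have hj0 : Nat.find hex ≠ 0 := by
    intro h0
    have := Nat.find_spec hex x
    rw [h0, pow_zero, pow_one] at this
    exact this rfl
  obtain ⟨k, hk⟩ := Nat.exists_eq_succ_of_ne_zero hj0
  have hmin : ¬ ∀ z : A, z ^ (p ^ k) ≠ x := Nat.find_min hex (by omega)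
  push Not at hmin
  obtain ⟨y, hy⟩ := hmin
  refine ⟨k, y, hy, ?_⟩
  have := Nat.find_spec hex
  rwa [hk] at this

/-- The abstract form of slice B. -/
theorem exists_eigen_char {A : Type*} [CommGroup A] [Finite A] {G : Type*} [Group G] [Fintype G]
    (p : ℕ) [Fact p.Prime] (act : G → A ≃* A)
    (hact : ∀ σ τ c, act σ (act τ c) = act (σ * τ) c)
    (θ : G → ZMod p) (hθ : ∀ σ τ, θ (σ * τ) = θ σ * θ τ) (hθ0 : ∀ σ, θ σ ≠ 0)
    (hcard : (Fintype.card G : ZMod p) ≠ 0)
    (x : A) (hx1 : x ≠ 1) (hxp : x ^ p = 1) (hx : ∀ σ, act σ x = x ^ (θ σ).val) :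
    ∃ χ : A →* Multiplicative (ZMod p),
      (∀ σ c, Multiplicative.toAdd (χ (act σ c)) = θ σ * Multiplicative.toAdd (χ c)) ∧
        ∃ c, χ c ≠ 1 := by
  classical
  have hp : p.Prime := Fact.out
  have : NeZero p := ⟨hp.ne_zero⟩
  obtain ⟨k, y, hy, hk⟩ := exists_depth p x hx1 hxp
  -- the subgroup `N`
  let N : Subgroup A := (powMonoidHom (p ^ (k + 1)) : A →* A).range.comap (powMonoidHom (p ^ k))
  have hNmem : ∀ c : A, c ∈ N ↔ ∃ z : A, z ^ (p ^ (k + 1)) = c ^ (p ^ k) := by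
    intro c
    show (powMonoidHom (p ^ k) : A →* A) c ∈ (powMonoidHom (p ^ (k + 1)) : A →* A).range ↔ _
    rw [MonoidHom.mem_range]
    rfl
  have hN : ∀ c : A, c ^ p ∈ N := by
    intro c
    rw [hNmem]
    exact ⟨c, by rw [← pow_mul, pow_succ, mul_comm]⟩
  have hyN : y ∉ N := by
    rw [hNmem]
    rintro ⟨z, hz⟩
    exact hk z (hz.trans hy)
  obtain ⟨f, hfN, hfy⟩ := exists_hom_of_not_mem p N hN y hyN
  -- the eigen-relation for `y` modulo `N`
  have hfact : ∀ σ, Multiplicative.toAdd (f (act σ y)) = θ σ * Multiplicative.toAdd (f y) := by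
    intro σ
    have hmem : act σ y * (y ^ (θ σ).val)⁻¹ ∈ N := by
      rw [hNmem]
      refine ⟨1, ?_⟩
      rw [one_pow, mul_pow, inv_pow, ← map_pow, ← pow_mul, mul_comm (θ σ).val, pow_mul, hy, hx,
        mul_inv_cancel]
    have h1 : f (act σ y) = f (y ^ (θ σ).val) := by
      have h2 := hfN _ hmem
      rw [map_mul, map_inv, mul_inv_eq_one] at h2
      exact h2
    rw [h1, map_pow, toAdd_pow, nsmul_eq_mul, ZMod.natCast_zmod_val]
  -- the averaged character
  set u : ZMod p := (Fintype.card G : ZMod p)⁻¹ with hu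
  let χf : A → ZMod p := fun c => u * ∑ σ : G, (θ σ)⁻¹ * Multiplicative.toAdd (f (act σ c))
  have χmul : ∀ c d, χf (c * d) = χf c + χf d := by
    intro c d
    simp only [χf, map_mul, toAdd_mul, mul_add, Finset.sum_add_distrib]
  refine ⟨MonoidHom.mk' (fun c => Multiplicative.ofAdd (χf c)) (fun c d => by
    rw [χmul, ofAdd_add]), ?_, ?_⟩
  · intro τ c
    show χf (act τ c) = θ τ * χf c
    have key : ∑ σ : G, (θ σ)⁻¹ * Multiplicative.toAdd (f (act σ (act τ c))) =
        ∑ σ : G, θ τ * ((θ σ)⁻¹ * Multiplicative.toAdd (f (act σ c))) := by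
      refine Fintype.sum_equiv (Equiv.mulRight τ) _ _ (fun σ => ?_)
      rw [Equiv.coe_mulRight, hθ, hact, mul_inv]
      have h1 := hθ0 τ
      have h2 := hθ0 σ
      field_simp
    simp only [χf]
    rw [key, ← Finset.mul_sum, mul_left_comm]
  · refine ⟨y, fun h => hfy ?_⟩
    have h1 : χf y = 0 := h
    have h2 : χf y = Multiplicative.toAdd (f y) := by
      simp only [χf]
      have h3 : ∀ σ : G, (θ σ)⁻¹ * Multiplicative.toAdd (f (act σ y)) =
          Multiplicative.toAdd (f y) := by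
        intro σ
        rw [hfact, ← mul_assoc, inv_mul_cancel₀ (hθ0 σ), one_mul]
      rw [Finset.sum_congr rfl (fun σ _ => h3 σ), Finset.sum_const, Finset.card_univ,
        nsmul_eq_mul, ← mul_assoc, hu, inv_mul_cancel₀ hcard, one_mul]
    rw [h2] at h1
    exact h1

section Concrete

variable {K : Type} [Field K] [NumberField K]

theorem intAut_mul (σ τ : K ≃ₐ[ℚ] K) : intAut K (σ * τ) = (intAut K τ).trans (intAut K σ) := by
  unfold intAut
  have h := (galRestrict ℤ ℚ K (𝓞 K)).map_mul σ τ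
  rw [h]
  exact RingEquiv.ext fun _ => rfl

/-- The Galois action on the class group is a (left) action. -/
theorem clAct_mul_apply (σ τ : K ≃ₐ[ℚ] K) (c : ClassGroup (𝓞 K)) :
    clAct K σ (clAct K τ c) = clAct K (σ * τ) c := by
  unfold clAct
  rw [← ClassGroup.mulEquiv_trans_apply, intAut_mul]

/-- Every automorphism raises a primitive `p`-th root of unity to a power. -/
theorem exists_exp (p : ℕ) [Fact p.Prime] {ζ : K} (hζ : IsPrimitiveRoot ζ p) (σ : K ≃ₐ[ℚ] K) :
    ∃ a : ℕ, σ ζ = ζ ^ a := by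
  have : NeZero p := ⟨(Fact.out : p.Prime).ne_zero⟩
  obtain ⟨i, -, hi⟩ := hζ.eq_pow_of_pow_eq_one (ξ := σ ζ)
    (by rw [← map_pow, hζ.pow_eq_one, map_one])
  exact ⟨i, hi.symm⟩

end Concrete

end B

/-- **Slice B**: an `ω²`-eigenclass of order `p` yields a non-trivial `ω²`-character of the class
group. -/
theorem classChar (p : ℕ) [Fact p.Prime] {K : Type} [Field K] [NumberField K]
    [IsCyclotomicExtension {p} ℚ K] {ζ : K} (hζ : IsPrimitiveRoot ζ p) : ClassChar p hζ := by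
  classical
  intro x hx1 hxp hxe
  have hp : p.Prime := Fact.out
  have : NeZero p := ⟨hp.ne_zero⟩
  choose a ha using B.exists_exp p hζ
  -- uniqueness of the exponent modulo `p`
  have huniq : ∀ (σ : K ≃ₐ[ℚ] K) (b : ℕ), σ ζ = ζ ^ b → (b : ZMod p) = (a σ : ZMod p) := by
    intro σ b hb
    rw [ZMod.natCast_eq_natCast_iff]
    have h1 : ζ ^ b = ζ ^ (a σ) := by rw [← hb, ha]
    rw [(hζ.isOfFinOrder hp.ne_zero).pow_eq_pow_iff_modEq, ← hζ.eq_orderOf] at h1
    exact h1
  let θ : (K ≃ₐ[ℚ] K) → ZMod p := fun σ => (a σ : ZMod p) ^ 2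
  have hθ : ∀ σ τ, θ (σ * τ) = θ σ * θ τ := by
    intro σ τ
    have h1 : (σ * τ) ζ = ζ ^ (a σ * a τ) := by
      rw [AlgEquiv.mul_apply, ha τ, map_pow, ha σ, ← pow_mul]
    have h2 := huniq (σ * τ) _ h1
    simp only [θ]
    rw [← h2]
    push_cast
    ring
  have hθ0 : ∀ σ, θ σ ≠ 0 := by
    intro σ h
    have h1 : (a σ : ZMod p) = 0 := by
      simpa [θ] using h
    rw [ZMod.natCast_eq_zero_iff] at h1
    obtain ⟨m, hm⟩ := h1
    have h2 : σ ζ = 1 := by rw [ha σ, hm, pow_mul, hζ.pow_eq_one, one_pow]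
    have h3 : ζ = 1 := σ.injective (h2.trans (map_one σ).symm)
    exact hζ.ne_one hp.one_lt h3
  let _ : Fintype (K ≃ₐ[ℚ] K) := Fintype.ofFinite _
  have hcard : (Fintype.card (K ≃ₐ[ℚ] K) : ZMod p) ≠ 0 := by
    have := IsCyclotomicExtension.isGalois {p} ℚ K
    rw [← Nat.card_eq_fintype_card, IsGalois.card_aut_eq_finrank,
      IsCyclotomicExtension.Rat.finrank p K, Nat.totient_prime hp]
    intro h
    rw [ZMod.natCast_eq_zero_iff] at h
    have := Nat.le_of_dvd (Nat.sub_pos_of_lt hp.one_lt) h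
    have := hp.one_lt
    omega
  have hpow : ∀ (n m : ℕ), (n : ZMod p) = (m : ZMod p) → ∀ z : ClassGroup (𝓞 K), z ^ p = 1 →
      z ^ n = z ^ m := by
    intro n m hnm z hz
    rw [ZMod.natCast_eq_natCast_iff] at hnm
    rw [pow_eq_pow_iff_modEq]
    exact (hnm.of_dvd (orderOf_dvd_of_pow_eq_one hz)).symm.symm
  have hx : ∀ σ, clAct K σ x = x ^ (θ σ).val := by
    intro σ
    rw [hxe σ (a σ) (ha σ)]
    refine hpow _ _ ?_ x hxp
    rw [ZMod.natCast_zmod_val]
    simp only [θ]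
    push_cast
    ring
  obtain ⟨χ, hχ, hne⟩ := B.exists_eigen_char p (fun σ => clAct K σ) B.clAct_mul_apply θ hθ hθ0
    hcard x hx1 hxp hx
  refine ⟨χ, ?_, hne⟩
  intro σ b hb c
  apply Multiplicative.toAdd.injective
  rw [hχ σ c, toAdd_pow, nsmul_eq_mul]
  simp only [θ]
  rw [← huniq σ b hb]
  push_cast
  ring

end Fermat.Agent.S14
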