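import Fermat.Agent.S14.Iface

/-!
# Slice U2 of S14: Thaine's unit `η` is an `ω²`-eigen unit

`1 + ζ^b` is a unit for `p ∤ b` (inverse `∑_{i < (p+1)/2} ζ^(2bi)`), and
`σ_a η = η^(a²) · w^p` by reindexing the product over `(ZMod p)ˣ`.
-/

set_option autoImplicit false

open scoped NumberField nonZeroDivisors

namespace Fermat.Agent.S14.EE

section ring

variable {R : Type} [CommRing R] [IsDomain R]

lemma one_add_mul_geom {p : ℕ} (hodd : Odd p) (h1 : 1 < p) {ω : R} (hω : IsPrimitiveRoot ω p) :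
    (1 + ω) * ∑ i ∈ Finset.range ((p + 1) / 2), (ω ^ 2) ^ i = 1 := by
  have hne : ω - 1 ≠ 0 := sub_ne_zero.mpr (hω.ne_one h1)
  apply mul_right_cancel₀ hne
  have hg := geom_sum_mul (ω ^ 2) ((p + 1) / 2)
  have hm : (ω ^ 2) ^ ((p + 1) / 2) = ω := by
    rw [← pow_mul]
    obtain ⟨k, hk⟩ := hodd
    have h2 : 2 * ((p + 1) / 2) = p + 1 := by omega
    rw [h2, pow_succ, hω.pow_eq_one, one_mul]
  calc (1 + ω) * (∑ i ∈ Finset.range ((p + 1) / 2), (ω ^ 2) ^ i) * (ω - 1)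
      = (∑ i ∈ Finset.range ((p + 1) / 2), (ω ^ 2) ^ i) * (ω ^ 2 - 1) := by ring
    _ = ω - 1 := by rw [hg, hm]
    _ = 1 * (ω - 1) := by ring

lemma isUnit_one_add {p : ℕ} (hodd : Odd p) (h1 : 1 < p) {ω : R} (hω : IsPrimitiveRoot ω p) :
    IsUnit (1 + ω) :=
  IsUnit.of_mul_eq_one _ (one_add_mul_geom hodd h1 hω)

end ring

variable (p : ℕ) [Fact p.Prime]
variable {K : Type} [Field K] [NumberField K]
variable {ζ : K} (hζ : IsPrimitiveRoot ζ p)

/-- `ζ ^ t.val` for `t : ZMod p`. -/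
noncomputable def zpw (t : ZMod p) : 𝓞 K :=
  have : NeZero p := ⟨(Fact.out : p.Prime).ne_zero⟩
  hζ.toInteger ^ t.val

lemma toInteger_pow_eq_zpw (n : ℕ) :
    have : NeZero p := ⟨(Fact.out : p.Prime).ne_zero⟩
    hζ.toInteger ^ n = zpw p hζ (n : ZMod p) := by
  intro _
  have h1 : hζ.toInteger ^ p = 1 := hζ.toInteger_isPrimitiveRoot.pow_eq_one
  rw [zpw, ZMod.val_natCast]
  conv_lhs => rw [← Nat.mod_add_div n p]
  rw [pow_add, pow_mul, h1, one_pow, mul_one]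

lemma zpw_pow (t : ZMod p) (a : ℕ) : zpw p hζ t ^ a = zpw p hζ ((a : ZMod p) * t) := by
  have : NeZero p := ⟨(Fact.out : p.Prime).ne_zero⟩
  have h := toInteger_pow_eq_zpw p hζ (t.val * a)
  rw [zpw, ← pow_mul]
  rw [h]
  congr 1
  push_cast
  rw [ZMod.natCast_zmod_val, mul_comm]

lemma isUnit_one_add_zpw (h3 : 3 ≤ p) (t : (ZMod p)ˣ) : IsUnit (1 + zpw p hζ (t : ZMod p)) := by
  have : NeZero p := ⟨(Fact.out : p.Prime).ne_zero⟩
  have hp : p.Prime := Fact.out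
  have hodd : Odd p := hp.odd_of_ne_two (by omega)
  have hcop : ((t : ZMod p).val).Coprime p := by
    rw [Nat.coprime_comm, hp.coprime_iff_not_dvd]
    intro hdvd
    have hpos : 0 < (t : ZMod p).val := ZMod.val_pos.mpr t.ne_zero
    have hlt : (t : ZMod p).val < p := ZMod.val_lt _
    exact absurd (Nat.le_of_dvd hpos hdvd) (by omega)
  exact isUnit_one_add hodd hp.one_lt (hζ.toInteger_isPrimitiveRoot.pow_of_coprime _ hcop)

/-- The unit `1 + ζ^t`. -/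
noncomputable def uu (h3 : 3 ≤ p) (t : (ZMod p)ˣ) : (𝓞 K)ˣ :=
  (isUnit_one_add_zpw p hζ h3 t).unit

lemma coe_uu (h3 : 3 ≤ p) (t : (ZMod p)ˣ) :
    ((uu p hζ h3 t : (𝓞 K)ˣ) : 𝓞 K) = 1 + zpw p hζ (t : ZMod p) := rfl

/-- The exponent `y² mod p`. -/
def nexp (y : (ZMod p)ˣ) : ℕ := (y : ZMod p).val ^ 2 % p

lemma eta_eq_prod_units :
    eta p hζ = ∏ y : (ZMod p)ˣ, (1 + zpw p hζ ((y⁻¹ : (ZMod p)ˣ) : ZMod p)) ^ nexp p y := by
  have : NeZero p := ⟨(Fact.out : p.Prime).ne_zero⟩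
  have hp : p.Prime := Fact.out
  rw [eta]
  symm
  refine Finset.prod_bij (fun y _ => (y : ZMod p).val) ?_ ?_ ?_ ?_
  · intro y _
    rw [Finset.mem_Ico]
    exact ⟨ZMod.val_pos.mpr y.ne_zero, ZMod.val_lt _⟩
  · intro y _ z _ h
    exact Units.ext (ZMod.val_injective p h)
  · intro a ha
    rw [Finset.mem_Ico] at ha
    have hcop : a.Coprime p := by
      rw [Nat.coprime_comm, hp.coprime_iff_not_dvd]
      exact Nat.not_dvd_of_pos_of_lt ha.1 ha.2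
    refine ⟨ZMod.unitOfCoprime a hcop, Finset.mem_univ _, ?_⟩
    rw [ZMod.coe_unitOfCoprime, ZMod.val_natCast, Nat.mod_eq_of_lt ha.2]
  · intro y _
    rw [nexp, zpw, ZMod.natCast_zmod_val, Units.val_inv_eq_inv_val]

lemma coe_intAut (σ : K ≃ₐ[ℚ] K) (x : 𝓞 K) : ((intAut K σ x : 𝓞 K) : K) = σ (x : K) :=
  algebraMap_galRestrict_apply ℤ σ x

lemma intAut_toInteger (σ : K ≃ₐ[ℚ] K) (a : ℕ) (h : σ ζ = ζ ^ a) :
    have : NeZero p := ⟨(Fact.out : p.Prime).ne_zero⟩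
    intAut K σ hζ.toInteger = hζ.toInteger ^ a := by
  intro _
  apply NumberField.RingOfIntegers.coe_injective
  refine (coe_intAut σ hζ.toInteger).trans ?_
  rw [map_pow]
  exact h

lemma intAut_zpw (σ : K ≃ₐ[ℚ] K) (a : ℕ) (h : σ ζ = ζ ^ a) (t : ZMod p) :
    intAut K σ (zpw p hζ t) = zpw p hζ ((a : ZMod p) * t) := by
  have : NeZero p := ⟨(Fact.out : p.Prime).ne_zero⟩
  have h1 : intAut K σ (zpw p hζ t) = (intAut K σ hζ.toInteger) ^ t.val := map_pow _ _ _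
  rw [h1, intAut_toInteger p hζ σ a h, ← pow_mul, toInteger_pow_eq_zpw p hζ (a * t.val)]
  congr 1
  push_cast
  rw [ZMod.natCast_zmod_val]

include hζ in
lemma coprime_of_map (σ : K ≃ₐ[ℚ] K) (a : ℕ) (h : σ ζ = ζ ^ a) : a.Coprime p := by
  have hp : p.Prime := Fact.out
  have h1 : IsPrimitiveRoot (σ ζ) p := hζ.map_of_injective σ.injective
  rw [h] at h1
  exact (hζ.pow_iff_coprime hp.pos a).mp h1

lemma nexp_mul (a : ℕ) (hcop : a.Coprime p) (z : (ZMod p)ˣ) :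
    nexp p z * a ^ 2 = nexp p (ZMod.unitOfCoprime a hcop * z) + p * (nexp p z * a ^ 2 / p) := by
  have : NeZero p := ⟨(Fact.out : p.Prime).ne_zero⟩
  have hmod : nexp p (ZMod.unitOfCoprime a hcop * z) = nexp p z * a ^ 2 % p := by
    have h1 : nexp p (ZMod.unitOfCoprime a hcop * z) % p =
        nexp p (ZMod.unitOfCoprime a hcop * z) := by
      rw [nexp, Nat.mod_mod]
    rw [← h1]
    apply (ZMod.natCast_eq_natCast_iff' _ _ p).mp
    simp only [nexp, ZMod.natCast_mod, Nat.cast_pow, Nat.cast_mul, ZMod.natCast_zmod_val,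
      Units.val_mul, ZMod.coe_unitOfCoprime]
    ring
  rw [hmod]
  exact (Nat.mod_add_div _ _).symm

end Fermat.Agent.S14.EE

namespace Fermat.Agent.S14

open Fermat.Agent.S14.EE in
/-- **Slice U2**: `η` is a unit and an `ω²`-eigenvector modulo `p`-th powers of units. -/
theorem etaEigen (p : ℕ) [Fact p.Prime] (h3 : 3 ≤ p) {K : Type} [Field K] [NumberField K]
    [IsCyclotomicExtension {p} ℚ K] {ζ : K} (hζ : IsPrimitiveRoot ζ p) : EtaEigen p hζ := by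
  have : NeZero p := ⟨(Fact.out : p.Prime).ne_zero⟩
  have heta : eta p hζ =
      ((∏ y : (ZMod p)ˣ, uu p hζ h3 y⁻¹ ^ nexp p y : (𝓞 K)ˣ) : 𝓞 K) := by
    rw [eta_eq_prod_units, Units.coe_prod]
    refine Finset.prod_congr rfl fun y _ => ?_
    rw [Units.val_pow_eq_pow_val, coe_uu]
  refine ⟨heta ▸ Units.isUnit _, ?_⟩
  intro σ a hσ
  have hcop := coprime_of_map p hζ σ a hσ
  set A : (ZMod p)ˣ := ZMod.unitOfCoprime a hcop with hA
  have hAcoe : (A : ZMod p) = a := ZMod.coe_unitOfCoprime a hcop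
  -- the image of `η`
  have himg : intAut K σ (eta p hζ) =
      ∏ z : (ZMod p)ˣ, ((uu p hζ h3 z⁻¹ : (𝓞 K)ˣ) : 𝓞 K) ^ nexp p (A * z) := by
    rw [eta_eq_prod_units, map_prod]
    refine (Fintype.prod_equiv (Equiv.mulLeft A) _ _ ?_).symm
    intro z
    rw [Equiv.coe_mulLeft, map_pow, map_add, map_one, coe_uu]
    congr 2
    rw [intAut_zpw p hζ σ a hσ, ← hAcoe, ← Units.val_mul]
    congr 2
    rw [mul_inv_rev, mul_comm z⁻¹ A⁻¹, mul_inv_cancel_left]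
  have hpow : eta p hζ ^ (a ^ 2) =
      ∏ z : (ZMod p)ˣ, ((uu p hζ h3 z⁻¹ : (𝓞 K)ˣ) : 𝓞 K) ^ (nexp p z * a ^ 2) := by
    rw [heta]
    push_cast
    rw [← Finset.prod_pow]
    exact Finset.prod_congr rfl fun z _ => (pow_mul _ _ _).symm
  set W : (𝓞 K)ˣ := ∏ z : (ZMod p)ˣ, uu p hζ h3 z⁻¹ ^ (nexp p z * a ^ 2 / p) with hW
  have hsplit : eta p hζ ^ (a ^ 2) = intAut K σ (eta p hζ) * (W : 𝓞 K) ^ p := by
    rw [hpow, himg, hW]
    push_cast
    rw [← Finset.prod_pow, ← Finset.prod_mul_distrib]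
    refine Finset.prod_congr rfl fun z _ => ?_
    rw [← pow_mul, ← pow_add, mul_comm _ p]
    congr 1
    exact nexp_mul p a hcop z
  refine ⟨W⁻¹, ?_⟩
  rw [hsplit, mul_assoc, ← mul_pow, Units.mul_inv, one_pow, mul_one]

end Fermat.Agent.S14
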