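import Fermat.Agent.S14.GIface

/-!
# S14, slice G1a, part 1: the group-theoretic side of an admissible extension

For an admissible extension `C ⊆ V` we define the kernel `actKer V` of the Galois action, the
mod-`p` cyclotomic character `chi p` (so that `cycloExp p σ = (chi p σ).val`), and the cocycle
`bHom : ker χ → C`, `σ ↦ σ v₀ - v₀`, which is an injective homomorphism modulo `actKer V` and
satisfies `b (τ⁻¹ σ τ) = χ(τ) • b σ`.
-/

set_option autoImplicit false

namespace Fermat.Agent.S14.GD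

open ExtCitation

variable (p : ℕ) [Fact p.Prime]

/-- The mod-`p` cyclotomic character of the absolute Galois group. -/
noncomputable def chi : GQ →* (ZMod p)ˣ :=
  have : NeZero p := ⟨(Fact.out : p.Prime).ne_zero⟩
  (modularCyclotomicCharacter (AlgebraicClosure ℚ) (card_rootsOfUnity_eq_self p)).comp
    (algAutToRingAut ℚ (AlgebraicClosure ℚ))

theorem cycloExp_eq (σ : GQ) : cycloExp p σ = ((chi p σ : (ZMod p)ˣ) : ZMod p).val := rfl

theorem natCast_cycloExp (σ : GQ) : ((cycloExp p σ : ℕ) : ZMod p) = ((chi p σ : (ZMod p)ˣ) : ZMod p) := by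
  have : NeZero p := ⟨(Fact.out : p.Prime).ne_zero⟩
  rw [cycloExp_eq, ZMod.natCast_zmod_val]

theorem cycloExp_eq_one_iff (σ : GQ) : cycloExp p σ = 1 ↔ chi p σ = 1 := by
  have : NeZero p := ⟨(Fact.out : p.Prime).ne_zero⟩
  have hp1 : 1 < p := (Fact.out : p.Prime).one_lt
  have : Fact (1 < p) := ⟨hp1⟩
  rw [cycloExp_eq]
  constructor
  · intro h
    apply Units.ext
    apply ZMod.val_injective
    rw [h, Units.val_one, ZMod.val_one]
  · intro h
    rw [h, Units.val_one, ZMod.val_one]

/-- The defining property of the cyclotomic character on `p`-th roots of unity. -/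
theorem apply_root (σ : GQ) {ζ : AlgebraicClosure ℚ} (hζ : ζ ^ p = 1) :
    σ ζ = ζ ^ cycloExp p σ := by
  have : NeZero p := ⟨(Fact.out : p.Prime).ne_zero⟩
  have hζ0 : ζ ≠ 0 := by
    rintro rfl
    rw [zero_pow (Fact.out : p.Prime).ne_zero] at hζ
    exact zero_ne_one hζ
  have hmem : Units.mk0 ζ hζ0 ∈ rootsOfUnity p (AlgebraicClosure ℚ) := by
    rw [mem_rootsOfUnity]
    ext
    simpa using hζ
  have := modularCyclotomicCharacter.spec (AlgebraicClosure ℚ) (card_rootsOfUnity_eq_self p)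
    (algAutToRingAut ℚ (AlgebraicClosure ℚ) σ) hmem
  rw [cycloExp_eq]
  simpa [chi] using this

variable {p}
variable (V : Type) [AddCommGroup V] [Module (ZMod p) V] [DistribMulAction GQ V]
  [SMulCommClass GQ (ZMod p) V]

/-- The kernel of the Galois action on `V`. -/
def actKer : Subgroup GQ where
  carrier := {σ | ∀ v : V, σ • v = v}
  mul_mem' := by
    intro a b ha hb v
    rw [mul_smul, hb v, ha v]
  one_mem' := fun v => one_smul _ v
  inv_mem' := by
    intro a ha v
    have := congrArg (a⁻¹ • ·) (ha v)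
    simp only [inv_smul_smul] at this
    exact this.symm

theorem mem_actKer {σ : GQ} : σ ∈ actKer V ↔ ∀ v : V, σ • v = v := Iff.rfl

instance actKer_normal : (actKer V).Normal := by
  constructor
  intro n hn g v
  rw [mul_smul, mul_smul, hn (g⁻¹ • v), smul_inv_smul]

variable {V} {C : Submodule (ZMod p) V} (hadm : IsAdmissibleExtensionCts p V C)
include hadm

omit [SMulCommClass GQ (ZMod p) V] in
theorem isOpen_actKer : IsOpen ((actKer V : Subgroup GQ) : Set GQ) := hadm.open_kernel

theorem card_quotient : Nat.card (V ⧸ C) = p := by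
  have h := Submodule.card_eq_card_quotient_mul_card C
  rw [hadm.card_total, hadm.card_sub] at h
  have hp : 0 < p := (Fact.out : p.Prime).pos
  have : p * p = p * Nat.card (V ⧸ C) := by rw [← h]; ring
  exact (Nat.eq_of_mul_eq_mul_left hp this).symm

theorem exists_notMem : ∃ v₀ : V, v₀ ∉ C := by
  by_contra hcon
  push Not at hcon
  have htop : C = ⊤ := by
    ext v; simp [hcon v]
  have h1 : Nat.card C = Nat.card V := by
    rw [htop]; exact Nat.card_congr (Equiv.Set.univ V)
  rw [hadm.card_sub, hadm.card_total] at h1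
  have hp : 1 < p := (Fact.out : p.Prime).one_lt
  nlinarith

/-- Every vector is a multiple of `v₀` modulo `C`. -/
theorem exists_smul_sub_mem {v₀ : V} (hv₀ : v₀ ∉ C) (v : V) : ∃ t : ZMod p, v - t • v₀ ∈ C := by
  have : NeZero p := ⟨(Fact.out : p.Prime).ne_zero⟩
  have hfin : Finite (V ⧸ C) := Nat.finite_of_card_ne_zero (by
    rw [card_quotient hadm]; exact (Fact.out : p.Prime).ne_zero)
  let f : ZMod p → V ⧸ C := fun t => C.mkQ (t • v₀)
  have hinj : Function.Injective f := by
    intro s t hst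
    by_contra hne
    have h1 : (s - t) • v₀ ∈ C := by
      have : C.mkQ (s • v₀) = C.mkQ (t • v₀) := hst
      rw [sub_smul]
      exact (Submodule.Quotient.eq C).mp this
    have hst0 : s - t ≠ 0 := sub_ne_zero.mpr hne
    apply hv₀
    have := C.smul_mem (s - t)⁻¹ h1
    rwa [smul_smul, inv_mul_cancel₀ hst0, one_smul] at this
  have hbij : Function.Bijective f := by
    rw [Nat.bijective_iff_injective_and_card]
    exact ⟨hinj, by rw [card_quotient hadm, Nat.card_eq_fintype_card, ZMod.card]⟩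
  obtain ⟨t, ht⟩ := hbij.2 (C.mkQ v)
  exact ⟨t, (Submodule.Quotient.eq C).mp ht.symm⟩

theorem chi_eq_one_of_mem_actKer {σ : GQ} (hσ : σ ∈ actKer V) : chi p σ = 1 := by
  obtain ⟨v₀, hv₀⟩ := exists_notMem hadm
  have h := hadm.cyclo_quot σ v₀
  rw [hσ v₀, natCast_cycloExp] at h
  by_contra hne
  have hne' : (1 : ZMod p) - ((chi p σ : (ZMod p)ˣ) : ZMod p) ≠ 0 := by
    intro h0
    apply hne
    apply Units.ext
    rw [Units.val_one]
    exact (sub_eq_zero.mp h0).symm
  apply hv₀
  have h2 : ((1 : ZMod p) - ((chi p σ : (ZMod p)ˣ) : ZMod p)) • v₀ ∈ C := by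
    rw [sub_smul, one_smul]; exact h
  have := C.smul_mem ((1 : ZMod p) - ((chi p σ : (ZMod p)ˣ) : ZMod p))⁻¹ h2
  rwa [smul_smul, inv_mul_cancel₀ hne', one_smul] at this

theorem actKer_le_ker : actKer V ≤ (chi p).ker := fun _ hσ =>
  MonoidHom.mem_ker.mpr (chi_eq_one_of_mem_actKer hadm hσ)

theorem smul_sub_chi_smul_mem (σ : GQ) (v : V) :
    σ • v - ((chi p σ : (ZMod p)ˣ) : ZMod p) • v ∈ C := by
  have h := hadm.cyclo_quot σ v
  rwa [natCast_cycloExp] at h

theorem smul_sub_mem {σ : GQ} (hσ : chi p σ = 1) (v : V) : σ • v - v ∈ C := by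
  have h := smul_sub_chi_smul_mem hadm σ v
  rwa [hσ, Units.val_one, one_smul] at h

theorem mem_actKer_of_fix {v₀ : V} (hv₀ : v₀ ∉ C) {σ : GQ} (h : σ • v₀ = v₀) :
    σ ∈ actKer V := by
  intro v
  obtain ⟨t, ht⟩ := exists_smul_sub_mem hadm hv₀ v
  have h1 : σ • (v - t • v₀) = v - t • v₀ := hadm.fixed_sub σ _ ht
  rw [smul_sub, smul_comm σ t v₀, h] at h1
  exact sub_left_injective h1

/-- The cocycle `σ ↦ σ v₀ - v₀` on the kernel of the cyclotomic character. -/
noncomputable def bHom (v₀ : V) : (chi p).ker →* Multiplicative C where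
  toFun σ := Multiplicative.ofAdd ⟨(σ : GQ) • v₀ - v₀, smul_sub_mem hadm (MonoidHom.mem_ker.mp σ.2) v₀⟩
  map_one' := by
    apply Multiplicative.toAdd.injective
    ext
    simp
  map_mul' := by
    intro σ τ
    apply Multiplicative.toAdd.injective
    ext
    simp only [Subgroup.coe_mul, toAdd_mul, toAdd_ofAdd, Submodule.coe_add]
    have h1 : (σ : GQ) • ((τ : GQ) • v₀ - v₀) = (τ : GQ) • v₀ - v₀ :=
      hadm.fixed_sub _ _ (smul_sub_mem hadm (MonoidHom.mem_ker.mp τ.2) v₀)
    rw [mul_smul]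
    rw [smul_sub] at h1
    have : (σ : GQ) • (τ : GQ) • v₀ - v₀ =
        ((σ : GQ) • (τ : GQ) • v₀ - (σ : GQ) • v₀) + ((σ : GQ) • v₀ - v₀) := by abel
    rw [this, h1]
    abel

theorem bHom_apply_coe (v₀ : V) (σ : (chi p).ker) :
    ((Multiplicative.toAdd (bHom hadm v₀ σ) : C) : V) = (σ : GQ) • v₀ - v₀ := rfl

theorem bHom_eq_one_iff {v₀ : V} (hv₀ : v₀ ∉ C) (σ : (chi p).ker) :
    bHom hadm v₀ σ = 1 ↔ (σ : GQ) ∈ actKer V := by
  constructor
  · intro h
    apply mem_actKer_of_fix hadm hv₀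
    have h1 := congrArg (fun x => ((Multiplicative.toAdd x : C) : V)) h
    simp only [bHom_apply_coe, toAdd_one, Submodule.coe_zero] at h1
    exact sub_eq_zero.mp h1
  · intro h
    apply Multiplicative.toAdd.injective
    ext
    rw [bHom_apply_coe, h v₀]
    simp

end Fermat.Agent.S14.GD
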