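/-
S14, chain G (second seat on G1a): the ramification input for the Kummer datum of a non-split
admissible extension, at the level of the absolute Galois group and the ring of integers of the
fixed field `Mf` of the kernel of the action:
* `GDR.unram`: an automorphism acting trivially modulo a prime of `𝓞 Mf` not above `p` acts
  trivially on `V`;
* `GDR.split`: there is a prime of `𝓞 Mf` above `p` whose stabiliser in the kernel of the
  cyclotomic character acts trivially on `V`.
-/
import Fermat.Agent.S14.GAlg
import Fermat.Agent.S14.GDec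

set_option autoImplicit false
set_option linter.unusedSectionVars false

open scoped Pointwise NumberField

namespace Fermat.Agent.S14.GDR

open Fermat.Agent.S54 Fermat.Agent.S13 Fermat.Agent.S14.GDec

section Core

variable {L : Type*} [Field L] [Algebra ℚ L] [IsAlgClosure ℚ L]

/-- An integral element fixed by `H`, as an integer of the fixed field of `H`. -/
def toInt (H : Subgroup (L ≃ₐ[ℚ] L)) (x : L) (hx : IsIntegral ℤ x) (hfix : ∀ h ∈ H, h x = x) :
    𝓞 (IntermediateField.fixedField H) :=
  ⟨⟨x, (IntermediateField.mem_fixedField_iff H x).mpr hfix⟩,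
    (isIntegral_algebraMap_iff (algebraMap (IntermediateField.fixedField H) L).injective).mp hx⟩

theorem coe_toInt (H : Subgroup (L ≃ₐ[ℚ] L)) (x : L) (hx : IsIntegral ℤ x)
    (hfix : ∀ h ∈ H, h x = x) :
    (((toInt H x hx hfix : 𝓞 (IntermediateField.fixedField H)) :
      IntermediateField.fixedField H) : L) = x := rfl

/-- **Inertia, fixed-field form.**  If `σ` acts trivially modulo a nonzero prime `P` of the ring
of integers of the fixed field of the closed normal subgroup `H`, then `h * σ` lies in an inertia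
group above the residue characteristic of `P`, for some `h ∈ H`. -/
theorem exists_inertia (H : Subgroup (L ≃ₐ[ℚ] L)) [H.Normal]
    (hH : IsClosed (H : Set (L ≃ₐ[ℚ] L)))
    (P : Ideal (𝓞 (IntermediateField.fixedField H))) (hP : P.IsPrime) (hP0 : P ≠ ⊥)
    (σ : L ≃ₐ[ℚ] L)
    (hσ : ∀ x : 𝓞 (IntermediateField.fixedField H), ∃ y ∈ P,
      ((y : IntermediateField.fixedField H) : L) =
        σ ((x : IntermediateField.fixedField H) : L) -
          ((x : IntermediateField.fixedField H) : L)) :
    ∃ (ℓ : ℕ) (A : ValuationSubring L) (h : L ≃ₐ[ℚ] L), ℓ.Prime ∧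
      (ℓ : 𝓞 (IntermediateField.fixedField H)) ∈ P ∧ A.LiesOverPrime ℓ ∧ h ∈ H ∧
      h * σ ∈ A.inertiaSubgroupIn ℚ := by
  -- a prime number in `P`
  obtain ⟨x, hxP, hx0⟩ := Submodule.exists_mem_ne_zero_of_ne_bot hP0
  have hcomap := Ideal.comap_ne_bot_of_integral_mem (R := ℤ) hx0 hxP
    (NumberField.RingOfIntegers.isIntegral x)
  obtain ⟨n, hnP, hn0⟩ := Submodule.exists_mem_ne_zero_of_ne_bot hcomap
  rw [Ideal.mem_comap] at hnP
  have hnat : ((n.natAbs : ℕ) : 𝓞 (IntermediateField.fixedField H)) ∈ P := by
    rcases Int.natAbs_eq n with h | h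
    · have : ((n.natAbs : ℕ) : 𝓞 (IntermediateField.fixedField H)) =
          algebraMap ℤ (𝓞 (IntermediateField.fixedField H)) n := by
        conv_rhs => rw [h]
        simp
      rw [this]
      exact hnP
    · have : ((n.natAbs : ℕ) : 𝓞 (IntermediateField.fixedField H)) =
          - algebraMap ℤ (𝓞 (IntermediateField.fixedField H)) n := by
        conv_rhs => rw [h]
        simp
      rw [this]
      exact P.neg_mem hnP
  obtain ⟨ℓ, hℓ, hℓP⟩ := exists_prime_natCast_mem P n.natAbs (Int.natAbs_ne_zero.mpr hn0) hnat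
  -- a valuation subring above `P`
  have hinj : Function.Injective (algebraMap (𝓞 (IntermediateField.fixedField H)) L) := by
    intro a b hab
    have h1 : ((a : IntermediateField.fixedField H) : L) = ((b : IntermediateField.fixedField H) : L) :=
      hab
    exact NumberField.RingOfIntegers.ext (Subtype.ext h1)
  obtain ⟨A, hA, hAP⟩ := exists_valuationSubring_of_ideal
    (algebraMap (𝓞 (IntermediateField.fixedField H)) L) hinj P hP.ne_top hℓP
  obtain ⟨h, hh, hmem⟩ := exists_mul_mem_inertiaSubgroupIn H hH A hℓ hA σ (by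
    intro x hx hfix
    obtain ⟨y, hyP, hy⟩ := hσ (toInt H x hx hfix)
    rw [coe_toInt] at hy
    rw [← hy]
    exact hAP y hyP)
  exact ⟨ℓ, A, h, hℓ, hℓP, hA, hh, hmem⟩

/-- **Decomposition, fixed-field form.**  A valuation subring `A` of `L` above `ℓ` cuts out a
prime `P ∋ ℓ` of the ring of integers of the fixed field of the closed normal subgroup `H` such
that every automorphism mapping `P` into itself is, up to an element of `H`, in the decomposition
group of `A`. -/
theorem exists_prime_decomposition (H : Subgroup (L ≃ₐ[ℚ] L)) [H.Normal]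
    (hH : IsClosed (H : Set (L ≃ₐ[ℚ] L))) (A : ValuationSubring L) {ℓ : ℕ} (hℓ : ℓ.Prime)
    (hA : A.LiesOverPrime ℓ) :
    ∃ P : Ideal (𝓞 (IntermediateField.fixedField H)), P.IsPrime ∧
      (ℓ : 𝓞 (IntermediateField.fixedField H)) ∈ P ∧
      ∀ σ : L ≃ₐ[ℚ] L,
        (∀ x : 𝓞 (IntermediateField.fixedField H), x ∈ P → ∃ y ∈ P,
          ((y : IntermediateField.fixedField H) : L) =
            σ ((x : IntermediateField.fixedField H) : L)) →
        ∃ h ∈ H, h * σ ∈ A.decompositionSubgroup ℚ := by
  have hA' : (ℓ : L) ∈ A.nonunits := hA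
  let f : 𝓞 (IntermediateField.fixedField H) →+* integralClosure ℤ L :=
    { toFun := fun x => ⟨((x : IntermediateField.fixedField H) : L),
        map_isIntegral_int (algebraMap (IntermediateField.fixedField H) L)
          (NumberField.RingOfIntegers.isIntegral_coe x)⟩
      map_one' := rfl
      map_mul' := fun _ _ => rfl
      map_zero' := rfl
      map_add' := fun _ _ => rfl }
  have hf : ∀ x : 𝓞 (IntermediateField.fixedField H),
      x ∈ (primeBelow A).comap f ↔ ((x : IntermediateField.fixedField H) : L) ∈ A.nonunits := by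
    intro x
    rw [Ideal.mem_comap, mem_primeBelow]
    exact Iff.rfl
  refine ⟨(primeBelow A).comap f, Ideal.comap_isPrime f _, ?_, fun σ hσ => ?_⟩
  · rw [hf]
    simpa using hA'
  · refine exists_mul_mem_decompositionSubgroup H hH A hℓ hA σ ?_
    intro x hx hfix hxA
    obtain ⟨y, hyP, hy⟩ := hσ (toInt H x hx hfix) ((hf _).mpr (by rw [coe_toInt]; exact hxA))
    rw [coe_toInt] at hy
    rw [← hy]
    exact (hf y).mp hyP

end Core

section Admissible

open ExtCitation

variable {p : ℕ} [Fact p.Prime] {V : Type} [AddCommGroup V] [Module (ZMod p) V]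
  [DistribMulAction GQ V] [SMulCommClass GQ (ZMod p) V] {C : Submodule (ZMod p) V}

/-- **Unramified outside `p`.**  An automorphism acting trivially modulo a nonzero prime, not
above `p`, of the ring of integers of the field cut out by `V` acts trivially on `V`. -/
theorem unram (hadm : IsAdmissibleExtensionCts p V C)
    (P : Ideal (𝓞 (IntermediateField.fixedField (GD.actKer V)))) (hP : P.IsPrime) (hP0 : P ≠ ⊥)
    (hp : (p : 𝓞 (IntermediateField.fixedField (GD.actKer V))) ∉ P) (σ : GQ)
    (hσ : ∀ x : 𝓞 (IntermediateField.fixedField (GD.actKer V)), ∃ y ∈ P,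
      ((y : IntermediateField.fixedField (GD.actKer V)) : AlgebraicClosure ℚ) =
        σ ((x : IntermediateField.fixedField (GD.actKer V)) : AlgebraicClosure ℚ) -
          ((x : IntermediateField.fixedField (GD.actKer V)) : AlgebraicClosure ℚ)) :
    σ ∈ GD.actKer V := by
  have : IsAlgClosure ℚ (AlgebraicClosure ℚ) := AlgebraicClosure.instIsAlgClosure ℚ
  have hH : IsClosed ((GD.actKer V : Subgroup GQ) : Set GQ) :=
    Subgroup.isClosed_of_isOpen _ (GD.isOpen_actKer hadm)
  obtain ⟨ℓ, A, h, hℓ, hℓP, hA, hh, hmem⟩ := exists_inertia (GD.actKer V) hH P hP hP0 σ hσ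
  have hne : ℓ ≠ p := by
    rintro rfl
    exact hp hℓP
  have h1 : h * σ ∈ GD.actKer V := fun v =>
    hadm.unramified_outside ℓ hℓ hne A hA (h * σ) hmem v
  have h2 : σ = h⁻¹ * (h * σ) := by group
  rw [h2]
  exact (GD.actKer V).mul_mem ((GD.actKer V).inv_mem hh) h1

/-- **Split at `p`.**  There is a prime above `p` of the ring of integers of the field cut out
by `V` such that every automorphism with trivial cyclotomic character mapping this prime into
itself acts trivially on `V`. -/
theorem split (hadm : IsAdmissibleExtensionCts p V C) :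
    ∃ P : Ideal (𝓞 (IntermediateField.fixedField (GD.actKer V))), P.IsPrime ∧
      (p : 𝓞 (IntermediateField.fixedField (GD.actKer V))) ∈ P ∧
      ∀ σ : GQ, GD.chi p σ = 1 →
        (∀ x : 𝓞 (IntermediateField.fixedField (GD.actKer V)), x ∈ P → ∃ y ∈ P,
          ((y : IntermediateField.fixedField (GD.actKer V)) : AlgebraicClosure ℚ) =
            σ ((x : IntermediateField.fixedField (GD.actKer V)) : AlgebraicClosure ℚ)) →
        σ ∈ GD.actKer V := by
  have hpp : p.Prime := Fact.out
  have : IsAlgClosure ℚ (AlgebraicClosure ℚ) := AlgebraicClosure.instIsAlgClosure ℚ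
  have hH : IsClosed ((GD.actKer V : Subgroup GQ) : Set GQ) :=
    Subgroup.isClosed_of_isOpen _ (GD.isOpen_actKer hadm)
  obtain ⟨A, hA⟩ := exists_liesOverPrime (AlgebraicClosure ℚ) hpp
  obtain ⟨P, hP, hpP, hlift⟩ := exists_prime_decomposition (GD.actKer V) hH A hpp hA
  refine ⟨P, hP, hpP, fun σ hχ hσ => ?_⟩
  obtain ⟨h, hh, hdec⟩ := hlift σ hσ
  have hχ' : GD.chi p (h * σ) = 1 := by
    rw [map_mul, GD.chi_eq_one_of_mem_actKer hadm hh, hχ, one_mul]
  have h1 : h * σ ∈ GD.actKer V := fun v =>
    smul_eq_of_mem_decomposition hadm A hA (h * σ) hdec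
      ((GD.cycloExp_eq_one_iff p _).mpr hχ') v
  have h2 : σ = h⁻¹ * (h * σ) := by group
  rw [h2]
  exact (GD.actKer V).mul_mem ((GD.actKer V).inv_mem hh) h1

end Admissible

end Fermat.Agent.S14.GDR
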