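import Fermat.Agent.S14.GField
import Fermat.Agent.S14.GDecRam

/-!
# S14, slice G1a: a non-split admissible extension yields a Kummer datum

`gDatum : GDatum p`, assembled from `GD.kummerDatum_of_ram` (fields, degree, conjugation rule,
transport) and the two ramification statements `GDR.unram`, `GDR.split`.
-/

set_option autoImplicit false

namespace Fermat.Agent.S14

/-- **Slice G1a.** -/
theorem gDatum (p : ℕ) [Fact p.Prime] : GDatum p := by
  intro V _ _ _ _ C hadm hns
  exact GD.kummerDatum_of_ram hadm hns (GDR.unram hadm) (GDR.split hadm)

end Fermat.Agent.S14
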