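import Fermat.Agent.S14.GKRam

/-!
# S14, slice G1b / GK2: the Kummer generator spans a `p`-th power ideal

`GK.isIdealPow`: in a Kummer datum (`M / K = ℚ(ζ_p)`, conjuncts 3 and 4 of `KummerDatum`), if
`β ^ p = α` with `α ∈ K` nonzero and `β ∈ M`, then `(α)` is the `p`-th power of a fractional ideal
of `K`.
-/

set_option autoImplicit false

open scoped NumberField nonZeroDivisors

namespace Fermat.Agent.S14.GK

variable (p : ℕ) [Fact p.Prime] {K M : Type} [Field K] [Field M] [NumberField K] [NumberField M]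
  [Algebra K M] [IsGalois ℚ M] [IsCyclotomicExtension {p} ℚ K]

/-- **GK2**: the Kummer generator of a Kummer datum spans the `p`-th power of a fractional
ideal. -/
theorem isIdealPow
    (h3 : ∀ P : Ideal (𝓞 M), P.IsPrime → P ≠ ⊥ → (p : 𝓞 M) ∉ P → ∀ τ : M ≃ₐ[ℚ] M,
      (∀ x : 𝓞 M, ∃ y ∈ P, (y : M) = τ (x : M) - (x : M)) → τ = 1)
    (h4 : ∃ P : Ideal (𝓞 M), P.IsPrime ∧ (p : 𝓞 M) ∈ P ∧ ∀ g : M ≃ₐ[K] M,
      (∀ x : 𝓞 M, x ∈ P → ∃ y ∈ P, (y : M) = g (x : M)) → g = 1)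
    {α : K} {β : M} (hα : α ≠ 0) (hβ : β ^ p = algebraMap K M α) : IsIdealPow p α := by
  refine GKR.exists_pow_eq_spanSingleton p (Fact.out : p.Prime).ne_zero hα (fun v => ?_)
  obtain ⟨w, hw, he⟩ := GKR.exists_unramified_above p h3 h4 v
  refine ⟨w.valuation M β, ?_⟩
  have h1 := IsDedekindDomain.HeightOneSpectrum.valuation_liesOver M v w α
  rw [Ideal.ramificationIdx'_eq_ramificationIdx v.asIdeal w.asIdeal v.ne_bot, he, pow_one] at h1
  rw [h1, ← hβ, map_pow]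

end Fermat.Agent.S14.GK
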