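import Mathlib

/-!
# S14, slice G1b (GK3 support): the trace approximation lemma

Let `M / K` be number fields with `M / ℚ` Galois, and let `P` be a non-zero prime of `𝓞 M` which
is stabilised by no non-trivial element of `Gal(M/K)` (trivial decomposition group).  Then for
every `k` the map `𝓞 K → 𝓞 M ⧸ P ^ k` is surjective (`exists_approx`): pick `e ≡ 1 mod P ^ k`,
`e ≡ 0 mod (g • P) ^ k` for `g ≠ 1` by the Chinese remainder theorem and take the trace of `e * x`.
This encodes `e(P | P ∩ 𝓞 K) = f(P | P ∩ 𝓞 K) = 1` without any ramification theory.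
-/

set_option autoImplicit false

open scoped NumberField nonZeroDivisors

namespace Fermat.Agent.S14.GKA

variable {K M : Type} [Field K] [Field M] [Algebra K M]

theorem coe_smul_int (g : M ≃ₐ[K] M) (x : 𝓞 M) : ((g • x : 𝓞 M) : M) = g (x : M) := rfl

theorem coe_algebraMap_int (c : 𝓞 K) :
    ((algebraMap (𝓞 K) (𝓞 M) c : 𝓞 M) : M) = algebraMap K M (c : K) := rfl

variable [NumberField K] [NumberField M] [IsGalois ℚ M]

/-- The trace approximation: if no non-trivial element of `Gal(M/K)` stabilises the prime `P`,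
then `𝓞 K → 𝓞 M ⧸ P ^ k` is surjective. -/
theorem exists_approx (P : Ideal (𝓞 M)) (hP : P.IsPrime) (hP0 : P ≠ ⊥)
    (hdec : ∀ g : M ≃ₐ[K] M, (∀ x : 𝓞 M, x ∈ P → ∃ y ∈ P, (y : M) = g (x : M)) → g = 1)
    (k : ℕ) (x : 𝓞 M) : ∃ c : 𝓞 K, algebraMap (𝓞 K) (𝓞 M) c - x ∈ P ^ k := by
  classical
  have : IsGalois K M := IsGalois.tower_top_of_isGalois ℚ K M
  have : FiniteDimensional K M := Module.Finite.of_restrictScalars_finite ℚ K M
  let G := M ≃ₐ[K] M
  let Q : G → Ideal (𝓞 M) := fun g => P.comap (MulSemiringAction.toRingHom G (𝓞 M) g)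
  have hQmem : ∀ (g : G) (z : 𝓞 M), z ∈ Q g ↔ g • z ∈ P := fun g z => Iff.rfl
  have hQprime : ∀ g : G, (Q g).IsPrime := fun g => Ideal.comap_isPrime _ _
  have hQ0 : ∀ g : G, Q g ≠ ⊥ := by
    intro g hg
    obtain ⟨z, hz, hz0⟩ := Submodule.exists_mem_ne_zero_of_ne_bot hP0
    have h1 : g⁻¹ • z ∈ Q g := by
      rw [hQmem, smul_inv_smul]
      exact hz
    rw [hg, Ideal.mem_bot] at h1
    exact hz0 ((smul_eq_zero_iff_eq g⁻¹).mp h1)
  have hQinj : ∀ g h : G, g ≠ h → Q g ≠ Q h := by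
    intro g h hgh hQ
    apply hgh
    have h1 : g * h⁻¹ = 1 := by
      apply hdec
      intro z hz
      refine ⟨(g * h⁻¹) • z, ?_, rfl⟩
      have h2 : h⁻¹ • z ∈ Q h := by
        rw [hQmem, smul_inv_smul]
        exact hz
      rw [← hQ, hQmem, smul_smul] at h2
      exact h2
    exact mul_inv_eq_one.mp h1
  obtain ⟨e, he⟩ := IsDedekindDomain.exists_forall_sub_mem_ideal (s := Finset.univ) Q
    (fun _ => k) (fun g _ => Ideal.prime_of_isPrime (hQ0 g) (hQprime g))
    (fun g _ h _ hgh => hQinj g h hgh) (fun g => if (g : G) = 1 then 1 else 0)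
  have he' : ∀ g : G, g • (e - if g = 1 then 1 else 0) ∈ P ^ k := by
    intro g
    have h1 := he g (Finset.mem_univ g)
    have h2 := Ideal.le_comap_pow (MulSemiringAction.toRingHom G (𝓞 M) g) k h1
    exact h2
  have he1 : e - 1 ∈ P ^ k := by
    have := he' 1
    simpa using this
  have heg : ∀ g : G, g ≠ 1 → g • e ∈ P ^ k := by
    intro g hg
    have := he' g
    simpa [hg] using this
  let T : 𝓞 M := ∑ g : G, g • (e * x)
  have hT : T - x ∈ P ^ k := by
    have h1 : T = (1 : G) • (e * x) + ∑ g ∈ Finset.univ.erase (1 : G), g • (e * x) :=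
      (Finset.add_sum_erase Finset.univ (fun g : G => g • (e * x)) (Finset.mem_univ 1)).symm
    have h2 : T - x = (e - 1) * x + ∑ g ∈ Finset.univ.erase (1 : G), g • (e * x) := by
      rw [h1, one_smul]
      ring
    rw [h2]
    refine Ideal.add_mem _ (Ideal.mul_mem_right _ _ he1) (Ideal.sum_mem _ fun g hg => ?_)
    rw [smul_mul']
    exact Ideal.mul_mem_right _ _ (heg g (Finset.ne_of_mem_erase hg))
  have hint : IsIntegral ℤ (Algebra.trace K M ((e * x : 𝓞 M) : M)) :=
    Algebra.isIntegral_trace (e * x).2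
  refine ⟨⟨Algebra.trace K M ((e * x : 𝓞 M) : M), hint⟩, ?_⟩
  have h3 : algebraMap (𝓞 K) (𝓞 M) ⟨Algebra.trace K M ((e * x : 𝓞 M) : M), hint⟩ = T := by
    apply NumberField.RingOfIntegers.ext
    show algebraMap K M (Algebra.trace K M ((e * x : 𝓞 M) : M)) = _
    rw [trace_eq_sum_automorphisms]
    show _ = algebraMap (𝓞 M) M (∑ g : G, g • (e * x))
    rw [map_sum]
    rfl
  rw [h3]
  exact hT

end Fermat.Agent.S14.GKA
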