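import Fermat.Agent.S14.GIface
import Fermat.Agent.S14.GKApprox

set_option autoImplicit false

open scoped NumberField nonZeroDivisors

namespace Fermat.Agent.S14.GKS

open IsDedekindDomain WithZero

variable (p : ℕ) [Fact p.Prime]
variable {K M : Type} [Field K] [Field M] [NumberField K] [NumberField M] [Algebra K M]
  [IsCyclotomicExtension {p} ℚ K] {ζ : K} (hζ : IsPrimitiveRoot ζ p)

theorem lam_prime : Prime (lam p hζ) := by
  have : NeZero p := ⟨(Fact.out : p.Prime).ne_zero⟩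
  have h := hζ.zeta_sub_one_prime'
  have h2 : lam p hζ = -(hζ.toInteger - 1) := by
    unfold lam; ring
  rw [h2]
  exact h.neg

theorem lam_pow_associated : Associated (lam p hζ ^ (p - 1)) (p : 𝓞 K) := by
  have : NeZero p := ⟨(Fact.out : p.Prime).ne_zero⟩
  have h := IsCyclotomicExtension.Rat.associated_zeta_sub_one_pow_prime p hζ
  have h2 : Associated (lam p hζ) (hζ.toInteger - 1) := by
    have : lam p hζ = -(hζ.toInteger - 1) := by
      unfold lam; ring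
    rw [this]
    exact (Associated.refl _).neg_left
  exact (h2.pow_pow).trans h

theorem lam_coe : ((lam p hζ : 𝓞 K) : K) = 1 - ζ := by
  have : NeZero p := ⟨(Fact.out : p.Prime).ne_zero⟩
  unfold lam
  simp

include hζ in
theorem one_sub_zeta_ne_zero : (1 - ζ : K) ≠ 0 := by
  intro h
  exact hζ.ne_one (Fact.out : p.Prime).one_lt (sub_eq_zero.mp h).symm

/-- Every non-zero element of `K` is `(1 - ζ)^n * a / b` with `a`, `b` prime to `1 - ζ`. -/
theorem exists_frac (α : K) (hα : α ≠ 0) :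
    ∃ (n : ℤ) (a b : 𝓞 K), ¬ lam p hζ ∣ a ∧ ¬ lam p hζ ∣ b ∧
      α * (b : K) = (1 - ζ) ^ n * (a : K) := by
  obtain ⟨r, s, hs, rfl⟩ := IsFractionRing.div_surjective (A := 𝓞 K) α
  have hs0 : s ≠ 0 := nonZeroDivisors.ne_zero hs
  have hr0 : r ≠ 0 := by
    rintro rfl
    simp at hα
  have hirr : Irreducible (lam p hζ) := (lam_prime p hζ).irreducible
  obtain ⟨i, a, ha, hra⟩ := WfDvdMonoid.max_power_factor hr0 hirr
  obtain ⟨j, b, hb, hsb⟩ := WfDvdMonoid.max_power_factor hs0 hirr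
  refine ⟨(i : ℤ) - j, a, b, ha, hb, ?_⟩
  have hz := one_sub_zeta_ne_zero p hζ
  have hb0 : (b : K) ≠ 0 := by
    intro h
    have : b = 0 := by exact_mod_cast h
    rw [this] at hb
    exact hb (dvd_zero _)
  rw [zpow_sub₀ hz, zpow_natCast, zpow_natCast, hra, hsb]
  have e1 : algebraMap (𝓞 K) K (lam p hζ ^ i * a) = (1 - ζ) ^ i * (a : K) := by
    rw [map_mul, map_pow]
    congr 2
  have e2 : algebraMap (𝓞 K) K (lam p hζ ^ j * b) = (1 - ζ) ^ j * (b : K) := by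
    rw [map_mul, map_pow]
    congr 2
  rw [e1, e2]
  field_simp

variable (w : HeightOneSpectrum (𝓞 M))

theorem intVal_eq_exp_neg_one {L : 𝓞 M} (h1 : L ∈ w.asIdeal) (h2 : L ∉ w.asIdeal ^ 2) :
    w.intValuation L = exp (-1 : ℤ) := by
  have hL0 : L ≠ 0 := by
    rintro rfl
    exact h2 (Ideal.zero_mem _)
  have hne : w.intValuation L ≠ 0 := w.intValuation_ne_zero L hL0
  have e1 : w.intValuation L ≤ exp (-((1 : ℕ) : ℤ)) := by
    rw [w.intValuation_le_pow_iff_mem, pow_one]; exact h1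
  have e2 : ¬ w.intValuation L ≤ exp (-((2 : ℕ) : ℤ)) := by
    rw [w.intValuation_le_pow_iff_mem]; exact h2
  rw [← exp_log hne] at e1 e2 ⊢
  rw [exp_le_exp] at e1 e2
  rw [exp_inj]
  push_cast at e1 e2
  omega

theorem mem_pow_succ_of_lt (k : ℕ) {t : 𝓞 M} (h : w.intValuation t < exp (-(k : ℤ))) :
    t ∈ w.asIdeal ^ (k + 1) := by
  rw [← w.intValuation_le_pow_iff_mem]
  have h3 : exp (-(k : ℤ)) = exp (-((k + 1 : ℕ) : ℤ)) * exp (1 : ℤ) := by
    rw [← exp_add]; congr 1; push_cast; ring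
  rw [h3, lt_mul_exp_iff_le exp_ne_zero] at h
  exact h

/-- `𝓞 K → 𝓞 M / P^k` is surjective when `e = f = 1`. -/
theorem exists_sub_mem_pow
    (hf : ∀ s : 𝓞 M, ∃ r : 𝓞 K, s - algebraMap (𝓞 K) (𝓞 M) r ∈ w.asIdeal)
    (hL : w.intValuation (algebraMap (𝓞 K) (𝓞 M) (lam p hζ)) = exp (-1 : ℤ))
    (k : ℕ) (s : 𝓞 M) : ∃ r : 𝓞 K, s - algebraMap (𝓞 K) (𝓞 M) r ∈ w.asIdeal ^ k := by
  induction k with
  | zero => exact ⟨0, by simp⟩
  | succ k ih =>
    obtain ⟨r₀, hr₀⟩ := ih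
    set L := algebraMap (𝓞 K) (𝓞 M) (lam p hζ) with hLdef
    set t := s - algebraMap (𝓞 K) (𝓞 M) r₀ with ht
    have hLk : w.intValuation (L ^ k) = exp (-(k : ℤ)) := by
      rw [map_pow, hL, ← exp_nsmul]; congr 1; simp
    have hle : w.intValuation t ≤ w.intValuation (L ^ k) := by
      rw [hLk, w.intValuation_le_pow_iff_mem]; exact hr₀
    obtain ⟨y, hy⟩ := w.exists_intValuation_mul_sub_lt hle (Multiplicative.ofAdd (-(k : ℤ)))
    have hy' : t - y * L ^ k ∈ w.asIdeal ^ (k + 1) := mem_pow_succ_of_lt w k hy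
    obtain ⟨r₁, hr₁⟩ := hf y
    refine ⟨r₀ + lam p hζ ^ k * r₁, ?_⟩
    have hLmem : L ∈ w.asIdeal := by
      have : w.intValuation L < 1 := by
        rw [hL]; exact exp_lt_exp.mpr (by norm_num)
      exact (w.intValuation_lt_one_iff_mem L).mp this
    have e : s - algebraMap (𝓞 K) (𝓞 M) (r₀ + lam p hζ ^ k * r₁) =
        (t - y * L ^ k) + (y - algebraMap (𝓞 K) (𝓞 M) r₁) * L ^ k := by
      rw [map_add, map_mul, map_pow, ht, hLdef]; ring
    rw [e]
    refine Ideal.add_mem _ hy' ?_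
    rw [pow_succ']
    exact Ideal.mul_mem_mul hr₁ (Ideal.pow_mem_pow hLmem k)

/-- The contraction of `P` is `(1 - ζ)`: an integer of `K` whose image lies in `P` is divisible
by `1 - ζ`. -/
theorem lam_dvd_of_mem {P : Ideal (𝓞 M)} [P.IsPrime]
    (hL : algebraMap (𝓞 K) (𝓞 M) (lam p hζ) ∈ P) {a : 𝓞 K}
    (ha : algebraMap (𝓞 K) (𝓞 M) a ∈ P) : lam p hζ ∣ a := by
  have hl := lam_prime p hζ
  have hprime : (Ideal.span {lam p hζ}).IsPrime :=
    (Ideal.span_singleton_prime hl.ne_zero).mpr hl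
  have hmax : (Ideal.span {lam p hζ}).IsMaximal :=
    hprime.isMaximal (by simpa using hl.ne_zero)
  have hle : Ideal.span {lam p hζ} ≤ P.comap (algebraMap (𝓞 K) (𝓞 M)) := by
    rw [Ideal.span_singleton_le_iff_mem, Ideal.mem_comap]; exact hL
  have hne : P.comap (algebraMap (𝓞 K) (𝓞 M)) ≠ ⊤ := Ideal.IsPrime.ne_top'
  have heq := hmax.eq_of_le hne hle
  have : a ∈ Ideal.span {lam p hζ} := by
    rw [heq, Ideal.mem_comap]; exact ha
  exact Ideal.mem_span_singleton.mp this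

/-- `e = 1`: an integer of `K` whose image lies in `P^k` is divisible by `(1 - ζ)^k`. -/
theorem lam_pow_dvd_of_mem
    (hL : w.intValuation (algebraMap (𝓞 K) (𝓞 M) (lam p hζ)) = exp (-1 : ℤ))
    (k : ℕ) {r : 𝓞 K} (hr : algebraMap (𝓞 K) (𝓞 M) r ∈ w.asIdeal ^ k) : lam p hζ ^ k ∣ r := by
  rcases eq_or_ne r 0 with rfl | hr0
  · exact dvd_zero _
  have hirr : Irreducible (lam p hζ) := (lam_prime p hζ).irreducible
  obtain ⟨j, r', hr', rfl⟩ := WfDvdMonoid.max_power_factor hr0 hirr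
  have hLmem : algebraMap (𝓞 K) (𝓞 M) (lam p hζ) ∈ w.asIdeal := by
    have : w.intValuation (algebraMap (𝓞 K) (𝓞 M) (lam p hζ)) < 1 := by
      rw [hL]; exact exp_lt_exp.mpr (by norm_num)
    exact (w.intValuation_lt_one_iff_mem _).mp this
  have h1 : w.intValuation (algebraMap (𝓞 K) (𝓞 M) r') = 1 := by
    rw [w.intValuation_eq_one_iff_mem_primeCompl]
    intro hmem
    exact hr' (lam_dvd_of_mem p hζ hLmem hmem)
  have h2 : w.intValuation (algebraMap (𝓞 K) (𝓞 M) (lam p hζ ^ j * r')) = exp (-(j : ℤ)) := by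
    rw [map_mul, map_pow, map_mul, map_pow, hL, h1, mul_one, ← exp_nsmul]; congr 1; simp
  rw [← w.intValuation_le_pow_iff_mem, h2, exp_le_exp] at hr
  have hkj : k ≤ j := by omega
  exact Dvd.dvd.mul_right (pow_dvd_pow _ hkj) _

/-- **Sub-slice GK3, core**: if the prime `P` of `M` above `p` has `e = f = 1` over `K`
(in elementary form: `1 - ζ ∉ P²` and `𝓞 K → 𝓞 M / P` is surjective), then an element
`α ∈ K` which is a `p`-th power in `M` satisfies `IsLocalPow`. -/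
theorem isLocalPow_core (P : Ideal (𝓞 M)) [hPprime : P.IsPrime] (hpP : (p : 𝓞 M) ∈ P)
    (he : algebraMap (𝓞 K) (𝓞 M) (lam p hζ) ∉ P ^ 2)
    (hf : ∀ s : 𝓞 M, ∃ r : 𝓞 K, s - algebraMap (𝓞 K) (𝓞 M) r ∈ P)
    {α : K} {β : M} (hα : α ≠ 0) (hβ : β ^ p = algebraMap K M α) : IsLocalPow p hζ α := by
  classical
  have hp : p.Prime := Fact.out
  have hP0 : P ≠ ⊥ := by
    rintro rfl
    rw [Ideal.mem_bot] at hpP
    exact hp.ne_zero (by exact_mod_cast hpP)
  let w : HeightOneSpectrum (𝓞 M) := ⟨P, hPprime, hP0⟩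
  have hLP : algebraMap (𝓞 K) (𝓞 M) (lam p hζ) ∈ P := by
    obtain ⟨u, hu⟩ := lam_pow_associated p hζ
    have h1 : algebraMap (𝓞 K) (𝓞 M) (lam p hζ ^ (p - 1) * (u : 𝓞 K)) ∈ P := by
      rw [hu, map_natCast]; exact hpP
    rw [map_mul, map_pow] at h1
    rcases hPprime.mem_or_mem h1 with h | h
    · exact hPprime.mem_of_pow_mem _ h
    · exfalso
      have hu' : IsUnit (algebraMap (𝓞 K) (𝓞 M) (u : 𝓞 K)) := (u.isUnit).map _
      exact hPprime.ne_top (Ideal.eq_top_of_isUnit_mem _ h hu')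
  have hL : w.intValuation (algebraMap (𝓞 K) (𝓞 M) (lam p hζ)) = exp (-1 : ℤ) :=
    intVal_eq_exp_neg_one w hLP he
  obtain ⟨n, a, b, ha, hb, hab⟩ := exists_frac p hζ α hα
  -- coercions
  have hcoe : ∀ r : 𝓞 K, algebraMap K M (r : K) =
      algebraMap (𝓞 M) M (algebraMap (𝓞 K) (𝓞 M) r) := fun r => by
    rw [← IsScalarTower.algebraMap_apply (𝓞 K) (𝓞 M) M,
      IsScalarTower.algebraMap_apply (𝓞 K) K M]
  have hW1 : ∀ r : 𝓞 K, ¬ lam p hζ ∣ r → w.valuation M (algebraMap K M (r : K)) = 1 := by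
    intro r hr
    rw [hcoe, HeightOneSpectrum.valuation_eq_one_iff_notMem]
    exact fun hmem => hr (lam_dvd_of_mem p hζ hLP hmem)
  set z : M := algebraMap K M (1 - ζ) with hz
  have hz0 : z ≠ 0 := by
    rw [hz]
    exact (map_ne_zero _).mpr (one_sub_zeta_ne_zero p hζ)
  have hWz : w.valuation M z = exp (-1 : ℤ) := by
    rw [hz, ← lam_coe p hζ, hcoe, HeightOneSpectrum.valuation_of_algebraMap]
    exact hL
  have habM : algebraMap K M α * algebraMap K M (b : K) = z ^ n * algebraMap K M (a : K) := by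
    rw [← map_mul, hab, map_mul, map_zpow₀]
  have hβ0 : β ≠ 0 := by
    rintro rfl
    rw [zero_pow hp.ne_zero] at hβ
    exact hα ((map_eq_zero _).mp hβ.symm)
  have hWβ0 : w.valuation M β ≠ 0 := (Valuation.ne_zero_iff _).mpr hβ0
  -- `p ∣ n`
  have hval : w.valuation M β ^ p = exp (-1 : ℤ) ^ n := by
    have h1 := congrArg (w.valuation M) habM
    rw [map_mul, map_mul, ← hβ, map_pow, hW1 b hb, hW1 a ha, mul_one, mul_one, map_zpow₀,
      hWz] at h1
    exact h1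
  set j : ℤ := log (w.valuation M β) with hj
  have hWβ : w.valuation M β = exp j := (exp_log hWβ0).symm
  have hjn : (p : ℤ) * j = -n := by
    rw [hWβ, ← exp_nsmul, ← exp_zsmul, exp_inj] at hval
    simpa using hval
  have hn : n = (p : ℤ) * (-j) := by linarith
  -- the unit `β' = β / z^m`
  set β' : M := β / z ^ (-j) with hβ'
  have hWβ' : w.valuation M β' = 1 := by
    rw [hβ', map_div₀, map_zpow₀, hWz, hWβ, ← exp_zsmul, ← exp_sub, ← exp_zero]
    congr 1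
    simp
  obtain ⟨c, ⟨d, hd⟩, hcd⟩ := w.exists_primeCompl_mul_eq_of_integer β' (le_of_eq hWβ')
  have hd' : d ∉ P := hd
  obtain ⟨x, hx⟩ := exists_sub_mem_pow p hζ w hf hL (p - 1) c
  obtain ⟨y, hy⟩ := exists_sub_mem_pow p hζ w hf hL (p - 1) d
  have hx' : c - algebraMap (𝓞 K) (𝓞 M) x ∈ P ^ (p - 1) := hx
  have hy' : d - algebraMap (𝓞 K) (𝓞 M) y ∈ P ^ (p - 1) := hy
  have hp1 : p - 1 ≠ 0 := by have := hp.two_le; omega
  have hynd : ¬ lam p hζ ∣ y := by
    rintro ⟨y', rfl⟩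
    apply hd'
    have h1 : algebraMap (𝓞 K) (𝓞 M) (lam p hζ * y') ∈ P := by
      rw [map_mul]; exact Ideal.mul_mem_right _ _ hLP
    have h2 := Ideal.pow_le_self hp1 hy'
    have := Ideal.add_mem _ h2 h1
    simpa using this
  -- the key identity in `𝓞 M`
  have hkeyM : β' ^ p * algebraMap K M (b : K) = algebraMap K M (a : K) := by
    have hzn : z ^ n = (z ^ (-j)) ^ p := by
      rw [hn, zpow_mul', zpow_natCast]
    have hzj : z ^ (-j) ≠ 0 := zpow_ne_zero _ hz0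
    rw [hβ', div_pow, hβ, div_mul_eq_mul_div, habM, hzn]
    field_simp
  have hkey : algebraMap (𝓞 K) (𝓞 M) a * d ^ p = algebraMap (𝓞 K) (𝓞 M) b * c ^ p := by
    apply FaithfulSMul.algebraMap_injective (𝓞 M) M
    rw [map_mul, map_mul, map_pow, map_pow, ← hcoe, ← hcoe, ← hcd, mul_pow, ← hkeyM]
    ring
  have hmem : algebraMap (𝓞 K) (𝓞 M) (a * y ^ p - b * x ^ p) ∈ P ^ (p - 1) := by
    have e : algebraMap (𝓞 K) (𝓞 M) (a * y ^ p - b * x ^ p) =
        algebraMap (𝓞 K) (𝓞 M) b * (c ^ p - algebraMap (𝓞 K) (𝓞 M) x ^ p) -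
        algebraMap (𝓞 K) (𝓞 M) a * (d ^ p - algebraMap (𝓞 K) (𝓞 M) y ^ p) := by
      rw [map_sub, map_mul, map_mul, map_pow, map_pow]
      linear_combination hkey
    rw [e]
    refine Ideal.sub_mem _ (Ideal.mul_mem_left _ _ ?_) (Ideal.mul_mem_left _ _ ?_)
    · exact Ideal.mem_of_dvd _ (sub_dvd_pow_sub_pow _ _ p) hx'
    · exact Ideal.mem_of_dvd _ (sub_dvd_pow_sub_pow _ _ p) hy'
  have hdvd : lam p hζ ^ (p - 1) ∣ a * y ^ p - b * x ^ p :=
    lam_pow_dvd_of_mem p hζ w hL (p - 1) hmem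
  refine ⟨-j, a, b, x, y, ha, hb, hynd, ?_, ?_⟩
  · rw [hab, hn]
  · exact (lam_pow_associated p hζ).dvd_iff_dvd_left.mp hdvd

/-- `1 - ζ` lies in every prime of `𝓞 M` above `p`. -/
theorem lam_mem {P : Ideal (𝓞 M)} [hPprime : P.IsPrime] (hpP : (p : 𝓞 M) ∈ P) :
    algebraMap (𝓞 K) (𝓞 M) (lam p hζ) ∈ P := by
  obtain ⟨u, hu⟩ := lam_pow_associated p hζ
  have h1 : algebraMap (𝓞 K) (𝓞 M) (lam p hζ ^ (p - 1) * (u : 𝓞 K)) ∈ P := by
    rw [hu, map_natCast]; exact hpP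
  rw [map_mul, map_pow] at h1
  rcases hPprime.mem_or_mem h1 with h | h
  · exact hPprime.mem_of_pow_mem _ h
  · exfalso
    have hu' : IsUnit (algebraMap (𝓞 K) (𝓞 M) (u : 𝓞 K)) := (u.isUnit).map _
    exact hPprime.ne_top (Ideal.eq_top_of_isUnit_mem _ h hu')

/-- **Sub-slice GK3**: from the trivial decomposition group at a prime above `p` (the fourth
conjunct of `KummerDatum`, verbatim), an element `α ∈ K` which is a `p`-th power in `M`
satisfies `IsLocalPow`. -/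
theorem isLocalPow [IsGalois ℚ M]
    (h4 : ∃ P : Ideal (𝓞 M), P.IsPrime ∧ (p : 𝓞 M) ∈ P ∧ ∀ g : M ≃ₐ[K] M,
      (∀ x : 𝓞 M, x ∈ P → ∃ y ∈ P, (y : M) = g (x : M)) → g = 1)
    {α : K} {β : M} (hα : α ≠ 0) (hβ : β ^ p = algebraMap K M α) : IsLocalPow p hζ α := by
  obtain ⟨P, hP, hpP, hdec⟩ := h4
  haveI := hP
  have hp : p.Prime := Fact.out
  have hP0 : P ≠ ⊥ := by
    rintro rfl
    rw [Ideal.mem_bot] at hpP
    exact hp.ne_zero (by exact_mod_cast hpP)
  have hLP := lam_mem p hζ hpP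
  have happ := GKA.exists_approx (K := K) P hP hP0 hdec
  refine isLocalPow_core p hζ P hpP ?_ ?_ hα hβ
  · -- `e = 1`
    intro hL2
    have hle : P ≤ P ^ 2 := by
      intro π hπ
      obtain ⟨c, hc⟩ := happ 2 π
      have hcP : algebraMap (𝓞 K) (𝓞 M) c ∈ P := by
        have h1 := Ideal.pow_le_self (two_ne_zero) hc
        have := Ideal.add_mem _ h1 hπ
        simpa using this
      obtain ⟨c', rfl⟩ := lam_dvd_of_mem p hζ hLP hcP
      have h2 : algebraMap (𝓞 K) (𝓞 M) (lam p hζ * c') ∈ P ^ 2 := by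
        rw [map_mul]; exact Ideal.mul_mem_right _ _ hL2
      have := Ideal.sub_mem _ h2 hc
      simpa using this
    have hlt : P ^ (1 + 1) < P ^ 1 := Ideal.pow_succ_lt_pow hP0 1
    rw [pow_one] at hlt
    exact (not_le_of_gt hlt) hle
  · -- `f = 1`
    intro s
    obtain ⟨c, hc⟩ := happ 1 s
    refine ⟨c, ?_⟩
    rw [pow_one] at hc
    have := Ideal.neg_mem_iff _ |>.mpr hc
    simpa using this

end Fermat.Agent.S14.GKS
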