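import Fermat.Agent.S14.GKGen
import Fermat.Agent.S14.GKLocalS
import Fermat.Agent.S14.GKIdeal

/-!
# S14, slice G1b: a Kummer datum yields a counterexample to the Kummer core

Assembly of the three sub-slices: `GK.exists_gen` (Kummer generator and eigen property),
`GK.isIdealPow` (unramified outside `p`, split at `p` ⇒ `(α)` is a `p`-th power ideal),
`GKS.isLocalPow` (trivial decomposition group at `p` ⇒ `α` is locally a `p`-th power).
-/

set_option autoImplicit false

open scoped NumberField nonZeroDivisors

namespace Fermat.Agent.S14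

/-- **Slice G1b**. -/
theorem gKummer (p : ℕ) [Fact p.Prime] : GKummer p := by
  rintro ⟨K, M, _, _, _, _, _, _, _, ζ, hζ, h1, h2, h3, h4⟩
  obtain ⟨α, β, hα, hβ, heig, hnp⟩ := GK.exists_gen p hζ h1 h2
  exact ⟨K, inferInstance, inferInstance, inferInstance, ζ, hζ, α, hα, heig,
    GK.isIdealPow p h3 h4 hα hβ, GKS.isLocalPow p hζ h4 hα hβ, hnp⟩

end Fermat.Agent.S14
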