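import Fermat.Agent.S14.GIface

set_option autoImplicit false

/-!
# Slice G0 of S14: `GSplit`

If every element of the kernel of the mod-`p` cyclotomic character acts trivially on `V`, then the
image of Galois in `Aut V` is abelian, and either all of Galois acts trivially (every complement
of `C` is stable) or some `σ₀` has cyclotomic exponent `c ≠ 1`, in which case the `c`-eigenspace
of `σ₀` is a Galois-stable complement of `C`.
-/

namespace Fermat.Agent.S14.GSplitAux

open ExtCitation

variable (p : ℕ) [Fact p.Prime]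

/-- The mod-`p` cyclotomic character of the frozen statement, as an element of `ZMod p`. -/
noncomputable def chi (σ : GQ) : (ZMod p)ˣ :=
  haveI : NeZero p := ⟨(Fact.out : p.Prime).ne_zero⟩
  modularCyclotomicCharacter (AlgebraicClosure ℚ) (card_rootsOfUnity_eq_self p)
    (σ : AlgebraicClosure ℚ ≃+* AlgebraicClosure ℚ)

theorem chi_mul (σ τ : GQ) : chi p (σ * τ) = chi p σ * chi p τ := by
  have : NeZero p := ⟨(Fact.out : p.Prime).ne_zero⟩
  unfold chi
  rw [← map_mul]
  rfl

theorem chi_one : chi p (1 : GQ) = 1 := by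
  have : NeZero p := ⟨(Fact.out : p.Prime).ne_zero⟩
  unfold chi
  exact map_one _

theorem chi_inv (σ : GQ) : chi p σ⁻¹ = (chi p σ)⁻¹ := by
  have h : chi p σ⁻¹ * chi p σ = 1 := by rw [← chi_mul, inv_mul_cancel, chi_one]
  exact eq_inv_of_mul_eq_one_left h

theorem cycloExp_eq (σ : GQ) : cycloExp p σ = ((chi p σ : (ZMod p)ˣ) : ZMod p).val := rfl

theorem cycloExp_cast (σ : GQ) : ((cycloExp p σ : ℕ) : ZMod p) = ((chi p σ : (ZMod p)ˣ) : ZMod p) := by
  have : NeZero p := ⟨(Fact.out : p.Prime).ne_zero⟩
  rw [cycloExp_eq, ZMod.natCast_zmod_val]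

theorem cycloExp_eq_one_iff (σ : GQ) : cycloExp p σ = 1 ↔ chi p σ = 1 := by
  have : NeZero p := ⟨(Fact.out : p.Prime).ne_zero⟩
  have : Fact (1 < p) := ⟨(Fact.out : p.Prime).one_lt⟩
  rw [cycloExp_eq]
  constructor
  · intro h
    apply Units.ext
    have h2 : (((chi p σ : (ZMod p)ˣ) : ZMod p).val : ZMod p) = ((1 : ℕ) : ZMod p) := by rw [h]
    rw [ZMod.natCast_zmod_val] at h2
    simpa using h2
  · intro h
    rw [h, Units.val_one, ZMod.val_one]

/-- The commutator of two Galois elements lies in the kernel of the cyclotomic character. -/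
theorem cycloExp_commutator (σ τ : GQ) : cycloExp p (σ * τ * σ⁻¹ * τ⁻¹) = 1 := by
  rw [cycloExp_eq_one_iff, chi_mul, chi_mul, chi_mul, chi_inv, chi_inv]
  rw [mul_comm (chi p σ) (chi p τ), mul_assoc (chi p τ), mul_inv_cancel, mul_one, mul_inv_cancel]

end Fermat.Agent.S14.GSplitAux

namespace Fermat.Agent.S14

open ExtCitation GSplitAux

/-- **Slice G0.** -/
theorem gSplit (p : ℕ) [Fact p.Prime] : GSplit p := by
  intro V _ _ _ _ C hadm htriv
  by_cases hall : ∀ σ : GQ, cycloExp p σ = 1
  · -- everything acts trivially: any complement is stable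
    obtain ⟨C', hC'⟩ := Submodule.exists_isCompl C
    exact ⟨C', fun σ x hx => by rw [htriv σ (hall σ) x]; exact hx, hC'⟩
  · push Not at hall
    obtain ⟨σ₀, hσ₀⟩ := hall
    set c : ZMod p := ((cycloExp p σ₀ : ℕ) : ZMod p) with hc
    have hc1 : c ≠ 1 := by
      intro h
      apply hσ₀
      rw [cycloExp_eq_one_iff]
      apply Units.ext
      rw [Units.val_one, ← cycloExp_cast]
      exact h
    have h1c : (1 - c) ≠ 0 := sub_ne_zero.mpr (Ne.symm hc1)
    -- the image of Galois is abelian
    have hcomm : ∀ (σ τ : GQ) (v : V), σ • τ • v = τ • σ • v := by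
      intro σ τ v
      have h := htriv (σ * τ * σ⁻¹ * τ⁻¹) (cycloExp_commutator p σ τ) (τ • σ • v)
      rw [mul_smul, mul_smul, mul_smul, inv_smul_smul, inv_smul_smul] at h
      exact h
    -- the eigenspace of `σ₀`
    let C' : Submodule (ZMod p) V :=
      { carrier := {v | σ₀ • v = c • v}
        add_mem' := by
          intro a b ha hb
          change σ₀ • a = c • a at ha
          change σ₀ • b = c • b at hb
          change σ₀ • (a + b) = c • (a + b)
          rw [smul_add, ha, hb, smul_add]
        zero_mem' := by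
          change σ₀ • (0 : V) = c • (0 : V)
          rw [smul_zero, smul_zero]
        smul_mem' := by
          intro r a ha
          change σ₀ • a = c • a at ha
          change σ₀ • (r • a) = c • (r • a)
          rw [smul_comm σ₀ r a, ha, smul_comm] }
    have hmemC' : ∀ v : V, v ∈ C' ↔ σ₀ • v = c • v := fun v => Iff.rfl
    refine ⟨C', ?_, ?_⟩
    · intro σ x hx
      rw [hmemC'] at hx ⊢
      rw [hcomm σ₀ σ x, hx, smul_comm]
    · refine IsCompl.of_eq ?_ ?_
      · -- C ⊓ C' = ⊥
        rw [Submodule.eq_bot_iff]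
        rintro x ⟨hxC, hxC'⟩
        have h1 : σ₀ • x = x := hadm.fixed_sub σ₀ x hxC
        have h2 : σ₀ • x = c • x := hxC'
        have h3 : (1 - c) • x = 0 := by
          rw [sub_smul, one_smul, ← h2, h1, sub_self]
        exact (smul_eq_zero.mp h3).resolve_left h1c
      · -- C ⊔ C' = ⊤
        rw [eq_top_iff]
        intro v _
        have hx : σ₀ • v - c • v ∈ C := hadm.cyclo_quot σ₀ v
        set x : V := σ₀ • v - c • v with hxdef
        set t : V := (1 - c)⁻¹ • x with ht
        have htC : t ∈ C := C.smul_mem _ hx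
        have hσt : σ₀ • t = t := hadm.fixed_sub σ₀ t htC
        have hxt : x = (1 - c) • t := by
          rw [ht, smul_smul, mul_inv_cancel₀ h1c, one_smul]
        have hvt : v - t ∈ C' := by
          rw [hmemC', smul_sub, hσt, smul_sub]
          have h4 : σ₀ • v = c • v + x := by rw [hxdef]; abel
          rw [h4, hxt, sub_smul, one_smul]
          abel
        have : v = t + (v - t) := by abel
        rw [this]
        exact Submodule.add_mem_sup htC hvt

end Fermat.Agent.S14
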