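import Fermat.Agent.S14.Iface

/-!
# Slice KC3 of S14: the Kummer core for `p = 3`

`ℚ(ζ₃)` is a PID whose units are `±ζ^j`.  So `(α) = I³` gives `α = ζ^j β³`, and the eigen relation
`σ α = α⁴ γ³` for `σ ζ = ζ²` shows that `ζ^j` is a cube in `K`; since the cubes of the roots of
unity `±ζ^r` are `±1`, this forces `ζ^j = 1`.
-/

set_option autoImplicit false

open scoped NumberField nonZeroDivisors

namespace Fermat.Agent.S14

namespace KC3

variable {K : Type} [Field K] [NumberField K] [IsCyclotomicExtension {3} ℚ K]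
variable {ζ : K}

/-- The non-trivial automorphism of `ℚ(ζ₃)`. -/
theorem exists_aut_sq (hζ : IsPrimitiveRoot ζ 3) : ∃ σ : K ≃ₐ[ℚ] K, σ ζ = ζ ^ 2 := by
  have hμ : IsPrimitiveRoot (ζ ^ 2) 3 := hζ.pow_of_coprime 2 (by decide)
  have hirr : Irreducible (Polynomial.cyclotomic 3 ℚ) :=
    Polynomial.cyclotomic.irreducible_rat (by decide)
  have h : minpoly ℚ (hζ.powerBasis ℚ).gen = minpoly ℚ (hμ.powerBasis ℚ).gen := by
    rw [IsPrimitiveRoot.powerBasis_gen ℚ hζ, IsPrimitiveRoot.powerBasis_gen ℚ hμ,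
      ← hζ.minpoly_eq_cyclotomic_of_irreducible hirr,
      ← hμ.minpoly_eq_cyclotomic_of_irreducible hirr]
  refine ⟨(hζ.powerBasis ℚ).equivOfMinpoly (hμ.powerBasis ℚ) h, ?_⟩
  have h2 := (hζ.powerBasis ℚ).equivOfMinpoly_gen (hμ.powerBasis ℚ) h
  rwa [IsPrimitiveRoot.powerBasis_gen ℚ hζ, IsPrimitiveRoot.powerBasis_gen ℚ hμ] at h2

/-- The primitive cube root of unity is not a cube in `ℚ(ζ₃)`. -/
theorem not_cube (hζ : IsPrimitiveRoot ζ 3) (δ : K) (h : ζ = δ ^ 3) : False := by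
  have h3 : ζ ^ 3 = 1 := hζ.pow_eq_one
  have h9 : δ ^ 9 = 1 := by
    rw [show (9 : ℕ) = 3 * 3 from rfl, pow_mul, ← h, h3]
  have hfin : IsOfFinOrder δ := isOfFinOrder_iff_pow_eq_one.2 ⟨9, by norm_num, h9⟩
  obtain ⟨r, -, hr⟩ := hζ.exists_pow_or_neg_mul_pow_of_isOfFinOrder (by decide) hfin
  have hζ1 : ζ ≠ 1 := hζ.ne_one (by norm_num)
  have hr3 : (ζ ^ r) ^ 3 = 1 := by rw [← pow_mul, mul_comm, pow_mul, h3, one_pow]
  rcases hr with hr | hr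
  · apply hζ1
    rw [h, hr, hr3]
  · have h1 : ζ = -1 := by
      rw [h, hr]
      rw [show (-ζ ^ r) ^ 3 = -((ζ ^ r) ^ 3) by ring, hr3]
    rw [h1] at h3
    norm_num at h3

/-- Every unit of `ℚ(ζ₃)` is `±ζ^j`. -/
theorem unit_eq (hζ : IsPrimitiveRoot ζ 3) (u : (𝓞 K)ˣ) :
    ∃ (ε : K) (j : ℕ), ε ^ 3 = ε ∧ ((u : 𝓞 K) : K) = ε * ζ ^ j := by
  have hmem := IsCyclotomicExtension.Rat.Three.Units.mem hζ u
  have hη : (((IsPrimitiveRoot.isUnit (hζ.toInteger_isPrimitiveRoot) (by decide)).unit :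
      (𝓞 K)ˣ) : 𝓞 K) = hζ.toInteger := rfl
  have hcoe : algebraMap (𝓞 K) K hζ.toInteger = ζ := hζ.coe_toInteger
  simp only [List.mem_cons, List.not_mem_nil, or_false] at hmem
  rcases hmem with h | h | h | h | h | h
  · exact ⟨1, 0, by norm_num, by rw [h]; simp⟩
  · exact ⟨-1, 0, by norm_num, by rw [h]; simp⟩
  · refine ⟨1, 1, by norm_num, ?_⟩
    rw [h, hη]
    show algebraMap (𝓞 K) K hζ.toInteger = _
    rw [hcoe]; ring
  · refine ⟨-1, 1, by norm_num, ?_⟩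
    rw [h, Units.val_neg, hη]
    show algebraMap (𝓞 K) K (-hζ.toInteger) = _
    rw [map_neg, hcoe]; ring
  · refine ⟨1, 2, by norm_num, ?_⟩
    rw [h, Units.val_pow_eq_pow_val, hη]
    show algebraMap (𝓞 K) K (hζ.toInteger ^ 2) = _
    rw [map_pow, hcoe]; ring
  · refine ⟨-1, 2, by norm_num, ?_⟩
    rw [h, Units.val_neg, Units.val_pow_eq_pow_val, hη]
    show algebraMap (𝓞 K) K (-hζ.toInteger ^ 2) = _
    rw [map_neg, map_pow, hcoe]; ring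

/-- The Kummer core for `ℚ(ζ₃)`. -/
theorem core (hζ : IsPrimitiveRoot ζ 3) (α : K) (hα : α ≠ 0)
    (he : ∀ (σ : K ≃ₐ[ℚ] K) (a : ℕ), σ ζ = ζ ^ a → ∃ γ : K, σ α = α ^ (a ^ 2) * γ ^ 3)
    (hi : ∃ I : FractionalIdeal (𝓞 K)⁰ K, FractionalIdeal.spanSingleton (𝓞 K)⁰ α = I ^ 3) :
    ∃ β : K, α = β ^ 3 := by
  have hp3 : Fact (Nat.Prime 3) := ⟨Nat.prime_three⟩
  have hpid : IsPrincipalIdealRing (𝓞 K) := IsCyclotomicExtension.Rat.three_pid K
  have h3 : ζ ^ 3 = 1 := hζ.pow_eq_one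
  obtain ⟨I, hI⟩ := hi
  have hprinc := FractionalIdeal.isPrincipal I
  rw [FractionalIdeal.eq_spanSingleton_of_principal I] at hI
  obtain ⟨hβ, u, hu⟩ := exists_unit_of_span_eq 3 hα hI
  set β := Submodule.IsPrincipal.generator (I : Submodule (𝓞 K) K) with hβdef
  obtain ⟨ε, j, hε, huε⟩ := unit_eq hζ u
  -- `α = ζ^j * β'^3`
  have hα' : α = ζ ^ j * (ε * β) ^ 3 := by
    have : (algebraMap (𝓞 K) K) (u : 𝓞 K) = ε * ζ ^ j := huε
    rw [hu, this, mul_pow, hε]; ring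
  have hε0 : ε ≠ 0 := by
    rintro rfl
    rw [hα'] at hα
    simp at hα
  set β' := ε * β with hβ'
  have hβ'0 : β' ≠ 0 := mul_ne_zero hε0 hβ
  -- the eigen relation at `a = 2`
  obtain ⟨σ, hσ⟩ := exists_aut_sq hζ
  obtain ⟨γ, hγ⟩ := he σ 2 hσ
  have hσβ : σ β' ≠ 0 := by
    intro h0
    exact hβ'0 ((map_eq_zero σ).mp h0)
  -- `ζ^j` is a cube
  have hcube : ζ ^ j = (β' ^ 4 * γ / σ β') ^ 3 := by
    have h1 : σ α = (ζ ^ 2) ^ j * (σ β') ^ 3 := by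
      rw [hα', map_mul, map_pow, map_pow, hσ]
    have h2 : α ^ (2 ^ 2) * γ ^ 3 = (ζ ^ 3) ^ j * ζ ^ j * (β' ^ 4 * γ) ^ 3 := by
      rw [hα']; ring
    rw [h3, one_pow, one_mul] at h2
    rw [hγ, h2] at h1
    have h4 : (ζ ^ 2) ^ j = ζ ^ j * ζ ^ j := by ring
    rw [h4] at h1
    have hζj : ζ ^ j ≠ 0 := pow_ne_zero _ (hζ.ne_zero (by norm_num))
    rw [div_pow, eq_div_iff (pow_ne_zero _ hσβ)]
    have h5 : ζ ^ j * ((β' ^ 4 * γ) ^ 3) = ζ ^ j * (ζ ^ j * σ β' ^ 3) := by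
      rw [h1]; ring
    exact (mul_left_cancel₀ hζj h5).symm
  -- reduce `j` modulo `3`
  have hjmod : ζ ^ j = ζ ^ (j % 3) := by
    conv_lhs => rw [← Nat.div_add_mod j 3, pow_add, pow_mul, h3, one_pow, one_mul]
  have hlt : j % 3 < 3 := Nat.mod_lt _ (by norm_num)
  rcases Nat.lt_succ_iff_lt_or_eq.mp hlt with hlt2 | h2
  · rcases Nat.lt_succ_iff_lt_or_eq.mp hlt2 with hlt1 | h1
    · have h0 : j % 3 = 0 := by omega
      refine ⟨β', ?_⟩
      rw [hα', hjmod, h0, pow_zero, one_mul]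
    · exfalso
      rw [hjmod, h1, pow_one] at hcube
      exact not_cube hζ _ hcube
  · exfalso
    rw [hjmod, h2] at hcube
    refine not_cube hζ ((β' ^ 4 * γ / σ β') ^ 2) ?_
    calc ζ = ζ ^ 3 * ζ := by rw [h3, one_mul]
      _ = (ζ ^ 2) ^ 2 := by ring
      _ = ((β' ^ 4 * γ / σ β') ^ 2) ^ 3 := by
          rw [hcube]; ring

end KC3

/-- **Slice KC3**: the Kummer core for `p = 3`. -/
theorem kummerCore_three (p : ℕ) [Fact p.Prime] (hp : p = 3) : KummerCore p := by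
  subst hp
  intro K _ _ _ ζ hζ α hα he hi _
  exact KC3.core hζ α hα he hi

end Fermat.Agent.S14
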