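import Fermat.Agent.S14.Iface

/-!
# Slice U1 of S14: the log-derivative invariant `ℓ₂`

`Φ : 𝓞 K → F_p[v]/(v^3)`, `ζ ↦ e = 1 + v + v²/2`, and `ℓ₂ u = 2 c₂/c₀ - (c₁/c₀)²` for
`Φ u = c₀ + c₁ v + c₂ v²`.
-/

set_option autoImplicit false

open scoped NumberField nonZeroDivisors
open Polynomial

namespace Fermat.Agent.S14.L2

/-- The truncated polynomial ring `F[v]/(v^3)`. -/
@[ext] structure T3 (F : Type) where
  /-- constant coefficient -/
  c0 : F
  /-- coefficient of `v` -/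
  c1 : F
  /-- coefficient of `v^2` -/
  c2 : F

namespace T3

variable {F : Type} [CommRing F]

instance instZeroT3 : Zero (T3 F) := ⟨⟨0, 0, 0⟩⟩
instance instOneT3 : One (T3 F) := ⟨⟨1, 0, 0⟩⟩
instance instAddT3 : Add (T3 F) := ⟨fun x y => ⟨x.c0 + y.c0, x.c1 + y.c1, x.c2 + y.c2⟩⟩
instance instNegT3 : Neg (T3 F) := ⟨fun x => ⟨-x.c0, -x.c1, -x.c2⟩⟩
instance instMulT3 : Mul (T3 F) :=
  ⟨fun x y => ⟨x.c0 * y.c0, x.c0 * y.c1 + x.c1 * y.c0,
    x.c0 * y.c2 + x.c1 * y.c1 + x.c2 * y.c0⟩⟩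

instance instCommRingT3 : CommRing (T3 F) := CommRing.ofMinimalAxioms
  (by intro a b c; ext <;> exact add_assoc _ _ _)
  (by intro a; ext <;> exact zero_add _)
  (by intro a; ext <;> exact neg_add_cancel _)
  (by
    intro a b c
    ext
    · show a.c0 * b.c0 * c.c0 = a.c0 * (b.c0 * c.c0)
      ring
    · show a.c0 * b.c0 * c.c1 + (a.c0 * b.c1 + a.c1 * b.c0) * c.c0 =
        a.c0 * (b.c0 * c.c1 + b.c1 * c.c0) + a.c1 * (b.c0 * c.c0)
      ring
    · show a.c0 * b.c0 * c.c2 + (a.c0 * b.c1 + a.c1 * b.c0) * c.c1 +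
          (a.c0 * b.c2 + a.c1 * b.c1 + a.c2 * b.c0) * c.c0 =
        a.c0 * (b.c0 * c.c2 + b.c1 * c.c1 + b.c2 * c.c0) + a.c1 * (b.c0 * c.c1 + b.c1 * c.c0) +
          a.c2 * (b.c0 * c.c0)
      ring)
  (by
    intro a b
    ext
    · show a.c0 * b.c0 = b.c0 * a.c0
      ring
    · show a.c0 * b.c1 + a.c1 * b.c0 = b.c0 * a.c1 + b.c1 * a.c0
      ring
    · show a.c0 * b.c2 + a.c1 * b.c1 + a.c2 * b.c0 = b.c0 * a.c2 + b.c1 * a.c1 + b.c2 * a.c0
      ring)
  (by
    intro a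
    ext
    · show 1 * a.c0 = a.c0
      ring
    · show 1 * a.c1 + 0 * a.c0 = a.c1
      ring
    · show 1 * a.c2 + 0 * a.c1 + 0 * a.c0 = a.c2
      ring)
  (by
    intro a b c
    ext
    · show a.c0 * (b.c0 + c.c0) = a.c0 * b.c0 + a.c0 * c.c0
      ring
    · show a.c0 * (b.c1 + c.c1) + a.c1 * (b.c0 + c.c0) =
        a.c0 * b.c1 + a.c1 * b.c0 + (a.c0 * c.c1 + a.c1 * c.c0)
      ring
    · show a.c0 * (b.c2 + c.c2) + a.c1 * (b.c1 + c.c1) + a.c2 * (b.c0 + c.c0) =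
        a.c0 * b.c2 + a.c1 * b.c1 + a.c2 * b.c0 + (a.c0 * c.c2 + a.c1 * c.c1 + a.c2 * c.c0)
      ring)

@[simp] lemma zero_c0 : (0 : T3 F).c0 = 0 := rfl
@[simp] lemma zero_c1 : (0 : T3 F).c1 = 0 := rfl
@[simp] lemma zero_c2 : (0 : T3 F).c2 = 0 := rfl
@[simp] lemma one_c0 : (1 : T3 F).c0 = 1 := rfl
@[simp] lemma one_c1 : (1 : T3 F).c1 = 0 := rfl
@[simp] lemma one_c2 : (1 : T3 F).c2 = 0 := rfl
@[simp] lemma add_c0 (x y : T3 F) : (x + y).c0 = x.c0 + y.c0 := rfl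
@[simp] lemma add_c1 (x y : T3 F) : (x + y).c1 = x.c1 + y.c1 := rfl
@[simp] lemma add_c2 (x y : T3 F) : (x + y).c2 = x.c2 + y.c2 := rfl
@[simp] lemma neg_c0 (x : T3 F) : (-x).c0 = -x.c0 := rfl
@[simp] lemma neg_c1 (x : T3 F) : (-x).c1 = -x.c1 := rfl
@[simp] lemma neg_c2 (x : T3 F) : (-x).c2 = -x.c2 := rfl
@[simp] lemma sub_c0 (x y : T3 F) : (x - y).c0 = x.c0 - y.c0 := by
  rw [sub_eq_add_neg, add_c0, neg_c0, ← sub_eq_add_neg]
@[simp] lemma sub_c1 (x y : T3 F) : (x - y).c1 = x.c1 - y.c1 := by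
  rw [sub_eq_add_neg, add_c1, neg_c1, ← sub_eq_add_neg]
@[simp] lemma sub_c2 (x y : T3 F) : (x - y).c2 = x.c2 - y.c2 := by
  rw [sub_eq_add_neg, add_c2, neg_c2, ← sub_eq_add_neg]
@[simp] lemma mul_c0 (x y : T3 F) : (x * y).c0 = x.c0 * y.c0 := rfl
@[simp] lemma mul_c1 (x y : T3 F) : (x * y).c1 = x.c0 * y.c1 + x.c1 * y.c0 := rfl
@[simp] lemma mul_c2 (x y : T3 F) :
    (x * y).c2 = x.c0 * y.c2 + x.c1 * y.c1 + x.c2 * y.c0 := rfl

/-- The inclusion of constants. -/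
def incl : F →+* T3 F where
  toFun c := ⟨c, 0, 0⟩
  map_one' := rfl
  map_zero' := rfl
  map_mul' a b := by ext <;> simp
  map_add' a b := by ext <;> simp

lemma incl_injective : Function.Injective (incl : F →+* T3 F) := by
  intro a b h
  exact congrArg T3.c0 h

/-- The constant-coefficient ring homomorphism. -/
def c0Hom : T3 F →+* F where
  toFun x := x.c0
  map_one' := rfl
  map_zero' := rfl
  map_mul' _ _ := rfl
  map_add' _ _ := rfl

@[simp] lemma c0Hom_apply (x : T3 F) : c0Hom x = x.c0 := rfl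

end T3

section field

variable {F : Type} [Field F]

/-- The truncated exponential `e = 1 + v + v²/2`. -/
def expv (F : Type) [Field F] : T3 F := ⟨1, 1, 2⁻¹⟩

lemma expv_pow (h2 : (2 : F) ≠ 0) (b : ℕ) :
    expv F ^ b = ⟨1, b, (b : F) ^ 2 * 2⁻¹⟩ := by
  induction b with
  | zero => ext <;> simp
  | succ b ih =>
    rw [pow_succ, ih]
    ext
    · simp [expv]
    · simp [expv, add_comm]
    · simp only [expv, T3.mul_c2, Nat.cast_add, Nat.cast_one]
      field_simp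
      ring

lemma expv_sub_one_pow_three : (expv F - 1) ^ 3 = 0 := by
  ext <;> simp [expv, pow_succ]

/-- The second log-derivative: the `v²`-coefficient of `2 log (x / x₀)`. -/
noncomputable def ell (x : T3 F) : F := 2 * x.c2 / x.c0 - (x.c1 / x.c0) ^ 2

lemma ell_mul {x y : T3 F} (hx : x.c0 ≠ 0) (hy : y.c0 ≠ 0) :
    ell (x * y) = ell x + ell y := by
  simp only [ell, T3.mul_c0, T3.mul_c1, T3.mul_c2]
  field_simp
  ring

lemma ell_one : ell (1 : T3 F) = 0 := by simp [ell]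

lemma ell_pow {x : T3 F} (hx : x.c0 ≠ 0) (n : ℕ) : ell (x ^ n) = n * ell x := by
  induction n with
  | zero => simp [ell_one]
  | succ n ih =>
    have hxn : (x ^ n).c0 ≠ 0 := by
      have : (x ^ n).c0 = x.c0 ^ n := map_pow T3.c0Hom x n
      rw [this]
      exact pow_ne_zero _ hx
    rw [pow_succ, ell_mul hxn hx, ih]
    push_cast
    ring

lemma prod_c0 {ι : Type} (s : Finset ι) (f : ι → T3 F) :
    (∏ i ∈ s, f i).c0 = ∏ i ∈ s, (f i).c0 :=
  map_prod T3.c0Hom f s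

lemma ell_prod {ι : Type} (s : Finset ι) (f : ι → T3 F) (hf : ∀ i ∈ s, (f i).c0 ≠ 0) :
    ell (∏ i ∈ s, f i) = ∑ i ∈ s, ell (f i) := by
  classical
  induction s using Finset.induction_on with
  | empty => simp [ell_one]
  | insert a s ha ih =>
    rw [Finset.prod_insert ha, Finset.sum_insert ha, ell_mul, ih]
    · exact fun i hi => hf i (Finset.mem_insert_of_mem hi)
    · exact hf a (Finset.mem_insert_self a s)
    · rw [prod_c0]
      exact Finset.prod_ne_zero_iff.mpr fun i hi => hf i (Finset.mem_insert_of_mem hi)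

lemma ell_expv (h2 : (2 : F) ≠ 0) : ell (expv F) = 0 := by
  simp only [ell, expv]
  field_simp
  ring

lemma ell_one_add_expv_pow (h2 : (2 : F) ≠ 0) (b : ℕ) :
    ell (1 + expv F ^ b) = (b : F) ^ 2 / 4 := by
  rw [expv_pow h2]
  simp only [ell, T3.add_c0, T3.add_c1, T3.add_c2, T3.one_c0, T3.one_c1, T3.one_c2]
  have h4 : (4 : F) ≠ 0 := by
    have : (4 : F) = 2 * 2 := by norm_num
    rw [this]
    exact mul_ne_zero h2 h2
  have h11 : (1 + 1 : F) ≠ 0 := by
    have : (1 + 1 : F) = 2 := by norm_num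
    rw [this]
    exact h2
  field_simp
  ring

end field


section numberField

variable (p : ℕ) [Fact p.Prime]
variable {K : Type} [Field K] [NumberField K] [IsCyclotomicExtension {p} ℚ K]
variable {ζ : K} (hζ : IsPrimitiveRoot ζ p)

instance instCharPT3 : CharP (T3 (ZMod p)) p :=
  charP_of_injective_ringHom (T3.incl_injective (F := ZMod p)) p

lemma two_ne_zero_zmod (h5 : 5 ≤ p) : (2 : ZMod p) ≠ 0 := by
  have h : ((2 : ℕ) : ZMod p) ≠ 0 := by
    rw [Ne, ZMod.natCast_eq_zero_iff]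
    intro hdvd
    have := Nat.le_of_dvd (by norm_num) hdvd
    omega
  exact_mod_cast h

lemma aeval_expv_cyclotomic (h5 : 5 ≤ p) :
    aeval (expv (ZMod p)) (cyclotomic p ℤ) = 0 := by
  have h1 : cyclotomic p (T3 (ZMod p)) = cyclotomic 1 (T3 (ZMod p)) ^ (p - 1) := by
    have := cyclotomic_mul_prime_eq_pow_of_not_dvd (T3 (ZMod p)) (p := p) (n := 1)
      (fun h => (Fact.out : p.Prime).one_lt.ne' (Nat.dvd_one.mp h))
    rwa [one_mul] at this
  rw [aeval_def, eval₂_eq_eval_map, map_cyclotomic, h1, cyclotomic_one, eval_pow, eval_sub,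
    eval_X, eval_one]
  have h3 : p - 1 = 3 + (p - 4) := by omega
  rw [h3, pow_add, expv_sub_one_pow_three, zero_mul]

lemma aeval_expv_minpoly (h5 : 5 ≤ p) :
    have : NeZero p := ⟨(Fact.out : p.Prime).ne_zero⟩
    aeval (expv (ZMod p)) (minpoly ℤ (hζ.integralPowerBasis).gen) = 0 := by
  intro _
  have h1 : minpoly ℤ hζ.toInteger = cyclotomic p ℤ := by
    rw [← NumberField.RingOfIntegers.minpoly_coe]
    exact (cyclotomic_eq_minpoly hζ (Fact.out : p.Prime).pos).symm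
  rw [hζ.integralPowerBasis_gen, h1]
  exact aeval_expv_cyclotomic p h5

/-- The ring homomorphism `Φ : 𝓞 K → F_p[v]/(v^3)` with `ζ ↦ 1 + v + v²/2`. -/
noncomputable def Phi (h5 : 5 ≤ p) : 𝓞 K →+* T3 (ZMod p) :=
  have : NeZero p := ⟨(Fact.out : p.Prime).ne_zero⟩
  ((hζ.integralPowerBasis).lift (expv (ZMod p)) (aeval_expv_minpoly p hζ h5)).toRingHom

lemma Phi_zeta (h5 : 5 ≤ p) :
    have : NeZero p := ⟨(Fact.out : p.Prime).ne_zero⟩
    Phi p hζ h5 hζ.toInteger = expv (ZMod p) := by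
  intro _
  have h := (hζ.integralPowerBasis).lift_gen (expv (ZMod p)) (aeval_expv_minpoly p hζ h5)
  rw [hζ.integralPowerBasis_gen] at h
  exact h

lemma Phi_c0_ne_zero (h5 : 5 ≤ p) {u : 𝓞 K} (hu : ¬ lam p hζ ∣ u) :
    (Phi p hζ h5 u).c0 ≠ 0 := by
  have : NeZero p := ⟨(Fact.out : p.Prime).ne_zero⟩
  intro h0
  apply hu
  set f : 𝓞 K →+* ZMod p := T3.c0Hom.comp (Phi p hζ h5) with hf
  have hprime : Prime (hζ.toInteger - 1) := hζ.zeta_sub_one_prime'
  have hne : (hζ.toInteger - 1 : 𝓞 K) ≠ 0 := hprime.ne_zero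
  have hP : (Ideal.span {hζ.toInteger - 1} : Ideal (𝓞 K)).IsPrime :=
    (Ideal.span_singleton_prime hne).mpr hprime
  have hmax : (Ideal.span {hζ.toInteger - 1} : Ideal (𝓞 K)).IsMaximal :=
    hP.isMaximal (by simpa [Ideal.span_singleton_eq_bot] using hne)
  have hle : Ideal.span {hζ.toInteger - 1} ≤ RingHom.ker f := by
    rw [Ideal.span_singleton_le_iff_mem, RingHom.mem_ker]
    have hz := Phi_zeta p hζ h5
    simp only [hf, RingHom.comp_apply, map_sub, map_one, T3.c0Hom_apply] at hz ⊢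
    rw [hz]
    simp [expv]
  have hne_top : RingHom.ker f ≠ ⊤ := RingHom.ker_ne_top f
  have heq := hmax.eq_of_le hne_top hle
  have hmem : u ∈ RingHom.ker f := h0
  rw [← heq, Ideal.mem_span_singleton] at hmem
  have hlam : lam p hζ = -(hζ.toInteger - 1) := by
    simp [lam]
  rw [hlam, neg_dvd]
  exact hmem

end numberField

end Fermat.Agent.S14.L2

namespace Fermat.Agent.S14

open Fermat.Agent.S14.L2 in
/-- **Slice U1**: the log-derivative invariant `ℓ₂` exists for `p ≥ 5`. -/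
theorem hasL2 (p : ℕ) [Fact p.Prime] (h5 : 5 ≤ p) {K : Type} [Field K] [NumberField K]
    [IsCyclotomicExtension {p} ℚ K] {ζ : K} (hζ : IsPrimitiveRoot ζ p) : HasL2 p hζ := by
  have : NeZero p := ⟨(Fact.out : p.Prime).ne_zero⟩
  have h2 := two_ne_zero_zmod p h5
  have h4 : (4 : ZMod p) ≠ 0 := by
    have : (4 : ZMod p) = 2 * 2 := by norm_num
    rw [this]
    exact mul_ne_zero h2 h2
  refine ⟨fun u => ell (Phi p hζ h5 u), ?_, ?_, ?_, ?_⟩
  · intro u w hu hw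
    simp only [map_mul]
    exact ell_mul (Phi_c0_ne_zero p hζ h5 hu) (Phi_c0_ne_zero p hζ h5 hw)
  · intro u w _ hdvd
    obtain ⟨x, hx⟩ := hdvd
    have h : Phi p hζ h5 u = Phi p hζ h5 w := by
      have h := congrArg (Phi p hζ h5) hx
      rw [map_sub, map_mul, map_natCast, CharP.cast_eq_zero, zero_mul, sub_eq_zero] at h
      exact h
    simp only [h]
  · show ell (Phi p hζ h5 hζ.toInteger) = 0
    rw [Phi_zeta p hζ h5]
    exact ell_expv h2
  · show ell (Phi p hζ h5 (eta p hζ)) ≠ 0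
    have hc0 : ∀ (b n : ℕ), ((1 + expv (ZMod p) ^ b) ^ n).c0 ≠ 0 := by
      intro b n
      have h1 : ((1 + expv (ZMod p) ^ b) ^ n).c0 = ((1 + expv (ZMod p) ^ b).c0) ^ n :=
        map_pow T3.c0Hom _ n
      rw [h1, expv_pow h2]
      apply pow_ne_zero
      show (1 + 1 : ZMod p) ≠ 0
      have : (1 + 1 : ZMod p) = 2 := by norm_num
      rw [this]
      exact h2
    have hc0' : ∀ (b : ℕ), (1 + expv (ZMod p) ^ b).c0 ≠ 0 := by
      intro b
      have := hc0 b 1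
      rwa [pow_one] at this
    have hz := Phi_zeta p hζ h5
    simp only [eta, map_prod, map_pow, map_add, map_one]
    rw [hz, ell_prod _ _ (fun a _ => hc0 _ _)]
    have hterm : ∀ a ∈ Finset.Ico 1 p,
        ell ((1 + expv (ZMod p) ^ ((a : ZMod p)⁻¹).val) ^ (a ^ 2 % p)) = 1 / 4 := by
      intro a ha
      rw [Finset.mem_Ico] at ha
      have ha0 : (a : ZMod p) ≠ 0 := by
        rw [Ne, ZMod.natCast_eq_zero_iff]
        exact Nat.not_dvd_of_pos_of_lt ha.1 ha.2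
      rw [ell_pow (hc0' _), ell_one_add_expv_pow h2, ZMod.natCast_mod, Nat.cast_pow,
        ZMod.natCast_zmod_val]
      field_simp
    rw [Finset.sum_congr rfl hterm, Finset.sum_const, Nat.card_Ico, nsmul_eq_mul,
      Nat.cast_sub (Fact.out : p.Prime).one_lt.le, CharP.cast_eq_zero, Nat.cast_one, zero_sub]
    simp [h4]

end Fermat.Agent.S14
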