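import Fermat.Agent.S14.Iface

set_option autoImplicit false

open scoped NumberField nonZeroDivisors

namespace Fermat.Agent.S14

section General

variable (K : Type) [Field K] [NumberField K]

/-- The nonzero prime ideals of `𝓞 K`. -/
abbrev PrimeIdeal : Type := {I : (Ideal (𝓞 K))⁰ // (I : Ideal (𝓞 K)).IsPrime}

/-- `N(I)^(-s)` for a nonzero ideal. -/
noncomputable def normPow (I : (Ideal (𝓞 K))⁰) (s : ℝ) : ℝ :=
  (Ideal.absNorm (I : Ideal (𝓞 K)) : ℝ) ^ (-s)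

/-- The `L`-series of a class group character, as a sum over the nonzero ideals. -/
noncomputable def idealL (ψ : ClassGroup (𝓞 K) →* ℂˣ) (s : ℝ) : ℂ :=
  ∑' I : (Ideal (𝓞 K))⁰, (ψ (ClassGroup.mk0 I) : ℂ) * (normPow K I s : ℂ)

/-- **Slice A0**: `∑ N(I)^(-s)` converges for `s > 1`. -/
def IdealSummable : Prop :=
  ∀ s : ℝ, 1 < s → Summable fun I : (Ideal (𝓞 K))⁰ => normPow K I s

/-- **Slice A3** (quantitative ideal count ⇒ bounded class `L`-series), any number field. -/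
def ClassLBounded : Prop :=
  ∀ ψ : ClassGroup (𝓞 K) →* ℂˣ, (∃ c, ψ c ≠ 1) →
    ∃ C : ℝ, ∀ s ∈ Set.Ioc (1 : ℝ) 2, ‖idealL K ψ s‖ ≤ C

/-- **Slice A4** (sieve Euler product ⇒ lower bound of `|L|` by the prime sum), any number
field. -/
def EulerLower : Prop :=
  ∃ C : ℝ, ∀ ψ : ClassGroup (𝓞 K) →* ℂˣ, ∀ s ∈ Set.Ioc (1 : ℝ) 2,
    Real.exp (∑' v : PrimeIdeal K, (ψ (ClassGroup.mk0 v.1) : ℂ).re * normPow K v.1 s - C) ≤
      ‖idealL K ψ s‖

end General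

variable (p : ℕ) [Fact p.Prime]
variable {K : Type} [Field K] [NumberField K] [IsCyclotomicExtension {p} ℚ K]
variable {ζ : K} (hζ : IsPrimitiveRoot ζ p)

/-- The rational primes `q ≡ 1 mod p` above which `χ` is non-trivial. -/
def XSet (χ : ClassGroup (𝓞 K) →* Multiplicative (ZMod p)) : Set ℕ :=
  {q | q.Prime ∧ q ≡ 1 [MOD p] ∧ ∃ Q : (Ideal (𝓞 K))⁰, (Q : Ideal (𝓞 K)).IsPrime ∧
    (q : 𝓞 K) ∈ (Q : Ideal (𝓞 K)) ∧ χ (ClassGroup.mk0 Q) ≠ 1}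

/-- The rational primes `q ≡ 1 mod p` such that `η` is a `p`-th power residue at every prime
above `q`. -/
def S2Set : Set ℕ :=
  {q | q.Prime ∧ q ≡ 1 [MOD p] ∧ ∀ Q : (Ideal (𝓞 K))⁰, (Q : Ideal (𝓞 K)).IsPrime →
    (q : 𝓞 K) ∈ (Q : Ideal (𝓞 K)) → ∃ w : 𝓞 K, eta p hζ - w ^ p ∈ (Q : Ideal (𝓞 K))}

/-- **Slice XS**: by Galois equivariance, Thaine's conclusion at one prime above `q` gives it at
all of them. -/
def XSubS2 : Prop :=
  ∀ χ : ClassGroup (𝓞 K) →* Multiplicative (ZMod p), IsOmegaTwoChar p hζ χ →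
    ThaineConcl p hζ χ → XSet p χ ⊆ S2Set p hζ

/-- **Slice A1** (upper density of `S2` via the Dedekind zeta function of `K(η^(1/p))`). -/
def S2Upper : Prop :=
  ∃ C : ℝ, ∀ s ∈ Set.Ioc (1 : ℝ) 2, ∀ F : Finset ℕ, (∀ q ∈ F, q ∈ S2Set p hζ) →
    ∑ q ∈ F, (q : ℝ) ^ (-s) ≤ Real.log (1 / (s - 1)) / (p * (p - 1)) + C

/-- **Slice A2** (Dirichlet, lower bound): `∑_{q ≡ 1 (p)} q^(-s) ≥ log(1/(s-1))/(p-1) - C`. -/
def DirichletLower : Prop :=
  ∃ C : ℝ, ∀ s ∈ Set.Ioc (1 : ℝ) 2,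
    Real.log (1 / (s - 1)) / (p - 1) - C ≤
      ∑' q : {q : ℕ // q.Prime ∧ q ≡ 1 [MOD p]}, ((q : ℕ) : ℝ) ^ (-s)

/-- **Slice A5** (lower density of `X`). -/
def XLower : Prop :=
  ∀ χ : ClassGroup (𝓞 K) →* Multiplicative (ZMod p), IsOmegaTwoChar p hζ χ → (∃ c, χ c ≠ 1) →
    ∃ C : ℝ, ∀ s ∈ Set.Ioc (1 : ℝ) 2, ∃ F : Finset ℕ, (∀ q ∈ F, q ∈ XSet p χ) ∧
      Real.log (1 / (s - 1)) / p - C ≤ ∑ q ∈ F, (q : ℝ) ^ (-s)

omit [IsCyclotomicExtension {p} ℚ K] in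
/-- **Glue A**: the analytic contradiction from the slices `A1`, `A5`, `XS` (`p ≥ 3`). -/
theorem analytic_of_slices (h3 : 3 ≤ p) (h1 : S2Upper p hζ) (h5 : XLower p hζ)
    (hxs : XSubS2 p hζ) : Analytic p hζ := by
  intro χ hχ hne hT
  obtain ⟨C1, hC1⟩ := h1
  obtain ⟨C5, hC5⟩ := h5 χ hχ hne
  have hsub := hxs χ hχ hT
  have hp : (3 : ℝ) ≤ p := by exact_mod_cast h3
  -- the gap between the two densities
  set δ : ℝ := 1 / p - 1 / (p * (p - 1)) with hδ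
  have hδpos : 0 < δ := by
    have h1 : (0 : ℝ) < p := by linarith
    have h2 : (0 : ℝ) < p - 1 := by linarith
    have : δ = (p - 2) / (p * (p - 1)) := by
      rw [hδ]; field_simp; ring
    rw [this]
    apply div_pos (by linarith) (mul_pos h1 h2)
  -- choose `s` with `log (1/(s-1)) = B` large
  set B : ℝ := max 0 ((C1 + C5) / δ + 1) with hB
  have hB0 : 0 ≤ B := le_max_left _ _
  have hBbig : (C1 + C5) / δ + 1 ≤ B := le_max_right _ _
  set s : ℝ := 1 + Real.exp (-B) with hs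
  have hs1 : 1 < s := by rw [hs]; linarith [Real.exp_pos (-B)]
  have hs2 : s ≤ 2 := by
    rw [hs]
    have : Real.exp (-B) ≤ 1 := Real.exp_le_one_iff.mpr (by linarith)
    linarith
  have hlog : Real.log (1 / (s - 1)) = B := by
    rw [hs]; simp [Real.log_exp]
  obtain ⟨F, hF, hlow⟩ := hC5 s ⟨hs1, hs2⟩
  have hup := hC1 s ⟨hs1, hs2⟩ F (fun q hq => hsub (hF q hq))
  rw [hlog] at hlow hup
  have hkey : B * δ ≤ C1 + C5 := by
    rw [hδ]
    have e : B * (1 / (p : ℝ) - 1 / (p * (p - 1))) = B / p - B / (p * (p - 1)) := by ring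
    rw [e]; linarith
  have : (C1 + C5) / δ + 1 ≤ (C1 + C5) / δ := by
    calc (C1 + C5) / δ + 1 ≤ B := hBbig
      _ = B * δ / δ := by field_simp
      _ ≤ (C1 + C5) / δ := div_le_div_of_nonneg_right hkey hδpos.le
  linarith

end Fermat.Agent.S14
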