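import Mathlib
import Fermat.Agent.S14.AIface

/-!
# S14, slice A1 (analytic half): the prime sum of a number field

For every number field `L` there is a constant `C` with
`∑ v ∈ T, N(v)^(-s) ≤ log (1/(s-1)) + C` for all `s ∈ (1,2]` and all finite sets `T` of nonzero
prime ideals of `𝓞 L` (`primeSum_le`).  Route: the number of nonzero ideals of norm `≤ n` is
`O(n)` (Mathlib ideal asymptotics), Abel summation gives `∑ N(I)^(-s) ≤ B (1 + 1/(s-1))` over any
finite set of ideals, and the squarefree products of the primes of `T` are distinct ideals.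
-/

set_option autoImplicit false

open Finset Filter
open scoped NumberField nonZeroDivisors Topology

namespace Fermat.Agent.S14.S2U

open Fermat.Agent.S14

section Real

/-- Abel summation inequality (layer cake). -/
theorem sum_le_of_count_le {ι : Type*} (T : Finset ι) (ν : ι → ℕ) (B : ℝ) (g : ℕ → ℝ)
    (hν : ∀ i ∈ T, 1 ≤ ν i)
    (hB : ∀ n : ℕ, ((T.filter (fun i => ν i ≤ n)).card : ℝ) ≤ B * n)
    (hg : ∀ n, 1 ≤ n → g (n + 1) ≤ g n) (M : ℕ) :
    ∑ i ∈ T.filter (fun i => ν i ≤ M), g (ν i)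
        + (B * M - (T.filter (fun i => ν i ≤ M)).card) * g M
      ≤ B * ∑ n ∈ Icc 1 M, g n := by
  classical
  induction M with
  | zero =>
    have h0 : T.filter (fun i => ν i ≤ 0) = ∅ := by
      apply Finset.filter_eq_empty_iff.mpr
      intro i hi h
      have := hν i hi
      omega
    rw [h0]
    simp
  | succ M ih =>
    have hsplit : T.filter (fun i => ν i ≤ M + 1)
        = T.filter (fun i => ν i ≤ M) ∪ T.filter (fun i => ν i = M + 1) := by
      ext i
      simp only [mem_filter, mem_union]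
      constructor
      · rintro ⟨hi, h⟩
        rcases Nat.lt_or_ge (ν i) (M + 1) with h' | h'
        · exact Or.inl ⟨hi, by omega⟩
        · exact Or.inr ⟨hi, by omega⟩
      · rintro (⟨hi, h⟩ | ⟨hi, h⟩)
        · exact ⟨hi, by omega⟩
        · exact ⟨hi, by omega⟩
    have hdisj : Disjoint (T.filter (fun i => ν i ≤ M)) (T.filter (fun i => ν i = M + 1)) := by
      rw [Finset.disjoint_left]
      intro i h1 h2
      simp only [mem_filter] at h1 h2
      omega
    have hsum : ∑ i ∈ T.filter (fun i => ν i = M + 1), g (ν i)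
        = ((T.filter (fun i => ν i = M + 1)).card : ℝ) * g (M + 1) := by
      rw [Finset.sum_congr rfl (fun i hi => by rw [(mem_filter.mp hi).2])]
      simp
    rw [hsplit, Finset.sum_union hdisj, Finset.card_union_of_disjoint hdisj, hsum]
    have hIcc : ∑ n ∈ Icc 1 (M + 1), g n = ∑ n ∈ Icc 1 M, g n + g (M + 1) := by
      rw [Finset.sum_Icc_succ_top (by omega)]
    rw [hIcc]
    push_cast
    have hcoef : 0 ≤ B * M - (T.filter (fun i => ν i ≤ M)).card := by
      have := hB M; linarith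
    have hmono : (B * M - (T.filter (fun i => ν i ≤ M)).card) * g (M + 1)
        ≤ (B * M - (T.filter (fun i => ν i ≤ M)).card) * g M := by
      rcases Nat.eq_zero_or_pos M with h0 | hpos
      · subst h0
        have h0 : T.filter (fun i => ν i ≤ 0) = ∅ := by
          apply Finset.filter_eq_empty_iff.mpr
          intro i hi h
          have := hν i hi
          omega
        rw [h0]
        simp
      · exact mul_le_mul_of_nonneg_left (hg M hpos) hcoef
    nlinarith [ih, hmono]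

theorem zeta_partial_le {s : ℝ} (hs : 1 < s) (M : ℕ) :
    ∑ n ∈ Icc 1 M, ((n : ℕ) : ℝ) ^ (-s) ≤ 1 + 1 / (s - 1) := by
  rcases Nat.eq_zero_or_pos M with h0 | hM
  · subst h0
    simp
    have : 0 < 1 / (s - 1) := by apply div_pos one_pos; linarith
    have : (0:ℝ) ≤ (s-1)⁻¹ := by rw [← one_div]; exact this.le
    linarith
  · have h1 : Icc 1 M = insert 1 (Icc 2 M) := by
      ext n; simp only [mem_Icc, mem_insert]; omega
    have hnot : (1 : ℕ) ∉ Icc 2 M := by simp
    rw [h1, Finset.sum_insert hnot]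
    have h2 : ∑ n ∈ Icc 2 M, ((n : ℕ) : ℝ) ^ (-s) = ∑ i ∈ Ico 1 M, ((i + 1 : ℕ) : ℝ) ^ (-s) := by
      rw [← Finset.sum_image (s := Ico 1 M) (g := fun i => i + 1) (f := fun n : ℕ => (n : ℝ) ^ (-s))]
      · congr 1
        ext n
        simp only [mem_Icc, mem_image, mem_Ico]
        constructor
        · rintro ⟨h, h'⟩
          exact ⟨n - 1, by omega, by omega⟩
        · rintro ⟨a, ha, rfl⟩
          omega
      · intro a _ b _ h
        exact Nat.succ_injective h
    rw [h2]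
    have hanti : AntitoneOn (fun x : ℝ => x ^ (-s)) (Set.Icc ((1 : ℕ) : ℝ) (M : ℝ)) := by
      intro x hx y hy hxy
      simp only [Set.mem_Icc, Nat.cast_one] at hx hy
      exact Real.rpow_le_rpow_of_nonpos (by linarith) hxy (by linarith)
    have hint := AntitoneOn.sum_le_integral_Ico (a := 1) (b := M) hM hanti
    have hval : ∫ x in ((1 : ℕ) : ℝ)..(M : ℝ), x ^ (-s) = ((M : ℝ) ^ (-s + 1) - 1) / (-s + 1) := by
      rw [integral_rpow]
      · simp
      · right
        refine ⟨by linarith, ?_⟩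
        rw [Set.uIcc_of_le (by exact_mod_cast hM)]
        simp
    rw [hval] at hint
    have hMpos : (0 : ℝ) ≤ (M : ℝ) ^ (-s + 1) := Real.rpow_nonneg (by positivity) _
    have hbound : ((M : ℝ) ^ (-s + 1) - 1) / (-s + 1) ≤ 1 / (s - 1) := by
      have hs1 : 0 < s - 1 := by linarith
      have : ((M : ℝ) ^ (-s + 1) - 1) / (-s + 1) = (1 - (M : ℝ) ^ (-s + 1)) / (s - 1) := by
        rw [show (-s + 1) = -(s - 1) by ring, div_neg, ← neg_div]; ring
      rw [this]
      apply div_le_div_of_nonneg_right _ hs1.le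
      linarith
    simp only [Nat.cast_one, Real.one_rpow]
    linarith

end Real

section Field

variable (L : Type) [Field L] [NumberField L]

/-- The number of nonzero ideals of norm `≤ n` is `O(n)`. -/
theorem count_le : ∃ B : ℝ, 0 < B ∧ ∀ n : ℕ,
    (Nat.card {I : (Ideal (𝓞 L))⁰ // Ideal.absNorm (I : Ideal (𝓞 L)) ≤ n} : ℝ) ≤ B * n := by
  have hlim := NumberField.Ideal.tendsto_norm_le_div_atTop₀ L
  set κ : ℝ := (2 ^ NumberField.InfinitePlace.nrRealPlaces L *
    (2 * Real.pi) ^ NumberField.InfinitePlace.nrComplexPlaces L * NumberField.Units.regulator L *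
      NumberField.classNumber L) /
        (NumberField.Units.torsionOrder L * Real.sqrt |NumberField.discr L|) with hκ
  have hev : ∀ᶠ s : ℝ in atTop,
      (Nat.card {I : (Ideal (𝓞 L))⁰ // Ideal.absNorm (I : Ideal (𝓞 L)) ≤ s} : ℝ) / s < κ + 1 :=
    hlim.eventually (gt_mem_nhds (by linarith))
  obtain ⟨s₀, hs₀⟩ := (eventually_atTop.mp hev)
  set N₀ : ℕ := max 1 ⌈s₀⌉₊ with hN₀
  have hN₀1 : 1 ≤ N₀ := le_max_left _ _
  have hN₀s : s₀ ≤ (N₀ : ℝ) := (Nat.le_ceil s₀).trans (by exact_mod_cast le_max_right 1 ⌈s₀⌉₊)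
  -- the count function on naturals
  have hcount : ∀ n : ℕ, N₀ ≤ n →
      (Nat.card {I : (Ideal (𝓞 L))⁰ // Ideal.absNorm (I : Ideal (𝓞 L)) ≤ n} : ℝ) ≤ (κ + 1) * n := by
    intro n hn
    have hn' : s₀ ≤ (n : ℝ) := hN₀s.trans (by exact_mod_cast hn)
    have h := hs₀ (n : ℝ) hn'
    have hnpos : (0 : ℝ) < n := by
      have : (1 : ℝ) ≤ n := by exact_mod_cast hN₀1.trans hn
      linarith
    rw [div_lt_iff₀ hnpos] at h
    have e : (Nat.card {I : (Ideal (𝓞 L))⁰ // (Ideal.absNorm (I : Ideal (𝓞 L)) : ℝ) ≤ (n : ℝ)} : ℝ)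
        = (Nat.card {I : (Ideal (𝓞 L))⁰ // Ideal.absNorm (I : Ideal (𝓞 L)) ≤ n} : ℝ) := by
      congr 1
      exact Nat.card_congr (Equiv.subtypeEquivRight (fun I => by simp))
    rw [e] at h
    exact h.le
  have hκ1 : 0 < κ + 1 := by
    have h := hcount N₀ le_rfl
    have h0 : (0 : ℝ) ≤ (Nat.card {I : (Ideal (𝓞 L))⁰ // Ideal.absNorm (I : Ideal (𝓞 L)) ≤ N₀} : ℝ) :=
      Nat.cast_nonneg _
    by_contra hneg
    rw [not_lt] at hneg
    have hN : (0 : ℝ) < N₀ := by exact_mod_cast hN₀1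
    -- the ideal ⊤ has norm 1 ≤ N₀
    have hpos : 0 < Nat.card {I : (Ideal (𝓞 L))⁰ // Ideal.absNorm (I : Ideal (𝓞 L)) ≤ N₀} := by
      have : Finite {I : (Ideal (𝓞 L))⁰ // Ideal.absNorm (I : Ideal (𝓞 L)) ≤ N₀} :=
        (Ideal.finite_setOfPred_absNorm_le₀ (S := 𝓞 L) N₀).to_subtype
      apply Nat.card_pos_iff.mpr
      refine ⟨⟨⟨1, ?_⟩⟩, inferInstance⟩
      simpa using hN₀1
    have hpos' : (0 : ℝ) < (Nat.card {I : (Ideal (𝓞 L))⁰ // Ideal.absNorm (I : Ideal (𝓞 L)) ≤ N₀} : ℝ) := by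
      exact_mod_cast hpos
    nlinarith
  refine ⟨(κ + 1) * N₀, by positivity, ?_⟩
  intro n
  rcases Nat.lt_or_ge n N₀ with h | h
  · -- monotone in n
    have : Finite {I : (Ideal (𝓞 L))⁰ // Ideal.absNorm (I : Ideal (𝓞 L)) ≤ N₀} :=
      (Ideal.finite_setOfPred_absNorm_le₀ (S := 𝓞 L) N₀).to_subtype
    rcases Nat.eq_zero_or_pos n with h0 | hpos
    · subst h0
      have : IsEmpty {I : (Ideal (𝓞 L))⁰ // Ideal.absNorm (I : Ideal (𝓞 L)) ≤ 0} := by
        constructor
        rintro ⟨I, hI⟩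
        have := Ideal.absNorm_pos_of_nonZeroDivisors I
        omega
      rw [Nat.card_of_isEmpty]
      simp
    · have hmono : Nat.card {I : (Ideal (𝓞 L))⁰ // Ideal.absNorm (I : Ideal (𝓞 L)) ≤ n}
          ≤ Nat.card {I : (Ideal (𝓞 L))⁰ // Ideal.absNorm (I : Ideal (𝓞 L)) ≤ N₀} := by
        apply Nat.card_le_card_of_injective
          (fun x => (⟨x.1, x.2.trans h.le⟩ : {I : (Ideal (𝓞 L))⁰ // Ideal.absNorm (I : Ideal (𝓞 L)) ≤ N₀}))
        intro x y hxy
        exact Subtype.ext (by simpa using congrArg Subtype.val hxy)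
      have h1 := hcount N₀ le_rfl
      have h2 : (Nat.card {I : (Ideal (𝓞 L))⁰ // Ideal.absNorm (I : Ideal (𝓞 L)) ≤ n} : ℝ)
          ≤ (Nat.card {I : (Ideal (𝓞 L))⁰ // Ideal.absNorm (I : Ideal (𝓞 L)) ≤ N₀} : ℝ) := by
        exact_mod_cast hmono
      have hn1 : (1 : ℝ) ≤ n := by exact_mod_cast hpos
      have hN : (0 : ℝ) ≤ (κ + 1) * N₀ := by positivity
      nlinarith
  · have h1 := hcount n h
    have hN : (1 : ℝ) ≤ N₀ := by exact_mod_cast hN₀1
    have hn0 : (0 : ℝ) ≤ n := Nat.cast_nonneg _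
    nlinarith [mul_nonneg hκ1.le hn0]

/-- Uniform bound for the finite partial sums of the Dedekind series. -/
theorem idealSum_le : ∃ B : ℝ, 0 < B ∧ ∀ s : ℝ, 1 < s → ∀ T : Finset (Ideal (𝓞 L))⁰,
    ∑ I ∈ T, normPow L I s ≤ B * (1 + 1 / (s - 1)) := by
  classical
  obtain ⟨B, hB0, hB⟩ := count_le L
  refine ⟨B, hB0, fun s hs T => ?_⟩
  set ν : (Ideal (𝓞 L))⁰ → ℕ := fun I => Ideal.absNorm (I : Ideal (𝓞 L)) with hν
  set g : ℕ → ℝ := fun n => (n : ℝ) ^ (-s) with hg
  set M : ℕ := T.sup ν with hM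
  have hνpos : ∀ I ∈ T, 1 ≤ ν I := fun I _ => Ideal.absNorm_pos_of_nonZeroDivisors I
  have hcount : ∀ n : ℕ, ((T.filter (fun I => ν I ≤ n)).card : ℝ) ≤ B * n := by
    intro n
    refine le_trans ?_ (hB n)
    have hfin : Set.Finite {I : (Ideal (𝓞 L))⁰ | Ideal.absNorm (I : Ideal (𝓞 L)) ≤ n} :=
      Ideal.finite_setOfPred_absNorm_le₀ (S := 𝓞 L) n
    have hsub : T.filter (fun I => ν I ≤ n) ⊆ hfin.toFinset := by
      intro I hI
      rw [Set.Finite.mem_toFinset]
      exact (mem_filter.mp hI).2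
    have hcard : Nat.card {I : (Ideal (𝓞 L))⁰ // Ideal.absNorm (I : Ideal (𝓞 L)) ≤ n}
        = hfin.toFinset.card := by
      have h1 := Set.ncard_eq_toFinset_card _ hfin
      rw [← h1]
      rfl
    have : (T.filter (fun I => ν I ≤ n)).card
        ≤ Nat.card {I : (Ideal (𝓞 L))⁰ // Ideal.absNorm (I : Ideal (𝓞 L)) ≤ n} := by
      rw [hcard]
      exact Finset.card_le_card hsub
    exact_mod_cast this
  have hganti : ∀ n, 1 ≤ n → g (n + 1) ≤ g n := by
    intro n hn
    apply Real.rpow_le_rpow_of_nonpos (by exact_mod_cast hn) (by push_cast; linarith) (by linarith)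
  have hmain := sum_le_of_count_le T ν B g hνpos hcount hganti M
  have hfilter : T.filter (fun I => ν I ≤ M) = T := by
    apply Finset.filter_true_of_mem
    intro I hI
    exact Finset.le_sup (f := ν) hI
  rw [hfilter] at hmain
  have hcoef : 0 ≤ (B * M - T.card) * g M := by
    apply mul_nonneg
    · have := hcount M
      rw [hfilter] at this
      linarith
    · exact Real.rpow_nonneg (Nat.cast_nonneg _) _
  have hz := zeta_partial_le hs M
  calc ∑ I ∈ T, normPow L I s = ∑ I ∈ T, g (ν I) := rfl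
    _ ≤ B * ∑ n ∈ Icc 1 M, g n := by linarith
    _ ≤ B * (1 + 1 / (s - 1)) := mul_le_mul_of_nonneg_left hz hB0.le

/-- The product of a finite set of primes, as a nonzero ideal. -/
noncomputable def prodIdeal (U : Finset (PrimeIdeal L)) : (Ideal (𝓞 L))⁰ := ∏ v ∈ U, v.1

omit [NumberField L] in
theorem coe_prodIdeal (U : Finset (PrimeIdeal L)) :
    ((prodIdeal L U : (Ideal (𝓞 L))⁰) : Ideal (𝓞 L)) = ∏ v ∈ U, ((v.1 : (Ideal (𝓞 L))⁰) : Ideal (𝓞 L)) := by
  rw [prodIdeal]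
  exact map_prod (Submonoid.subtype (Ideal (𝓞 L))⁰) (fun v : PrimeIdeal L => v.1) U

theorem prodIdeal_injective : Function.Injective (prodIdeal L) := by
  classical
  have key : ∀ U U' : Finset (PrimeIdeal L), prodIdeal L U = prodIdeal L U' → U ⊆ U' := by
    intro U U' h v₀ hv₀
    have h' : (∏ v ∈ U, ((v.1 : (Ideal (𝓞 L))⁰) : Ideal (𝓞 L)))
        = ∏ v ∈ U', ((v.1 : (Ideal (𝓞 L))⁰) : Ideal (𝓞 L)) := by
      rw [← coe_prodIdeal, ← coe_prodIdeal, h]
    have hprime : ((v₀.1 : (Ideal (𝓞 L))⁰) : Ideal (𝓞 L)).IsPrime := v₀.2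
    have h1 : (∏ v ∈ U, ((v.1 : (Ideal (𝓞 L))⁰) : Ideal (𝓞 L))) ≤ ((v₀.1 : (Ideal (𝓞 L))⁰) : Ideal (𝓞 L)) :=
      (Ideal.IsPrime.prod_le hprime).mpr ⟨v₀, hv₀, le_rfl⟩
    rw [h'] at h1
    obtain ⟨v', hv', hle⟩ := (Ideal.IsPrime.prod_le hprime).mp h1
    have hne : ((v'.1 : (Ideal (𝓞 L))⁰) : Ideal (𝓞 L)) ≠ ⊥ := by
      have := mem_nonZeroDivisors_iff_ne_zero.mp v'.1.2
      simpa using this
    have hmax : ((v'.1 : (Ideal (𝓞 L))⁰) : Ideal (𝓞 L)).IsMaximal := Ideal.IsPrime.isMaximal v'.2 hne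
    have heq : ((v'.1 : (Ideal (𝓞 L))⁰) : Ideal (𝓞 L)) = ((v₀.1 : (Ideal (𝓞 L))⁰) : Ideal (𝓞 L)) :=
      hmax.eq_of_le hprime.ne_top hle
    have : v' = v₀ := Subtype.ext (Subtype.ext heq)
    rw [← this]
    exact hv'
  intro U U' h
  exact Finset.Subset.antisymm (key U U' h) (key U' U h.symm)

theorem normPow_pos (I : (Ideal (𝓞 L))⁰) (s : ℝ) : 0 < normPow L I s := by
  unfold normPow
  apply Real.rpow_pos_of_pos
  exact_mod_cast Ideal.absNorm_pos_of_nonZeroDivisors I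

theorem normPow_le_one (I : (Ideal (𝓞 L))⁰) {s : ℝ} (hs : 0 ≤ s) : normPow L I s ≤ 1 := by
  unfold normPow
  apply Real.rpow_le_one_of_one_le_of_nonpos
  · exact_mod_cast Ideal.absNorm_pos_of_nonZeroDivisors I
  · linarith

theorem normPow_prodIdeal (U : Finset (PrimeIdeal L)) (s : ℝ) :
    normPow L (prodIdeal L U) s = ∏ v ∈ U, normPow L v.1 s := by
  unfold normPow
  rw [coe_prodIdeal, map_prod, Nat.cast_prod, Real.finsetProd_rpow]
  intro v _
  exact Nat.cast_nonneg _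

theorem normPow_sq_le (I : (Ideal (𝓞 L))⁰) {s : ℝ} (hs : 1 ≤ s) :
    normPow L I s ^ 2 ≤ normPow L I 2 := by
  unfold normPow
  have ha : (1 : ℝ) ≤ (Ideal.absNorm (I : Ideal (𝓞 L)) : ℝ) := by
    exact_mod_cast Ideal.absNorm_pos_of_nonZeroDivisors I
  have h0 : (0 : ℝ) ≤ (Ideal.absNorm (I : Ideal (𝓞 L)) : ℝ) := by linarith
  rw [← Real.rpow_natCast, ← Real.rpow_mul h0]
  apply Real.rpow_le_rpow_of_exponent_le ha
  push_cast
  linarith

theorem log_one_add_ge {x : ℝ} (hx : 0 ≤ x) : x - x ^ 2 ≤ Real.log (1 + x) := by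
  have h1 : (0 : ℝ) < 1 + x := by linarith
  have h2 := Real.one_sub_inv_le_log_of_pos h1
  have h3 : x - x ^ 2 ≤ 1 - (1 + x)⁻¹ := by
    have : 1 - (1 + x)⁻¹ = x / (1 + x) := by field_simp; ring
    rw [this, le_div_iff₀ h1]
    nlinarith [pow_nonneg hx 3]
  linarith

/-- **AN1**: the prime sum of a number field is at most `log (1/(s-1)) + C` on `(1,2]`. -/
theorem primeSum_le : ∃ C : ℝ, ∀ s ∈ Set.Ioc (1 : ℝ) 2, ∀ T : Finset (PrimeIdeal L),
    ∑ v ∈ T, normPow L v.1 s ≤ Real.log (1 / (s - 1)) + C := by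
  classical
  obtain ⟨B, hB0, hB⟩ := idealSum_le L
  refine ⟨Real.log (2 * B) + 2 * B, ?_⟩
  rintro s ⟨hs1, hs2⟩ T
  have hs0 : 0 < s - 1 := by linarith
  -- step 1: the product
  have hprod : ∏ v ∈ T, (1 + normPow L v.1 s) ≤ B * (1 + 1 / (s - 1)) := by
    rw [Finset.prod_one_add]
    have e : ∑ U ∈ T.powerset, ∏ v ∈ U, normPow L v.1 s
        = ∑ I ∈ T.powerset.image (prodIdeal L), normPow L I s := by
      rw [Finset.sum_image (fun U _ U' _ h => prodIdeal_injective L h)]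
      exact Finset.sum_congr rfl (fun U _ => (normPow_prodIdeal L U s).symm)
    rw [e]
    exact hB s hs1 _
  have hprodpos : 0 < ∏ v ∈ T, (1 + normPow L v.1 s) :=
    Finset.prod_pos (fun v _ => by have := normPow_pos L v.1 s; linarith)
  have hbound : B * (1 + 1 / (s - 1)) ≤ 2 * B * (1 / (s - 1)) := by
    have h1 : 1 ≤ 1 / (s - 1) := by
      rw [le_div_iff₀ hs0]; linarith
    nlinarith
  have hlog : Real.log (∏ v ∈ T, (1 + normPow L v.1 s))
      ≤ Real.log (2 * B) + Real.log (1 / (s - 1)) := by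
    rw [← Real.log_mul (by positivity) (by positivity)]
    exact Real.log_le_log hprodpos (hprod.trans hbound)
  have hlogsum : Real.log (∏ v ∈ T, (1 + normPow L v.1 s))
      = ∑ v ∈ T, Real.log (1 + normPow L v.1 s) := by
    rw [Real.log_prod]
    intro v _
    have := normPow_pos L v.1 s
    linarith
  -- step 2: squares
  have hsq : ∑ v ∈ T, normPow L v.1 s ^ 2 ≤ 2 * B := by
    have h1 : ∑ v ∈ T, normPow L v.1 s ^ 2 ≤ ∑ v ∈ T, normPow L v.1 2 :=
      Finset.sum_le_sum (fun v _ => normPow_sq_le L v.1 hs1.le)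
    have h2 : ∑ v ∈ T, normPow L v.1 2 = ∑ I ∈ T.image (fun v : PrimeIdeal L => v.1), normPow L I 2 := by
      rw [Finset.sum_image (fun v _ v' _ h => Subtype.ext h)]
    have h3 := hB 2 (by norm_num) (T.image (fun v : PrimeIdeal L => v.1))
    have h4 : B * (1 + 1 / ((2 : ℝ) - 1)) = 2 * B := by norm_num; ring
    linarith
  -- step 3: conclusion
  have hterm : ∀ v ∈ T, normPow L v.1 s ≤ Real.log (1 + normPow L v.1 s) + normPow L v.1 s ^ 2 := by
    intro v _
    have := log_one_add_ge (normPow_pos L v.1 s).le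
    linarith
  calc ∑ v ∈ T, normPow L v.1 s
      ≤ ∑ v ∈ T, (Real.log (1 + normPow L v.1 s) + normPow L v.1 s ^ 2) := Finset.sum_le_sum hterm
    _ = ∑ v ∈ T, Real.log (1 + normPow L v.1 s) + ∑ v ∈ T, normPow L v.1 s ^ 2 :=
        Finset.sum_add_distrib
    _ ≤ Real.log (1 / (s - 1)) + (Real.log (2 * B) + 2 * B) := by
        rw [← hlogsum]; linarith

end Field

end Fermat.Agent.S14.S2U
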