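import Fermat.Agent.S14.AIface

/-!
# Slice A1, algebraic half: the Kummer field `K(η^(1/p))` and the primes above `q ∈ S2Set`

For `L = K(η^(1/p))` (a number field of degree `p (p - 1)`), every rational prime `q ∈ S2Set`
has `p (p - 1)` distinct primes of `𝓞 L` above it, all of absolute norm `q`.

The proof avoids conductors and Kummer–Dedekind: the order `B = 𝓞 K [Y] / (Y ^ p - η)` embeds in
`𝓞 L`; for `q ∈ S2Set` there are `p (p - 1)` distinct ring homomorphisms `B → 𝔽_q`, their kernels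
lift to distinct primes of `𝓞 L` (lying over), and `∑ e f = [L : ℚ] = p (p - 1)` forces
`e = f = 1` for each of them.
-/

set_option autoImplicit false

open scoped NumberField nonZeroDivisors
open Polynomial

namespace Fermat.Agent.S14.S2F

/-- If a rational prime `q` has `[L : ℚ]` distinct primes above it, they all have norm `q`. -/
theorem absNorm_eq_of_many (L : Type) [Field L] [NumberField L] (q : ℕ) (hq : q.Prime) (n : ℕ)
    (hn : Module.finrank ℚ L = n) (f : Fin n → Ideal (𝓞 L)) (hf : Function.Injective f)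
    (hprime : ∀ i, (f i).IsPrime) (hqf : ∀ i, (q : 𝓞 L) ∈ f i) (i : Fin n) :
    Ideal.absNorm (f i) = q := by
  have : Fact q.Prime := ⟨hq⟩
  set P0 : Ideal ℤ := Ideal.span {(q : ℤ)} with hP0
  have hP0max : P0.IsMaximal := Int.ideal_span_isMaximal_of_prime q
  have hlies : ∀ i, (f i).LiesOver P0 := by
    intro i
    constructor
    have hle : P0 ≤ (f i).under ℤ := by
      rw [hP0, Ideal.span_le]
      intro x hx
      rw [Set.mem_singleton_iff] at hx
      subst hx
      simpa [Ideal.under, Ideal.mem_comap] using hqf i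
    have hne : (f i).under ℤ ≠ ⊤ := by
      have := hprime i
      exact Ideal.comap_ne_top _ (hprime i).ne_top
    exact hP0max.eq_of_le hne hle
  have hfin : Fintype (P0.primesOver (𝓞 L)) :=
    (Algebra.QuasiFinite.finite_primesOver P0).fintype
  have hsum := Ideal.sum_ramification_inertia_eq_finrank P0 (𝓞 L)
  rw [NumberField.RingOfIntegers.rank, hn] at hsum
  let g : Fin n → P0.primesOver (𝓞 L) := fun i => ⟨f i, hprime i, hlies i⟩
  have hg : Function.Injective g := by
    intro a b hab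
    apply hf
    exact congrArg Subtype.val hab
  have hpos : ∀ x : P0.primesOver (𝓞 L), 1 ≤ x.1.ramificationIdx ℤ * x.1.inertiaDeg ℤ := by
    intro x
    have := x.2.1
    exact Nat.mul_pos (Ideal.ramificationIdx_pos _ _) (Ideal.inertiaDeg_pos _ _)
  have hone : (g i).1.ramificationIdx ℤ * (g i).1.inertiaDeg ℤ = 1 := by
    by_contra hne
    have hlt : 1 < (g i).1.ramificationIdx ℤ * (g i).1.inertiaDeg ℤ :=
      lt_of_le_of_ne (hpos _) (Ne.symm hne)
    have h1 : ∑ _j : Fin n, 1 < ∑ j : Fin n, (g j).1.ramificationIdx ℤ * (g j).1.inertiaDeg ℤ :=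
      Finset.sum_lt_sum (fun j _ => hpos _) ⟨i, Finset.mem_univ _, hlt⟩
    have h2 : ∑ j : Fin n, (g j).1.ramificationIdx ℤ * (g j).1.inertiaDeg ℤ ≤
        ∑ x : P0.primesOver (𝓞 L), x.1.ramificationIdx ℤ * x.1.inertiaDeg ℤ := by
      rw [← Finset.sum_image (f := fun x : P0.primesOver (𝓞 L) =>
        x.1.ramificationIdx ℤ * x.1.inertiaDeg ℤ) (s := Finset.univ) (g := g)
        (fun a _ b _ h => hg h)]
      exact Finset.sum_le_sum_of_subset (Finset.subset_univ _)
    simp at h1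
    omega
  have hf1 : (f i).inertiaDeg ℤ = 1 := Nat.eq_one_of_mul_eq_one_left hone
  have := hprime i
  have := hlies i
  rw [← Ideal.pow_inertiaDeg q (f i), hf1, pow_one]

/-- Two ring homomorphisms to `ZMod q` with the same kernel are equal. -/
theorem ringHom_eq_of_ker_eq {R : Type} [CommRing R] {q : ℕ} [NeZero q] (Φ Ψ : R →+* ZMod q)
    (h : RingHom.ker Φ = RingHom.ker Ψ) : Φ = Ψ := by
  ext b
  have h1 : b - ((Φ b).val : R) ∈ RingHom.ker Φ := by
    rw [RingHom.mem_ker, map_sub, map_natCast, ZMod.natCast_zmod_val, sub_self]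
  rw [h, RingHom.mem_ker, map_sub, map_natCast, ZMod.natCast_zmod_val, sub_eq_zero] at h1
  exact h1.symm

variable (p : ℕ) [Fact p.Prime]
variable {K : Type} [Field K] [NumberField K] [IsCyclotomicExtension {p} ℚ K]
variable {ζ : K} (hζ : IsPrimitiveRoot ζ p)

/-- `η` is not a `p`-th power in `K`. -/
theorem eta_ne_pow (hL : HasL2 p hζ) (hu : IsUnit (eta p hζ)) (b : K) :
    b ^ p ≠ ((eta p hζ : 𝓞 K) : K) := by
  intro hb
  have hp := (Fact.out : p.Prime)
  have : NeZero p := ⟨hp.ne_zero⟩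
  obtain ⟨l2, h1, h2, h3, h4⟩ := hL
  have hbint : IsIntegral ℤ b := by
    apply IsIntegral.of_pow hp.pos
    rw [hb]
    exact NumberField.RingOfIntegers.isIntegral_coe _
  set w : 𝓞 K := ⟨b, hbint⟩ with hw
  have hwp : w ^ p = eta p hζ := by
    apply NumberField.RingOfIntegers.ext
    push_cast
    exact hb
  have hwu : IsUnit w := by
    have : IsUnit (w ^ p) := hwp ▸ hu
    exact (isUnit_pow_iff hp.ne_zero).mp this
  have hlam : Prime (lam p hζ) := by
    have h := hζ.zeta_sub_one_prime'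
    have h' : lam p hζ = -(hζ.toInteger - 1) := by simp [lam]
    rw [h']
    exact h.neg
  have hnd : ∀ n : ℕ, ¬ lam p hζ ∣ w ^ n := by
    intro n hd
    exact hlam.not_isUnit (isUnit_of_dvd_unit hd (hwu.pow n))
  have hpow : ∀ n : ℕ, l2 (w ^ (n + 1)) = (n + 1 : ℕ) • l2 w := by
    intro n
    induction n with
    | zero => simp
    | succ n ih =>
      rw [pow_succ, h1 _ _ (hnd _) (by simpa using hnd 1), ih]
      rw [succ_nsmul (l2 w) (n + 1)]
  apply h4
  rw [← hwp]
  obtain ⟨n, hn⟩ : ∃ n, p = n + 1 := ⟨p - 1, by have := hp.pos; omega⟩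
  have h5 : l2 (w ^ p) = p • l2 w := by
    have := hpow n
    rw [← hn] at this
    exact this
  rw [h5]
  simp

/-- The Kummer polynomial `X ^ p - η` over `K`. -/
noncomputable def kpoly : K[X] := X ^ p - C ((eta p hζ : 𝓞 K) : K)

omit [NumberField K] [IsCyclotomicExtension {p} ℚ K] in
theorem kpoly_monic : (kpoly p hζ).Monic :=
  monic_X_pow_sub_C _ (Fact.out : p.Prime).ne_zero

omit [NumberField K] [IsCyclotomicExtension {p} ℚ K] in
theorem kpoly_natDegree : (kpoly p hζ).natDegree = p :=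
  natDegree_X_pow_sub_C

theorem kpoly_irreducible (hL : HasL2 p hζ) (hu : IsUnit (eta p hζ)) :
    Irreducible (kpoly p hζ) :=
  X_pow_sub_C_irreducible_of_prime (Fact.out : p.Prime) (eta_ne_pow p hζ hL hu)

/-- The Kummer field `K(η^(1/p))`. -/
abbrev LF : Type := AdjoinRoot (kpoly p hζ)

/-- The Kummer polynomial over `𝓞 K`. -/
noncomputable def kpolyInt : (𝓞 K)[X] := X ^ p - C (eta p hζ)

omit [NumberField K] [IsCyclotomicExtension {p} ℚ K] in
theorem kpolyInt_monic : (kpolyInt p hζ).Monic :=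
  monic_X_pow_sub_C _ (Fact.out : p.Prime).ne_zero

omit [NumberField K] [IsCyclotomicExtension {p} ℚ K] in
theorem kpolyInt_natDegree : (kpolyInt p hζ).natDegree = p :=
  natDegree_X_pow_sub_C

/-- The order `𝓞 K [Y] / (Y ^ p - η)`. -/
abbrev BR : Type := AdjoinRoot (kpolyInt p hζ)

section field

variable [hirr : Fact (Irreducible (kpoly p hζ))]

omit [IsCyclotomicExtension {p} ℚ K] in
theorem numberField_LF : NumberField (LF p hζ) := by
  have : Module.Finite K (LF p hζ) :=
    (AdjoinRoot.powerBasis (kpoly_monic p hζ).ne_zero).finite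
  have : Module.Finite ℚ (LF p hζ) := Module.Finite.trans K _
  exact { to_charZero := charZero_of_injective_algebraMap (algebraMap K (LF p hζ)).injective
          to_finiteDimensional := this }

theorem finrank_LF : Module.finrank ℚ (LF p hζ) = p * (p - 1) := by
  have hp := (Fact.out : p.Prime)
  have : NeZero p := ⟨hp.ne_zero⟩
  have h1 : Module.finrank K (LF p hζ) = p := by
    rw [(AdjoinRoot.powerBasis (kpoly_monic p hζ).ne_zero).finrank, AdjoinRoot.powerBasis_dim,
      kpoly_natDegree]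
  have h2 : Module.finrank ℚ K = p - 1 := by
    rw [IsCyclotomicExtension.Rat.finrank p K, Nat.totient_prime hp]
  rw [← Module.finrank_mul_finrank ℚ K (LF p hζ), h1, h2, mul_comm]

omit [NumberField K] [IsCyclotomicExtension {p} ℚ K] in
theorem root_pow : (AdjoinRoot.root (kpoly p hζ)) ^ p =
    algebraMap K (LF p hζ) ((eta p hζ : 𝓞 K) : K) := by
  have h := AdjoinRoot.eval₂_root (kpoly p hζ)
  rw [kpoly, eval₂_sub, eval₂_pow, eval₂_X, eval₂_C, sub_eq_zero] at h
  exact h

omit [NumberField K] [IsCyclotomicExtension {p} ℚ K] in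
theorem root_isIntegral : IsIntegral ℤ (AdjoinRoot.root (kpoly p hζ)) := by
  apply IsIntegral.of_pow (Fact.out : p.Prime).pos
  rw [root_pow]
  exact (NumberField.RingOfIntegers.isIntegral_coe (eta p hζ)).algebraMap

/-- The root `η^(1/p)` as an element of `𝓞 L`. -/
noncomputable def betaInt : 𝓞 (LF p hζ) := ⟨AdjoinRoot.root (kpoly p hζ), root_isIntegral p hζ⟩

omit [NumberField K] [IsCyclotomicExtension {p} ℚ K] in
theorem betaInt_eval :
    (kpolyInt p hζ).eval₂ (algebraMap (𝓞 K) (𝓞 (LF p hζ))) (betaInt p hζ) = 0 := by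
  rw [kpolyInt, eval₂_sub, eval₂_pow, eval₂_X, eval₂_C, sub_eq_zero]
  apply NumberField.RingOfIntegers.ext
  push_cast
  exact root_pow p hζ

/-- The inclusion of the order into the maximal order. -/
noncomputable def iota : BR p hζ →+* 𝓞 (LF p hζ) :=
  AdjoinRoot.lift (algebraMap (𝓞 K) (𝓞 (LF p hζ))) (betaInt p hζ) (betaInt_eval p hζ)

omit [NumberField K] [IsCyclotomicExtension {p} ℚ K] in
theorem iota_injective : Function.Injective (iota p hζ) := by
  rw [injective_iff_map_eq_zero]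
  intro b hb
  obtain ⟨g, rfl⟩ := AdjoinRoot.mk_surjective b
  have hmon := kpolyInt_monic p hζ
  have hg : AdjoinRoot.mk (kpolyInt p hζ) g =
      AdjoinRoot.mk (kpolyInt p hζ) (g %ₘ kpolyInt p hζ) := by
    rw [AdjoinRoot.mk_eq_mk]
    exact ⟨g /ₘ kpolyInt p hζ, by
      have := modByMonic_add_div g (kpolyInt p hζ)
      linear_combination -this⟩
  set r := g %ₘ kpolyInt p hζ with hr
  have hdeg : r.natDegree < p := by
    have := natDegree_modByMonic_lt g hmon (by
      intro h1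
      have := kpolyInt_natDegree p hζ
      rw [h1] at this
      simp at this
      exact (Fact.out : p.Prime).ne_zero this.symm)
    rwa [kpolyInt_natDegree] at this
  rw [hg] at hb ⊢
  rw [iota, AdjoinRoot.lift_mk] at hb
  have hb' : aeval (AdjoinRoot.root (kpoly p hζ)) (r.map (algebraMap (𝓞 K) K)) = 0 := by
    have h1 := congrArg (algebraMap (𝓞 (LF p hζ)) (LF p hζ)) hb
    rw [map_zero, hom_eval₂] at h1
    rw [aeval_def, eval₂_map]
    convert h1 using 2
    · exact RingHom.ext fun x => rfl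
    · rfl
  have hdvd : kpoly p hζ ∣ r.map (algebraMap (𝓞 K) K) := by
    have h2 := minpoly.dvd K (AdjoinRoot.root (kpoly p hζ)) hb'
    rwa [AdjoinRoot.minpoly_root (kpoly_monic p hζ).ne_zero, (kpoly_monic p hζ).leadingCoeff,
      inv_one, map_one, mul_one] at h2
  have hzero : r.map (algebraMap (𝓞 K) K) = 0 := by
    by_contra hne
    have h3 := natDegree_le_of_dvd hdvd hne
    rw [kpoly_natDegree, natDegree_map_eq_of_injective
      (FaithfulSMul.algebraMap_injective (𝓞 K) K)] at h3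
    omega
  have hr0 : r = 0 := by
    apply Polynomial.map_injective _ (FaithfulSMul.algebraMap_injective (𝓞 K) K)
    rw [hzero, Polynomial.map_zero]
  rw [hr0, map_zero]

omit [NumberField K] [IsCyclotomicExtension {p} ℚ K] in
theorem iota_isIntegral : (iota p hζ).IsIntegral := by
  apply RingHom.IsIntegral.tower_top (Int.castRingHom (BR p hζ)) (iota p hζ)
  intro x
  have h := NumberField.RingOfIntegers.isIntegral x
  have e : (iota p hζ).comp (Int.castRingHom (BR p hζ)) = algebraMap ℤ (𝓞 (LF p hζ)) :=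
    RingHom.ext_int _ _
  rw [e]
  exact h

omit [NumberField K] [IsCyclotomicExtension {p} ℚ K] in
/-- Lying over: every ring homomorphism from the order to `ZMod q` has its kernel below a prime
of `𝓞 L`. -/
theorem exists_prime_over {q : ℕ} [Fact q.Prime] (Φ : BR p hζ →+* ZMod q) :
    ∃ Q : Ideal (𝓞 (LF p hζ)), Q.IsPrime ∧ Q.comap (iota p hζ) = RingHom.ker Φ := by
  let _ : Algebra (BR p hζ) (𝓞 (LF p hζ)) := (iota p hζ).toAlgebra
  have hint : Algebra.IsIntegral (BR p hζ) (𝓞 (LF p hζ)) := ⟨iota_isIntegral p hζ⟩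
  have hker : Ideal.comap (algebraMap (BR p hζ) (𝓞 (LF p hζ))) ⊥ ≤ RingHom.ker Φ := by
    intro x hx
    rw [Ideal.mem_comap, Ideal.mem_bot] at hx
    have hx0 : x = 0 := iota_injective p hζ (by rw [map_zero]; exact hx)
    rw [hx0]
    exact zero_mem _
  have hprime : (RingHom.ker Φ).IsPrime := RingHom.ker_isPrime Φ
  obtain ⟨Q, -, hQ, hQc⟩ :=
    Ideal.exists_ideal_over_prime_of_isIntegral (RingHom.ker Φ) ⊥ hker
  exact ⟨Q, hQ, hQc⟩

end field

/-- The ring homomorphisms `𝓞 K → ZMod q`, one for each primitive `p`-th root of unity of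
`ZMod q`. -/
theorem exists_psi {q : ℕ} [Fact q.Prime] {y : ZMod q} (hy : IsPrimitiveRoot y p) :
    have : NeZero p := ⟨(Fact.out : p.Prime).ne_zero⟩
    ∃ ψ : 𝓞 K →+* ZMod q, ψ hζ.toInteger = y := by
  have hp := (Fact.out : p.Prime)
  have : NeZero p := ⟨hp.ne_zero⟩
  have hmin : minpoly ℤ hζ.integralPowerBasis.gen = cyclotomic p ℤ := by
    rw [hζ.integralPowerBasis_gen, ← NumberField.RingOfIntegers.minpoly_coe,
      cyclotomic_eq_minpoly hζ hp.pos]
    rfl
  have hroot : aeval y (minpoly ℤ hζ.integralPowerBasis.gen) = 0 := by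
    rw [hmin, aeval_def, eval₂_eq_eval_map, map_cyclotomic]
    exact hy.isRoot_cyclotomic hp.pos
  refine ⟨(hζ.integralPowerBasis.lift y hroot).toRingHom, ?_⟩
  have := hζ.integralPowerBasis.lift_gen y hroot
  rw [hζ.integralPowerBasis_gen] at this
  exact this

/-- **Slice A1, algebraic half.** -/
theorem exists_field (hL : HasL2 p hζ) (hu : IsUnit (eta p hζ)) :
    ∃ (L : Type) (_ : Field L) (_ : NumberField L), ∀ q ∈ S2Set p hζ,
      ∃ f : Fin (p * (p - 1)) → PrimeIdeal L, Function.Injective f ∧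
        ∀ i, Ideal.absNorm ((f i).1 : Ideal (𝓞 L)) = q := by
  have hp := (Fact.out : p.Prime)
  have : NeZero p := ⟨hp.ne_zero⟩
  have : Fact (Irreducible (kpoly p hζ)) := ⟨kpoly_irreducible p hζ hL hu⟩
  have hnf : NumberField (LF p hζ) := numberField_LF p hζ
  refine ⟨LF p hζ, inferInstance, hnf, ?_⟩
  rintro q ⟨hq, hq1, hS⟩
  have : Fact q.Prime := ⟨hq⟩
  -- an element of order `p` in `(ZMod q)ˣ`
  have hdvd : p ∣ Fintype.card (ZMod q)ˣ := by
    rw [ZMod.card_units_eq_totient, Nat.totient_prime hq]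
    exact (Nat.modEq_iff_dvd' hq.one_le).mp hq1.symm
  obtain ⟨x, hx⟩ := exists_prime_orderOf_dvd_card p hdvd
  have hxprim : IsPrimitiveRoot (x : ZMod q) p := by
    rw [IsPrimitiveRoot.iff_orderOf, orderOf_units, hx]
  have hxinj : ∀ m n : ℕ, m < p → n < p → (x : ZMod q) ^ m = (x : ZMod q) ^ n → m = n := by
    intro m n hm hn h
    have h' : x ^ m = x ^ n := by
      apply Units.ext
      rw [Units.val_pow_eq_pow_val, Units.val_pow_eq_pow_val, h]
    exact pow_injOn_Iio_orderOf (by rw [hx]; exact hm) (by rw [hx]; exact hn) h'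
  -- the homomorphisms `𝓞 K → ZMod q`
  have h1 : ∀ j : Fin (p - 1), ∃ (ψ : 𝓞 K →+* ZMod q) (t : ZMod q),
      ψ hζ.toInteger = (x : ZMod q) ^ ((j : ℕ) + 1) ∧ t ≠ 0 ∧ ψ (eta p hζ) = t ^ p := by
    intro j
    have hj := j.2
    have hy : IsPrimitiveRoot ((x : ZMod q) ^ ((j : ℕ) + 1)) p :=
      hxprim.pow_of_coprime _ (Nat.coprime_of_lt_prime (Nat.succ_ne_zero _) (by omega) hp).symm
    obtain ⟨ψ, hψ⟩ := exists_psi p hζ hy
    have hqmem : (q : 𝓞 K) ∈ RingHom.ker ψ := by
      rw [RingHom.mem_ker, map_natCast, ZMod.natCast_self]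
    have hker0 : RingHom.ker ψ ∈ (Ideal (𝓞 K))⁰ := by
      rw [mem_nonZeroDivisors_iff_ne_zero]
      intro h0
      rw [Ideal.zero_eq_bot] at h0
      rw [h0, Ideal.mem_bot] at hqmem
      exact hq.ne_zero (by exact_mod_cast hqmem)
    obtain ⟨w, hw⟩ := hS ⟨RingHom.ker ψ, hker0⟩ (RingHom.ker_isPrime ψ) hqmem
    have hw' : ψ (eta p hζ) = ψ w ^ p := by
      have : ψ (eta p hζ - w ^ p) = 0 := hw
      rw [map_sub, map_pow, sub_eq_zero] at this
      exact this
    refine ⟨ψ, ψ w, hψ, ?_, hw'⟩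
    intro h0
    have hunit : IsUnit (ψ (eta p hζ)) := hu.map ψ
    rw [hw', h0, zero_pow hp.ne_zero] at hunit
    exact not_isUnit_zero hunit
  choose ψ t hψζ ht0 hψη using h1
  -- the homomorphisms from the order to `ZMod q`
  have h2 : ∀ ij : Fin p × Fin (p - 1), ∃ Φ : BR p hζ →+* ZMod q,
      Φ (AdjoinRoot.of _ hζ.toInteger) = (x : ZMod q) ^ ((ij.2 : ℕ) + 1) ∧
      Φ (AdjoinRoot.root _) = t ij.2 * (x : ZMod q) ^ (ij.1 : ℕ) := by
    intro ij
    have hev : (kpolyInt p hζ).eval₂ (ψ ij.2) (t ij.2 * (x : ZMod q) ^ (ij.1 : ℕ)) = 0 := by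
      rw [kpolyInt, eval₂_sub, eval₂_pow, eval₂_X, eval₂_C, hψη, mul_pow, ← pow_mul, mul_comm _ p,
        pow_mul, hxprim.pow_eq_one, one_pow, mul_one, sub_self]
    refine ⟨AdjoinRoot.lift (ψ ij.2) _ hev, ?_, ?_⟩
    · rw [AdjoinRoot.lift_of, hψζ]
    · rw [AdjoinRoot.lift_root]
  choose Φ hΦζ hΦr using h2
  -- primes of `𝓞 L` above the kernels
  have h3 : ∀ ij : Fin p × Fin (p - 1), ∃ Q : Ideal (𝓞 (LF p hζ)), Q.IsPrime ∧
      Q.comap (iota p hζ) = RingHom.ker (Φ ij) := fun ij => exists_prime_over p hζ (Φ ij)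
  choose Q hQp hQc using h3
  have hQinj : Function.Injective Q := by
    intro a b hab
    have hk : RingHom.ker (Φ a) = RingHom.ker (Φ b) := by rw [← hQc a, ← hQc b, hab]
    have hΦ : Φ a = Φ b := ringHom_eq_of_ker_eq _ _ hk
    have e1 : (x : ZMod q) ^ ((a.2 : ℕ) + 1) = (x : ZMod q) ^ ((b.2 : ℕ) + 1) := by
      rw [← hΦζ a, ← hΦζ b, hΦ]
    have e2 : t a.2 * (x : ZMod q) ^ (a.1 : ℕ) = t b.2 * (x : ZMod q) ^ (b.1 : ℕ) := by
      rw [← hΦr a, ← hΦr b, hΦ]
    have ha2 := a.2.2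
    have hb2 := b.2.2
    have e3 : a.2 = b.2 := by
      apply Fin.ext
      have := hxinj _ _ (by omega) (by omega) e1
      omega
    rw [e3] at e2
    have e4 : a.1 = b.1 := by
      apply Fin.ext
      exact hxinj _ _ a.1.2 b.1.2 (mul_left_cancel₀ (ht0 _) e2)
    exact Prod.ext e4 e3
  have hQq : ∀ ij, (q : 𝓞 (LF p hζ)) ∈ Q ij := by
    intro ij
    have hmem : (q : BR p hζ) ∈ (Q ij).comap (iota p hζ) := by
      rw [hQc, RingHom.mem_ker, map_natCast, ZMod.natCast_self]
    rw [Ideal.mem_comap, map_natCast] at hmem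
    exact hmem
  have hQ0 : ∀ ij, Q ij ∈ (Ideal (𝓞 (LF p hζ)))⁰ := by
    intro ij
    rw [mem_nonZeroDivisors_iff_ne_zero]
    intro h0
    rw [Ideal.zero_eq_bot] at h0
    have := hQq ij
    rw [h0, Ideal.mem_bot] at this
    exact hq.ne_zero (by exact_mod_cast this)
  let e : Fin (p * (p - 1)) ≃ Fin p × Fin (p - 1) := finProdFinEquiv.symm
  refine ⟨fun k => ⟨⟨Q (e k), hQ0 _⟩, hQp _⟩, ?_, ?_⟩
  · intro a b hab
    apply e.injective
    apply hQinj
    exact congrArg (fun v : PrimeIdeal (LF p hζ) => (v.1 : Ideal (𝓞 (LF p hζ)))) hab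
  · intro k
    exact absNorm_eq_of_many (LF p hζ) q hq (p * (p - 1)) (finrank_LF p hζ) (fun k => Q (e k))
      (hQinj.comp e.injective) (fun _ => hQp _) (fun _ => hQq _) k

end Fermat.Agent.S14.S2F
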