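import Mathlib
import Fermat.Agent.S14.AIface
import Fermat.Agent.S14.PrimeSum
import Fermat.Agent.S14.S2Field

/-!
# S14, slice A1: `S2Upper`

The Dirichlet density of `S2` (the primes `q ≡ 1 (mod p)` at which the unit `η` is a `p`-th power
locally at every prime above `q`) is at most `1 / (p (p - 1))`, in the weak "finite partial sums"
form of `S14/AIface.lean`:

`∑_{q ∈ F} q^(-s) ≤ log (1/(s-1)) / (p (p-1)) + C` for all finite `F ⊆ S2` and `s ∈ (1, 2]`.

Proof: by `S2F.exists_field` (helper21, `S14/S2Field.lean`) there is a number field `L`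
(`= ℚ(ζ_p, η^(1/p))`) in which every `q ∈ S2` has `p (p - 1)` distinct primes of norm `q`;
by `S2U.primeSum_le` (`S14/PrimeSum.lean`) the sum of `N v^(-s)` over any finite set of primes
of `L` is at most `log (1/(s-1)) + C`.
-/

set_option autoImplicit false

open Finset
open scoped NumberField nonZeroDivisors

namespace Fermat.Agent.S14.S2U

open Fermat.Agent.S14

variable (p : ℕ) [Fact p.Prime]
variable {K : Type} [Field K] [NumberField K] [IsCyclotomicExtension {p} ℚ K]
variable {ζ : K} (hζ : IsPrimitiveRoot ζ p)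

omit [IsCyclotomicExtension {p} ℚ K] in
/-- **Glue for slice A1**: a number field in which every `q ∈ S2` has `p (p-1)` primes of norm
`q` bounds the density of `S2`. -/
theorem s2Upper_of_field
    (hF : ∃ (L : Type) (_ : Field L) (_ : NumberField L), ∀ q ∈ S2Set p hζ,
      ∃ f : Fin (p * (p - 1)) → PrimeIdeal L, Function.Injective f ∧
        ∀ i, Ideal.absNorm ((f i).1 : Ideal (𝓞 L)) = q) :
    S2Upper p hζ := by
  classical
  obtain ⟨L, _, _, hL⟩ := hF
  obtain ⟨C, hC⟩ := primeSum_le L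
  have hp : p.Prime := Fact.out
  have hp2 : (2 : ℝ) ≤ p := by exact_mod_cast hp.two_le
  have hpp : (0 : ℝ) < (p : ℝ) * ((p : ℝ) - 1) := by nlinarith
  refine ⟨C / ((p : ℝ) * ((p : ℝ) - 1)), ?_⟩
  intro s hs F hFS
  -- choose the primes above each `q ∈ F`
  have hex : ∀ q : {q // q ∈ F}, ∃ f : Fin (p * (p - 1)) → PrimeIdeal L, Function.Injective f ∧
      ∀ i, Ideal.absNorm ((f i).1 : Ideal (𝓞 L)) = q.1 := fun q => hL q.1 (hFS q.1 q.2)
  choose f hfinj hfnorm using hex
  set T : Finset (PrimeIdeal L) := F.attach.biUnion (fun q => Finset.univ.image (f q)) with hT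
  have hdisj : Set.PairwiseDisjoint (↑F.attach : Set {q // q ∈ F})
      (fun q => Finset.univ.image (f q)) := by
    intro q _ q' _ hne
    rw [Function.onFun, Finset.disjoint_left]
    intro v hv hv'
    obtain ⟨i, -, rfl⟩ := Finset.mem_image.mp hv
    obtain ⟨j, -, hj⟩ := Finset.mem_image.mp hv'
    apply hne
    apply Subtype.ext
    rw [← hfnorm q i, ← hfnorm q' j, hj]
  have hsum : ∑ v ∈ T, normPow L v.1 s = ((p : ℝ) * ((p : ℝ) - 1)) * ∑ q ∈ F, (q : ℝ) ^ (-s) := by
    rw [hT, Finset.sum_biUnion hdisj]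
    have h1 : ∀ q ∈ F.attach, ∑ v ∈ Finset.univ.image (f q), normPow L v.1 s
        = ((p : ℝ) * ((p : ℝ) - 1)) * ((q.1 : ℕ) : ℝ) ^ (-s) := by
      intro q _
      rw [Finset.sum_image (fun a _ b _ h => hfinj q h)]
      have h2 : ∀ i ∈ (Finset.univ : Finset (Fin (p * (p - 1)))),
          normPow L (f q i).1 s = ((q.1 : ℕ) : ℝ) ^ (-s) := by
        intro i _
        unfold normPow
        rw [hfnorm q i]
      rw [Finset.sum_congr rfl h2, Finset.sum_const, Finset.card_univ, Fintype.card_fin,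
        nsmul_eq_mul]
      congr 1
      rw [Nat.cast_mul, Nat.cast_sub hp.one_lt.le, Nat.cast_one]
    rw [Finset.sum_congr rfl h1, ← Finset.mul_sum]
    congr 1
    exact Finset.sum_attach F (fun q => (q : ℝ) ^ (-s))
  have hbound := hC s hs T
  rw [hsum] at hbound
  have : ∑ q ∈ F, (q : ℝ) ^ (-s)
      ≤ (Real.log (1 / (s - 1)) + C) / ((p : ℝ) * ((p : ℝ) - 1)) := by
    rw [le_div_iff₀ hpp]
    linarith
  calc ∑ q ∈ F, (q : ℝ) ^ (-s)
      ≤ (Real.log (1 / (s - 1)) + C) / ((p : ℝ) * ((p : ℝ) - 1)) := this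
    _ = Real.log (1 / (s - 1)) / ((p : ℝ) * ((p : ℝ) - 1)) + C / ((p : ℝ) * ((p : ℝ) - 1)) :=
        add_div _ _ _

end Fermat.Agent.S14.S2U

namespace Fermat.Agent.S14

variable (p : ℕ) [Fact p.Prime]
variable {K : Type} [Field K] [NumberField K] [IsCyclotomicExtension {p} ℚ K]
variable {ζ : K} (hζ : IsPrimitiveRoot ζ p)

/-- **Slice A1** (`S2Upper`): the density of `S2` is at most `1 / (p (p - 1))`
(no restriction on the prime `p` is needed). -/
theorem s2Upper_of' (hL : HasL2 p hζ) (hE : EtaEigen p hζ) : S2Upper p hζ :=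
  S2U.s2Upper_of_field p hζ (S2F.exists_field p hζ hL hE.1)

/-- **Slice A1** (`S2Upper`), in the binder shape announced on the board
(`s2Upper_of p hζ h5 hL hE`). -/
theorem s2Upper_of (_h5 : 5 ≤ p) (hL : HasL2 p hζ) (hE : EtaEigen p hζ) : S2Upper p hζ :=
  s2Upper_of' p hζ hL hE

end Fermat.Agent.S14
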