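import Fermat.Agent.S14.Defs

set_option autoImplicit false

open scoped NumberField nonZeroDivisors

namespace Fermat.Agent.S14

variable (p : ℕ) [Fact p.Prime]
variable {K : Type} [Field K] [NumberField K] [IsCyclotomicExtension {p} ℚ K]
variable {ζ : K} (hζ : IsPrimitiveRoot ζ p)

/-- **Slice U1** (log-derivative): the invariant `ℓ₂` on integers prime to `1 - ζ`. -/
def HasL2 : Prop :=
  have : NeZero p := ⟨(Fact.out : p.Prime).ne_zero⟩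
  ∃ l2 : 𝓞 K → ZMod p,
    (∀ u w : 𝓞 K, ¬ lam p hζ ∣ u → ¬ lam p hζ ∣ w → l2 (u * w) = l2 u + l2 w) ∧
    (∀ u w : 𝓞 K, ¬ lam p hζ ∣ u → (p : 𝓞 K) ∣ u - w → l2 u = l2 w) ∧
    l2 hζ.toInteger = 0 ∧ l2 (eta p hζ) ≠ 0

/-- **Slice U2** (`η` is an `ω²`-eigen unit). -/
def EtaEigen : Prop :=
  IsUnit (eta p hζ) ∧
  ∀ (σ : K ≃ₐ[ℚ] K) (a : ℕ), σ ζ = ζ ^ a →
    ∃ w : (𝓞 K)ˣ, intAut K σ (eta p hζ) = eta p hζ ^ (a ^ 2) * (w : 𝓞 K) ^ p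

/-- **Slice U3** (the `ω²`-eigenspace of units mod `p`-th powers is spanned by `η` and `ζ`). -/
def UnitDim : Prop :=
  have : NeZero p := ⟨(Fact.out : p.Prime).ne_zero⟩
  ∀ u : (𝓞 K)ˣ,
    (∀ (σ : K ≃ₐ[ℚ] K) (a : ℕ), σ ζ = ζ ^ a →
      ∃ w : (𝓞 K)ˣ, intAut K σ (u : 𝓞 K) = (u : 𝓞 K) ^ (a ^ 2) * (w : 𝓞 K) ^ p) →
    ∃ (k m : ℕ) (w : (𝓞 K)ˣ), (u : 𝓞 K) = eta p hζ ^ k * hζ.toInteger ^ m * (w : 𝓞 K) ^ p

/-- **Slice B** (an `ω²`-eigenclass of order `p` yields an `ω²`-character). -/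
def ClassChar : Prop :=
  ∀ x : ClassGroup (𝓞 K), x ≠ 1 → x ^ p = 1 →
    (∀ (σ : K ≃ₐ[ℚ] K) (a : ℕ), σ ζ = ζ ^ a → clAct K σ x = x ^ (a ^ 2)) →
    ∃ χ : ClassGroup (𝓞 K) →* Multiplicative (ZMod p), IsOmegaTwoChar p hζ χ ∧ ∃ c, χ c ≠ 1

/-- The conclusion of Thaine's relation for a character `χ`: at every prime `Q` above a rational
prime `q ≡ 1 mod p` on which `χ` is non-trivial, `η` is a `p`-th power residue. -/
def ThaineConcl (χ : ClassGroup (𝓞 K) →* Multiplicative (ZMod p)) : Prop :=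
  ∀ q : ℕ, q.Prime → q ≡ 1 [MOD p] → ∀ Q : (Ideal (𝓞 K))⁰, (Q : Ideal (𝓞 K)).IsPrime →
    (q : 𝓞 K) ∈ (Q : Ideal (𝓞 K)) → χ (ClassGroup.mk0 Q) ≠ 1 →
    ∃ w : 𝓞 K, eta p hζ - w ^ p ∈ (Q : Ideal (𝓞 K))

/-- **Slice T** (Thaine). -/
def Thaine : Prop :=
  ∀ χ : ClassGroup (𝓞 K) →* Multiplicative (ZMod p), IsOmegaTwoChar p hζ χ → ThaineConcl p hζ χ

/-- **Slice T** (Thaine's relation): at a prime `Q` above a rational prime `q ≡ 1 mod p`, there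
are exponents `r σ` such that `∏_σ [σ Q]^(r σ)` is a `p`-th power in the class group while
`σ⁻¹(1 + ζ) ≡ s^(r σ) mod Q` for a fixed integer `s`. -/
def ThaineRel : Prop :=
  have : NeZero p := ⟨(Fact.out : p.Prime).ne_zero⟩
  ∀ q : ℕ, q.Prime → q ≡ 1 [MOD p] → ∀ Q : (Ideal (𝓞 K))⁰, (Q : Ideal (𝓞 K)).IsPrime →
    (q : 𝓞 K) ∈ (Q : Ideal (𝓞 K)) →
    ∃ (s : ℕ) (r : (K ≃ₐ[ℚ] K) → ℕ),
      (∃ c : ClassGroup (𝓞 K), ∏ σ : K ≃ₐ[ℚ] K, clAct K σ (ClassGroup.mk0 Q) ^ r σ = c ^ p) ∧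
      ∀ σ : K ≃ₐ[ℚ] K,
        (intAut K σ).symm (1 + hζ.toInteger) - (s : 𝓞 K) ^ r σ ∈ (Q : Ideal (𝓞 K))

/-- **Slice TC** (apply an `ω²`-character to Thaine's relation). -/
def ThaineCor : Prop :=
  ThaineRel p hζ → Thaine p hζ

/-- **Slice A** (analytic density contradiction). -/
def Analytic : Prop :=
  ∀ χ : ClassGroup (𝓞 K) →* Multiplicative (ZMod p), IsOmegaTwoChar p hζ χ → (∃ c, χ c ≠ 1) →
    ThaineConcl p hζ χ → False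

/-- **Glue, case A**: a principal `𝔞` (i.e. `α = u β^p` with `u` a unit). -/
def CaseA : Prop :=
  HasL2 p hζ → EtaEigen p hζ → UnitDim p hζ →
  ∀ (α : K) (u : (𝓞 K)ˣ) (β : K), β ≠ 0 → α = (u : K) * β ^ p → IsEigen p hζ α →
    IsLocalPow p hζ α → ∃ β' : K, α = β' ^ p

/-- **Glue, case B**: a non-principal `𝔞` gives an `ω²`-eigenclass of order `p`. -/
def CaseB : Prop :=
  ∀ (α : K), α ≠ 0 → IsEigen p hζ α →
    ∀ I : FractionalIdeal (𝓞 K)⁰ K, FractionalIdeal.spanSingleton (𝓞 K)⁰ α = I ^ p →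
      (¬ ∃ β : K, I = FractionalIdeal.spanSingleton (𝓞 K)⁰ β) →
      ∃ x : ClassGroup (𝓞 K), x ≠ 1 ∧ x ^ p = 1 ∧
        ∀ (σ : K ≃ₐ[ℚ] K) (a : ℕ), σ ζ = ζ ^ a → clAct K σ x = x ^ (a ^ 2)

/-- Principal case, the elementary reduction `(α) = (β)^p ⇒ α = u β^p`. -/
theorem exists_unit_of_span_eq {α β : K} (hα : α ≠ 0)
    (h : FractionalIdeal.spanSingleton (𝓞 K)⁰ α = FractionalIdeal.spanSingleton (𝓞 K)⁰ β ^ p) :
    β ≠ 0 ∧ ∃ u : (𝓞 K)ˣ, α = (u : K) * β ^ p := by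
  have hβ : β ≠ 0 := by
    rintro rfl
    rw [FractionalIdeal.spanSingleton_zero, zero_pow (Fact.out : p.Prime).ne_zero,
      FractionalIdeal.spanSingleton_eq_zero_iff] at h
    exact hα h
  refine ⟨hβ, ?_⟩
  rw [FractionalIdeal.spanSingleton_pow] at h
  have h1 : α ∈ FractionalIdeal.spanSingleton (𝓞 K)⁰ (β ^ p) := by
    rw [← h]; exact FractionalIdeal.mem_spanSingleton_self _ _
  have h2 : β ^ p ∈ FractionalIdeal.spanSingleton (𝓞 K)⁰ α := by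
    rw [h]; exact FractionalIdeal.mem_spanSingleton_self _ _
  obtain ⟨c, hc⟩ := (FractionalIdeal.mem_spanSingleton _).mp h1
  obtain ⟨d, hd⟩ := (FractionalIdeal.mem_spanSingleton _).mp h2
  have hc' : (c : K) * β ^ p = α := by rw [← hc, Algebra.smul_def]
  have hd' : (d : K) * α = β ^ p := by rw [← hd, Algebra.smul_def]
  have hcd : (c * d : 𝓞 K) = 1 := by
    have h3 : ((c * d : 𝓞 K) : K) * α = 1 * α := by
      push_cast
      rw [one_mul, mul_assoc, hd', hc']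
    have h4 := mul_right_cancel₀ hα h3
    exact_mod_cast h4
  exact ⟨⟨c, d, hcd, by rw [mul_comm]; exact hcd⟩, hc'.symm⟩

/-- **The Kummer core from the slices** (`p ≥ 5`). -/
theorem kummerCore_of_slices
    (hL : HasL2 p hζ) (hE : EtaEigen p hζ) (hU : UnitDim p hζ) (hB : ClassChar p hζ)
    (hT : Thaine p hζ) (hA : Analytic p hζ) (hCA : CaseA p hζ) (hCB : CaseB p hζ)
    (α : K) (hα : α ≠ 0) (he : IsEigen p hζ α) (hi : IsIdealPow p α)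
    (hl : IsLocalPow p hζ α) : ∃ β : K, α = β ^ p := by
  obtain ⟨I, hI⟩ := hi
  by_cases hpr : ∃ β : K, I = FractionalIdeal.spanSingleton (𝓞 K)⁰ β
  · obtain ⟨β, rfl⟩ := hpr
    obtain ⟨hβ, u, hu⟩ := exists_unit_of_span_eq p hα hI
    exact hCA hL hE hU α u β hβ hu he hl
  · exfalso
    obtain ⟨x, hx1, hxp, hxe⟩ := hCB α hα he I hI hpr
    obtain ⟨χ, hχ, hne⟩ := hB x hx1 hxp hxe
    exact hA χ hχ hne (hT χ hχ)

end Fermat.Agent.S14
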