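/-
S14, slice TC: Thaine's relation implies Thaine's conclusion for every `ω²`-character.

Given the class relation `∏_σ [σ Q]^(r σ) = c^p` and the congruences
`σ⁻¹(1 + ζ) ≡ s^(r σ) mod Q`, apply an `ω²`-character `χ` with `χ [Q] ≠ 1`:
`χ [Q]^(∑_σ a(σ)² r σ) = 1`, hence `p ∣ ∑_σ a(σ)² r σ`, and
`η = ∏_a σ_a⁻¹(1 + ζ)^(a² mod p) ≡ s^(∑_a (a² mod p) r σ_a)` is a `p`-th power modulo `Q`.
-/
import Mathlib
import Fermat.Agent.S14.Iface

set_option autoImplicit false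

open scoped NumberField nonZeroDivisors

namespace Fermat.Agent.S14

namespace TC

section Units

variable (p : ℕ) [Fact p.Prime]

/-- The unit of `ZMod p` attached to a natural number (junk value `1` if `p ∣ a`). -/
noncomputable def un (a : ℕ) : (ZMod p)ˣ :=
  if h : a.Coprime p then ZMod.unitOfCoprime a h else 1

theorem coprime_of_mem_Ico {a : ℕ} (ha : a ∈ Finset.Ico 1 p) : a.Coprime p := by
  rw [Finset.mem_Ico] at ha
  exact ((Nat.Prime.coprime_iff_not_dvd Fact.out).2 (Nat.not_dvd_of_pos_of_lt ha.1 ha.2)).symm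

theorem coe_un {a : ℕ} (ha : a ∈ Finset.Ico 1 p) : ((un p a : (ZMod p)ˣ) : ZMod p) = (a : ZMod p) := by
  rw [un, dif_pos (coprime_of_mem_Ico p ha), ZMod.coe_unitOfCoprime]

theorem val_un {a : ℕ} (ha : a ∈ Finset.Ico 1 p) : ((un p a : (ZMod p)ˣ) : ZMod p).val = a := by
  rw [coe_un p ha, ZMod.val_cast_of_lt (Finset.mem_Ico.mp ha).2]

theorem val_mem_Ico (u : (ZMod p)ˣ) : (u : ZMod p).val ∈ Finset.Ico 1 p := by
  rw [Finset.mem_Ico]
  refine ⟨Nat.one_le_iff_ne_zero.mpr fun h => u.ne_zero ?_, ZMod.val_lt _⟩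
  exact (ZMod.val_eq_zero _).mp h

theorem un_val (u : (ZMod p)ˣ) : un p (u : ZMod p).val = u := by
  apply Units.ext
  rw [coe_un p (val_mem_Ico p u), ZMod.natCast_zmod_val]

/-- Reindexing a sum over the units of `ZMod p` by `1 ≤ a < p`. -/
theorem sum_units_eq {M : Type*} [AddCommMonoid M] (f : (ZMod p)ˣ → M) :
    ∑ u, f u = ∑ a ∈ Finset.Ico 1 p, f (un p a) := by
  refine Finset.sum_bij (fun u _ => (u : ZMod p).val) (fun u _ => val_mem_Ico p u) ?_ ?_ ?_
  · intro u _ v _ h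
    rw [← un_val p u, ← un_val p v, h]
  · intro a ha
    exact ⟨un p a, Finset.mem_univ _, val_un p ha⟩
  · intro u _
    rw [un_val]

/-- In a group of order `p` written multiplicatively over `ZMod p`. -/
theorem dvd_of_pow_eq_one {y : Multiplicative (ZMod p)} (hy : y ≠ 1) {n : ℕ} (h : y ^ n = 1) :
    p ∣ n := by
  have h1 : n • Multiplicative.toAdd y = 0 := by
    rw [← toAdd_pow, h, toAdd_one]
  rw [nsmul_eq_mul] at h1
  rcases mul_eq_zero.mp h1 with h2 | h2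
  · exact (ZMod.natCast_eq_zero_iff n p).mp h2
  · exact absurd (Multiplicative.toAdd.injective (by rw [h2, toAdd_one])) hy

theorem pow_p_eq_one (y : Multiplicative (ZMod p)) : y ^ p = 1 := by
  apply Multiplicative.toAdd.injective
  rw [toAdd_pow, toAdd_one, nsmul_eq_mul, CharP.cast_eq_zero, zero_mul]

end Units

section Field

variable (p : ℕ) [Fact p.Prime]
variable {K : Type} [Field K] [NumberField K] [IsCyclotomicExtension {p} ℚ K]
variable {ζ : K} (hζ : IsPrimitiveRoot ζ p)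

/-- The exponent of `σ` on `ζ`. -/
noncomputable def expo (σ : K ≃ₐ[ℚ] K) : ℕ :=
  have : NeZero p := ⟨(Fact.out : p.Prime).ne_zero⟩
  ((IsCyclotomicExtension.Rat.galEquivZMod p K σ : (ZMod p)ˣ) : ZMod p).val

include hζ in
theorem apply_zeta (σ : K ≃ₐ[ℚ] K) : σ ζ = ζ ^ expo p σ := by
  have : NeZero p := ⟨(Fact.out : p.Prime).ne_zero⟩
  exact IsCyclotomicExtension.Rat.galEquivZMod_apply_of_pow_eq p K σ hζ.pow_eq_one

/-- The automorphism with `ζ ↦ ζ ^ a`. -/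
noncomputable def sig (a : ℕ) : K ≃ₐ[ℚ] K :=
  have : NeZero p := ⟨(Fact.out : p.Prime).ne_zero⟩
  (IsCyclotomicExtension.Rat.galEquivZMod p K).symm (un p a)

theorem expo_sig {a : ℕ} (ha : a ∈ Finset.Ico 1 p) : expo p (sig p a : K ≃ₐ[ℚ] K) = a := by
  have : NeZero p := ⟨(Fact.out : p.Prime).ne_zero⟩
  rw [expo, sig, MulEquiv.apply_symm_apply, val_un p ha]

theorem sig_expo (σ : K ≃ₐ[ℚ] K) : sig p (expo p σ) = σ := by
  have : NeZero p := ⟨(Fact.out : p.Prime).ne_zero⟩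
  rw [expo, sig, un_val, MulEquiv.symm_apply_apply]

/-- Reindexing a sum over the Galois group by `1 ≤ a < p`. -/
theorem sum_gal_eq {M : Type*} [AddCommMonoid M] (f : (K ≃ₐ[ℚ] K) → M) :
    ∑ σ, f σ = ∑ a ∈ Finset.Ico 1 p, f (sig p a) := by
  have : NeZero p := ⟨(Fact.out : p.Prime).ne_zero⟩
  have h := sum_units_eq p (fun u => f ((IsCyclotomicExtension.Rat.galEquivZMod p K).symm u))
  calc ∑ σ, f σ = ∑ u, f ((IsCyclotomicExtension.Rat.galEquivZMod p K).symm u) :=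
        Fintype.sum_equiv (IsCyclotomicExtension.Rat.galEquivZMod p K).toEquiv _ _ fun σ =>
          congrArg f ((IsCyclotomicExtension.Rat.galEquivZMod p K).symm_apply_apply σ).symm
    _ = ∑ a ∈ Finset.Ico 1 p, f ((IsCyclotomicExtension.Rat.galEquivZMod p K).symm (un p a)) := h
    _ = _ := rfl

theorem neZero : NeZero p := ⟨(Fact.out : p.Prime).ne_zero⟩

attribute [local instance] neZero

theorem coe_intAut (σ : K ≃ₐ[ℚ] K) (x : 𝓞 K) : ((intAut K σ x : 𝓞 K) : K) = σ (x : K) :=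
  algebraMap_galRestrict_apply ℤ σ x

theorem intAut_zeta (σ : K ≃ₐ[ℚ] K) :
    intAut K σ hζ.toInteger = hζ.toInteger ^ expo p σ := by
  apply NumberField.RingOfIntegers.ext
  rw [coe_intAut]
  push_cast
  exact apply_zeta p hζ σ

theorem toInteger_pow_p : hζ.toInteger ^ p = 1 := by
  apply NumberField.RingOfIntegers.ext
  push_cast
  exact hζ.pow_eq_one

theorem intAut_symm_one_add {a : ℕ} (ha : a ∈ Finset.Ico 1 p) :
    (intAut K (sig p a)).symm (1 + hζ.toInteger)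
      = 1 + hζ.toInteger ^ ((a : ZMod p)⁻¹).val := by
  rw [RingEquiv.symm_apply_eq, map_add, map_one, map_pow, intAut_zeta p hζ, expo_sig p ha,
    ← pow_mul]
  congr 1
  have hp1 : Fact (1 < p) := ⟨(Fact.out : p.Prime).one_lt⟩
  have ha0 : (a : ZMod p) ≠ 0 := by
    intro h
    have h1 := (ZMod.natCast_eq_zero_iff a p).mp h
    rw [Finset.mem_Ico] at ha
    exact Nat.not_dvd_of_pos_of_lt ha.1 ha.2 h1
  have hmod : (a * ((a : ZMod p)⁻¹).val) % p = 1 := by
    have h1 : ((a * ((a : ZMod p)⁻¹).val : ℕ) : ZMod p) = 1 := by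
      push_cast
      rw [ZMod.natCast_zmod_val, mul_inv_cancel₀ ha0]
    have h2 := congrArg ZMod.val h1
    rwa [ZMod.val_natCast, ZMod.val_one] at h2
  rw [← Nat.mod_add_div (a * ((a : ZMod p)⁻¹).val) p, hmod, pow_add, pow_one, pow_mul,
    toInteger_pow_p p hζ, one_pow, mul_one]

theorem eta_eq : eta p hζ
    = ∏ a ∈ Finset.Ico 1 p, (1 + hζ.toInteger ^ ((a : ZMod p)⁻¹).val) ^ (a ^ 2 % p) := rfl

end Field

end TC

open TC in
/-- **Slice TC**: Thaine's relation implies Thaine's conclusion for every `ω²`-character. -/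
theorem thaineCor (p : ℕ) [Fact p.Prime] {K : Type} [Field K] [NumberField K]
    [IsCyclotomicExtension {p} ℚ K] {ζ : K} (hζ : IsPrimitiveRoot ζ p) : ThaineCor p hζ := by
  have hnz : NeZero p := ⟨(Fact.out : p.Prime).ne_zero⟩
  intro hrel χ hχ q hq hq1 Q hQ hqQ hχQ
  obtain ⟨s, r, ⟨c, hc⟩, hcong⟩ := hrel q hq hq1 Q hQ hqQ
  -- apply `χ` to the class relation
  have h1 : χ (ClassGroup.mk0 Q) ^ (∑ σ : K ≃ₐ[ℚ] K, expo p σ ^ 2 * r σ) = 1 := by
    have h := congrArg χ hc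
    rw [map_prod, map_pow, pow_p_eq_one] at h
    rw [← h, ← Finset.prod_pow_eq_pow_sum]
    refine Finset.prod_congr rfl fun σ _ => ?_
    rw [map_pow, hχ σ (expo p σ) (apply_zeta p hζ σ), pow_mul]
  have h2 : p ∣ ∑ σ : K ≃ₐ[ℚ] K, expo p σ ^ 2 * r σ := dvd_of_pow_eq_one p hχQ h1
  rw [sum_gal_eq p] at h2
  have h3 : p ∣ ∑ a ∈ Finset.Ico 1 p, r (sig p a) * (a ^ 2 % p) := by
    rw [← ZMod.natCast_eq_zero_iff] at h2 ⊢
    rw [← h2]
    push_cast
    refine Finset.sum_congr rfl fun a ha => ?_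
    rw [expo_sig p ha, ZMod.natCast_mod]
    push_cast
    ring
  obtain ⟨k, hk⟩ := h3
  refine ⟨(s : 𝓞 K) ^ k, ?_⟩
  rw [← Ideal.Quotient.eq, eta_eq p hζ, map_prod, map_pow, map_pow, ← pow_mul, mul_comm k p, ← hk,
    ← Finset.prod_pow_eq_pow_sum]
  refine Finset.prod_congr rfl fun a ha => ?_
  have h4 : Ideal.Quotient.mk (Q : Ideal (𝓞 K)) (1 + hζ.toInteger ^ ((a : ZMod p)⁻¹).val)
      = Ideal.Quotient.mk (Q : Ideal (𝓞 K)) ((s : 𝓞 K) ^ r (sig p a)) := by
    rw [Ideal.Quotient.eq, ← intAut_symm_one_add p hζ ha]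
    exact hcong (sig p a)
  rw [map_pow, h4, map_pow, pow_mul]

end Fermat.Agent.S14
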