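import Fermat.Agent.S14.Iface

/-!
# Slice T (Thaine's relation): internal interface

`ThaineRel p hζ` is split in two independent halves along the element `κ = N_{F/K}(γ)`:

* **T-F** (`ThaineF`): the construction in `F = K(ζ_q)`; produces `s` and `κ ∈ 𝓞 K` with
  `p ∣ v_P(κ)` at primes `P ∌ q` and `1 + ζ ≡ s ^ v_P(κ) mod P` at primes `P ∋ q`.
* **T-K** (`ThaineK`): the assembly inside `K` (Galois action on the primes above `q`, class group).
-/

set_option autoImplicit false

open scoped NumberField nonZeroDivisors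

namespace Fermat.Agent.S14

variable (p : ℕ) [Fact p.Prime]
variable {K : Type} [Field K] [NumberField K] [IsCyclotomicExtension {p} ℚ K]
variable {ζ : K} (hζ : IsPrimitiveRoot ζ p)

/-- The output of the `F`-side at a rational prime `q`: an integer `s` and a nonzero `κ ∈ 𝓞 K`
whose multiplicity at every prime not above `q` is divisible by `p`, and with
`1 + ζ ≡ s ^ v_P(κ) mod P` at every prime `P` above `q`. (`multiplicity` is taken in the monoid
of ideals of `𝓞 K`.) -/
def ThaineKappa (q : ℕ) : Prop :=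
  have : NeZero p := ⟨(Fact.out : p.Prime).ne_zero⟩
  ∃ (s : ℕ) (κ : 𝓞 K), κ ≠ 0 ∧
    (∀ P : Ideal (𝓞 K), P.IsPrime → P ≠ ⊥ → (q : 𝓞 K) ∉ P →
      p ∣ multiplicity P (Ideal.span {κ})) ∧
    (∀ P : Ideal (𝓞 K), P.IsPrime → (q : 𝓞 K) ∈ P →
      1 + hζ.toInteger - (s : 𝓞 K) ^ multiplicity P (Ideal.span {κ}) ∈ P)

/-- **Slice T-F**: the Kolyvagin–Thaine element exists at every prime `q ≡ 1 mod p`. -/
def ThaineF : Prop :=
  ∀ q : ℕ, q.Prime → q ≡ 1 [MOD p] → ThaineKappa p hζ q

/-- **Slice T-K**: assembly of Thaine's relation from the elements `κ`. -/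
def ThaineK : Prop :=
  ThaineF p hζ → ThaineRel p hζ

end Fermat.Agent.S14
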