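import Mathlib
import Fermat.Agent.S14.ThaineIface

/-!
# Slice T-F (part 1): the field `F = K(ζ_q)`

`K = ℚ(ζ_p)`, `q ≠ p` a prime, `F` any model of the `q`-th cyclotomic extension of `K`.
Field-theoretic facts: `F = ℚ(ζ_{pq})`, `[F : K] = q - 1`, a generator of `Gal(F/K)`,
norms of `a - ζ_q`, the units `x - ζ_q`, ramification indices, integral Hilbert 90,
triviality of the Galois action modulo `ζ_q - 1`, and the multiplicity bookkeeping.
-/

set_option autoImplicit false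

open scoped NumberField nonZeroDivisors
open Polynomial

namespace Fermat.Agent.S14.TF

section S1

/-- `Φ_q(x) = 1` when `x ^ q = x` and `x ≠ 1` (in a domain). -/
theorem eval_cyclotomic_eq_one {R : Type*} [CommRing R] [IsDomain R] (q : ℕ) [hq : Fact q.Prime]
    {x : R} (hx : x ^ q = x) (hx1 : x ≠ 1) : eval x (cyclotomic q R) = 1 := by
  have h := congrArg (eval x) (cyclotomic_prime_mul_X_sub_one R q)
  simp only [eval_mul, eval_sub, eval_X, eval_one, eval_pow] at h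
  rw [hx] at h
  have hne : x - 1 ≠ 0 := sub_ne_zero.mpr hx1
  exact mul_right_cancel₀ hne (by rw [h, one_mul])

variable (p : ℕ) [Fact p.Prime]
variable (K : Type) [Field K] [NumberField K] [IsCyclotomicExtension {p} ℚ K]
variable (q : ℕ) [Fact q.Prime]
variable (F : Type) [Field F] [NumberField F] [Algebra K F] [IsCyclotomicExtension {q} K F]

include K in
theorem isCyclotomicExtension_mul (hpq : p ≠ q) : IsCyclotomicExtension {p * q} ℚ F := by
  have hp : p.Prime := Fact.out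
  have hq : q.Prime := Fact.out
  have h1 : IsCyclotomicExtension ({p} ∪ {q}) ℚ F :=
    IsCyclotomicExtension.trans {p} {q} ℚ K F (algebraMap K F).injective
  obtain ⟨ζp, hζp⟩ := IsCyclotomicExtension.exists_isPrimitiveRoot ℚ F
    (S := {p} ∪ {q}) (n := p) (by simp) hp.ne_zero
  obtain ⟨ζq, hζq⟩ := IsCyclotomicExtension.exists_isPrimitiveRoot ℚ F
    (S := {p} ∪ {q}) (n := q) (by simp) hq.ne_zero
  have hcop : Nat.Coprime p q := (Nat.coprime_primes hp hq).mpr hpq
  have hprim : IsPrimitiveRoot (ζp * ζq) (p * q) := by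
    rw [IsPrimitiveRoot.iff_orderOf, (Commute.all ζp ζq).orderOf_mul_eq_mul_orderOf_of_coprime
      (by rwa [← hζp.eq_orderOf, ← hζq.eq_orderOf]), ← hζp.eq_orderOf, ← hζq.eq_orderOf]
  have h2 : IsCyclotomicExtension ({p} ∪ {q} ∪ {p * q}) ℚ F :=
    IsCyclotomicExtension.union_of_isPrimitiveRoot _ ℚ F hprim
  have h3 : IsCyclotomicExtension ({p * q} ∪ {p}) ℚ F ↔ IsCyclotomicExtension ({p * q} ∪ {p} ∪ {q}) ℚ F :=
    IsCyclotomicExtension.iff_union_of_dvd ℚ F ⟨p * q, by simp, (Nat.mul_pos hp.pos hq.pos).ne', dvd_mul_left q p⟩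
  have h4 : IsCyclotomicExtension ({p * q}) ℚ F ↔ IsCyclotomicExtension ({p * q} ∪ {p}) ℚ F :=
    IsCyclotomicExtension.iff_union_of_dvd ℚ F ⟨p * q, by simp, (Nat.mul_pos hp.pos hq.pos).ne', dvd_mul_right p q⟩
  rw [h4, h3]
  have : ({p * q} ∪ {p} ∪ {q} : Set ℕ) = {p} ∪ {q} ∪ {p * q} := by
    ext x; simp only [Set.mem_union, Set.mem_singleton_iff]; tauto
  rw [this]; exact h2

end S1

section S2

variable (p : ℕ) [Fact p.Prime]
variable (K : Type) [Field K] [NumberField K] [IsCyclotomicExtension {p} ℚ K]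
variable (q : ℕ) [Fact q.Prime]
variable (F : Type) [Field F] [NumberField F] [Algebra K F] [IsCyclotomicExtension {q} K F]

include p in
theorem finrank_eq (hpq : p ≠ q) : Module.finrank K F = q - 1 := by
  have hp : p.Prime := Fact.out
  have hq : q.Prime := Fact.out
  have hcop : Nat.Coprime p q := (Nat.coprime_primes hp hq).mpr hpq
  have := isCyclotomicExtension_mul p K q F hpq
  have : NeZero (p * q) := ⟨(Nat.mul_pos hp.pos hq.pos).ne'⟩
  have h1 : Module.finrank ℚ F = (p * q).totient := IsCyclotomicExtension.Rat.finrank (p * q) F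
  have h2 : Module.finrank ℚ K = p.totient := IsCyclotomicExtension.Rat.finrank p K
  have h3 := Module.finrank_mul_finrank ℚ K F
  rw [h1, h2, Nat.totient_mul hcop, Nat.totient_prime hp, Nat.totient_prime hq] at h3
  have hp1 : 0 < p - 1 := Nat.sub_pos_of_lt hp.one_lt
  exact Nat.eq_of_mul_eq_mul_left hp1 h3

include p F in
theorem irreducible_cyclotomic (hpq : p ≠ q) : Irreducible (cyclotomic q K) := by
  have hq : q.Prime := Fact.out
  have hζ := IsCyclotomicExtension.zeta_spec q K F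
  have hint : IsIntegral K (IsCyclotomicExtension.zeta q K F) := hζ.isIntegral hq.pos |>.tower_top
  have hdvd : minpoly K (IsCyclotomicExtension.zeta q K F) ∣ cyclotomic q K := by
    refine minpoly.dvd K _ ?_
    rw [aeval_def, eval₂_eq_eval_map, map_cyclotomic]
    exact hζ.isRoot_cyclotomic hq.pos
  have hdeg : (minpoly K (IsCyclotomicExtension.zeta q K F)).natDegree = q - 1 := by
    rw [← hζ.powerBasis_dim K, ← PowerBasis.finrank, finrank_eq p K q F hpq]
  have heq : cyclotomic q K = minpoly K (IsCyclotomicExtension.zeta q K F) := by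
    refine eq_of_monic_of_dvd_of_natDegree_le (minpoly.monic hint) (cyclotomic.monic q K) hdvd ?_
    rw [hdeg, natDegree_cyclotomic, Nat.totient_prime hq]
  rw [heq]
  exact minpoly.irreducible hint

include p in
theorem exists_generator (hpq : p ≠ q) :
    ∃ (τ : F ≃ₐ[K] F) (s : ℕ), (∀ x, x ∈ Subgroup.zpowers τ) ∧ 0 < s ∧
      τ (IsCyclotomicExtension.zeta q K F) = IsCyclotomicExtension.zeta q K F ^ s := by
  have hq : q.Prime := Fact.out
  have hirr := irreducible_cyclotomic p K q F hpq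
  have hcyc : IsCyclic (F ≃ₐ[K] F) :=
    isCyclic_of_surjective (IsCyclotomicExtension.autEquivPow F hirr).symm
      (IsCyclotomicExtension.autEquivPow F hirr).symm.surjective
  obtain ⟨τ, hτ⟩ := hcyc.exists_generator
  have hζ := IsCyclotomicExtension.zeta_spec q K F
  refine ⟨τ, ((hζ.autToPow K τ : (ZMod q)ˣ) : ZMod q).val, hτ, ?_, (hζ.autToPow_spec K τ).symm⟩
  rw [Nat.pos_iff_ne_zero, Ne, ZMod.val_eq_zero]
  exact Units.ne_zero _

end S2

section S3

/-- `N_{L/K}(a - ζ) = Φ_n(a)` in a cyclotomic extension with `Φ_n` irreducible. -/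
theorem norm_algebraMap_sub {n : ℕ} [NeZero n] {K L : Type*} [Field K] [Field L] [Algebra K L]
    {ζ : L} (hζ : IsPrimitiveRoot ζ n) [IsCyclotomicExtension {n} K L]
    (hirr : Irreducible (cyclotomic n K)) (a : K) :
    Algebra.norm K (algebraMap K L a - ζ) = eval a (cyclotomic n K) := by
  have := IsCyclotomicExtension.neZero' n K L
  let E := AlgebraicClosure L
  obtain ⟨z, hz⟩ := IsAlgClosed.exists_root _ (degree_cyclotomic_pos n E (NeZero.pos _)).ne.symm
  apply (algebraMap K E).injective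
  let := IsCyclotomicExtension.finiteDimensional {n} K L
  let := IsCyclotomicExtension.isGalois {n} K L
  rw [Algebra.norm_eq_prod_embeddings]
  have Hprod : (Finset.univ.prod fun σ : L →ₐ[K] E => algebraMap K E a - σ ζ) =
      eval (algebraMap K E a) (cyclotomic' n E) := by
    rw [cyclotomic', eval_prod, ← @Finset.prod_attach E E, ← Finset.univ_eq_attach]
    refine Fintype.prod_equiv (hζ.embeddingsEquivPrimitiveRoots E hirr) _ _ fun σ => ?_
    simp
  have : NeZero (n : E) := NeZero.of_faithfulSMul K _ n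
  simp only [map_sub, AlgHom.commutes]
  rw [Hprod, cyclotomic', ← cyclotomic_eq_prod_X_sub_primitiveRoots (isRoot_cyclotomic_iff.1 hz),
    ← map_cyclotomic n (algebraMap K E), eval_map_apply]

/-- `x - ζ_q` is a unit when `x ^ q = x`, `x ≠ 1`. -/
theorem isUnit_sub_of_pow_eq {R : Type*} [CommRing R] [IsDomain R] (q : ℕ) [hq : Fact q.Prime]
    {x z : R} (hz : IsPrimitiveRoot z q) (hx : x ^ q = x) (hx1 : x ≠ 1) : IsUnit (x - z) := by
  have h1 : (X - C z) ∣ cyclotomic q R := dvd_iff_isRoot.mpr (hz.isRoot_cyclotomic hq.out.pos)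
  have h2 := eval_dvd (x := x) h1
  rw [eval_cyclotomic_eq_one q hx hx1] at h2
  simp only [eval_sub, eval_X, eval_C] at h2
  exact isUnit_of_dvd_one h2

end S3

section S4

variable (p : ℕ) [Fact p.Prime]
variable (K : Type) [Field K] [NumberField K] [IsCyclotomicExtension {p} ℚ K]
variable (q : ℕ) [Fact q.Prime]
variable (F : Type) [Field F] [NumberField F] [Algebra K F] [IsCyclotomicExtension {q} K F]

/-- The ramification index of a prime of `𝓞 F` over `𝓞 K`: `q - 1` above `q`, `1` elsewhere. -/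
theorem ramificationIdx'_under (hpq : p ≠ q) (𝔔 : Ideal (𝓞 F)) [𝔔.IsPrime] (h𝔔 : 𝔔 ≠ ⊥) :
    ((q : 𝓞 F) ∈ 𝔔 → (𝔔.under (𝓞 K)).ramificationIdx' 𝔔 = q - 1) ∧
      ((q : 𝓞 F) ∉ 𝔔 → (𝔔.under (𝓞 K)).ramificationIdx' 𝔔 = 1) := by
  have hp : p.Prime := Fact.out
  have hq : q.Prime := Fact.out
  have : NeZero 𝔔 := ⟨h𝔔⟩
  have hℓp : (Ideal.absNorm (𝔔.under ℤ)).Prime := Nat.absNorm_under_prime 𝔔
  have hmem : (q : 𝓞 F) ∈ 𝔔 ↔ Ideal.absNorm (𝔔.under ℤ) = q := by
    rw [← Int.cast_natCast, Int.cast_mem_ideal_iff, Int.natCast_dvd_natCast,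
      Nat.prime_dvd_prime_iff_eq hℓp hq]
  have h1 : 𝔔.LiesOver (Ideal.span {(Ideal.absNorm (𝔔.under ℤ) : ℤ)}) :=
    Int.liesOver_span_absNorm 𝔔
  generalize Ideal.absNorm (𝔔.under ℤ) = ℓ at hℓp hmem h1
  have : Fact ℓ.Prime := ⟨hℓp⟩
  have : 𝔔.LiesOver (𝔔.under (𝓞 K)) := ⟨rfl⟩
  have h2 : (𝔔.under (𝓞 K)).LiesOver (Ideal.span {(ℓ : ℤ)}) := by
    constructor
    rw [Ideal.under_under]
    exact h1.over
  have hℓ0 : Ideal.span {(ℓ : ℤ)} ≠ ⊥ := by
    simp [hℓp.ne_zero]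
  have htower := Ideal.ramificationIdx'_algebra_tower' (Ideal.span {(ℓ : ℤ)}) (𝔔.under (𝓞 K)) 𝔔
  rw [Ideal.ramificationIdx'_eq_ramificationIdx _ 𝔔 hℓ0,
    Ideal.ramificationIdx'_eq_ramificationIdx _ (𝔔.under (𝓞 K)) hℓ0] at htower
  have := isCyclotomicExtension_mul p K q F hpq
  have : NeZero (p * q) := ⟨(Nat.mul_pos hp.pos hq.pos).ne'⟩
  by_cases hℓq : ℓ = q
  · subst hℓq
    refine ⟨fun _ => ?_, fun h => absurd (hmem.mpr rfl) h⟩
    have e1 : 𝔔.ramificationIdx ℤ = ℓ ^ 0 * (ℓ - 1) :=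
      IsCyclotomicExtension.Rat.ramificationIdx_eq (p * ℓ) F 𝔔 (p := ℓ) (k := 0) (m := p)
        (by ring) (fun h => hpq ((Nat.prime_dvd_prime_iff_eq hq hp).mp h).symm)
    have e2 : (𝔔.under (𝓞 K)).ramificationIdx ℤ = 1 :=
      IsCyclotomicExtension.Rat.ramificationIdx_eq_of_not_dvd ℓ K (𝔔.under (𝓞 K)) (m := p)
        (fun h => hpq ((Nat.prime_dvd_prime_iff_eq hq hp).mp h).symm)
    rw [e1, e2, pow_zero, one_mul, one_mul] at htower
    exact htower.symm
  · refine ⟨fun h => absurd (hmem.mp h) hℓq, fun _ => ?_⟩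
    by_cases hℓp' : ℓ = p
    · subst hℓp'
      have e1 : 𝔔.ramificationIdx ℤ = ℓ ^ 0 * (ℓ - 1) :=
        IsCyclotomicExtension.Rat.ramificationIdx_eq (ℓ * q) F 𝔔 (p := ℓ) (k := 0) (m := q)
          (by ring) (fun h => hpq ((Nat.prime_dvd_prime_iff_eq hp hq).mp h))
      have e2 : (𝔔.under (𝓞 K)).ramificationIdx ℤ = ℓ - 1 :=
        IsCyclotomicExtension.Rat.ramificationIdx_eq_of_prime ℓ K (𝔔.under (𝓞 K))
      rw [e1, e2, pow_zero, one_mul] at htower
      have hpos : 0 < ℓ - 1 := Nat.sub_pos_of_lt hp.one_lt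
      exact (Nat.eq_of_mul_eq_mul_left hpos (by rw [mul_one]; exact htower)).symm
    · have e1 : 𝔔.ramificationIdx ℤ = 1 :=
        IsCyclotomicExtension.Rat.ramificationIdx_eq_of_not_dvd ℓ F 𝔔 (m := p * q)
          (fun h => by
            rcases (Nat.Prime.dvd_mul hℓp).mp h with h | h
            · exact hℓp' ((Nat.prime_dvd_prime_iff_eq hℓp hp).mp h)
            · exact hℓq ((Nat.prime_dvd_prime_iff_eq hℓp hq).mp h))
      rw [e1] at htower
      exact Nat.eq_one_of_mul_eq_one_left htower.symm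

end S4

section S5

/-- Hilbert 90 in integral form for two units of relative norm one. -/
theorem exists_gamma {K F : Type} [Field K] [Field F] [NumberField K] [NumberField F]
    [Algebra K F] [IsGalois K F] (τ : F ≃ₐ[K] F) (hτ : ∀ x, x ∈ Subgroup.zpowers τ)
    {u₁ u₂ : 𝓞 F} (hu₂ : IsUnit u₂) (hn₁ : Algebra.norm K (u₁ : F) = 1)
    (hn₂ : Algebra.norm K (u₂ : F) = 1) :
    ∃ γ : 𝓞 F, γ ≠ 0 ∧ u₁ * galRestrict (𝓞 K) K F (𝓞 F) τ γ = u₂ * γ := by
  have : IsCyclic (F ≃ₐ[K] F) :=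
    isCyclic_iff_exists_zpowers_eq_top.mpr ⟨τ, (Subgroup.eq_top_iff' _).mpr hτ⟩
  obtain ⟨v, rfl⟩ := hu₂
  have hvinv : Algebra.norm K (((v⁻¹ : (𝓞 F)ˣ) : 𝓞 F) : F) = 1 := by
    have h1 : (((v : (𝓞 F)ˣ) : 𝓞 F) : F) * (((v⁻¹ : (𝓞 F)ˣ) : 𝓞 F) : F) = 1 := by
      rw [← map_mul, Units.mul_inv, map_one]
    have h2 := congrArg (Algebra.norm K) h1
    rwa [map_mul, hn₂, one_mul, map_one] at h2
  have hη : Algebra.norm K (algebraMap (𝓞 F) F (u₁ * ((v⁻¹ : (𝓞 F)ˣ) : 𝓞 F))) = 1 := by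
    rw [map_mul, map_mul]
    change Algebra.norm K (u₁ : F) * Algebra.norm K (((v⁻¹ : (𝓞 F)ˣ) : 𝓞 F) : F) = 1
    rw [hn₁, hvinv, one_mul]
  obtain ⟨γ, hγ0, hγ⟩ := groupCohomology.exists_mul_galRestrict_of_norm_eq_one
    (A := 𝓞 K) (B := 𝓞 F) hτ hη
  refine ⟨γ, hγ0, ?_⟩
  calc u₁ * galRestrict (𝓞 K) K F (𝓞 F) τ γ
      = (v : 𝓞 F) * (u₁ * ((v⁻¹ : (𝓞 F)ˣ) : 𝓞 F) * galRestrict (𝓞 K) K F (𝓞 F) τ γ) := by
        rw [show (v : 𝓞 F) * (u₁ * ((v⁻¹ : (𝓞 F)ˣ) : 𝓞 F) * galRestrict (𝓞 K) K F (𝓞 F) τ γ) =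
          ((v : 𝓞 F) * ((v⁻¹ : (𝓞 F)ˣ) : 𝓞 F)) * (u₁ * galRestrict (𝓞 K) K F (𝓞 F) τ γ) by ring,
          Units.mul_inv, one_mul]
    _ = (v : 𝓞 F) * γ := by rw [hγ]

end S5

section S6

variable (p : ℕ) [Fact p.Prime]
variable {K : Type} [Field K] [NumberField K] [IsCyclotomicExtension {p} ℚ K]
variable (q : ℕ) [Fact q.Prime]
variable (F : Type) [Field F] [NumberField F] [Algebra K F] [IsCyclotomicExtension {q} K F]

/-- On `𝓞 F = ℤ[ζ_p ζ_q]`, an automorphism over `K` is trivial modulo `ζ_q - 1`. -/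
theorem sub_one_dvd_galRestrict_sub (hpq : p ≠ q) {ζ : K} (hζ : IsPrimitiveRoot ζ p)
    (τ : F ≃ₐ[K] F) {s : ℕ}
    (hτs : τ (IsCyclotomicExtension.zeta q K F) = IsCyclotomicExtension.zeta q K F ^ s)
    (x : 𝓞 F) :
    ((IsCyclotomicExtension.zeta_spec q K F).toInteger - 1) ∣
      galRestrict (𝓞 K) K F (𝓞 F) τ x - x := by
  have hp : p.Prime := Fact.out
  have hq : q.Prime := Fact.out
  have hcop : Nat.Coprime p q := (Nat.coprime_primes hp hq).mpr hpq
  have := isCyclotomicExtension_mul p K q F hpq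
  have : NeZero (p * q) := ⟨(Nat.mul_pos hp.pos hq.pos).ne'⟩
  have : NeZero p := ⟨hp.ne_zero⟩
  have hζq := IsCyclotomicExtension.zeta_spec q K F
  have hζ' : IsPrimitiveRoot (algebraMap K F ζ) p := hζ.map_of_injective (algebraMap K F).injective
  have hprim : IsPrimitiveRoot (algebraMap K F ζ * IsCyclotomicExtension.zeta q K F) (p * q) := by
    rw [IsPrimitiveRoot.iff_orderOf, (Commute.all _ _).orderOf_mul_eq_mul_orderOf_of_coprime
      (by rwa [← hζ'.eq_orderOf, ← hζq.eq_orderOf]), ← hζ'.eq_orderOf, ← hζq.eq_orderOf]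
  have htop := IsCyclotomicExtension.Rat.adjoin_singleton_eq_top hprim
  set zq : 𝓞 F := hζq.toInteger with hzq
  set zp : 𝓞 F := algebraMap (𝓞 K) (𝓞 F) hζ.toInteger with hzp
  set τ' := galRestrict (𝓞 K) K F (𝓞 F) τ with hτ'
  have hgen : hprim.toInteger = zp * zq := by
    apply NumberField.RingOfIntegers.ext
    rfl
  have hτzq : τ' zq = zq ^ s := by
    apply NumberField.RingOfIntegers.ext
    have h1 : algebraMap (𝓞 F) F (τ' zq) = τ (algebraMap (𝓞 F) F zq) :=
      algebraMap_galRestrict_apply (𝓞 K) τ zq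
    change algebraMap (𝓞 F) F (τ' zq) = algebraMap (𝓞 F) F (zq ^ s)
    rw [h1, map_pow]
    exact hτs
  have hτzp : τ' zp = zp := AlgEquiv.commutes τ' _
  have hdvd : zq - 1 ∣ zq ^ s - 1 := by simpa using sub_dvd_pow_sub_pow zq 1 s
  have key : ∀ y ∈ Algebra.adjoin ℤ {hprim.toInteger}, zq - 1 ∣ τ' y - y := by
    intro y hy
    induction hy using Algebra.adjoin_induction with
    | mem y hy =>
      rw [Set.mem_singleton_iff] at hy
      rw [hy, hgen, map_mul, hτzp, hτzq]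
      have : zp * zq ^ s - zp * zq = zp * ((zq ^ s - 1) - (zq - 1)) := by ring
      rw [this]
      exact Dvd.dvd.mul_left (dvd_sub hdvd dvd_rfl) _
    | algebraMap r =>
      rw [eq_intCast, map_intCast, sub_self]
      exact dvd_zero _
    | add y z _ _ hy hz =>
      have : τ' (y + z) - (y + z) = (τ' y - y) + (τ' z - z) := by rw [map_add]; ring
      rw [this]
      exact dvd_add hy hz
    | mul y z _ _ hy hz =>
      have : τ' (y * z) - y * z = τ' y * (τ' z - z) + (τ' y - y) * z := by rw [map_mul]; ring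
      rw [this]
      exact dvd_add (Dvd.dvd.mul_left hz _) (Dvd.dvd.mul_right hy _)
  exact key x (htop ▸ Algebra.mem_top)

end S6

section S7

/-- (B1) multiplicities upstairs and downstairs for `κ = u * γ ^ n`. -/
theorem emultiplicity_relation {A B : Type*} [CommRing A] [IsDedekindDomain A] [CommRing B]
    [IsDedekindDomain B] [Algebra A B] [FaithfulSMul A B] (𝔔 : Ideal B) [𝔔.IsPrime] (h𝔔 : 𝔔 ≠ ⊥)
    (hP : 𝔔.under A ≠ ⊥) {κ : A} (hκ : κ ≠ 0) {γ u : B} (hu : IsUnit u) {n : ℕ}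
    (h : algebraMap A B κ = u * γ ^ n) :
    (n : ℕ∞) * emultiplicity 𝔔 (Ideal.span {γ}) =
      ((𝔔.under A).ramificationIdx' 𝔔 : ℕ∞) * emultiplicity (𝔔.under A) (Ideal.span {κ}) := by
  have hlo : 𝔔.LiesOver (𝔔.under A) := ⟨rfl⟩
  have hv : Irreducible (𝔔.under A) := (Ideal.prime_of_isPrime hP inferInstance).irreducible
  have hw : Prime 𝔔 := Ideal.prime_of_isPrime h𝔔 inferInstance
  have key := Ideal.IsDedekindDomain.emultiplicity_map_eq_ramificationIdx'_mul
    (I := Ideal.span {κ}) (by simpa using hκ) hv hw.irreducible h𝔔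
  rw [Ideal.map_span, Set.image_singleton, h, Ideal.span_singleton_mul_left_unit hu,
    ← Ideal.span_singleton_pow, emultiplicity_pow hw] at key
  exact key

variable (p : ℕ) [Fact p.Prime]
variable (K : Type) [Field K] [NumberField K] [IsCyclotomicExtension {p} ℚ K]
variable (q : ℕ) [Fact q.Prime]
variable (F : Type) [Field F] [NumberField F] [Algebra K F] [IsCyclotomicExtension {q} K F]

/-- (B2) `ζ_q - 1` is a uniformiser at every prime of `𝓞 F` above `q`. -/
theorem emultiplicity_zeta_sub_one (hpq : p ≠ q) (𝔔 : Ideal (𝓞 F)) [𝔔.IsPrime]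
    (hq𝔔 : (q : 𝓞 F) ∈ 𝔔) :
    emultiplicity 𝔔 (Ideal.span {(IsCyclotomicExtension.zeta_spec q K F).toInteger - 1}) = 1 := by
  have hp : p.Prime := Fact.out
  have hq : q.Prime := Fact.out
  have h𝔔 : 𝔔 ≠ ⊥ := by
    rintro rfl
    rw [Ideal.mem_bot] at hq𝔔
    exact hq.ne_zero (by exact_mod_cast hq𝔔)
  have : NeZero 𝔔 := ⟨h𝔔⟩
  have hℓp : (Ideal.absNorm (𝔔.under ℤ)).Prime := Nat.absNorm_under_prime 𝔔
  have hmem : Ideal.absNorm (𝔔.under ℤ) = q := by
    rw [← Int.cast_natCast, Int.cast_mem_ideal_iff, Int.natCast_dvd_natCast,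
      Nat.prime_dvd_prime_iff_eq hℓp hq] at hq𝔔
    exact hq𝔔
  have h1 : 𝔔.LiesOver (Ideal.span {(Ideal.absNorm (𝔔.under ℤ) : ℤ)}) :=
    Int.liesOver_span_absNorm 𝔔
  rw [hmem] at h1
  have hunder : 𝔔.under ℤ = Ideal.span {(q : ℤ)} := h1.over.symm
  have hq0 : Ideal.span {(q : ℤ)} ≠ ⊥ := by simp [hq.ne_zero]
  have := isCyclotomicExtension_mul p K q F hpq
  have : NeZero (p * q) := ⟨(Nat.mul_pos hp.pos hq.pos).ne'⟩
  have e1 : 𝔔.ramificationIdx ℤ = q ^ 0 * (q - 1) :=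
    IsCyclotomicExtension.Rat.ramificationIdx_eq (p * q) F 𝔔 (p := q) (k := 0) (m := p)
      (by ring) (fun h => hpq ((Nat.prime_dvd_prime_iff_eq hq hp).mp h).symm)
  have e2 : (Ideal.span {(q : ℤ)}).ramificationIdx' 𝔔 = q - 1 := by
    rw [Ideal.ramificationIdx'_eq_ramificationIdx _ 𝔔 hq0, e1, pow_zero, one_mul]
  obtain ⟨u, hu⟩ := IsCyclotomicExtension.Rat.associated_zeta_sub_one_pow_prime q
    (IsCyclotomicExtension.zeta_spec q K F)
  have hrel : algebraMap ℤ (𝓞 F) (q : ℤ) =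
      (u : 𝓞 F) * ((IsCyclotomicExtension.zeta_spec q K F).toInteger - 1) ^ (q - 1) := by
    rw [mul_comm, hu]; simp
  have key := emultiplicity_relation (A := ℤ) 𝔔 h𝔔 (by rw [hunder]; exact hq0)
    (κ := (q : ℤ)) (by exact_mod_cast hq.ne_zero) u.isUnit hrel
  rw [hunder, e2] at key
  have hself : emultiplicity (Ideal.span {(q : ℤ)}) (Ideal.span {(q : ℤ)}) = 1 := by
    have hprime : Prime (Ideal.span {(q : ℤ)}) :=
      Ideal.prime_of_isPrime hq0 (hunder ▸ inferInstance)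
    exact (FiniteMultiplicity.of_prime_left hprime hprime.ne_zero).emultiplicity_self
  rw [hself, mul_one] at key
  have hq1 : ((q - 1 : ℕ) : ℕ∞) ≠ 0 := by
    have : 0 < q - 1 := Nat.sub_pos_of_lt hq.one_lt
    exact_mod_cast this.ne'
  generalize emultiplicity 𝔔 _ = e at key ⊢
  cases e with
  | top =>
    rw [ENat.mul_top hq1] at key
    exact absurd key (ENat.top_ne_natCast _)
  | coe e =>
    have : (q - 1) * e = q - 1 := by exact_mod_cast key
    have he : e = 1 := by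
      have hpos : 0 < q - 1 := Nat.sub_pos_of_lt hq.one_lt
      exact Nat.eq_of_mul_eq_mul_left hpos (by rw [this, mul_one])
    rw [he]; rfl

end S7

end Fermat.Agent.S14.TF
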