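import Mathlib

/-!
# S14, slice T-F: local algebra lemmas (attachable sub-statements L1, L2, L3)

* `TL.exists_mul_eq_pow_mul` (L1): in a Dedekind domain, if `π` is a uniformiser at the prime
  `𝔔` and `γ` has multiplicity `a` at `𝔔`, then `γ * z = π ^ a * w` with `z, w ∉ 𝔔`.
* `TL.sub_pow_mem_of_relation` (L2): the congruence `c ≡ s ^ a mod 𝔔` from the relation
  `u₁ * τ γ = u₂ * γ`.
* `TL.exists_kappa` (L3): if `τ` generates `Gal(F/K)` and `τ γ = ξ γ` with `ξ` a unit, then the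
  norm `κ` of `γ` satisfies `κ = u * γ ^ [F : K]` with `u` a unit.
-/

set_option autoImplicit false
set_option maxSynthPendingDepth 3

open scoped NumberField

namespace Fermat.Agent.S14.TL

/-- (L1) -/
theorem exists_mul_eq_pow_mul {R : Type*} [CommRing R] [IsDedekindDomain R] {𝔔 : Ideal R}
    [𝔔.IsPrime] (h𝔔 : 𝔔 ≠ ⊥) {π γ : R} {a : ℕ}
    (hπ : emultiplicity 𝔔 (Ideal.span {π}) = 1) (hγ : emultiplicity 𝔔 (Ideal.span {γ}) = a) :
    ∃ z w : R, z ∉ 𝔔 ∧ w ∉ 𝔔 ∧ γ * z = π ^ a * w := by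
  have hprime : Prime 𝔔 := Ideal.prime_of_isPrime h𝔔 inferInstance
  -- `span {π} = 𝔔 * P'` with `P' ⊄ 𝔔`
  have h1 : 𝔔 ^ 1 ∣ Ideal.span {π} := pow_dvd_of_le_emultiplicity (by rw [hπ]; rfl)
  rw [pow_one] at h1
  obtain ⟨P', hP'⟩ := h1
  have hP'le : ¬ P' ≤ 𝔔 := by
    intro hle
    obtain ⟨J, hJ⟩ := Ideal.dvd_iff_le.mpr hle
    have h2 : 𝔔 ^ 2 ∣ Ideal.span {π} := ⟨J, by rw [hP', hJ, sq, mul_assoc]⟩
    have h3 := le_emultiplicity_of_pow_dvd h2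
    rw [hπ] at h3
    exact absurd h3 (by norm_num)
  -- `γ ∈ 𝔔 ^ a`
  have hγmem : γ ∈ 𝔔 ^ a := by
    have h2 : 𝔔 ^ a ∣ Ideal.span {γ} := pow_dvd_of_le_emultiplicity (by rw [hγ])
    exact Ideal.le_of_dvd h2 (Ideal.mem_span_singleton_self γ)
  -- choose `z ∈ P' ^ a`, `z ∉ 𝔔`
  have hpow : ¬ P' ^ a ≤ 𝔔 := by
    rcases Nat.eq_zero_or_pos a with h0 | h0
    · rw [h0, pow_zero, Ideal.one_eq_top, top_le_iff]
      exact Ideal.IsPrime.ne_top inferInstance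
    · rw [Ideal.IsPrime.pow_le_iff h0.ne']
      exact hP'le
  obtain ⟨z, hzP, hz𝔔⟩ := SetLike.not_le_iff_exists.mp hpow
  have hπ𝔔 : π ∈ 𝔔 := by
    have : Ideal.span {π} ≤ 𝔔 := Ideal.le_of_dvd ⟨P', hP'⟩
    exact this (Ideal.mem_span_singleton_self π)
  have hmem : γ * z ∈ Ideal.span {π ^ a} := by
    rw [← Ideal.span_singleton_pow, hP', mul_pow]
    exact Ideal.mul_mem_mul hγmem hzP
  obtain ⟨w, hw⟩ := Ideal.mem_span_singleton.mp hmem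
  refine ⟨z, w, hz𝔔, ?_, hw⟩
  intro hw𝔔
  have h2 : γ * z ∈ 𝔔 ^ (a + 1) := by
    rw [hw, pow_succ]
    exact Ideal.mul_mem_mul (Ideal.pow_mem_pow hπ𝔔 a) hw𝔔
  have h3 : 𝔔 ^ (a + 1) ∣ Ideal.span {γ} * Ideal.span {z} := by
    rw [Ideal.span_singleton_mul_span_singleton, Ideal.dvd_span_singleton]
    exact h2
  have h4 : ¬ 𝔔 ∣ Ideal.span {z} := by
    rw [Ideal.dvd_span_singleton]; exact hz𝔔
  have h5 := hprime.pow_dvd_of_dvd_mul_right (a + 1) h4 h3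
  have h6 := le_emultiplicity_of_pow_dvd h5
  rw [hγ] at h6
  have h7 : a + 1 ≤ a := by exact_mod_cast h6
  omega

/-- (L2) -/
theorem sub_pow_mem_of_relation {R : Type*} [CommRing R] [IsDomain R] {𝔔 : Ideal R} [𝔔.IsPrime]
    (τ : R ≃+* R) (hτ : ∀ x, τ x - x ∈ 𝔔) {π γ z w ε u₁ u₂ c : R} {a s : ℕ} (hπ0 : π ≠ 0)
    (hz : z ∉ 𝔔) (hw : w ∉ 𝔔) (hγ : γ * z = π ^ a * w)
    (hτπ : τ π = π * ε) (hε : ε - (s : R) ∈ 𝔔)
    (hu : u₁ * τ γ = u₂ * γ) (hu₁ : u₁ ∉ 𝔔) (hc : u₂ - c * u₁ ∈ 𝔔) :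
    c - (s : R) ^ a ∈ 𝔔 := by
  -- the key identity after cancelling `π ^ a`
  have h1 : τ γ * τ z = π ^ a * ε ^ a * τ w := by
    have := congrArg τ hγ
    rw [map_mul, map_mul, map_pow, hτπ, mul_pow] at this
    exact this
  have h2 : π ^ a * (u₁ * ε ^ a * τ w * z) = π ^ a * (u₂ * w * τ z) := by
    calc π ^ a * (u₁ * ε ^ a * τ w * z) = u₁ * (π ^ a * ε ^ a * τ w) * z := by ring
      _ = u₁ * (τ γ * τ z) * z := by rw [h1]
      _ = (u₁ * τ γ) * τ z * z := by ring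
      _ = (u₂ * γ) * τ z * z := by rw [hu]
      _ = u₂ * (γ * z) * τ z := by ring
      _ = u₂ * (π ^ a * w) * τ z := by rw [hγ]
      _ = π ^ a * (u₂ * w * τ z) := by ring
  have h3 : u₁ * ε ^ a * τ w * z = u₂ * w * τ z := mul_left_cancel₀ (pow_ne_zero a hπ0) h2
  -- reduce modulo `𝔔`
  set φ := Ideal.Quotient.mk 𝔔 with hφ
  have hφτ : ∀ x, φ (τ x) = φ x := fun x => Ideal.Quotient.eq.mpr (hτ x)
  have hφε : φ ε = φ (s : R) := Ideal.Quotient.eq.mpr hε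
  have hφu : φ u₂ = φ c * φ u₁ := by
    rw [← map_mul]; exact Ideal.Quotient.eq.mpr hc
  have hne : ∀ x, x ∉ 𝔔 → φ x ≠ 0 := fun x hx h =>
    hx (Ideal.Quotient.eq_zero_iff_mem.mp h)
  have h4 := congrArg φ h3
  simp only [map_mul, map_pow, hφτ, hφε, hφu] at h4
  have h5 : φ u₁ * φ w * φ z * (φ (s : R) ^ a) = φ u₁ * φ w * φ z * φ c := by
    rw [← sub_eq_zero] at h4 ⊢
    rw [← h4]; ring
  have h6 : φ (s : R) ^ a = φ c :=
    mul_left_cancel₀ (mul_ne_zero (mul_ne_zero (hne _ hu₁) (hne _ hw)) (hne _ hz)) h5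
  apply Ideal.Quotient.eq.mp
  rw [map_pow]
  exact h6.symm

/-- (L3) -/
theorem exists_kappa {K F : Type} [Field K] [Field F] [NumberField K] [NumberField F]
    [Algebra K F] [IsGalois K F] (τ : F ≃ₐ[K] F) (hτ : ∀ x, x ∈ Subgroup.zpowers τ)
    {γ ξ : 𝓞 F} (hγ0 : γ ≠ 0) (hξ : IsUnit ξ)
    (hγ : galRestrict (𝓞 K) K F (𝓞 F) τ γ = ξ * γ) :
    ∃ κ : 𝓞 K, κ ≠ 0 ∧ ∃ u : (𝓞 F)ˣ, algebraMap (𝓞 K) (𝓞 F) κ = u * γ ^ Module.finrank K F := by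
  classical
  -- every automorphism maps `γ` to an associate of `γ`
  have hall : ∀ σ : F ≃ₐ[K] F, Associated (galRestrict (𝓞 K) K F (𝓞 F) σ γ) γ := by
    let H : Subgroup (F ≃ₐ[K] F) :=
      { carrier := {σ | Associated (galRestrict (𝓞 K) K F (𝓞 F) σ γ) γ}
        one_mem' := by
          show Associated (galRestrict (𝓞 K) K F (𝓞 F) 1 γ) γ
          rw [map_one, AlgEquiv.one_apply]
        mul_mem' := by
          intro σ₁ σ₂ h₁ h₂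
          show Associated (galRestrict (𝓞 K) K F (𝓞 F) (σ₁ * σ₂) γ) γ
          rw [map_mul, AlgEquiv.mul_apply]
          exact (h₂.map (galRestrict (𝓞 K) K F (𝓞 F) σ₁)).trans h₁
        inv_mem' := by
          intro σ h
          show Associated (galRestrict (𝓞 K) K F (𝓞 F) σ⁻¹ γ) γ
          have h2 := Associated.map (galRestrict (𝓞 K) K F (𝓞 F) σ⁻¹) h
          rw [← AlgEquiv.mul_apply, ← map_mul, inv_mul_cancel, map_one, AlgEquiv.one_apply] at h2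
          exact h2.symm }
    have hτH : τ ∈ H := by
      show Associated (galRestrict (𝓞 K) K F (𝓞 F) τ γ) γ
      rw [hγ]
      exact associated_unit_mul_left γ ξ hξ
    intro σ
    exact (Subgroup.zpowers_le.mpr hτH) (hτ σ)
  -- the norm
  obtain ⟨κ, hκ⟩ : ∃ κ : 𝓞 K, algebraMap (𝓞 K) (𝓞 F) κ =
      ∏ σ : F ≃ₐ[K] F, galRestrict (𝓞 K) K F (𝓞 F) σ γ :=
    ⟨_, (prod_galRestrict_eq_norm (𝓞 K) K F (𝓞 F) γ).symm⟩
  have hassoc : Associated (∏ σ : F ≃ₐ[K] F, galRestrict (𝓞 K) K F (𝓞 F) σ γ)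
      (γ ^ Module.finrank K F) := by
    have h1 := Associated.prod (Finset.univ : Finset (F ≃ₐ[K] F))
      (fun σ => galRestrict (𝓞 K) K F (𝓞 F) σ γ) (fun _ => γ) (fun σ _ => hall σ)
    rw [Finset.prod_const, Finset.card_univ, ← Nat.card_eq_fintype_card,
      IsGalois.card_aut_eq_finrank] at h1
    exact h1
  obtain ⟨u, hu⟩ := hassoc
  have hκu : algebraMap (𝓞 K) (𝓞 F) κ = ((u⁻¹ : (𝓞 F)ˣ) : 𝓞 F) * γ ^ Module.finrank K F := by
    rw [hκ, ← hu, mul_comm, mul_assoc, Units.mul_inv, mul_one]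
  refine ⟨κ, ?_, u⁻¹, hκu⟩
  rintro rfl
  rw [map_zero] at hκu
  have h2 : γ ^ Module.finrank K F = 0 := by
    have := congrArg (fun x => (u : 𝓞 F) * x) hκu
    simpa using this.symm
  exact hγ0 (pow_eq_zero_iff (Module.finrank_pos (R := K) (M := F)).ne' |>.mp h2)

end Fermat.Agent.S14.TL
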