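import Mathlib
import Fermat.Agent.S14.ThaineF1
import Fermat.Agent.S14.ThaineLoc

/-!
# Slice T-F: the Kolyvagin–Thaine element

For `q ≡ 1 mod p` and `F = K(ζ_q)`: the units `u₁ = ζ_p - ζ_q`, `u₂ = ζ_p ^ 2 - ζ_q` of `𝓞 F` have
relative norm `1`; Hilbert 90 gives `γ` with `u₁ * τ γ = u₂ * γ` for a generator `τ` of
`Gal(F/K)`, and `κ = N_{F/K}(γ)` (up to a unit, `κ = γ ^ (q - 1)`) satisfies `ThaineKappa`.
-/

set_option autoImplicit false

open scoped NumberField nonZeroDivisors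
open Polynomial

namespace Fermat.Agent.S14.TF

variable (p : ℕ) [Fact p.Prime]
variable {K : Type} [Field K] [NumberField K] [IsCyclotomicExtension {p} ℚ K]
variable (q : ℕ) [Fact q.Prime]
variable (F : Type) [Field F] [NumberField F] [Algebra K F] [IsCyclotomicExtension {q} K F]

include F in
/-- The Kolyvagin–Thaine element at `q ≡ 1 mod p`, constructed in any model `F` of `K(ζ_q)`. -/
theorem thaineKappa_of_field (h3 : 3 ≤ p) (hq1 : q ≡ 1 [MOD p]) {ζ : K}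
    (hζ : IsPrimitiveRoot ζ p) : ThaineKappa p hζ q := by
  have hp : p.Prime := Fact.out
  have hq : q.Prime := Fact.out
  have hNp : NeZero p := ⟨hp.ne_zero⟩
  have hNq : NeZero q := ⟨hq.ne_zero⟩
  have hpdvd : p ∣ q - 1 := (Nat.modEq_iff_dvd' hq.one_lt.le).mp hq1.symm
  have hpq : p ≠ q := by
    rintro rfl
    have := Nat.le_of_dvd (Nat.sub_pos_of_lt hq.one_lt) hpdvd
    omega
  have hGal : IsGalois K F := IsCyclotomicExtension.isGalois {q} K F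
  obtain ⟨τ, s, hτ, hs, hτs⟩ := exists_generator p K q F hpq
  have hζq := IsCyclotomicExtension.zeta_spec q K F
  have hirr := irreducible_cyclotomic p K q F hpq
  have hfin := finrank_eq p K q F hpq
  set zq : 𝓞 F := hζq.toInteger with hzq
  set zK : 𝓞 K := hζ.toInteger with hzK
  set zp : 𝓞 F := algebraMap (𝓞 K) (𝓞 F) zK with hzp
  set τ' := galRestrict (𝓞 K) K F (𝓞 F) τ with hτ'
  have hinj : Function.Injective (algebraMap (𝓞 K) (𝓞 F)) :=
    FaithfulSMul.algebraMap_injective (𝓞 K) (𝓞 F)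
  have hzKprim : IsPrimitiveRoot zK p := hζ.toInteger_isPrimitiveRoot
  have hzqprim : IsPrimitiveRoot zq q := hζq.toInteger_isPrimitiveRoot
  have hzKq : zK ^ q = zK := by
    obtain ⟨k, hk⟩ := hpdvd
    have hq' : q = p * k + 1 := by have := hq.one_lt; omega
    rw [hq', pow_succ, pow_mul, hzKprim.pow_eq_one, one_pow, one_mul]
  have hzK1 : zK ≠ 1 := hzKprim.ne_one hp.one_lt
  have hzK21 : zK ^ 2 ≠ 1 := by
    intro h
    have h2 := hzKprim.dvd_of_pow_eq_one 2 h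
    have := Nat.le_of_dvd (by norm_num) h2
    omega
  have hu₁ : IsUnit (zp - zq) :=
    isUnit_sub_of_pow_eq q hzqprim (by rw [hzp, ← map_pow, hzKq])
      (fun h => hzK1 (hinj (by rw [← hzp, h, map_one])))
  have hu₂ : IsUnit (zp ^ 2 - zq) :=
    isUnit_sub_of_pow_eq q hzqprim
      (by rw [hzp, ← map_pow, ← map_pow, ← pow_mul, mul_comm, pow_mul, hzKq])
      (fun h => hzK21 (hinj (by rw [map_pow, ← hzp, h, map_one])))
  have hζq' : ζ ^ q = ζ := by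
    have h := congrArg (algebraMap (𝓞 K) K) hzKq
    rw [map_pow] at h
    exact h
  have hζ1 : ζ ≠ 1 := hζ.ne_one hp.one_lt
  have hζ21 : ζ ^ 2 ≠ 1 := by
    intro h
    have h2 := hζ.dvd_of_pow_eq_one 2 h
    have := Nat.le_of_dvd (by norm_num) h2
    omega
  have hn₁ : Algebra.norm K ((zp - zq : 𝓞 F) : F) = 1 := by
    have e : ((zp - zq : 𝓞 F) : F) = algebraMap K F ζ - IsCyclotomicExtension.zeta q K F := rfl
    rw [e, norm_algebraMap_sub hζq hirr ζ, eval_cyclotomic_eq_one q hζq' hζ1]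
  have hn₂ : Algebra.norm K ((zp ^ 2 - zq : 𝓞 F) : F) = 1 := by
    have e : ((zp ^ 2 - zq : 𝓞 F) : F) =
        algebraMap K F (ζ ^ 2) - IsCyclotomicExtension.zeta q K F := by
      rw [map_pow]; rfl
    rw [e, norm_algebraMap_sub hζq hirr (ζ ^ 2),
      eval_cyclotomic_eq_one q (by rw [← pow_mul, mul_comm, pow_mul, hζq']) hζ21]
  obtain ⟨γ, hγ0, hγ⟩ := exists_gamma τ hτ hu₂ hn₁ hn₂
  obtain ⟨v₁, hv₁⟩ := hu₁
  have hγ' : τ' γ = (((v₁⁻¹ : (𝓞 F)ˣ) : 𝓞 F) * (zp ^ 2 - zq)) * γ := by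
    rw [mul_assoc, ← hγ, ← hv₁, ← mul_assoc, Units.inv_mul, one_mul]
  obtain ⟨κ, hκ0, u, hκ⟩ := TL.exists_kappa τ hτ hγ0 ((v₁⁻¹).isUnit.mul hu₂) hγ'
  rw [hfin] at hκ
  have hover : ∀ P : Ideal (𝓞 K), P.IsPrime → P ≠ ⊥ →
      ∃ 𝔔 : Ideal (𝓞 F), 𝔔.IsPrime ∧ 𝔔 ≠ ⊥ ∧ 𝔔.under (𝓞 K) = P := by
    intro P hP hP0
    obtain ⟨𝔔, -, h𝔔prime, h𝔔P⟩ := Ideal.exists_ideal_over_prime_of_isIntegral P
      (⊥ : Ideal (𝓞 F)) (by rw [Ideal.comap_bot_of_injective _ hinj]; exact bot_le)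
    refine ⟨𝔔, h𝔔prime, ?_, h𝔔P⟩
    rintro rfl
    exact hP0 (h𝔔P ▸ Ideal.comap_bot_of_injective _ hinj)
  have hspanκ : Ideal.span {κ} ≠ (0 : Ideal (𝓞 K)) := by
    simpa using hκ0
  have hspanγ : Ideal.span {γ} ≠ (0 : Ideal (𝓞 F)) := by
    simpa using hγ0
  refine ⟨s, κ, hκ0, ?_, ?_⟩
  · intro P hP hP0 hqP
    obtain ⟨𝔔, h𝔔prime, h𝔔0, hPeq⟩ := hover P hP hP0
    have hq𝔔 : (q : 𝓞 F) ∉ 𝔔 := fun h => hqP (by
      rw [← hPeq, Ideal.under_def, Ideal.mem_comap, map_natCast]; exact h)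
    have hrel := emultiplicity_relation (A := 𝓞 K) 𝔔 h𝔔0 (hPeq ▸ hP0) hκ0 u.isUnit hκ
    rw [(ramificationIdx'_under p K q F hpq 𝔔 h𝔔0).2 hq𝔔, Nat.cast_one, one_mul, hPeq] at hrel
    have hfinP : FiniteMultiplicity P (Ideal.span {κ}) :=
      FiniteMultiplicity.of_prime_left (Ideal.prime_of_isPrime hP0 hP) hspanκ
    have hfin𝔔 : FiniteMultiplicity 𝔔 (Ideal.span {γ}) :=
      FiniteMultiplicity.of_prime_left (Ideal.prime_of_isPrime h𝔔0 h𝔔prime) hspanγ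
    rw [hfinP.emultiplicity_eq_multiplicity, hfin𝔔.emultiplicity_eq_multiplicity] at hrel
    have h' : (q - 1) * multiplicity 𝔔 (Ideal.span {γ}) = multiplicity P (Ideal.span {κ}) := by
      exact_mod_cast hrel
    rw [← h']
    exact Dvd.dvd.mul_right hpdvd _
  · intro P hP hqP
    have hP0 : P ≠ ⊥ := by
      rintro rfl
      rw [Ideal.mem_bot] at hqP
      exact hq.ne_zero (by exact_mod_cast hqP)
    obtain ⟨𝔔, h𝔔prime, h𝔔0, hPeq⟩ := hover P hP hP0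
    have hq𝔔 : (q : 𝓞 F) ∈ 𝔔 := by
      have : algebraMap (𝓞 K) (𝓞 F) (q : 𝓞 K) ∈ 𝔔 := by
        rw [← Ideal.mem_comap, ← Ideal.under_def, hPeq]; exact hqP
      simpa using this
    have hrel := emultiplicity_relation (A := 𝓞 K) 𝔔 h𝔔0 (hPeq ▸ hP0) hκ0 u.isUnit hκ
    rw [(ramificationIdx'_under p K q F hpq 𝔔 h𝔔0).1 hq𝔔, hPeq] at hrel
    have hfinP : FiniteMultiplicity P (Ideal.span {κ}) :=
      FiniteMultiplicity.of_prime_left (Ideal.prime_of_isPrime hP0 hP) hspanκ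
    have hfin𝔔 : FiniteMultiplicity 𝔔 (Ideal.span {γ}) :=
      FiniteMultiplicity.of_prime_left (Ideal.prime_of_isPrime h𝔔0 h𝔔prime) hspanγ
    rw [hfinP.emultiplicity_eq_multiplicity, hfin𝔔.emultiplicity_eq_multiplicity] at hrel
    have hmult : multiplicity 𝔔 (Ideal.span {γ}) = multiplicity P (Ideal.span {κ}) := by
      have h' : (q - 1) * multiplicity 𝔔 (Ideal.span {γ}) =
          (q - 1) * multiplicity P (Ideal.span {κ}) := by exact_mod_cast hrel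
      exact Nat.eq_of_mul_eq_mul_left (Nat.sub_pos_of_lt hq.one_lt) h'
    have hγa : emultiplicity 𝔔 (Ideal.span {γ}) = (multiplicity P (Ideal.span {κ}) : ℕ) := by
      rw [hfin𝔔.emultiplicity_eq_multiplicity, hmult]
    have hπ1 := emultiplicity_zeta_sub_one p K q F hpq 𝔔 hq𝔔
    obtain ⟨z, w, hz, hw, hzw⟩ := TL.exists_mul_eq_pow_mul h𝔔0 hπ1 hγa
    have hπmem : zq - 1 ∈ 𝔔 := by
      have hdvd : 𝔔 ∣ Ideal.span {zq - 1} :=
        dvd_of_emultiplicity_pos (by rw [hπ1]; exact zero_lt_one)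
      exact (Ideal.dvd_iff_le.mp hdvd) (Ideal.mem_span_singleton_self _)
    have hτmem : ∀ x, (τ' : 𝓞 F ≃+* 𝓞 F) x - x ∈ 𝔔 := fun x =>
      Ideal.mem_of_dvd 𝔔 (sub_one_dvd_galRestrict_sub p q F hpq hζ τ hτs x) hπmem
    have hπ0 : zq - 1 ≠ 0 := sub_ne_zero.mpr (hzqprim.ne_one hq.one_lt)
    have hτzq : τ' zq = zq ^ s := by
      apply NumberField.RingOfIntegers.ext
      have h1 : algebraMap (𝓞 F) F (τ' zq) = τ (algebraMap (𝓞 F) F zq) :=
        algebraMap_galRestrict_apply (𝓞 K) τ zq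
      change algebraMap (𝓞 F) F (τ' zq) = algebraMap (𝓞 F) F (zq ^ s)
      rw [h1, map_pow]
      exact hτs
    have hτπ : (τ' : 𝓞 F ≃+* 𝓞 F) (zq - 1) = (zq - 1) * ∑ i ∈ Finset.range s, zq ^ i := by
      change τ' (zq - 1) = _
      rw [map_sub, map_one, hτzq, mul_geom_sum]
    have hε : (∑ i ∈ Finset.range s, zq ^ i) - (s : 𝓞 F) ∈ 𝔔 := by
      rw [← Ideal.Quotient.eq]
      have h1 : Ideal.Quotient.mk 𝔔 zq = 1 := by
        rw [← map_one (Ideal.Quotient.mk 𝔔), Ideal.Quotient.eq]; exact hπmem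
      simp [map_sum, map_pow, h1]
    have hu₁' : (v₁ : 𝓞 F) ∉ 𝔔 := fun h =>
      h𝔔prime.ne_top (Ideal.eq_top_of_isUnit_mem _ h v₁.isUnit)
    have hc : (zp ^ 2 - zq) - algebraMap (𝓞 K) (𝓞 F) (1 + zK) * (v₁ : 𝓞 F) ∈ 𝔔 := by
      have : (zp ^ 2 - zq) - algebraMap (𝓞 K) (𝓞 F) (1 + zK) * (v₁ : 𝓞 F) = zp * (zq - 1) := by
        rw [hv₁, map_add, map_one]; ring
      rw [this]
      exact 𝔔.mul_mem_left _ hπmem
    have hfinal := TL.sub_pow_mem_of_relation (τ' : 𝓞 F ≃+* 𝓞 F) hτmem hπ0 hz hw hzw hτπ hε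
      (by rw [hv₁]; exact hγ) hu₁' hc
    have h2 : 1 + zK - (s : 𝓞 K) ^ multiplicity P (Ideal.span {κ}) ∈ 𝔔.under (𝓞 K) := by
      rw [Ideal.under_def, Ideal.mem_comap, map_sub, map_pow, map_natCast]
      exact hfinal
    rw [hPeq] at h2
    exact h2

end Fermat.Agent.S14.TF

namespace Fermat.Agent.S14

variable (p : ℕ) [Fact p.Prime]
variable {K : Type} [Field K] [NumberField K] [IsCyclotomicExtension {p} ℚ K]
variable {ζ : K} (hζ : IsPrimitiveRoot ζ p)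

/-- **Slice T-F**: the Kolyvagin–Thaine element exists at every prime `q ≡ 1 mod p`. -/
theorem thaineF (h3 : 3 ≤ p) : ThaineF p hζ := by
  intro q hq hq1
  have : Fact q.Prime := ⟨hq⟩
  have : NeZero q := ⟨hq.ne_zero⟩
  exact TF.thaineKappa_of_field p q (CyclotomicField q K) h3 hq1 hζ

end Fermat.Agent.S14
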