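import Fermat.Agent.S14.AIface

/-!
# S14, slice XS: Thaine's conclusion at one prime above `q` gives it at all primes above `q`

`Gal(K/ℚ)` acts transitively on the primes of `𝓞 K` above a rational prime `q`, and an
`ω²`-character `χ` satisfies `χ(σ Q) = χ(Q)^(a²)` with `p ∤ a`, so `χ` is non-trivial at every
prime above `q` as soon as it is non-trivial at one of them.
-/

set_option autoImplicit false

open scoped NumberField nonZeroDivisors Pointwise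

namespace Fermat.Agent.S14.XS

open Fermat.Agent.S14

variable (p : ℕ) [Fact p.Prime]
variable {K : Type} [Field K] [NumberField K]

/-- The value of `intAut K σ` in `K`. -/
theorem coe_intAut_apply (σ : K ≃ₐ[ℚ] K) (x : 𝓞 K) :
    ((intAut K σ x : 𝓞 K) : K) = σ (x : K) :=
  algebraMap_galRestrict_apply ℤ σ x

/-- The pointwise Galois action on ideals of `𝓞 K` is the map along `intAut`. -/
theorem smul_ideal_eq_map_intAut (σ : K ≃ₐ[ℚ] K) (Q : Ideal (𝓞 K)) :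
    σ • Q = Q.map ((intAut K σ : 𝓞 K ≃+* 𝓞 K) : 𝓞 K →+* 𝓞 K) := by
  rw [Ideal.pointwise_smul_def]
  congr 1
  ext x
  rw [RingHom.coe_coe, coe_intAut_apply]
  rfl

omit [NumberField K] in
/-- A prime ideal of `𝓞 K` containing the rational prime `q` lies over `(q)`. -/
theorem liesOver_span_of_mem {q : ℕ} (hq : q.Prime) (Q : Ideal (𝓞 K)) [hQ : Q.IsPrime]
    (hqQ : (q : 𝓞 K) ∈ Q) : Q.LiesOver (Ideal.span {(q : ℤ)}) := by
  have hmax : (Ideal.span {(q : ℤ)}).IsMaximal :=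
    PrincipalIdealRing.isMaximal_of_irreducible
      (Nat.prime_iff_prime_int.mp hq).irreducible
  have hle : Ideal.span {(q : ℤ)} ≤ Q.under ℤ := by
    rw [Ideal.span_singleton_le_iff_mem, Ideal.mem_comap]
    simpa using hqQ
  have hne : Q.under ℤ ≠ ⊤ := (Ideal.IsPrime.under ℤ Q).ne_top
  exact ⟨hmax.eq_of_le hne hle⟩

/-- `Gal(K/ℚ)` acts transitively on the primes of `𝓞 K` containing a rational prime `q`. -/
theorem exists_mapNonZero_eq [IsGalois ℚ K] {q : ℕ} (hq : q.Prime) (Q₀ Q : (Ideal (𝓞 K))⁰)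
    (hQ₀ : (Q₀ : Ideal (𝓞 K)).IsPrime) (hQ : (Q : Ideal (𝓞 K)).IsPrime)
    (hqQ₀ : (q : 𝓞 K) ∈ (Q₀ : Ideal (𝓞 K))) (hqQ : (q : 𝓞 K) ∈ (Q : Ideal (𝓞 K))) :
    ∃ σ : K ≃ₐ[ℚ] K, Ideal.mapNonZero (intAut K σ) Q₀ = Q := by
  have h1 := liesOver_span_of_mem hq (Q₀ : Ideal (𝓞 K)) hqQ₀
  have h2 := liesOver_span_of_mem hq (Q : Ideal (𝓞 K)) hqQ
  obtain ⟨σ, hσ⟩ := Ideal.exists_smul_eq_of_isGaloisGroup (Ideal.span {(q : ℤ)})
    (Q₀ : Ideal (𝓞 K)) (Q : Ideal (𝓞 K)) (K ≃ₐ[ℚ] K)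
  refine ⟨σ, Subtype.ext ?_⟩
  rw [Ideal.coe_mapNonZero, ← smul_ideal_eq_map_intAut]
  exact hσ

/-- In `Multiplicative (ZMod p)`, a non-trivial element stays non-trivial after raising to a power
prime to `p`. -/
theorem pow_ne_one_of_ne_one {x : Multiplicative (ZMod p)} (hx : x ≠ 1) {n : ℕ}
    (hn : (n : ZMod p) ≠ 0) : x ^ n ≠ 1 := by
  intro h
  have h' : n • Multiplicative.toAdd x = 0 := by
    have := congrArg Multiplicative.toAdd h
    simpa using this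
  rw [nsmul_eq_mul] at h'
  rcases mul_eq_zero.mp h' with h0 | h0
  · exact hn h0
  · exact hx (by simpa using congrArg Multiplicative.ofAdd h0)

variable [IsCyclotomicExtension {p} ℚ K] {ζ : K} (hζ : IsPrimitiveRoot ζ p)

omit [IsCyclotomicExtension {p} ℚ K] in
include hζ in
/-- Every automorphism raises `ζ` to a power `a` which is prime to `p`. -/
theorem exists_pow_eq (σ : K ≃ₐ[ℚ] K) : ∃ a : ℕ, σ ζ = ζ ^ a ∧ (a : ZMod p) ≠ 0 := by
  have hp : p.Prime := Fact.out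
  have hσ : IsPrimitiveRoot (σ ζ) p := hζ.map_of_injective σ.injective
  obtain ⟨a, -, ha⟩ := hζ.eq_pow_of_pow_eq_one hσ.pow_eq_one
  refine ⟨a, ha.symm, fun h0 => ?_⟩
  rw [ZMod.natCast_eq_zero_iff] at h0
  have h1 : ζ ^ a = 1 := (hζ.pow_eq_one_iff_dvd a).mpr h0
  rw [ha] at h1
  exact hσ.ne_one hp.one_lt h1

/-- **Slice XS.** -/
theorem xSubS2 : XSubS2 p hζ := by
  intro χ hχ hT q hqX
  obtain ⟨hqp, hq1, Q₀, hQ₀, hqQ₀, hχQ₀⟩ := hqX
  refine ⟨hqp, hq1, fun Q hQ hqQ => hT q hqp hq1 Q hQ hqQ ?_⟩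
  have : IsGalois ℚ K := IsCyclotomicExtension.isGalois {p} ℚ K
  obtain ⟨σ, hσ⟩ := exists_mapNonZero_eq hqp Q₀ Q hQ₀ hQ hqQ₀ hqQ
  obtain ⟨a, ha, ha0⟩ := exists_pow_eq p hζ σ
  have hval : χ (ClassGroup.mk0 Q) = χ (ClassGroup.mk0 Q₀) ^ (a ^ 2) := by
    rw [← hσ, ← ClassGroup.mulEquiv_mk0]
    exact hχ σ a ha _
  rw [hval]
  refine pow_ne_one_of_ne_one p hχQ₀ ?_
  rw [Nat.cast_pow]
  exact pow_ne_zero 2 ha0

end Fermat.Agent.S14.XS
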