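import Fermat.Agent.S14.ThaineIface
import Fermat.Agent.S14.XSubS2

/-!
# S14, slice T-K: from the element `κ` (ThaineF) to Thaine's relation in the class group

Main result: `Fermat.Agent.S14.thaineRel_of_kappa`.  No assumption that the stabiliser of `Q` is
trivial is needed: `∏_σ [σQ]^(v_{σQ} κ)` is the `|Stab|`-th power of the class of the `q`-part of
`(κ)`, and that class is a `p`-th power because the part of `(κ)` off `q` is.
-/

set_option autoImplicit false

open scoped NumberField nonZeroDivisors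

namespace Fermat.Agent.S14.TK

open Fermat.Agent.S14 UniqueFactorizationMonoid

section General

variable {R : Type*} [CommRing R] [IsDedekindDomain R]

/-- The class of an ideal (`1` for the zero ideal). -/
noncomputable def cls (P : Ideal R) : ClassGroup R := by
  classical
  exact if h : P = ⊥ then 1 else ClassGroup.mk0 ⟨P, mem_nonZeroDivisors_of_ne_zero h⟩

theorem cls_of_ne {P : Ideal R} (h : P ≠ ⊥) :
    cls P = ClassGroup.mk0 ⟨P, mem_nonZeroDivisors_of_ne_zero h⟩ := by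
  classical
  unfold cls
  rw [dif_neg h]

theorem cls_mul {P Q : Ideal R} (hP : P ≠ ⊥) (hQ : Q ≠ ⊥) : cls (P * Q) = cls P * cls Q := by
  have hPQ : P * Q ≠ ⊥ := mul_ne_zero hP hQ
  rw [cls_of_ne hP, cls_of_ne hQ, cls_of_ne hPQ, ← map_mul]
  rfl

theorem cls_one : cls (1 : Ideal R) = 1 := by
  have h1 : (1 : Ideal R) ≠ ⊥ := one_ne_zero
  rw [cls_of_ne h1]
  exact map_one ClassGroup.mk0

theorem cls_multiset_prod (m : Multiset (Ideal R)) (hm : ∀ P ∈ m, P ≠ ⊥) :
    cls m.prod = (m.map cls).prod := by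
  induction m using Multiset.induction_on with
  | empty => simpa using cls_one
  | cons P m ih =>
    have hP : P ≠ ⊥ := hm P (Multiset.mem_cons_self P m)
    have hm' : ∀ P' ∈ m, P' ≠ ⊥ := fun P' hP' => hm P' (Multiset.mem_cons_of_mem hP')
    have hprod : m.prod ≠ ⊥ := by
      apply Multiset.prod_ne_zero
      intro h0
      exact hm' _ h0 rfl
    rw [Multiset.prod_cons, Multiset.map_cons, Multiset.prod_cons, cls_mul hP hprod, ih hm']

theorem cls_span_singleton {κ : R} (hκ : κ ≠ 0) : cls (Ideal.span {κ}) = 1 := by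
  have h : Ideal.span {κ} ≠ ⊥ := by simpa using hκ
  rw [cls_of_ne h, ClassGroup.mk0_eq_one_iff]
  exact ⟨⟨κ, rfl⟩⟩

theorem multiplicity_eq_count {P : Ideal R} (hP : P.IsPrime) (hP0 : P ≠ ⊥) {I : Ideal R}
    (hI : I ≠ ⊥) : multiplicity P I = (normalizedFactors I).count P := by
  classical
  have hprime : Prime P := Ideal.prime_of_isPrime hP0 hP
  have hfm : FiniteMultiplicity P I := FiniteMultiplicity.of_prime_left hprime hI
  have h := UniqueFactorizationMonoid.emultiplicity_eq_count_normalizedFactors hprime.irreducible hI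
  rw [hfm.emultiplicity_eq_multiplicity, normalize_eq] at h
  exact_mod_cast h

open Classical in
/-- The part of the principal ideal `(κ)` supported on a set `S` of primes has a `p`-th power
class as soon as all multiplicities off `S` are divisible by `p`. -/
theorem exists_filter_prod_eq_pow {κ : R} (hκ : κ ≠ 0) (S : Set (Ideal R)) (p : ℕ)
    (hp : ∀ P : Ideal R, P.IsPrime → P ≠ ⊥ → P ∉ S → p ∣ multiplicity P (Ideal.span {κ})) :
    ∃ c : ClassGroup R,
      (((normalizedFactors (Ideal.span {κ})).filter (· ∈ S)).map cls).prod = c ^ p := by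
  set I := Ideal.span {κ} with hIdef
  have hI : I ≠ ⊥ := by simpa [hIdef] using hκ
  set m := normalizedFactors I with hm
  have hmprime : ∀ P ∈ m, P.IsPrime ∧ P ≠ ⊥ := fun P hP => by
    have := prime_of_normalized_factor P hP
    exact ⟨Ideal.isPrime_of_prime this, this.ne_zero⟩
  have hprod : (m.map cls).prod = 1 := by
    rw [← cls_multiset_prod m (fun P hP => (hmprime P hP).2), hm,
      Ideal.prod_normalizedFactors_eq_self hI]
    exact cls_span_singleton hκ
  have hsplit : m = m.filter (· ∈ S) + m.filter (fun P => ¬ P ∈ S) :=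
    (Multiset.filter_add_not _ m).symm
  have hrest : ∃ c₁ : ClassGroup R,
      ((m.filter (fun P => ¬ P ∈ S)).map cls).prod = c₁ ^ p := by
    rw [Finset.prod_multiset_map_count]
    have : ∀ P ∈ (m.filter (fun P => ¬ P ∈ S)).toFinset,
        ∃ k, (m.filter (fun P => ¬ P ∈ S)).count P = p * k := by
      intro P hP
      rw [Multiset.mem_toFinset, Multiset.mem_filter] at hP
      obtain ⟨hPm, hPS⟩ := hP
      obtain ⟨hPp, hP0⟩ := hmprime P hPm
      rw [Multiset.count_filter_of_pos (p := fun P => ¬ P ∈ S) hPS,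
        ← multiplicity_eq_count hPp hP0 hI]
      exact hp P hPp hP0 hPS
    choose! k hk using this
    refine ⟨∏ P ∈ (m.filter (fun P => ¬ P ∈ S)).toFinset, cls P ^ k P, ?_⟩
    rw [← Finset.prod_pow]
    refine Finset.prod_congr rfl (fun P hP => ?_)
    rw [hk P hP, pow_mul']
  obtain ⟨c₁, hc₁⟩ := hrest
  refine ⟨c₁⁻¹, ?_⟩
  have h2 : ((m.filter (· ∈ S)).map cls).prod *
      ((m.filter (fun P => ¬ P ∈ S)).map cls).prod = 1 := by
    rw [← Multiset.prod_add, ← Multiset.map_add, ← hsplit, hprod]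
  rw [hc₁] at h2
  rw [inv_pow]
  exact eq_inv_of_mul_eq_one_left h2

end General

section Main

variable {K : Type} [Field K] [NumberField K]

theorem intAut_mul (σ τ : K ≃ₐ[ℚ] K) : intAut K (σ * τ) = (intAut K τ).trans (intAut K σ) := by
  unfold intAut
  have h := (galRestrict ℤ ℚ K (𝓞 K)).map_mul σ τ
  rw [h]
  exact RingEquiv.ext fun _ => rfl

theorem intAut_one : intAut K 1 = RingEquiv.refl (𝓞 K) := by
  unfold intAut
  have h := (galRestrict ℤ ℚ K (𝓞 K)).map_one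
  rw [h]
  exact RingEquiv.ext fun _ => rfl

/-- The image of an ideal of `𝓞 K` under a Galois automorphism. -/
noncomputable def sI (σ : K ≃ₐ[ℚ] K) (Q : Ideal (𝓞 K)) : Ideal (𝓞 K) :=
  Q.map ((intAut K σ : 𝓞 K ≃+* 𝓞 K) : 𝓞 K →+* 𝓞 K)

theorem sI_mul (σ τ : K ≃ₐ[ℚ] K) (Q : Ideal (𝓞 K)) : sI (σ * τ) Q = sI σ (sI τ Q) := by
  unfold sI
  rw [intAut_mul, Ideal.map_map]
  rfl

theorem sI_one (Q : Ideal (𝓞 K)) : sI (1 : K ≃ₐ[ℚ] K) Q = Q := by
  unfold sI
  rw [intAut_one]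
  exact Ideal.map_id Q

theorem sI_inv_sI (σ : K ≃ₐ[ℚ] K) (Q : Ideal (𝓞 K)) : sI σ⁻¹ (sI σ Q) = Q := by
  rw [← sI_mul, inv_mul_cancel, sI_one]

theorem sI_injective (σ : K ≃ₐ[ℚ] K) : Function.Injective (sI (K := K) σ) := by
  intro Q Q' h
  rw [← sI_inv_sI σ Q, h, sI_inv_sI]

theorem mem_sI_iff (σ : K ≃ₐ[ℚ] K) (Q : Ideal (𝓞 K)) (x : 𝓞 K) :
    x ∈ sI σ Q ↔ (intAut K σ).symm x ∈ Q := by
  unfold sI
  rw [Ideal.mem_map_iff_of_surjective ((intAut K σ : 𝓞 K ≃+* 𝓞 K) : 𝓞 K →+* 𝓞 K)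
    (intAut K σ).surjective]
  constructor
  · rintro ⟨y, hy, rfl⟩
    have : (intAut K σ).symm (((intAut K σ : 𝓞 K ≃+* 𝓞 K) : 𝓞 K →+* 𝓞 K) y) = y :=
      (intAut K σ).symm_apply_apply y
    rw [this]
    exact hy
  · intro h
    exact ⟨_, h, (intAut K σ).apply_symm_apply x⟩

open Classical in
theorem card_fiber [Fintype (K ≃ₐ[ℚ] K)] (Q : Ideal (𝓞 K)) (σ₀ : K ≃ₐ[ℚ] K) :
    (Finset.univ.filter (fun σ : K ≃ₐ[ℚ] K => sI σ Q = sI σ₀ Q)).card =
      (Finset.univ.filter (fun τ : K ≃ₐ[ℚ] K => sI τ Q = Q)).card := by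
  refine Finset.card_bij' (fun σ _ => σ₀⁻¹ * σ) (fun τ _ => σ₀ * τ) ?_ ?_ ?_ ?_
  · intro σ hσ
    rw [Finset.mem_filter] at hσ ⊢
    refine ⟨Finset.mem_univ _, ?_⟩
    rw [sI_mul, hσ.2, sI_inv_sI]
  · intro τ hτ
    rw [Finset.mem_filter] at hτ ⊢
    refine ⟨Finset.mem_univ _, ?_⟩
    rw [sI_mul, hτ.2]
  · intro σ _
    simp
  · intro τ _
    simp

end Main

end Fermat.Agent.S14.TK

namespace Fermat.Agent.S14

open TK UniqueFactorizationMonoid in
/-- **Slice T-K**: an element `κ` as produced by the field side of Thaine's argument (for every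
prime `q ≡ 1 mod p`: multiplicities of `(κ)` divisible by `p` off `q`, and
`1 + ζ ≡ s ^ v_P(κ) mod P` at the primes `P` above `q`) gives Thaine's relation in the class
group.  The hypothesis is the literal unfolding of `ThaineF p hζ` (S14/ThaineIface.lean). -/
theorem thaineRel_of_kappa (p : ℕ) [Fact p.Prime] {K : Type} [Field K] [NumberField K]
    [IsCyclotomicExtension {p} ℚ K] {ζ : K} (hζ : IsPrimitiveRoot ζ p)
    (hF : ∀ q : ℕ, q.Prime → q ≡ 1 [MOD p] →
      have : NeZero p := ⟨(Fact.out : p.Prime).ne_zero⟩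
      ∃ (s : ℕ) (κ : 𝓞 K), κ ≠ 0 ∧
        (∀ P : Ideal (𝓞 K), P.IsPrime → P ≠ ⊥ → (q : 𝓞 K) ∉ P →
          p ∣ multiplicity P (Ideal.span {κ})) ∧
        (∀ P : Ideal (𝓞 K), P.IsPrime → (q : 𝓞 K) ∈ P →
          1 + hζ.toInteger - (s : 𝓞 K) ^ multiplicity P (Ideal.span {κ}) ∈ P)) :
    ThaineRel p hζ := by
  classical
  intro q hq hqp Q hQ hqQ
  have : NeZero p := ⟨(Fact.out : p.Prime).ne_zero⟩
  obtain ⟨s, κ, hκ, hK1, hK2⟩ := hF q hq hqp
  have : IsGalois ℚ K := IsCyclotomicExtension.isGalois {p} ℚ K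
  have hI0 : Ideal.span {κ} ≠ ⊥ := by simpa using hκ
  have hQ0 : (Q : Ideal (𝓞 K)) ≠ ⊥ := nonZeroDivisors.coe_ne_zero Q
  have hprime : ∀ σ : K ≃ₐ[ℚ] K, (sI σ (Q : Ideal (𝓞 K))).IsPrime := fun σ =>
    Ideal.map_isPrime_of_equiv (intAut K σ)
  have hne : ∀ σ : K ≃ₐ[ℚ] K, sI σ (Q : Ideal (𝓞 K)) ≠ ⊥ := fun σ h => by
    apply hQ0
    rw [← sI_inv_sI σ (Q : Ideal (𝓞 K)), h]
    unfold sI
    exact Ideal.map_bot
  have hqmem : ∀ σ : K ≃ₐ[ℚ] K, (q : 𝓞 K) ∈ sI σ (Q : Ideal (𝓞 K)) := fun σ => by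
    rw [mem_sI_iff, map_natCast]
    exact hqQ
  refine ⟨s, fun σ => multiplicity (sI σ (Q : Ideal (𝓞 K))) (Ideal.span {κ}), ?_, ?_⟩
  · set m := normalizedFactors (Ideal.span {κ}) with hm
    set S : Set (Ideal (𝓞 K)) := {P | (q : 𝓞 K) ∈ P} with hS
    obtain ⟨c, hc⟩ := exists_filter_prod_eq_pow hκ S p
      (fun P hP hP0 hPS => hK1 P hP hP0 hPS)
    set N := (Finset.univ.filter
      (fun τ : K ≃ₐ[ℚ] K => sI τ (Q : Ideal (𝓞 K)) = (Q : Ideal (𝓞 K)))).card with hN
    refine ⟨c ^ N, ?_⟩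
    have h1 : ∀ σ : K ≃ₐ[ℚ] K, clAct K σ (ClassGroup.mk0 Q) ^
        multiplicity (sI σ (Q : Ideal (𝓞 K))) (Ideal.span {κ}) =
        (fun P => cls P ^ m.count P) (sI σ (Q : Ideal (𝓞 K))) := by
      intro σ
      show ClassGroup.mulEquiv (intAut K σ) (ClassGroup.mk0 Q) ^ _ = _
      rw [ClassGroup.mulEquiv_mk0, multiplicity_eq_count (hprime σ) (hne σ) hI0]
      show _ = cls (sI σ (Q : Ideal (𝓞 K))) ^ m.count (sI σ (Q : Ideal (𝓞 K)))
      rw [cls_of_ne (hne σ)]
      rfl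
    rw [Finset.prod_congr rfl (fun σ _ => h1 σ),
      Finset.prod_comp (fun P => cls P ^ m.count P) (fun σ => sI σ (Q : Ideal (𝓞 K)))]
    have h2 : ∀ P ∈ Finset.univ.image (fun σ : K ≃ₐ[ℚ] K => sI σ (Q : Ideal (𝓞 K))),
        (cls P ^ m.count P) ^ (Finset.univ.filter
          (fun σ : K ≃ₐ[ℚ] K => sI σ (Q : Ideal (𝓞 K)) = P)).card = (cls P ^ m.count P) ^ N := by
      intro P hP
      obtain ⟨σ₀, -, rfl⟩ := Finset.mem_image.mp hP
      rw [card_fiber]
    rw [Finset.prod_congr rfl h2, Finset.prod_pow, pow_right_comm, ← hc,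
      Finset.prod_multiset_map_count]
    congr 1
    symm
    have h3 : ∀ P ∈ (m.filter (· ∈ S)).toFinset,
        cls P ^ (m.filter (· ∈ S)).count P = cls P ^ m.count P := by
      intro P hP
      rw [Multiset.mem_toFinset, Multiset.mem_filter] at hP
      rw [Multiset.count_filter_of_pos (p := (· ∈ S)) hP.2]
    rw [Finset.prod_congr rfl h3]
    apply Finset.prod_subset
    · intro P hP
      rw [Multiset.mem_toFinset, Multiset.mem_filter] at hP
      obtain ⟨hPm, hPS⟩ := hP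
      have hPprime := prime_of_normalized_factor P hPm
      have hPp : P.IsPrime := Ideal.isPrime_of_prime hPprime
      have hP0 : P ≠ ⊥ := hPprime.ne_zero
      obtain ⟨σ, hσ⟩ := XS.exists_mapNonZero_eq hq Q
        ⟨P, mem_nonZeroDivisors_of_ne_zero hP0⟩ hQ hPp hqQ hPS
      rw [Finset.mem_image]
      refine ⟨σ, Finset.mem_univ _, ?_⟩
      have := congrArg (fun X : (Ideal (𝓞 K))⁰ => (X : Ideal (𝓞 K))) hσ
      exact this
    · intro P hP hPn
      obtain ⟨σ₀, -, rfl⟩ := Finset.mem_image.mp hP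
      have hcount : m.count (sI σ₀ (Q : Ideal (𝓞 K))) = 0 := by
        rw [Multiset.count_eq_zero]
        intro hmem
        apply hPn
        rw [Multiset.mem_toFinset, Multiset.mem_filter]
        exact ⟨hmem, hqmem σ₀⟩
      rw [hcount, pow_zero]
  · intro σ
    have h := hK2 (sI σ (Q : Ideal (𝓞 K))) (hprime σ) (hqmem σ)
    rw [mem_sI_iff, map_sub, map_pow, map_natCast] at h
    exact h

/-- **Slice T-K** in interface form (`ThaineK p hζ = ThaineF p hζ → ThaineRel p hζ`). -/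
theorem thaineK (p : ℕ) [Fact p.Prime] {K : Type} [Field K] [NumberField K]
    [IsCyclotomicExtension {p} ℚ K] {ζ : K} (hζ : IsPrimitiveRoot ζ p) : ThaineK p hζ :=
  fun hF => thaineRel_of_kappa p hζ hF

end Fermat.Agent.S14
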