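import Fermat.Agent.S14.Iface

/-!
# S14, slice U3: the `ω²`-eigenspace of units modulo `p`-th powers

For `K = ℚ(ζ_p)` and a generator `σ` of `Gal(K/ℚ)`, the characteristic polynomial of `σ` acting
on the lattice `(𝓞 K)ˣ / torsion` is `1 + X + ⋯ + X^(n-1)`, `n` the number of infinite places
(Cayley-Hamilton, the product formula and the fact that the unit lattice spans the trace-zero
hyperplane, on which the cyclic shift of the places acts faithfully in degree `< n - 1`).
This polynomial is separable modulo `p`, so every eigenspace of `σ` on the lattice modulo `p` is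
at most a line.  Main result: `Fermat.Agent.S14.unitDim_of_hasL2`.
-/

set_option autoImplicit false
set_option maxSynthPendingDepth 3
set_option linter.unusedSectionVars false

open scoped NumberField nonZeroDivisors
open Polynomial NumberField NumberField.Units NumberField.InfinitePlace
open NumberField.Units.dirichletUnitTheorem

namespace Fermat.Agent.S14.UDim

/-- **Part A** (linear algebra): an endomorphism of a free `ℤ`-module of finite rank whose
characteristic polynomial has the residue of `e` as a root of multiplicity at most one modulo `p`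
has an at most one-dimensional `e`-eigenspace modulo `p`. -/
theorem eigen_line {Λ : Type*} [AddCommGroup Λ] [Module.Free ℤ Λ] [Module.Finite ℤ Λ]
    (φ : Λ →ₗ[ℤ] Λ) (p : ℕ) [Fact p.Prime] (e : ℤ)
    (hroot : (φ.charpoly.map (Int.castRingHom (ZMod p))).rootMultiplicity (e : ZMod p) ≤ 1)
    (x y : Λ) (hx : ∃ x', φ x = e • x + (p : ℤ) • x') (hy : ∃ y', φ y = e • y + (p : ℤ) • y')
    (hy0 : ¬ ∃ z, y = (p : ℤ) • z) :
    ∃ (k : ℕ) (z : Λ), x = k • y + (p : ℤ) • z := by
  classical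
  let ι := Module.Free.ChooseBasisIndex ℤ Λ
  let b : Module.Basis ι ℤ Λ := Module.Free.chooseBasis ℤ Λ
  let A : Matrix ι ι ℤ := LinearMap.toMatrix b b φ
  let Ab : Matrix ι ι (ZMod p) := A.map (Int.castRingHom (ZMod p))
  let ψ : (ι → ZMod p) →ₗ[ZMod p] (ι → ZMod p) := Matrix.toLin' Ab
  have hψ : ψ.charpoly = φ.charpoly.map (Int.castRingHom (ZMod p)) := by
    rw [← LinearMap.charpoly_toMatrix ψ (Pi.basisFun (ZMod p) ι), LinearMap.toMatrix_eq_toMatrix',
      LinearMap.toMatrix'_toLin', Matrix.charpoly_map, LinearMap.charpoly_toMatrix]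
  let red : Λ → (ι → ZMod p) := fun v i => ((b.repr v i : ℤ) : ZMod p)
  have hred : ∀ v v', φ v = e • v + (p : ℤ) • v' → ψ (red v) = (e : ZMod p) • red v := by
    intro v v' h
    funext i
    have h1 := congrFun (LinearMap.toMatrix_mulVec_repr b b φ v) i
    have h2 := RingHom.map_mulVec (Int.castRingHom (ZMod p)) A (b.repr v) i
    rw [h1, h] at h2
    simp only [Matrix.toLin'_apply, ψ, Ab, red]
    have h3 : (Int.castRingHom (ZMod p)) ((b.repr (e • v + (p : ℤ) • v')) i)
        = (e : ZMod p) * ((b.repr v i : ℤ) : ZMod p) := by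
      simp
    rw [h3] at h2
    rw [Pi.smul_apply, smul_eq_mul, h2]
    rfl
  have hker : ∀ v, red v = 0 → ∃ z, v = (p : ℤ) • z := by
    intro v hv
    have hdvd : ∀ i, (p : ℤ) ∣ b.repr v i := by
      intro i
      have := congrFun hv i
      simp only [red, Pi.zero_apply] at this
      exact (ZMod.intCast_zmod_eq_zero_iff_dvd _ _).mp this
    choose c hc using hdvd
    refine ⟨∑ i, c i • b i, ?_⟩
    rw [Finset.smul_sum]
    conv_lhs => rw [← b.sum_repr v]
    refine Finset.sum_congr rfl fun i _ => ?_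
    rw [hc i, mul_smul]
  have hlin : ∀ (k : ℕ) v w, red (v - k • w) = red v - (k : ZMod p) • red w := by
    intro k v w
    funext i
    simp [red]
  obtain ⟨x', hx'⟩ := hx
  obtain ⟨y', hy'⟩ := hy
  have hxe : red x ∈ Module.End.eigenspace ψ (e : ZMod p) :=
    Module.End.mem_eigenspace_iff.mpr (hred x x' hx')
  have hye : red y ∈ Module.End.eigenspace ψ (e : ZMod p) :=
    Module.End.mem_eigenspace_iff.mpr (hred y y' hy')
  have hfin : Module.finrank (ZMod p) (Module.End.eigenspace ψ (e : ZMod p)) ≤ 1 := by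
    refine (LinearMap.finrank_eigenspace_le ψ _).trans ?_
    rw [hψ]
    exact hroot
  obtain ⟨v0, hv0⟩ := finrank_le_one_iff.mp hfin
  obtain ⟨cx, hcx⟩ := hv0 ⟨red x, hxe⟩
  obtain ⟨cy, hcy⟩ := hv0 ⟨red y, hye⟩
  have hcx' : cx • (v0 : ι → ZMod p) = red x := by
    have := congrArg Subtype.val hcx
    simpa using this
  have hcy' : cy • (v0 : ι → ZMod p) = red y := by
    have := congrArg Subtype.val hcy
    simpa using this
  have hy_ne : red y ≠ 0 := fun h => hy0 (hker y h)
  have hcy0 : cy ≠ 0 := by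
    rintro rfl
    rw [zero_smul] at hcy'
    exact hy_ne hcy'.symm
  have hp : p.Prime := Fact.out
  have : NeZero p := ⟨hp.ne_zero⟩
  let k : ℕ := (cx * cy⁻¹).val
  have hk : (k : ZMod p) = cx * cy⁻¹ := ZMod.natCast_zmod_val _
  obtain ⟨z, hz⟩ := hker (x - k • y) (by
    rw [hlin, hk, ← hcx', ← hcy', smul_smul, mul_assoc, inv_mul_cancel₀ hcy0, mul_one, sub_self])
  exact ⟨k, z, by rw [← hz]; abel⟩


variable (K : Type) [Field K] [NumberField K]

/-- The action of `Gal(K/ℚ)` on the units of the ring of integers. -/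
noncomputable def unitAut (σ : K ≃ₐ[ℚ] K) : (𝓞 K)ˣ ≃* (𝓞 K)ˣ :=
  Units.mapEquiv (intAut K σ).toMulEquiv

theorem coe_intAut (σ : K ≃ₐ[ℚ] K) (x : 𝓞 K) : ((intAut K σ x : 𝓞 K) : K) = σ (x : K) :=
  algebraMap_galRestrict_apply ℤ σ x

theorem coe_unitAut (σ : K ≃ₐ[ℚ] K) (u : (𝓞 K)ˣ) :
    ((unitAut K σ u : (𝓞 K)ˣ) : 𝓞 K) = intAut K σ (u : 𝓞 K) := rfl

theorem unitAut_mem_torsion (σ : K ≃ₐ[ℚ] K) :
    torsion K ≤ Subgroup.comap (unitAut K σ).toMonoidHom (torsion K) := by
  intro u hu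
  rw [Subgroup.mem_comap]
  have h1 : IsOfFinOrder u := (CommGroup.mem_torsion _).mp hu
  exact (CommGroup.mem_torsion _).mpr ((unitAut K σ).toMonoidHom.isOfFinOrder h1)

/-- The lattice of units modulo torsion. -/
abbrev Lat : Type := Additive ((𝓞 K)ˣ ⧸ torsion K)

/-- The class of a unit in the lattice. -/
def cls (u : (𝓞 K)ˣ) : Lat K := Additive.ofMul (QuotientGroup.mk u)

theorem cls_surjective : Function.Surjective (cls K) := by
  intro x
  obtain ⟨u, hu⟩ := QuotientGroup.mk_surjective (Additive.toMul x)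
  exact ⟨u, by rw [cls, hu]; rfl⟩

/-- The endomorphism of the unit lattice induced by `σ`. -/
noncomputable def latAut (σ : K ≃ₐ[ℚ] K) : Lat K →ₗ[ℤ] Lat K :=
  (MonoidHom.toAdditive (QuotientGroup.map (torsion K) (torsion K) (unitAut K σ).toMonoidHom
    (unitAut_mem_torsion K σ))).toIntLinearMap

theorem latAut_cls (σ : K ≃ₐ[ℚ] K) (u : (𝓞 K)ˣ) :
    latAut K σ (cls K u) = cls K (unitAut K σ u) := rfl

open scoped Classical in
/-- The section of the restriction map from the log space to the full space of places. -/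
noncomputable def sec : logSpace K →ₗ[ℝ] (InfinitePlace K → ℝ) where
  toFun y w := if h : w = w₀ then - ∑ w', y w' else y ⟨w, h⟩
  map_add' y z := by
    funext w
    by_cases h : w = w₀
    · simp [h, Finset.sum_add_distrib]; ring
    · simp [h]
  map_smul' c y := by
    funext w
    by_cases h : w = w₀
    · simp [h, Finset.mul_sum]
    · simp [h]

open scoped Classical in
theorem sec_apply_of_ne (y : logSpace K) (w : InfinitePlace K) (h : w ≠ w₀) :
    sec K y w = y ⟨w, h⟩ := by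
  simp [sec, h]

open scoped Classical in
theorem sec_apply_w₀ (y : logSpace K) : sec K y w₀ = - ∑ w', y w' := by
  simp [sec]

/-- The full logarithmic embedding on the unit lattice. -/
noncomputable def Lq : Lat K →ₗ[ℤ] (InfinitePlace K → ℝ) :=
  ((sec K).restrictScalars ℤ).comp (logEmbeddingQuot K).toIntLinearMap

theorem Lq_cls_eq_sec (u : (𝓞 K)ˣ) :
    Lq K (cls K u) = sec K (logEmbedding K (Additive.ofMul u)) := by
  simp only [Lq, cls, LinearMap.comp_apply, AddMonoidHom.coe_toIntLinearMap,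
    LinearMap.restrictScalars_apply]
  rw [logEmbeddingQuot_apply]

open scoped Classical in
theorem Lq_cls (u : (𝓞 K)ˣ) (w : InfinitePlace K) :
    Lq K (cls K u) w = mult w * Real.log (w ((u : 𝓞 K) : K)) := by
  rw [Lq_cls_eq_sec]
  by_cases h : w = w₀
  · subst h
    rw [sec_apply_w₀, sum_logEmbedding_component, neg_mul, neg_neg]
  · rw [sec_apply_of_ne K _ w h, logEmbedding_component]

theorem Lq_injective : Function.Injective (Lq K) := by
  intro x y hxy
  apply logEmbeddingQuot_injective K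
  funext w
  have := congrFun hxy w.1
  simp only [Lq, LinearMap.comp_apply, AddMonoidHom.coe_toIntLinearMap,
    LinearMap.restrictScalars_apply] at this
  rwa [sec_apply_of_ne K _ w.1 w.2, sec_apply_of_ne K _ w.1 w.2] at this

theorem sum_Lq (x : Lat K) : ∑ w, Lq K x w = 0 := by
  obtain ⟨u, rfl⟩ := cls_surjective K x
  simp_rw [Lq_cls]
  exact sum_mult_mul_log u

theorem mult_smul (σ : K ≃ₐ[ℚ] K) (w : InfinitePlace K) : mult (σ • w) = mult w := by
  have h := isReal_smul_iff (σ := σ) (w := w)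
  by_cases hw : IsReal w
  · rw [mult, mult, if_pos hw, if_pos (h.mpr hw)]
  · rw [mult, mult, if_neg hw, if_neg (fun h' => hw (h.mp h'))]

theorem Lq_latAut (σ : K ≃ₐ[ℚ] K) (x : Lat K) (w : InfinitePlace K) :
    Lq K (latAut K σ x) w = Lq K x (σ⁻¹ • w) := by
  obtain ⟨u, rfl⟩ := cls_surjective K x
  rw [latAut_cls, Lq_cls, Lq_cls, mult_smul, InfinitePlace.smul_apply, coe_unitAut, coe_intAut]
  rfl

theorem Lq_latAut_pow (σ : K ≃ₐ[ℚ] K) (i : ℕ) (x : Lat K) (w : InfinitePlace K) :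
    Lq K ((latAut K σ ^ i) x) w = Lq K x ((σ ^ i)⁻¹ • w) := by
  induction i generalizing w with
  | zero => simp
  | succ i ih =>
    rw [pow_succ', Module.End.mul_apply, Lq_latAut, ih, ← mul_smul, pow_succ' σ i, mul_inv_rev]

open scoped Classical in
theorem sec_restrict (v : InfinitePlace K → ℝ) (hv : ∑ w, v w = 0) :
    sec K (fun w => v w.1) = v := by
  funext w
  by_cases h : w = w₀
  · subst h
    rw [sec_apply_w₀]
    rw [Fintype.sum_eq_add_sum_subtype_ne _ w₀] at hv
    linarith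
  · rw [sec_apply_of_ne K _ w h]

variable {K}

theorem exists_smul_eq [IsGalois ℚ K] (w w' : InfinitePlace K) :
    ∃ τ : K ≃ₐ[ℚ] K, τ • w = w' :=
  exists_smul_eq_of_comap_eq (Subsingleton.elim _ _)

theorem dvd_of_pow_smul_eq [IsGalois ℚ K] {σ : K ≃ₐ[ℚ] K}
    (hσ : ∀ τ : K ≃ₐ[ℚ] K, τ ∈ Subgroup.zpowers σ) (w : InfinitePlace K) (d : ℕ)
    (h : σ ^ d • w = w) : Fintype.card (InfinitePlace K) ∣ d := by
  have : MulAction.IsPretransitive (K ≃ₐ[ℚ] K) (InfinitePlace K) := ⟨exists_smul_eq⟩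
  have h1 : (MulAction.stabilizer (K ≃ₐ[ℚ] K) w).index = Nat.card (InfinitePlace K) :=
    MulAction.index_stabilizer_of_transitive _ w
  have h2 := Subgroup.card_mul_index (MulAction.stabilizer (K ≃ₐ[ℚ] K) w)
  have h3 : orderOf σ = Nat.card (K ≃ₐ[ℚ] K) := orderOf_eq_card_of_forall_mem_zpowers hσ
  have h4 : (σ ^ d) ^ Nat.card (MulAction.stabilizer (K ≃ₐ[ℚ] K) w) = 1 := by
    have := pow_card_eq_one' (G := MulAction.stabilizer (K ≃ₐ[ℚ] K) w) (x := ⟨σ ^ d, h⟩)
    have h' := congrArg Subtype.val this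
    simpa using h'
  rw [← pow_mul] at h4
  have h5 := orderOf_dvd_of_pow_eq_one h4
  rw [h3, ← h2, h1, mul_comm d] at h5
  have h6 := Nat.dvd_of_mul_dvd_mul_left Nat.card_pos h5
  rwa [Nat.card_eq_fintype_card] at h6

theorem injOn_orbit [IsGalois ℚ K] {σ : K ≃ₐ[ℚ] K}
    (hσ : ∀ τ : K ≃ₐ[ℚ] K, τ ∈ Subgroup.zpowers σ) (w : InfinitePlace K) :
    Set.InjOn (fun i : ℕ => (σ ^ i)⁻¹ • w)
      (Finset.range (Fintype.card (InfinitePlace K)) : Set ℕ) := by
  have key : ∀ i j : ℕ, i ≤ j → j < Fintype.card (InfinitePlace K) →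
      (σ ^ i)⁻¹ • w = (σ ^ j)⁻¹ • w → i = j := by
    intro i j hij hj h
    have h1 : σ ^ (j - i) • w = w := by
      have h2 : σ ^ j • (σ ^ i)⁻¹ • w = w := by rw [h, smul_inv_smul]
      rwa [← mul_smul, ← pow_sub σ hij] at h2
    have h3 := dvd_of_pow_smul_eq hσ w _ h1
    have h4 : j - i = 0 := Nat.eq_zero_of_dvd_of_lt h3 (by omega)
    omega
  intro i hi j hj h
  simp only [Finset.coe_range, Set.mem_Iio] at hi hj
  rcases le_total i j with hij | hij
  · exact key i j hij hj h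
  · exact (key j i hij hi h.symm).symm

theorem sum_orbit [IsGalois ℚ K] {σ : K ≃ₐ[ℚ] K}
    (hσ : ∀ τ : K ≃ₐ[ℚ] K, τ ∈ Subgroup.zpowers σ) (w : InfinitePlace K)
    (v : InfinitePlace K → ℝ) :
    ∑ i ∈ Finset.range (Fintype.card (InfinitePlace K)), v ((σ ^ i)⁻¹ • w) = ∑ w', v w' := by
  classical
  have him : Finset.image (fun i : ℕ => (σ ^ i)⁻¹ • w)
      (Finset.range (Fintype.card (InfinitePlace K))) = Finset.univ := by
    apply Finset.eq_univ_of_card
    rw [Finset.card_image_of_injOn (injOn_orbit hσ w), Finset.card_range]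
  rw [← him, Finset.sum_image (injOn_orbit hσ w)]

/-- **F1**: the geometric sum kills the unit lattice. -/
theorem aeval_geom_sum [IsGalois ℚ K] {σ : K ≃ₐ[ℚ] K}
    (hσ : ∀ τ : K ≃ₐ[ℚ] K, τ ∈ Subgroup.zpowers σ) :
    aeval (latAut K σ) (∑ i ∈ Finset.range (Fintype.card (InfinitePlace K)), (X : ℤ[X]) ^ i)
      = 0 := by
  apply LinearMap.ext
  intro x
  apply Lq_injective K
  funext w
  simp only [map_sum, map_pow, aeval_X, LinearMap.sum_apply, LinearMap.zero_apply, map_zero,
    Finset.sum_apply, Pi.zero_apply, Lq_latAut_pow]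
  rw [sum_orbit hσ w (Lq K x), sum_Lq]

/-- **F2**: faithfulness of the unit lattice in degree `< n - 1`. -/
theorem eq_zero_of_aeval_eq_zero [IsGalois ℚ K] {σ : K ≃ₐ[ℚ] K}
    (hσ : ∀ τ : K ≃ₐ[ℚ] K, τ ∈ Subgroup.zpowers σ) (f : ℤ[X])
    (hcoeff : ∀ i, Fintype.card (InfinitePlace K) - 1 ≤ i → f.coeff i = 0)
    (hf : aeval (latAut K σ) f = 0) : f = 0 := by
  classical
  by_contra hf0
  have hdeg : f.natDegree < Fintype.card (InfinitePlace K) - 1 := by
    by_contra hlt
    exact (Polynomial.leadingCoeff_ne_zero.mpr hf0) (hcoeff _ (not_lt.mp hlt))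
  obtain ⟨m, hm⟩ : ∃ m, Fintype.card (InfinitePlace K) = m + 1 :=
    ⟨Fintype.card (InfinitePlace K) - 1, by omega⟩
  rw [hm, Nat.add_sub_cancel] at hdeg hcoeff
  let w : InfinitePlace K := w₀
  let β : ℕ → InfinitePlace K := fun i => (σ ^ i)⁻¹ • w
  have hβ : Set.InjOn β (Finset.range (m + 1) : Set ℕ) := hm ▸ injOn_orbit hσ w
  have h1 : ∀ x : Lat K, ∑ i ∈ Finset.range m, (f.coeff i : ℝ) * Lq K x (β i) = 0 := by
    intro x
    have h := congrArg (fun g : Lat K →ₗ[ℤ] Lat K => Lq K (g x) w) hf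
    beta_reduce at h
    rw [aeval_eq_sum_range' hdeg] at h
    simp only [LinearMap.sum_apply, LinearMap.smul_apply, map_sum, map_smul, Finset.sum_apply,
      Pi.smul_apply, Lq_latAut_pow, LinearMap.zero_apply, map_zero, Pi.zero_apply] at h
    simp only [zsmul_eq_mul] at h
    exact h
  have h2 : ∀ y : logSpace K, ∑ i ∈ Finset.range m, (f.coeff i : ℝ) * sec K y (β i) = 0 := by
    intro y
    have hy : y ∈ Submodule.span ℝ (unitLattice K : Set (logSpace K)) := by
      rw [unitLattice_span_eq_top]; trivial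
    induction hy using Submodule.span_induction with
    | mem y hy =>
      obtain ⟨u, -, rfl⟩ := hy
      have h := h1 (cls K (Additive.toMul u))
      rwa [Lq_cls_eq_sec] at h
    | zero => simp
    | add a b _ _ ha hb =>
      simp only [map_add, Pi.add_apply, mul_add, Finset.sum_add_distrib, ha, hb, add_zero]
    | smul c a _ ha =>
      simp only [map_smul, Pi.smul_apply, smul_eq_mul]
      have hc : ∀ i, (f.coeff i : ℝ) * (c * sec K a (β i))
          = c * ((f.coeff i : ℝ) * sec K a (β i)) := fun i => by ring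
      simp only [hc, ← Finset.mul_sum, ha, mul_zero]
  have h3 : ∀ j, j < m → f.coeff j = 0 := by
    intro j hj
    let v : InfinitePlace K → ℝ := Pi.single (β j) 1 - Pi.single (β m) 1
    have hv : ∑ w', v w' = 0 := by simp [v, Finset.sum_sub_distrib]
    have h := h2 (fun w' => v w'.1)
    rw [sec_restrict K v hv] at h
    have hval : ∀ i ∈ Finset.range m,
        (f.coeff i : ℝ) * v (β i) = if i = j then (f.coeff j : ℝ) else 0 := by
      intro i hi
      have hi' : i < m := Finset.mem_range.mp hi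
      have h_im : β i ≠ β m := fun h => by
        have := hβ (by simp; omega) (by simp) h
        omega
      by_cases hij : i = j
      · subst hij
        simp [v, h_im]
      · have h_ij : β i ≠ β j := fun h => hij (hβ (by simp; omega) (by simp; omega) h)
        simp [v, h_im, h_ij, hij]
    rw [Finset.sum_congr rfl hval, Finset.sum_ite_eq' (Finset.range m) j,
      if_pos (Finset.mem_range.mpr hj)] at h
    exact_mod_cast h
  apply hf0
  ext i
  rcases lt_or_ge i m with hi | hi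
  · simpa using h3 i hi
  · simpa using hcoeff i hi

/-- The characteristic polynomial of a generator of the Galois group on the unit lattice. -/
theorem charpoly_latAut [IsGalois ℚ K] {σ : K ≃ₐ[ℚ] K}
    (hσ : ∀ τ : K ≃ₐ[ℚ] K, τ ∈ Subgroup.zpowers σ) :
    (latAut K σ).charpoly
      = ∑ i ∈ Finset.range (Fintype.card (InfinitePlace K)), (X : ℤ[X]) ^ i := by
  rw [← sub_eq_zero]
  apply eq_zero_of_aeval_eq_zero hσ
  · intro i hi
    have hdeg : (latAut K σ).charpoly.natDegree = Fintype.card (InfinitePlace K) - 1 := by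
      rw [LinearMap.charpoly_natDegree, finrank_modTorsion]
      rfl
    have hmon := (latAut K σ).charpoly_monic
    have hpos : 0 < Fintype.card (InfinitePlace K) := Fintype.card_pos
    rw [coeff_sub, finsetSum_coeff]
    simp only [coeff_X_pow]
    rcases Nat.lt_or_ge i (Fintype.card (InfinitePlace K)) with h | h
    · have hi' : i = (latAut K σ).charpoly.natDegree := by omega
      rw [Finset.sum_ite_eq (Finset.range _) i, if_pos (Finset.mem_range.mpr h)]
      rw [hi', hmon.coeff_natDegree, sub_self]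
    · rw [Finset.sum_ite_eq (Finset.range _) i, if_neg (by simpa using h),
        coeff_eq_zero_of_natDegree_lt (by omega), sub_self]
  · rw [map_sub, LinearMap.aeval_self_charpoly, aeval_geom_sum hσ, sub_self]


/-- Modulo `p`, the geometric sum of length `n < p` has only simple roots. -/
theorem rootMultiplicity_geom_sum_le_one (p : ℕ) [Fact p.Prime] (n : ℕ) (hn0 : 0 < n)
    (hnp : n < p) (e : ZMod p) :
    ((∑ i ∈ Finset.range n, (X : ℤ[X]) ^ i).map (Int.castRingHom (ZMod p))).rootMultiplicity e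
      ≤ 1 := by
  classical
  have hmap : (∑ i ∈ Finset.range n, (X : ℤ[X]) ^ i).map (Int.castRingHom (ZMod p))
      = ∑ i ∈ Finset.range n, (X : (ZMod p)[X]) ^ i := by
    simp [Polynomial.map_sum]
  rw [hmap]
  have hmul : (∑ i ∈ Finset.range n, (X : (ZMod p)[X]) ^ i) * (X - 1) = X ^ n - C 1 := by
    rw [geom_sum_mul, C_1]
  have hne : (X : (ZMod p)[X]) ^ n - C 1 ≠ 0 := X_pow_sub_C_ne_zero hn0 1
  have hsep : ((X : (ZMod p)[X]) ^ n - C 1).Separable := by
    apply separable_X_pow_sub_C 1 _ one_ne_zero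
    rw [Ne, ZMod.natCast_eq_zero_iff]
    exact fun h => absurd (Nat.le_of_dvd hn0 h) (not_le.mpr hnp)
  have h1 : ((X : (ZMod p)[X]) ^ n - C 1).rootMultiplicity e ≤ 1 := by
    rw [← count_roots]
    exact Multiset.nodup_iff_count_le_one.mp (nodup_roots hsep) e
  have h2 := rootMultiplicity_mul (x := e) (hmul ▸ hne)
  rw [hmul] at h2
  omega

theorem cls_mul (u v : (𝓞 K)ˣ) : cls K (u * v) = cls K u + cls K v := rfl

theorem cls_pow (u : (𝓞 K)ˣ) (k : ℕ) : cls K (u ^ k) = (k : ℤ) • cls K u := by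
  rw [natCast_zsmul]
  rfl

theorem cls_eq_iff (u v : (𝓞 K)ˣ) : cls K u = cls K v ↔ u⁻¹ * v ∈ torsion K := by
  rw [← QuotientGroup.eq]
  exact Additive.ofMul.injective.eq_iff

/-- The torsion units of the `p`-th cyclotomic field are `± ζ ^ r`. -/
theorem torsion_eq {p : ℕ} [Fact p.Prime] [IsCyclotomicExtension {p} ℚ K] {ζ : K}
    (hζ : IsPrimitiveRoot ζ p) (hodd : Odd p) (t : (𝓞 K)ˣ) (ht : t ∈ torsion K) :
    have : NeZero p := ⟨(Fact.out : p.Prime).ne_zero⟩
    ∃ r : ℕ, (t : 𝓞 K) = hζ.toInteger ^ r ∨ (t : 𝓞 K) = - hζ.toInteger ^ r := by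
  have : NeZero p := ⟨(Fact.out : p.Prime).ne_zero⟩
  have h1 : IsOfFinOrder t := (CommGroup.mem_torsion _).mp ht
  have h2 : IsOfFinOrder (((t : 𝓞 K) : K)) :=
    (((algebraMap (𝓞 K) K : 𝓞 K →* K).comp (Units.coeHom (𝓞 K)))).isOfFinOrder h1
  obtain ⟨r, -, hr | hr⟩ := hζ.exists_pow_or_neg_mul_pow_of_isOfFinOrder hodd h2
  · exact ⟨r, Or.inl (RingOfIntegers.ext (by rw [hr]; simp))⟩
  · exact ⟨r, Or.inr (RingOfIntegers.ext (by rw [hr]; simp))⟩

end Fermat.Agent.S14.UDim

namespace Fermat.Agent.S14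

open UDim

/-- **Slice U3**: the `ω²`-eigenspace of units modulo `p`-th powers is spanned by `η` and `ζ`
(given the `ℓ₂`-invariant of slice U1 and the eigen-property of `η` of slice U2). -/
theorem unitDim_of_hasL2 (p : ℕ) [Fact p.Prime] {K : Type} [Field K] [NumberField K]
    [IsCyclotomicExtension {p} ℚ K] {ζ : K} (hζ : IsPrimitiveRoot ζ p) (h3 : 3 ≤ p)
    (hL : HasL2 p hζ) (hE : EtaEigen p hζ) : UnitDim p hζ := by
  have hp : p.Prime := Fact.out
  have : NeZero p := ⟨hp.ne_zero⟩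
  have : IsGalois ℚ K := IsCyclotomicExtension.isGalois {p} ℚ K
  have hodd : Odd p := hp.odd_of_ne_two (by omega)
  have : IsCyclic (K ≃ₐ[ℚ] K) :=
    (IsCyclotomicExtension.autEquivPow K
      (Polynomial.cyclotomic.irreducible_rat hp.pos)).isCyclic.mpr inferInstance
  obtain ⟨σ, hσ⟩ := IsCyclic.exists_generator (α := K ≃ₐ[ℚ] K)
  obtain ⟨a, -, ha⟩ := hζ.eq_pow_of_pow_eq_one (ξ := σ ζ)
    (by rw [← map_pow, hζ.pow_eq_one, map_one])
  have hσa : σ ζ = ζ ^ a := ha.symm
  obtain ⟨l2, hmul, -, hl2ζ, hl2η⟩ := hL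
  obtain ⟨hηu, hηe⟩ := hE
  obtain ⟨ηu, hηu'⟩ := hηu
  -- units are prime to `lam`
  have hlamprime : Prime (lam p hζ) := by
    have h := hζ.zeta_sub_one_prime'
    have h' : lam p hζ = -(hζ.toInteger - 1) := by
      rw [lam]; ring
    rw [h']
    exact h.neg
  have hlam : ∀ v : (𝓞 K)ˣ, ¬ lam p hζ ∣ (v : 𝓞 K) := fun v hv =>
    hlamprime.not_isUnit (isUnit_of_dvd_unit hv v.isUnit)
  -- elementary properties of `l2`
  have hl2one : l2 (1 : 𝓞 K) = 0 := by
    have h := hmul 1 1 (by simpa using hlam 1) (by simpa using hlam 1)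
    rw [mul_one] at h
    exact left_eq_add.mp h
  have hl2pow : ∀ (v : (𝓞 K)ˣ) (k : ℕ), l2 ((v : 𝓞 K) ^ k) = k • l2 (v : 𝓞 K) := by
    intro v k
    induction k with
    | zero => simpa using hl2one
    | succ k ih =>
      have h := hmul ((v : 𝓞 K) ^ k) v (by simpa using hlam (v ^ k)) (hlam v)
      rw [pow_succ, h, ih, succ_nsmul]
  have hl2p : ∀ v : (𝓞 K)ˣ, l2 ((v : 𝓞 K) ^ p) = 0 := by
    intro v
    rw [hl2pow]
    simp
  have hζunit : IsUnit hζ.toInteger := hζ.toInteger_isPrimitiveRoot.isUnit hp.ne_zero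
  obtain ⟨ζu, hζu⟩ := hζunit
  have hl2neg : l2 (-1 : 𝓞 K) = 0 := by
    have h := hmul (-1) (-1) (by simpa using hlam (-1)) (by simpa using hlam (-1))
    rw [neg_mul_neg, mul_one, hl2one] at h
    have h2 : (2 : ZMod p) * l2 (-1 : 𝓞 K) = 0 := by rw [two_mul]; exact h.symm
    have h2ne : (2 : ZMod p) ≠ 0 := by
      intro h0
      have h0' : ((2 : ℕ) : ZMod p) = 0 := by exact_mod_cast h0
      rw [ZMod.natCast_eq_zero_iff] at h0'
      exact absurd (Nat.le_of_dvd (by norm_num) h0') (by omega)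
    exact (mul_eq_zero.mp h2).resolve_left h2ne
  have hl2tors : ∀ t : (𝓞 K)ˣ, t ∈ torsion K → l2 (t : 𝓞 K) = 0 := by
    intro t ht
    obtain ⟨r, hr | hr⟩ := torsion_eq hζ hodd t ht
    · rw [hr, ← hζu, hl2pow, hζu, hl2ζ, smul_zero]
    · have h := hmul (-1) (hζ.toInteger ^ r) (by simpa using hlam (-1))
        (by rw [← hζu]; simpa using hlam (ζu ^ r))
      rw [hr, neg_eq_neg_one_mul, h, hl2neg, zero_add, ← hζu, hl2pow, hζu, hl2ζ, smul_zero]
  -- the eigen-relation in the lattice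
  have heig : ∀ v : (𝓞 K)ˣ,
      (∃ w : (𝓞 K)ˣ, intAut K σ (v : 𝓞 K) = (v : 𝓞 K) ^ (a ^ 2) * (w : 𝓞 K) ^ p) →
      ∃ x', latAut K σ (cls K v) = ((a ^ 2 : ℕ) : ℤ) • cls K v + (p : ℤ) • x' := by
    rintro v ⟨w, hw⟩
    refine ⟨cls K w, ?_⟩
    have h : unitAut K σ v = v ^ (a ^ 2) * w ^ p := by
      apply Units.ext
      rw [coe_unitAut, hw]
      simp
    rw [latAut_cls, h, cls_mul, cls_pow, cls_pow]
  have hn0 : 0 < Fintype.card (InfinitePlace K) := Fintype.card_pos
  have hnp : Fintype.card (InfinitePlace K) < p := by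
    have h1 := card_add_two_mul_card_eq_rank K
    have h2 := card_eq_nrRealPlaces_add_nrComplexPlaces K
    have h3 : Module.finrank ℚ K = p - 1 := by
      rw [IsCyclotomicExtension.finrank K (Polynomial.cyclotomic.irreducible_rat hp.pos),
        Nat.totient_prime hp]
    omega
  have hroot : ((latAut K σ).charpoly.map (Int.castRingHom (ZMod p))).rootMultiplicity
      ((((a ^ 2 : ℕ) : ℤ)) : ZMod p) ≤ 1 := by
    rw [charpoly_latAut hσ]
    exact rootMultiplicity_geom_sum_le_one p _ hn0 hnp _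
  -- `η` is not a `p`-th power modulo torsion
  have hy0 : ¬ ∃ z, cls K ηu = (p : ℤ) • z := by
    rintro ⟨z, hz⟩
    obtain ⟨v, rfl⟩ := cls_surjective K z
    rw [← cls_pow, cls_eq_iff] at hz
    have hval : ((v : 𝓞 K)) ^ p = eta p hζ * ((ηu⁻¹ * v ^ p : (𝓞 K)ˣ) : 𝓞 K) := by
      rw [← hηu', ← Units.val_mul, mul_inv_cancel_left, Units.val_pow_eq_pow_val]
    have h := hmul (eta p hζ) ((ηu⁻¹ * v ^ p : (𝓞 K)ˣ) : 𝓞 K) (by rw [← hηu']; exact hlam ηu)
      (hlam _)
    rw [← hval, hl2p, hl2tors _ hz, add_zero] at h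
    exact hl2η h.symm
  intro u hu
  obtain ⟨k, z, hkz⟩ := eigen_line (latAut K σ) p ((a ^ 2 : ℕ) : ℤ) hroot (cls K u) (cls K ηu)
    (heig u (hu σ a hσa)) (heig ηu (by rw [hηu']; exact hηe σ a hσa)) hy0
  obtain ⟨v, rfl⟩ := cls_surjective K z
  rw [← natCast_zsmul, ← cls_pow, ← cls_pow, ← cls_mul, eq_comm, cls_eq_iff] at hkz
  have hval : (u : 𝓞 K) = eta p hζ ^ k * (v : 𝓞 K) ^ p
      * (((ηu ^ k * v ^ p)⁻¹ * u : (𝓞 K)ˣ) : 𝓞 K) := by
    rw [← hηu', ← Units.val_pow_eq_pow_val, ← Units.val_pow_eq_pow_val, ← Units.val_mul,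
      ← Units.val_mul, mul_inv_cancel_left]
  obtain ⟨r, hr | hr⟩ := torsion_eq hζ hodd _ hkz
  · exact ⟨k, r, v, by rw [hval, hr]; ring⟩
  · refine ⟨k, r, -v, ?_⟩
    rw [hval, hr, Units.val_neg, hodd.neg_pow]
    ring

end Fermat.Agent.S14
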