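import Fermat.Agent.S14.AIface

/-!
# S14, slice A3b: a bounded class `L`-series from a quantitative ideal count

If the number of nonzero ideals of norm `≤ n` in every ideal class is `κ n + O(n^θ)` with
`θ < 1` and `κ` independent of the class, then for every non-trivial character `ψ` of the class
group the series `∑ ψ(I) N(I)^(-s)` is bounded on `(1, 2]` (Abel summation over the ideals,
ordered by norm).  The same count also gives the convergence of `∑ N(I)^(-s)` for `s > 1`.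
-/

set_option autoImplicit false

open scoped NumberField nonZeroDivisors

namespace Fermat.Agent.S14.LCB

variable (K : Type) [Field K] [NumberField K]

/-- The nonzero ideals of norm at most `n`. -/
noncomputable def idealsLE (n : ℕ) : Finset (Ideal (𝓞 K))⁰ :=
  (Ideal.finite_setOfPred_absNorm_le₀ (S := 𝓞 K) n).toFinset

variable {K}

lemma mem_idealsLE {n : ℕ} {I : (Ideal (𝓞 K))⁰} :
    I ∈ idealsLE K n ↔ Ideal.absNorm (I : Ideal (𝓞 K)) ≤ n := by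
  simp [idealsLE]

variable (K)

lemma idealsLE_mono : Monotone (idealsLE K) := by
  intro m n hmn I hI
  rw [mem_idealsLE] at hI ⊢
  exact hI.trans hmn

lemma one_le_absNorm (I : (Ideal (𝓞 K))⁰) : 1 ≤ Ideal.absNorm (I : Ideal (𝓞 K)) := by
  rw [Nat.one_le_iff_ne_zero]
  exact Ideal.absNorm_ne_zero_iff_mem_nonZeroDivisors.mpr I.2

lemma normPow_nonneg (I : (Ideal (𝓞 K))⁰) (s : ℝ) : 0 ≤ normPow K I s :=
  Real.rpow_nonneg (Nat.cast_nonneg _) _

/-- Telescoping of `n ↦ n^(-s)`. -/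
lemma tele (s : ℝ) {m N : ℕ} (h : m ≤ N) :
    (m : ℝ) ^ (-s) = (N : ℝ) ^ (-s) +
      ∑ n ∈ Finset.Ico m N, ((n : ℝ) ^ (-s) - ((n + 1 : ℕ) : ℝ) ^ (-s)) := by
  induction N, h using Nat.le_induction with
  | base => simp
  | succ N hN ih =>
    have h2 := Finset.sum_Ico_succ_top hN
      (fun n : ℕ => ((n : ℝ) ^ (-s) - ((n + 1 : ℕ) : ℝ) ^ (-s)))
    linarith

lemma delta_nonneg {s : ℝ} (hs : 0 ≤ s) {n : ℕ} (hn : 1 ≤ n) :
    0 ≤ (n : ℝ) ^ (-s) - ((n + 1 : ℕ) : ℝ) ^ (-s) := by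
  have hn0 : (0 : ℝ) < n := by exact_mod_cast hn
  rw [sub_nonneg]
  exact Real.rpow_le_rpow_of_nonpos hn0 (by push_cast; linarith) (by linarith)

lemma delta_le {s : ℝ} (hs : 0 ≤ s) {n : ℕ} (hn : 1 ≤ n) :
    (n : ℝ) ^ (-s) - ((n + 1 : ℕ) : ℝ) ^ (-s) ≤ s * (n : ℝ) ^ (-s - 1) := by
  have hn0 : (0 : ℝ) < n := by exact_mod_cast hn
  have h1 : ((n + 1 : ℕ) : ℝ) = n * (1 + 1 / n) := by push_cast; field_simp
  have hpos : (0 : ℝ) < 1 + 1 / n := by positivity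
  have h2 : 1 - s / n ≤ (1 + 1 / (n : ℝ)) ^ (-s) := by
    rw [Real.rpow_def_of_pos hpos]
    have hlog : Real.log (1 + 1 / (n : ℝ)) ≤ 1 / n := by
      have := Real.log_le_sub_one_of_pos hpos
      linarith
    calc 1 - s / n = (-(s / n)) + 1 := by ring
      _ ≤ Real.exp (-(s / n)) := Real.add_one_le_exp _
      _ ≤ Real.exp (Real.log (1 + 1 / (n : ℝ)) * -s) := by
          apply Real.exp_le_exp.mpr
          have h3 : Real.log (1 + 1 / (n : ℝ)) * s ≤ 1 / n * s :=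
            mul_le_mul_of_nonneg_right hlog hs
          have e : (1 : ℝ) / n * s = s / n := by ring
          linarith
  rw [h1, Real.mul_rpow hn0.le hpos.le, Real.rpow_sub_one hn0.ne']
  have h4 : 0 ≤ (n : ℝ) ^ (-s) := Real.rpow_nonneg hn0.le _
  have h5 : (n : ℝ) ^ (-s) * (1 - s / n) ≤ (n : ℝ) ^ (-s) * (1 + 1 / (n : ℝ)) ^ (-s) :=
    mul_le_mul_of_nonneg_left h2 h4
  have e : s * ((n : ℝ) ^ (-s) / n) = (n : ℝ) ^ (-s) - (n : ℝ) ^ (-s) * (1 - s / n) := by ring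
  rw [e]
  linarith

/-- Abel summation over the ideals of norm at most `N`. -/
lemma abel_identity (c : (Ideal (𝓞 K))⁰ → ℂ) (s : ℝ) (N : ℕ) :
    ∑ I ∈ idealsLE K N, c I * ((normPow K I s : ℝ) : ℂ) =
      (∑ I ∈ idealsLE K N, c I) * (((N : ℝ) ^ (-s) : ℝ) : ℂ) +
        ∑ n ∈ Finset.Ico 1 N, (∑ I ∈ idealsLE K n, c I) *
          ((((n : ℝ) ^ (-s) - ((n + 1 : ℕ) : ℝ) ^ (-s)) : ℝ) : ℂ) := by
  have h1 : ∀ I ∈ idealsLE K N, c I * ((normPow K I s : ℝ) : ℂ) =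
      c I * (((N : ℝ) ^ (-s) : ℝ) : ℂ) +
        ∑ n ∈ Finset.Ico (Ideal.absNorm (I : Ideal (𝓞 K))) N,
          c I * ((((n : ℝ) ^ (-s) - ((n + 1 : ℕ) : ℝ) ^ (-s)) : ℝ) : ℂ) := by
    intro I hI
    rw [mem_idealsLE] at hI
    rw [normPow, tele s hI, Complex.ofReal_add, Complex.ofReal_sum, mul_add, Finset.mul_sum]
  rw [Finset.sum_congr rfl h1, Finset.sum_add_distrib, ← Finset.sum_mul]
  congr 1
  rw [Finset.sum_comm' (s' := fun n => idealsLE K n) (t' := Finset.Ico 1 N)]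
  · refine Finset.sum_congr rfl fun n _ => ?_
    rw [Finset.sum_mul]
  · intro I n
    simp only [mem_idealsLE, Finset.mem_Ico]
    constructor
    · rintro ⟨_, h1, h2⟩
      exact ⟨h1, (one_le_absNorm K I).trans h1, h2⟩
    · rintro ⟨hI, _, h2⟩
      exact ⟨hI.trans h2.le, hI, h2⟩

/-- The Abel summation bound: partial sums of the coefficients of size `B n^r` give partial sums
of the Dirichlet series of size `B (N^(r-s) + s ∑_{n<N} n^(r-s-1))`. -/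
lemma abel_norm_le (c : (Ideal (𝓞 K))⁰ → ℂ) {B r s : ℝ} (hs : 0 ≤ s)
    (hA : ∀ n : ℕ, 1 ≤ n → ‖∑ I ∈ idealsLE K n, c I‖ ≤ B * (n : ℝ) ^ r) {N : ℕ} (hN : 1 ≤ N) :
    ‖∑ I ∈ idealsLE K N, c I * ((normPow K I s : ℝ) : ℂ)‖ ≤
      B * ((N : ℝ) ^ (r - s) + s * ∑ n ∈ Finset.Ico 1 N, (n : ℝ) ^ (r - s - 1)) := by
  rw [abel_identity]
  have hN0 : (0 : ℝ) < N := by exact_mod_cast hN
  have t1 : ‖(∑ I ∈ idealsLE K N, c I) * (((N : ℝ) ^ (-s) : ℝ) : ℂ)‖ ≤ B * (N : ℝ) ^ (r - s) := by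
    rw [norm_mul, Complex.norm_real, Real.norm_of_nonneg (Real.rpow_nonneg hN0.le _)]
    calc ‖∑ I ∈ idealsLE K N, c I‖ * (N : ℝ) ^ (-s)
        ≤ B * (N : ℝ) ^ r * (N : ℝ) ^ (-s) :=
          mul_le_mul_of_nonneg_right (hA N hN) (Real.rpow_nonneg hN0.le _)
      _ = B * (N : ℝ) ^ (r - s) := by rw [mul_assoc, ← Real.rpow_add hN0, sub_eq_add_neg]
  have t2 : ‖∑ n ∈ Finset.Ico 1 N, (∑ I ∈ idealsLE K n, c I) *
      ((((n : ℝ) ^ (-s) - ((n + 1 : ℕ) : ℝ) ^ (-s)) : ℝ) : ℂ)‖ ≤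
      B * (s * ∑ n ∈ Finset.Ico 1 N, (n : ℝ) ^ (r - s - 1)) := by
    rw [Finset.mul_sum, Finset.mul_sum]
    refine (norm_sum_le _ _).trans (Finset.sum_le_sum fun n hn => ?_)
    have hn1 : 1 ≤ n := (Finset.mem_Ico.mp hn).1
    have hn0 : (0 : ℝ) < n := by exact_mod_cast hn1
    rw [norm_mul, Complex.norm_real, Real.norm_of_nonneg (delta_nonneg hs hn1)]
    have hBn : 0 ≤ B * (n : ℝ) ^ r := (norm_nonneg _).trans (hA n hn1)
    calc ‖∑ I ∈ idealsLE K n, c I‖ * ((n : ℝ) ^ (-s) - ((n + 1 : ℕ) : ℝ) ^ (-s))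
        ≤ B * (n : ℝ) ^ r * (s * (n : ℝ) ^ (-s - 1)) :=
          mul_le_mul (hA n hn1) (delta_le hs hn1) (delta_nonneg hs hn1) hBn
      _ = B * (s * (n : ℝ) ^ (r - s - 1)) := by
          have e : (n : ℝ) ^ (r - s - 1) = (n : ℝ) ^ r * (n : ℝ) ^ (-s - 1) := by
            rw [← Real.rpow_add hn0]; ring_nf
          rw [e]; ring
  calc _ ≤ _ + _ := norm_add_le _ _
    _ ≤ _ := by rw [mul_add]; exact add_le_add t1 t2

/-- The class-wise counting function as the cardinality of a filtered finset. -/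
lemma card_eq (n : ℕ) (C : ClassGroup (𝓞 K)) [DecidablePred fun I : (Ideal (𝓞 K))⁰ =>
    ClassGroup.mk0 I = C] :
    Nat.card {I : (Ideal (𝓞 K))⁰ // (Ideal.absNorm (I : Ideal (𝓞 K)) : ℝ) ≤ (n : ℝ) ∧
      ClassGroup.mk0 I = C} = ((idealsLE K n).filter (fun I => ClassGroup.mk0 I = C)).card := by
  rw [← Nat.card_eq_finsetCard]
  apply Nat.card_congr
  exact Equiv.subtypeEquivRight (fun I => by simp [mem_idealsLE])

lemma norm_psi (ψ : ClassGroup (𝓞 K) →* ℂˣ) (C : ClassGroup (𝓞 K)) : ‖(ψ C : ℂ)‖ = 1 := by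
  apply Complex.norm_eq_one_of_pow_eq_one (n := Fintype.card (ClassGroup (𝓞 K))) _
    Fintype.card_ne_zero
  rw [← Units.val_pow_eq_pow_val, ← map_pow, pow_card_eq_one, map_one, Units.val_one]

/-- The coefficient sum over the ideals of norm `≤ n`, class by class. -/
lemma sum_coeff_eq (c : ClassGroup (𝓞 K) → ℂ) (n : ℕ) :
    ∑ I ∈ idealsLE K n, c (ClassGroup.mk0 I) =
      ∑ C : ClassGroup (𝓞 K), c C *
        ((Nat.card {I : (Ideal (𝓞 K))⁰ // (Ideal.absNorm (I : Ideal (𝓞 K)) : ℝ) ≤ (n : ℝ) ∧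
          ClassGroup.mk0 I = C} : ℝ) : ℂ) := by
  classical
  rw [← Finset.sum_fiberwise (idealsLE K n) (fun I => ClassGroup.mk0 I)
    (fun I => c (ClassGroup.mk0 I))]
  refine Finset.sum_congr rfl fun C _ => ?_
  rw [Finset.sum_congr rfl (fun I hI => by rw [(Finset.mem_filter.mp hI).2]), Finset.sum_const,
    card_eq, nsmul_eq_mul, mul_comm]
  push_cast
  rfl

/-- For a non-trivial character the main terms cancel. -/
lemma sum_psi_eq (ψ : ClassGroup (𝓞 K) →* ℂˣ) (hψ : ∃ c, ψ c ≠ 1) (κ : ℝ) (n : ℕ) :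
    ∑ I ∈ idealsLE K n, (ψ (ClassGroup.mk0 I) : ℂ) =
      ∑ C : ClassGroup (𝓞 K), (ψ C : ℂ) *
        (((Nat.card {I : (Ideal (𝓞 K))⁰ // (Ideal.absNorm (I : Ideal (𝓞 K)) : ℝ) ≤ (n : ℝ) ∧
          ClassGroup.mk0 I = C} : ℝ) - κ * n : ℝ) : ℂ) := by
  have h0 : ∑ C : ClassGroup (𝓞 K), (ψ C : ℂ) = 0 := by
    have h := sum_hom_units_eq_zero ((Units.coeHom ℂ).comp ψ) (by
      obtain ⟨c, hc⟩ := hψ
      intro h
      apply hc
      have h1 := DFunLike.congr_fun h c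
      exact Units.ext (by simpa using h1))
    simpa using h
  rw [sum_coeff_eq K (fun C => (ψ C : ℂ)) n]
  have e : ∀ C : ClassGroup (𝓞 K), (ψ C : ℂ) *
      (((Nat.card {I : (Ideal (𝓞 K))⁰ // (Ideal.absNorm (I : Ideal (𝓞 K)) : ℝ) ≤ (n : ℝ) ∧
        ClassGroup.mk0 I = C} : ℝ) - κ * n : ℝ) : ℂ) =
      (ψ C : ℂ) * ((Nat.card {I : (Ideal (𝓞 K))⁰ // (Ideal.absNorm (I : Ideal (𝓞 K)) : ℝ) ≤
        (n : ℝ) ∧ ClassGroup.mk0 I = C} : ℝ) : ℂ) - (ψ C : ℂ) * ((κ * n : ℝ) : ℂ) := by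
    intro C
    rw [Complex.ofReal_sub, mul_sub]
  rw [Finset.sum_congr rfl (fun C _ => e C), Finset.sum_sub_distrib, ← Finset.sum_mul, h0,
    zero_mul, sub_zero]

/-- The partial sums of the class `L`-series converge to `idealL`. -/
lemma tendsto_partial (h0 : IdealSummable K) (ψ : ClassGroup (𝓞 K) →* ℂˣ) {s : ℝ} (hs : 1 < s) :
    Filter.Tendsto
      (fun N : ℕ => ∑ I ∈ idealsLE K N, (ψ (ClassGroup.mk0 I) : ℂ) * ((normPow K I s : ℝ) : ℂ))
      Filter.atTop (nhds (idealL K ψ s)) := by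
  have hsm : Summable (fun I : (Ideal (𝓞 K))⁰ =>
      (ψ (ClassGroup.mk0 I) : ℂ) * ((normPow K I s : ℝ) : ℂ)) := by
    apply Summable.of_norm
    refine (h0 s hs).congr fun I => ?_
    rw [norm_mul, norm_psi, one_mul, Complex.norm_real, Real.norm_of_nonneg (normPow_nonneg K I s)]
  exact hsm.hasSum.comp (Filter.tendsto_atTop_finset_of_monotone (idealsLE_mono K)
    (fun I => ⟨_, mem_idealsLE.mpr le_rfl⟩))

/-- **A3b, abstract exponent, summability given.** -/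
theorem classLBounded_of_count_aux (h0 : IdealSummable K) (κ M θ : ℝ) (hθ : θ < 1)
    (h : ∀ (C : ClassGroup (𝓞 K)) (n : ℕ), 1 ≤ n →
      |(Nat.card {I : (Ideal (𝓞 K))⁰ // (Ideal.absNorm (I : Ideal (𝓞 K)) : ℝ) ≤ (n : ℝ) ∧
        ClassGroup.mk0 I = C} : ℝ) - κ * n| ≤ M * (n : ℝ) ^ θ) :
    ClassLBounded K := by
  intro ψ hψ
  set B : ℝ := (Fintype.card (ClassGroup (𝓞 K)) : ℝ) * M with hBdef
  have hsum : Summable (fun n : ℕ => (n : ℝ) ^ (θ - 2)) :=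
    Real.summable_nat_rpow.mpr (by linarith)
  set Z : ℝ := ∑' n : ℕ, (n : ℝ) ^ (θ - 2) with hZdef
  have hZ : 0 ≤ Z := tsum_nonneg fun n => Real.rpow_nonneg (Nat.cast_nonneg n) _
  refine ⟨B * (1 + 2 * Z), fun s hs => ?_⟩
  have hA : ∀ n : ℕ, 1 ≤ n →
      ‖∑ I ∈ idealsLE K n, (ψ (ClassGroup.mk0 I) : ℂ)‖ ≤ B * (n : ℝ) ^ θ := by
    intro n hn
    rw [sum_psi_eq K ψ hψ κ n]
    refine (norm_sum_le _ _).trans ?_
    calc _ ≤ ∑ _C : ClassGroup (𝓞 K), M * (n : ℝ) ^ θ := Finset.sum_le_sum fun C _ => by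
            rw [norm_mul, norm_psi, one_mul, Complex.norm_real, Real.norm_eq_abs]
            exact h C n hn
      _ = B * (n : ℝ) ^ θ := by
          rw [Finset.sum_const, Finset.card_univ, nsmul_eq_mul, hBdef]; ring
  have hB : 0 ≤ B := by
    have := (norm_nonneg _).trans (hA 1 le_rfl)
    simpa using this
  have hbound : ∀ N : ℕ, 1 ≤ N →
      ‖∑ I ∈ idealsLE K N, (ψ (ClassGroup.mk0 I) : ℂ) * ((normPow K I s : ℝ) : ℂ)‖ ≤
        B * (1 + 2 * Z) := by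
    intro N hN
    refine (abel_norm_le K _ (by linarith [hs.1]) hA hN).trans ?_
    apply mul_le_mul_of_nonneg_left _ hB
    have hN0 : (1 : ℝ) ≤ N := by exact_mod_cast hN
    have e1 : (N : ℝ) ^ (θ - s) ≤ 1 :=
      Real.rpow_le_one_of_one_le_of_nonpos hN0 (by linarith [hs.1])
    have e2 : ∑ n ∈ Finset.Ico 1 N, (n : ℝ) ^ (θ - s - 1) ≤ Z := by
      calc ∑ n ∈ Finset.Ico 1 N, (n : ℝ) ^ (θ - s - 1)
          ≤ ∑ n ∈ Finset.Ico 1 N, (n : ℝ) ^ (θ - 2) := Finset.sum_le_sum fun n hn => by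
            have hn1 : (1 : ℝ) ≤ n := by exact_mod_cast (Finset.mem_Ico.mp hn).1
            exact Real.rpow_le_rpow_of_exponent_le hn1 (by linarith [hs.1])
        _ ≤ Z := hsum.sum_le_tsum _ (fun n _ => Real.rpow_nonneg (Nat.cast_nonneg n) _)
    have e3 : s * ∑ n ∈ Finset.Ico 1 N, (n : ℝ) ^ (θ - s - 1) ≤ 2 * Z :=
      mul_le_mul hs.2 e2
        (Finset.sum_nonneg fun n _ => Real.rpow_nonneg (Nat.cast_nonneg n) _) (by norm_num)
    linarith
  exact le_of_tendsto (tendsto_partial K h0 ψ hs.1).norm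
    (Filter.eventually_atTop.mpr ⟨1, fun N hN => hbound N hN⟩)

/-- **A0 from the count**: the count implies the convergence of `∑ N(I)^(-s)` for `s > 1`. -/
theorem idealSummable_of_count_nat (κ M θ : ℝ) (hθ : θ ≤ 1)
    (h : ∀ (C : ClassGroup (𝓞 K)) (n : ℕ), 1 ≤ n →
      |(Nat.card {I : (Ideal (𝓞 K))⁰ // (Ideal.absNorm (I : Ideal (𝓞 K)) : ℝ) ≤ (n : ℝ) ∧
        ClassGroup.mk0 I = C} : ℝ) - κ * n| ≤ M * (n : ℝ) ^ θ) :
    IdealSummable K := by
  intro s hs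
  have hM : 0 ≤ M := by
    have := (abs_nonneg _).trans (h 1 1 le_rfl)
    simpa using this
  set B : ℝ := (Fintype.card (ClassGroup (𝓞 K)) : ℝ) * (|κ| + M) with hBdef
  have hB : 0 ≤ B := by positivity
  have hA : ∀ n : ℕ, 1 ≤ n →
      ‖∑ I ∈ idealsLE K n, (fun _ : ClassGroup (𝓞 K) => (1 : ℂ)) (ClassGroup.mk0 I)‖ ≤
        B * (n : ℝ) ^ (1 : ℝ) := by
    intro n hn
    have hn1 : (1 : ℝ) ≤ n := by exact_mod_cast hn
    rw [sum_coeff_eq K (fun _ => (1 : ℂ)) n]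
    refine (norm_sum_le _ _).trans ?_
    calc _ ≤ ∑ _C : ClassGroup (𝓞 K), (|κ| + M) * (n : ℝ) := Finset.sum_le_sum fun C _ => by
            rw [one_mul, Complex.norm_real, Real.norm_eq_abs]
            have h1 := h C n hn
            have h2 : (n : ℝ) ^ θ ≤ n := by
              calc (n : ℝ) ^ θ ≤ (n : ℝ) ^ (1 : ℝ) := Real.rpow_le_rpow_of_exponent_le hn1 hθ
                _ = n := Real.rpow_one _
            have h3 : M * (n : ℝ) ^ θ ≤ M * n := mul_le_mul_of_nonneg_left h2 hM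
            have h4 : |κ * (n : ℝ)| = |κ| * n := by
              rw [abs_mul, abs_of_nonneg (by linarith : (0 : ℝ) ≤ n)]
            have h5 := abs_sub_abs_le_abs_sub
              (Nat.card {I : (Ideal (𝓞 K))⁰ // (Ideal.absNorm (I : Ideal (𝓞 K)) : ℝ) ≤ (n : ℝ) ∧
                ClassGroup.mk0 I = C} : ℝ) (κ * n)
            linarith
      _ = B * (n : ℝ) ^ (1 : ℝ) := by
          rw [Finset.sum_const, Finset.card_univ, nsmul_eq_mul, hBdef, Real.rpow_one]; ring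
  have hsumS : Summable (fun n : ℕ => (n : ℝ) ^ (-s)) :=
    Real.summable_nat_rpow.mpr (by linarith)
  refine summable_of_sum_le (c := B * (1 + s * ∑' n : ℕ, (n : ℝ) ^ (-s)))
    (fun I => normPow_nonneg K I s) fun u => ?_
  obtain ⟨N, hN1, hN⟩ : ∃ N, 1 ≤ N ∧ u ⊆ idealsLE K N :=
    ⟨max 1 (u.sup fun I => Ideal.absNorm (I : Ideal (𝓞 K))), le_max_left _ _, fun I hI =>
      mem_idealsLE.mpr (le_max_of_le_right
        (Finset.le_sup (f := fun I : (Ideal (𝓞 K))⁰ => Ideal.absNorm (I : Ideal (𝓞 K))) hI))⟩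
  have hN0 : (1 : ℝ) ≤ N := by exact_mod_cast hN1
  calc ∑ I ∈ u, normPow K I s ≤ ∑ I ∈ idealsLE K N, normPow K I s :=
        Finset.sum_le_sum_of_subset_of_nonneg hN fun I _ _ => normPow_nonneg K I s
    _ = ‖∑ I ∈ idealsLE K N, (fun _ : ClassGroup (𝓞 K) => (1 : ℂ)) (ClassGroup.mk0 I) *
          ((normPow K I s : ℝ) : ℂ)‖ := by
        simp only [one_mul]
        rw [← Complex.ofReal_sum, Complex.norm_real,
          Real.norm_of_nonneg (Finset.sum_nonneg fun I _ => normPow_nonneg K I s)]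
    _ ≤ B * ((N : ℝ) ^ ((1 : ℝ) - s) + s * ∑ n ∈ Finset.Ico 1 N, (n : ℝ) ^ ((1 : ℝ) - s - 1)) :=
        abel_norm_le K _ (by linarith) hA hN1
    _ ≤ B * (1 + s * ∑' n : ℕ, (n : ℝ) ^ (-s)) := by
        apply mul_le_mul_of_nonneg_left _ hB
        have e1 : (N : ℝ) ^ ((1 : ℝ) - s) ≤ 1 :=
          Real.rpow_le_one_of_one_le_of_nonpos hN0 (by linarith)
        have e2 : ∑ n ∈ Finset.Ico 1 N, (n : ℝ) ^ ((1 : ℝ) - s - 1) ≤ ∑' n : ℕ, (n : ℝ) ^ (-s) := by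
          have e : ∀ n : ℕ, (n : ℝ) ^ ((1 : ℝ) - s - 1) = (n : ℝ) ^ (-s) := fun n => by
            congr 1; ring
          rw [Finset.sum_congr rfl fun n _ => e n]
          exact hsumS.sum_le_tsum _ (fun n _ => Real.rpow_nonneg (Nat.cast_nonneg n) _)
        have e3 := mul_le_mul_of_nonneg_left e2 (by linarith : (0 : ℝ) ≤ s)
        linarith

/-- **A3b, abstract exponent** (count at the natural numbers, error `O(n^θ)`, `θ < 1`). -/
theorem classLBounded_of_count_nat (κ M θ : ℝ) (hθ : θ < 1)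
    (h : ∀ (C : ClassGroup (𝓞 K)) (n : ℕ), 1 ≤ n →
      |(Nat.card {I : (Ideal (𝓞 K))⁰ // (Ideal.absNorm (I : Ideal (𝓞 K)) : ℝ) ≤ (n : ℝ) ∧
        ClassGroup.mk0 I = C} : ℝ) - κ * n| ≤ M * (n : ℝ) ^ θ) :
    ClassLBounded K :=
  classLBounded_of_count_aux K (idealSummable_of_count_nat K κ M θ hθ.le h) κ M θ hθ h

/-- **A0 from the class count** (literal statement of `LC.classCount`, helper9). -/
theorem idealSummable_of_count
    (h : ∃ κ M : ℝ, ∀ C : ClassGroup (𝓞 K), ∀ x : ℝ, 1 ≤ x →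
      |(Nat.card {I : (Ideal (𝓞 K))⁰ // (Ideal.absNorm (I : Ideal (𝓞 K)) : ℝ) ≤ x ∧
        ClassGroup.mk0 I = C} : ℝ) - κ * x| ≤ M * x ^ (1 - 1 / (Module.finrank ℚ K : ℝ))) :
    IdealSummable K := by
  obtain ⟨κ, M, h⟩ := h
  have hd : (0 : ℝ) < Module.finrank ℚ K := by exact_mod_cast Module.finrank_pos
  have hd' := one_div_pos.mpr hd
  exact idealSummable_of_count_nat K κ M (1 - 1 / (Module.finrank ℚ K : ℝ)) (by linarith)
    fun C n hn => h C n (by exact_mod_cast hn)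

/-- **Slice A3b**: the quantitative class count (literal statement of `LC.classCount`) implies
that the `L`-series of every non-trivial class group character is bounded on `(1, 2]`. -/
theorem classLBounded_of_count
    (h : ∃ κ M : ℝ, ∀ C : ClassGroup (𝓞 K), ∀ x : ℝ, 1 ≤ x →
      |(Nat.card {I : (Ideal (𝓞 K))⁰ // (Ideal.absNorm (I : Ideal (𝓞 K)) : ℝ) ≤ x ∧
        ClassGroup.mk0 I = C} : ℝ) - κ * x| ≤ M * x ^ (1 - 1 / (Module.finrank ℚ K : ℝ))) :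
    ClassLBounded K := by
  obtain ⟨κ, M, h⟩ := h
  have hd : (0 : ℝ) < Module.finrank ℚ K := by exact_mod_cast Module.finrank_pos
  have hd' := one_div_pos.mpr hd
  exact classLBounded_of_count_nat K κ M (1 - 1 / (Module.finrank ℚ K : ℝ)) (by linarith)
    fun C n hn => h C n (by exact_mod_cast hn)

end Fermat.Agent.S14.LCB
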