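import Fermat.Agent.S14.ClassCount
import Fermat.Agent.S14.ClassLOfCount

/-!
# Slice A3 of S14: the class `L`-series of a non-trivial class group character is bounded on
`(1, 2]`, for every number field

`classLBounded K : ClassLBounded K`, from the quantitative count `LC.classCount` (A3a: Mathlib's
main term + the measure-free boundary count of `LCCover`/`LCFrontier`) and the discrete Abel
summation `LCB.classLBounded_of_count` (A3b, helper15).
-/

set_option autoImplicit false

namespace Fermat.Agent.S14

/-- **Slice A3**: `ClassLBounded K` for every number field `K`. -/
theorem classLBounded (K : Type) [Field K] [NumberField K] : ClassLBounded K :=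
  LCB.classLBounded_of_count K (LC.classCount K)

end Fermat.Agent.S14
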