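/-
S14, slice A2 (`DirichletLower`): `∑_{q ≡ 1 (p)} q^(-s) ≥ log(1/(s-1))/(p-1) - C` on `(1, 2]`.

From Mathlib's lower bound for the von Mangoldt `L`-series of a residue class
(`LSeries_residueClass_lower_bound`) and the summability of its non-prime part we get
`∑_{q ≡ 1 (p)} log q * q^(-x) ≥ φ(p)⁻¹/(x-1) - C₁`; the weights `log q` are removed by the
monotonicity of `x ↦ ∑_{q ∈ F} q^(-x) + φ(p)⁻¹ log (x-1) - C x` on `[s, 2]` for a finite set `F`
of primes with small tail.
-/
import Mathlib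
import Fermat.Agent.S14.AIface

set_option autoImplicit false
set_option linter.unusedSectionVars false

open ArithmeticFunction ArithmeticFunction.vonMangoldt Filter Topology

namespace Fermat.Agent.S14.DirichletLower

variable (p : ℕ) [Fact p.Prime]

local instance neZeroOfFact : NeZero p := ⟨(Fact.out : p.Prime).ne_zero⟩

/-- The primes `q ≡ 1 mod p`. -/
def PS : Set ℕ := {q : ℕ | q.Prime ∧ q ≡ 1 [MOD p]}

theorem mem_PS_iff (n : ℕ) : n ∈ PS p ↔ n.Prime ∧ ((n : ZMod p) = 1) := by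
  have : ((n : ZMod p) = 1) ↔ n ≡ 1 [MOD p] := by
    rw [← ZMod.natCast_eq_natCast_iff]; simp
  rw [this]
  rfl

/-- The prime part of the residue class von Mangoldt term equals the indicator of `PS`. -/
theorem prime_term_eq (x : ℝ) (n : ℕ) :
    (if n.Prime then residueClass (1 : ZMod p) n else 0) / (n : ℝ) ^ x =
      (PS p).indicator (fun n : ℕ => Real.log n * (n : ℝ) ^ (-x)) n := by
  by_cases hn : n ∈ PS p
  · rw [Set.indicator_of_mem hn]
    obtain ⟨hp, h1⟩ := (mem_PS_iff p n).mp hn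
    rw [if_pos hp, residueClass, Set.indicator_of_mem (by simpa using h1),
      vonMangoldt_apply_prime hp, Real.rpow_neg (Nat.cast_nonneg n), div_eq_mul_inv]
  · rw [Set.indicator_of_notMem hn]
    by_cases hp : n.Prime
    · have h1 : ¬ ((n : ZMod p) = 1) := fun h => hn ((mem_PS_iff p n).mpr ⟨hp, h⟩)
      rw [if_pos hp, residueClass, Set.indicator_of_notMem (by simpa using h1), zero_div]
    · rw [if_neg hp, zero_div]

theorem summable_residue (x : ℝ) (hx : 1 < x) :
    Summable fun n : ℕ => residueClass (1 : ZMod p) n / (n : ℝ) ^ x :=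
  LSeries.summable_real_of_abscissaOfAbsConv_lt <|
    (abscissaOfAbsConv_residueClass_le_one (1 : ZMod p)).trans_lt <| mod_cast hx

theorem split_term (x : ℝ) (n : ℕ) :
    residueClass (1 : ZMod p) n / (n : ℝ) ^ x =
      (if n.Prime then residueClass (1 : ZMod p) n else 0) / (n : ℝ) ^ x +
      (if n.Prime then 0 else residueClass (1 : ZMod p) n) / (n : ℝ) ^ x := by
  split_ifs <;> simp

theorem nonprime_term_nonneg (x : ℝ) (n : ℕ) :
    0 ≤ (if n.Prime then 0 else residueClass (1 : ZMod p) n) / (n : ℝ) ^ x := by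
  have := residueClass_nonneg (1 : ZMod p) n
  positivity

theorem prime_term_nonneg (x : ℝ) (n : ℕ) :
    0 ≤ (if n.Prime then residueClass (1 : ZMod p) n else 0) / (n : ℝ) ^ x := by
  have := residueClass_nonneg (1 : ZMod p) n
  positivity

theorem summable_prime_term (x : ℝ) (hx : 1 < x) :
    Summable fun n : ℕ => (if n.Prime then residueClass (1 : ZMod p) n else 0) / (n : ℝ) ^ x := by
  refine Summable.of_nonneg_of_le (prime_term_nonneg p x) (fun n => ?_) (summable_residue p x hx)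
  rw [split_term p x n]
  linarith [nonprime_term_nonneg p x n]

theorem summable_nonprime_term (x : ℝ) (hx : 1 < x) :
    Summable fun n : ℕ => (if n.Prime then 0 else residueClass (1 : ZMod p) n) / (n : ℝ) ^ x := by
  refine Summable.of_nonneg_of_le (nonprime_term_nonneg p x) (fun n => ?_) (summable_residue p x hx)
  rw [split_term p x n]
  linarith [prime_term_nonneg p x n]

theorem nonprime_term_le (x : ℝ) (hx : 1 ≤ x) (n : ℕ) :
    (if n.Prime then 0 else residueClass (1 : ZMod p) n) / (n : ℝ) ^ x ≤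
      (if n.Prime then 0 else residueClass (1 : ZMod p) n) / (n : ℝ) := by
  rcases n.eq_zero_or_pos with rfl | hn
  · simp
  · have h0 : 0 ≤ (if n.Prime then 0 else residueClass (1 : ZMod p) n) := by
      split_ifs
      · exact le_rfl
      · exact residueClass_nonneg _ _
    refine div_le_div_of_nonneg_left h0 (mod_cast hn) ?_
    conv_lhs => rw [← Real.rpow_one n]
    exact Real.rpow_le_rpow_of_exponent_le (by exact_mod_cast hn) hx

/-- Lower bound for the prime part. -/
theorem prime_part_lower :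
    ∃ C : ℝ, ∀ x ∈ Set.Ioc (1 : ℝ) 2, ((p.totient : ℝ))⁻¹ / (x - 1) - C ≤
      ∑' n : ℕ, (PS p).indicator (fun n : ℕ => Real.log n * (n : ℝ) ^ (-x)) n := by
  obtain ⟨C, hC⟩ := LSeries_residueClass_lower_bound (q := p) (a := 1) isUnit_one
  refine ⟨C + ∑' n : ℕ, (if n.Prime then 0 else residueClass (1 : ZMod p) n) / (n : ℝ),
    fun x hx => ?_⟩
  have h1 := hC hx
  have hsplit : ∑' n : ℕ, residueClass (1 : ZMod p) n / (n : ℝ) ^ x =
      ∑' n : ℕ, (if n.Prime then residueClass (1 : ZMod p) n else 0) / (n : ℝ) ^ x +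
      ∑' n : ℕ, (if n.Prime then 0 else residueClass (1 : ZMod p) n) / (n : ℝ) ^ x := by
    rw [← (summable_prime_term p x hx.1).tsum_add (summable_nonprime_term p x hx.1)]
    exact tsum_congr fun n => split_term p x n
  have hle : ∑' n : ℕ, (if n.Prime then 0 else residueClass (1 : ZMod p) n) / (n : ℝ) ^ x ≤
      ∑' n : ℕ, (if n.Prime then 0 else residueClass (1 : ZMod p) n) / (n : ℝ) :=
    (summable_nonprime_term p x hx.1).tsum_le_tsum (nonprime_term_le p x hx.1.le)
      (summable_residueClass_non_primes_div (1 : ZMod p))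
  have heq : ∑' n : ℕ, (if n.Prime then residueClass (1 : ZMod p) n else 0) / (n : ℝ) ^ x =
      ∑' n : ℕ, (PS p).indicator (fun n : ℕ => Real.log n * (n : ℝ) ^ (-x)) n :=
    tsum_congr fun n => prime_term_eq p x n
  rw [hsplit, heq] at h1
  linarith

/-- `log q * q ^ (-x)` on the primes `q ≡ 1 mod p`. -/
noncomputable def dfun (x : ℝ) (q : PS p) : ℝ := Real.log (q : ℕ) * ((q : ℕ) : ℝ) ^ (-x)

/-- `q ^ (-x)` on the primes `q ≡ 1 mod p`. -/
noncomputable def pfun (x : ℝ) (q : PS p) : ℝ := ((q : ℕ) : ℝ) ^ (-x)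

theorem one_le_cast (q : PS p) : (1 : ℝ) ≤ ((q : ℕ) : ℝ) := by
  have := q.2.1.one_lt
  exact_mod_cast this.le

theorem dfun_nonneg (x : ℝ) (q : PS p) : 0 ≤ dfun p x q :=
  mul_nonneg (Real.log_nonneg (one_le_cast p q)) (Real.rpow_nonneg (by positivity) _)

theorem pfun_nonneg (x : ℝ) (q : PS p) : 0 ≤ pfun p x q :=
  Real.rpow_nonneg (by positivity) _

theorem pfun_anti {s x : ℝ} (h : s ≤ x) (q : PS p) : pfun p x q ≤ pfun p s q :=
  Real.rpow_le_rpow_of_exponent_le (one_le_cast p q) (by linarith)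

theorem dfun_anti {s x : ℝ} (h : s ≤ x) (q : PS p) : dfun p x q ≤ dfun p s q :=
  mul_le_mul_of_nonneg_left (pfun_anti p h q) (Real.log_nonneg (one_le_cast p q))

theorem summable_dfun (x : ℝ) (hx : 1 < x) : Summable (dfun p x) := by
  have h := summable_prime_term p x hx
  have h2 : Summable ((PS p).indicator (fun n : ℕ => Real.log n * (n : ℝ) ^ (-x))) :=
    h.congr fun n => prime_term_eq p x n
  exact (summable_subtype_iff_indicator).mpr h2

theorem tsum_dfun (x : ℝ) :
    ∑' q : PS p, dfun p x q =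
      ∑' n : ℕ, (PS p).indicator (fun n : ℕ => Real.log n * (n : ℝ) ^ (-x)) n :=
  tsum_subtype (PS p) (fun n : ℕ => Real.log n * (n : ℝ) ^ (-x))

theorem summable_pfun (x : ℝ) (hx : 1 < x) : Summable (pfun p x) := by
  have h : Summable (fun n : ℕ => (n : ℝ) ^ (-x)) := Real.summable_nat_rpow.mpr (by linarith)
  exact h.subtype (PS p)

theorem hasDerivAt_pfun (q : PS p) (x : ℝ) :
    HasDerivAt (fun x : ℝ => pfun p x q) (-(dfun p x q)) x := by
  have hq : (0 : ℝ) < ((q : ℕ) : ℝ) := lt_of_lt_of_le one_pos (one_le_cast p q)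
  have h := (Real.hasStrictDerivAt_const_rpow hq (-x)).hasDerivAt.comp x (hasDerivAt_neg x)
  unfold pfun dfun
  have e : -(Real.log ((q : ℕ) : ℝ) * ((q : ℕ) : ℝ) ^ (-x)) =
      ((q : ℕ) : ℝ) ^ (-x) * Real.log ((q : ℕ) : ℝ) * -1 := by ring
  rw [e]
  exact h

/-- The lower bound for finite partial sums, by monotonicity of an auxiliary function. -/
theorem finite_lower (C : ℝ) (hC0 : 0 ≤ C) (s : ℝ) (hs : s ∈ Set.Ioc (1 : ℝ) 2)
    (F : Finset (PS p))
    (hF : ∀ x ∈ Set.Icc s 2, ((p.totient : ℝ))⁻¹ / (x - 1) - C ≤ ∑ q ∈ F, dfun p x q) :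
    ((p.totient : ℝ))⁻¹ * Real.log (1 / (s - 1)) - C ≤ ∑ q ∈ F, pfun p s q := by
  set c : ℝ := ((p.totient : ℝ))⁻¹ with hc
  set g : ℝ → ℝ := fun x => ∑ q ∈ F, pfun p x q + c * Real.log (x - 1) - C * x with hg
  have hderiv : ∀ x : ℝ, 1 < x →
      HasDerivAt g (∑ q ∈ F, -(dfun p x q) + c * (1 / (x - 1)) - C) x := by
    intro x hx
    have h1 : HasDerivAt (fun x : ℝ => ∑ q ∈ F, pfun p x q) (∑ q ∈ F, -(dfun p x q)) x :=
      HasDerivAt.fun_sum fun q _ => hasDerivAt_pfun p q x
    have h2 : HasDerivAt (fun x : ℝ => Real.log (x - 1)) (1 / (x - 1)) x := by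
      have := ((hasDerivAt_id x).sub_const 1).log (by simp; linarith)
      simpa using this
    have h3 : HasDerivAt (fun x : ℝ => C * x) C x := by
      simpa using (hasDerivAt_id x).const_mul C
    exact (h1.add (h2.const_mul c)).sub h3
  have hanti : AntitoneOn g (Set.Icc s 2) := by
    refine antitoneOn_of_deriv_nonpos (convex_Icc s 2) ?_ ?_ ?_
    · intro x hx
      exact (hderiv x (lt_of_lt_of_le hs.1 hx.1)).continuousAt.continuousWithinAt
    · intro x hx
      rw [interior_Icc] at hx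
      exact (hderiv x (lt_trans hs.1 hx.1)).differentiableAt.differentiableWithinAt
    · intro x hx
      rw [interior_Icc] at hx
      have hx1 : 1 < x := lt_trans hs.1 hx.1
      rw [(hderiv x hx1).deriv]
      have := hF x ⟨hx.1.le, hx.2.le⟩
      rw [Finset.sum_neg_distrib]
      have e : c * (1 / (x - 1)) = c / (x - 1) := by ring
      rw [e]
      linarith
  have h2 := hanti ⟨le_rfl, hs.2⟩ ⟨hs.2, le_rfl⟩ hs.2
  simp only [hg] at h2
  have hlog1 : Real.log ((2 : ℝ) - 1) = 0 := by norm_num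
  rw [hlog1] at h2
  have hpos : 0 ≤ ∑ q ∈ F, pfun p 2 q := Finset.sum_nonneg fun q _ => pfun_nonneg p 2 q
  have hlog : Real.log (1 / (s - 1)) = -Real.log (s - 1) := by
    rw [one_div, Real.log_inv]
  rw [hlog]
  have hs2 : C * (2 - s) ≤ C := by
    have : 2 - s ≤ 1 := by linarith [hs.1]
    nlinarith
  nlinarith

/-- **Dirichlet, lower bound.** -/
theorem main : ∃ C : ℝ, ∀ s ∈ Set.Ioc (1 : ℝ) 2,
    ((p.totient : ℝ))⁻¹ * Real.log (1 / (s - 1)) - C ≤ ∑' q : PS p, pfun p s q := by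
  obtain ⟨C₁, hC₁⟩ := prime_part_lower p
  refine ⟨max C₁ 0 + 1, fun s hs => ?_⟩
  -- choose a finite set with small tail at `s`
  have hsum := summable_dfun p s hs.1
  obtain ⟨F, hFs⟩ : ∃ F : Finset (PS p), ∑' q : PS p, dfun p s q - 1 < ∑ q ∈ F, dfun p s q := by
    have := hsum.hasSum.eventually (lt_mem_nhds (show ∑' q : PS p, dfun p s q - 1 <
      ∑' q : PS p, dfun p s q by linarith))
    exact this.exists
  have hF : ∀ x ∈ Set.Icc s 2, ((p.totient : ℝ))⁻¹ / (x - 1) - (max C₁ 0 + 1) ≤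
      ∑ q ∈ F, dfun p x q := by
    intro x hx
    have hx1 : 1 < x := lt_of_lt_of_le hs.1 hx.1
    have hlow := hC₁ x ⟨hx1, hx.2⟩
    rw [← tsum_dfun p x] at hlow
    have hsx := summable_dfun p x hx1
    -- tail comparison
    have htail : ∑ q ∈ F, (dfun p s q - dfun p x q) ≤ ∑' q : PS p, (dfun p s q - dfun p x q) :=
      (hsum.sub hsx).sum_le_tsum F (fun q _ => sub_nonneg.mpr (dfun_anti p hx.1 q))
    rw [hsum.tsum_sub hsx, Finset.sum_sub_distrib] at htail
    have := le_max_left C₁ 0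
    linarith
  have h1 := finite_lower p (max C₁ 0 + 1) (by positivity) s hs F hF
  have h2 : ∑ q ∈ F, pfun p s q ≤ ∑' q : PS p, pfun p s q :=
    (summable_pfun p s hs.1).sum_le_tsum F (fun q _ => pfun_nonneg p s q)
  linarith

/-- **Slice A2** in the literal shape of `AIface.DirichletLower`. -/
theorem exists_bound : ∃ C : ℝ, ∀ s ∈ Set.Ioc (1 : ℝ) 2,
    Real.log (1 / (s - 1)) / (p - 1) - C ≤
      ∑' q : {q : ℕ // q.Prime ∧ q ≡ 1 [MOD p]}, ((q : ℕ) : ℝ) ^ (-s) := by
  obtain ⟨C, hC⟩ := main p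
  refine ⟨C, fun s hs => ?_⟩
  have h := hC s hs
  have hp : (p.totient : ℝ) = (p : ℝ) - 1 := by
    rw [Nat.totient_prime (Fact.out : p.Prime), Nat.cast_sub (Fact.out : p.Prime).one_le]
    simp
  rw [hp] at h
  have e : Real.log (1 / (s - 1)) / ((p : ℝ) - 1) = ((p : ℝ) - 1)⁻¹ * Real.log (1 / (s - 1)) := by
    rw [div_eq_inv_mul]
  rw [e]
  exact h

end Fermat.Agent.S14.DirichletLower

namespace Fermat.Agent.S14

/-- **Slice A2**: `DirichletLower p`. -/
theorem dirichletLower (p : ℕ) [Fact p.Prime] : DirichletLower p :=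
  DirichletLower.exists_bound p

end Fermat.Agent.S14
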