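import Fermat.Agent.S14.IdealSummable

set_option autoImplicit false

open scoped NumberField nonZeroDivisors
open Filter Topology

namespace Fermat.Agent.S14.A4

variable (K : Type) [Field K] [NumberField K]

/-- The nonzero ideals not divisible by any prime of the finite set `S`. -/
def coprimeTo (S : Finset (PrimeIdeal K)) : Set (Ideal (𝓞 K))⁰ :=
  {I | ∀ v ∈ S, ¬ ((v.1 : Ideal (𝓞 K)) ∣ (I : Ideal (𝓞 K)))}

variable {K}

omit [NumberField K] in
theorem prime_ne_bot (v : PrimeIdeal K) : ((v.1 : (Ideal (𝓞 K))⁰) : Ideal (𝓞 K)) ≠ ⊥ :=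
  mem_nonZeroDivisors_iff_ne_zero.mp v.1.2

theorem prime_prime (v : PrimeIdeal K) : Prime ((v.1 : (Ideal (𝓞 K))⁰) : Ideal (𝓞 K)) :=
  Ideal.prime_of_isPrime (prime_ne_bot v) v.2

theorem not_dvd_of_ne {v w : PrimeIdeal K} (h : w ≠ v) :
    ¬ ((w.1 : Ideal (𝓞 K)) ∣ (v.1 : Ideal (𝓞 K))) := by
  intro hd
  have hle : (v.1 : Ideal (𝓞 K)) ≤ (w.1 : Ideal (𝓞 K)) := Ideal.dvd_iff_le.mp hd
  have hmax : (v.1 : Ideal (𝓞 K)).IsMaximal := v.2.isMaximal (prime_ne_bot v)
  have := hmax.eq_of_le w.2.ne_top hle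
  exact h (Subtype.ext (Subtype.ext this.symm))

theorem one_mem_coprimeTo (S : Finset (PrimeIdeal K)) : (1 : (Ideal (𝓞 K))⁰) ∈ coprimeTo K S := by
  intro v _ hd
  have : (v.1 : Ideal (𝓞 K)) = ⊤ := by
    have h1 : ((1 : (Ideal (𝓞 K))⁰) : Ideal (𝓞 K)) = ⊤ := by simp
    rw [h1] at hd
    exact top_le_iff.mp (Ideal.dvd_iff_le.mp hd)
  exact v.2.ne_top this

theorem mul_mem_coprimeTo_iff {S : Finset (PrimeIdeal K)} {v : PrimeIdeal K} (hv : v ∉ S)
    (J : (Ideal (𝓞 K))⁰) : v.1 * J ∈ coprimeTo K S ↔ J ∈ coprimeTo K S := by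
  constructor
  · intro h w hw hd
    exact h w hw (by
      have : ((v.1 * J : (Ideal (𝓞 K))⁰) : Ideal (𝓞 K)) = (v.1 : Ideal (𝓞 K)) * J := by simp
      rw [this]
      exact Dvd.dvd.mul_left hd _)
  · intro h w hw hd
    have : ((v.1 * J : (Ideal (𝓞 K))⁰) : Ideal (𝓞 K)) = (v.1 : Ideal (𝓞 K)) * J := by simp
    rw [this] at hd
    rcases (prime_prime w).dvd_or_dvd hd with h1 | h1
    · exact not_dvd_of_ne (fun e => hv (by rw [← e]; exact hw)) h1
    · exact h w hw h1

omit [NumberField K] in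
theorem coprimeTo_insert (S : Finset (PrimeIdeal K)) (v : PrimeIdeal K) :
    coprimeTo K (insert v S) =
      coprimeTo K S \ (coprimeTo K S ∩ {I | (v.1 : Ideal (𝓞 K)) ∣ (I : Ideal (𝓞 K))}) := by
  ext I
  simp only [coprimeTo, Set.mem_ofPred_eq, Finset.mem_insert, Set.mem_sdiff, Set.mem_inter_iff,
    not_and]
  constructor
  · intro h
    exact ⟨fun w hw => h w (Or.inr hw), fun _ => h v (Or.inl rfl)⟩
  · rintro ⟨h1, h2⟩ w (rfl | hw)
    · exact h2 h1
    · exact h1 w hw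

/-- **The finite sieve identity.** -/
theorem sieve_identity (f : (Ideal (𝓞 K))⁰ → ℂ) (hmul : ∀ I J, f (I * J) = f I * f J)
    (hsum : Summable fun I => ‖f I‖) (S : Finset (PrimeIdeal K)) :
    ∑' I, (coprimeTo K S).indicator f I = (∑' I, f I) * ∏ v ∈ S, (1 - f v.1) := by
  classical
  have hsf : Summable f := hsum.of_norm
  induction S using Finset.induction_on with
  | empty =>
    have : coprimeTo K (∅ : Finset (PrimeIdeal K)) = Set.univ := by
      ext I; simp [coprimeTo]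
    simp [this]
  | insert v S hv ih =>
    rw [coprimeTo_insert, Set.indicator_sdiff Set.inter_subset_left]
    have hs1 : Summable ((coprimeTo K S).indicator f) := hsf.indicator _
    have hs2 : Summable ((coprimeTo K S ∩
        {I | (v.1 : Ideal (𝓞 K)) ∣ (I : Ideal (𝓞 K))}).indicator f) := hsf.indicator _
    have key : ∑' I, (coprimeTo K S ∩
        {I | (v.1 : Ideal (𝓞 K)) ∣ (I : Ideal (𝓞 K))}).indicator f I =
        f v.1 * ∑' I, (coprimeTo K S).indicator f I := by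
      have hinj : Function.Injective (fun J : (Ideal (𝓞 K))⁰ => v.1 * J) :=
        fun a b hab => mul_left_cancel hab
      have hsupp : Function.support ((coprimeTo K S ∩
          {I | (v.1 : Ideal (𝓞 K)) ∣ (I : Ideal (𝓞 K))}).indicator f) ⊆
          Set.range (fun J : (Ideal (𝓞 K))⁰ => v.1 * J) := by
        intro I hI
        have hI' := Set.mem_of_indicator_ne_zero hI
        obtain ⟨J', hJ'⟩ := hI'.2
        have hJ0 : J' ≠ ⊥ := by
          rintro rfl
          have : (I : Ideal (𝓞 K)) = ⊥ := by rw [hJ']; simp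
          exact (mem_nonZeroDivisors_iff_ne_zero.mp I.2) this
        refine ⟨⟨J', mem_nonZeroDivisors_iff_ne_zero.mpr hJ0⟩, ?_⟩
        apply Subtype.ext
        simp [hJ']
      rw [← hinj.tsum_eq hsupp, ← tsum_mul_left]
      congr 1
      ext J
      by_cases hJ : J ∈ coprimeTo K S
      · have h1 : v.1 * J ∈ coprimeTo K S ∩
            {I | (v.1 : Ideal (𝓞 K)) ∣ (I : Ideal (𝓞 K))} :=
          ⟨(mul_mem_coprimeTo_iff hv J).mpr hJ, by
            show (v.1 : Ideal (𝓞 K)) ∣ ((v.1 * J : (Ideal (𝓞 K))⁰) : Ideal (𝓞 K))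
            have : ((v.1 * J : (Ideal (𝓞 K))⁰) : Ideal (𝓞 K)) = (v.1 : Ideal (𝓞 K)) * J := by
              simp
            rw [this]; exact dvd_mul_right _ _⟩
        rw [Set.indicator_of_mem h1, Set.indicator_of_mem hJ, hmul]
      · have h1 : v.1 * J ∉ coprimeTo K S ∩
            {I | (v.1 : Ideal (𝓞 K)) ∣ (I : Ideal (𝓞 K))} :=
          fun h => hJ ((mul_mem_coprimeTo_iff hv J).mp h.1)
        rw [Set.indicator_of_notMem h1, Set.indicator_of_notMem hJ, mul_zero]
    have : ∑' I, ((coprimeTo K S).indicator f - (coprimeTo K S ∩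
        {I | (v.1 : Ideal (𝓞 K)) ∣ (I : Ideal (𝓞 K))}).indicator f) I =
        ∑' I, (coprimeTo K S).indicator f I - ∑' I, (coprimeTo K S ∩
        {I | (v.1 : Ideal (𝓞 K)) ∣ (I : Ideal (𝓞 K))}).indicator f I := by
      simp only [Pi.sub_apply]
      exact hs1.tsum_sub hs2
    rw [this, key, ih, Finset.prod_insert hv]
    ring

variable (K)

/-- The Dirichlet coefficient `ψ([I]) N(I)^(-s)`. -/
noncomputable def term (ψ : ClassGroup (𝓞 K) →* ℂˣ) (s : ℝ) (I : (Ideal (𝓞 K))⁰) : ℂ :=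
  (ψ (ClassGroup.mk0 I) : ℂ) * (normPow K I s : ℂ)

theorem idealL_eq_tsum_term (ψ : ClassGroup (𝓞 K) →* ℂˣ) (s : ℝ) :
    idealL K ψ s = ∑' I, term K ψ s I := rfl

variable {K}

theorem norm_char (ψ : ClassGroup (𝓞 K) →* ℂˣ) (c : ClassGroup (𝓞 K)) : ‖(ψ c : ℂ)‖ = 1 := by
  have h1 : (ψ c) ^ Fintype.card (ClassGroup (𝓞 K)) = 1 := by
    rw [← map_pow, pow_card_eq_one, map_one]
  have h2 : ((ψ c : ℂˣ) : ℂ) ^ Fintype.card (ClassGroup (𝓞 K)) = 1 := by
    rw [← Units.val_pow_eq_pow_val, h1, Units.val_one]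
  exact Complex.norm_eq_one_of_pow_eq_one h2 Fintype.card_ne_zero

theorem absNorm_pos (I : (Ideal (𝓞 K))⁰) : 0 < Ideal.absNorm (I : Ideal (𝓞 K)) :=
  Nat.pos_of_ne_zero (by
    rw [Ne, Ideal.absNorm_eq_zero_iff]
    exact mem_nonZeroDivisors_iff_ne_zero.mp I.2)

theorem normPow_pos (I : (Ideal (𝓞 K))⁰) (s : ℝ) : 0 < normPow K I s :=
  Real.rpow_pos_of_pos (by exact_mod_cast absNorm_pos I) _

theorem normPow_le_one (I : (Ideal (𝓞 K))⁰) {s : ℝ} (hs : 0 ≤ s) : normPow K I s ≤ 1 :=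
  Real.rpow_le_one_of_one_le_of_nonpos (by exact_mod_cast absNorm_pos I) (by linarith)

theorem normPow_mul (I J : (Ideal (𝓞 K))⁰) (s : ℝ) :
    normPow K (I * J) s = normPow K I s * normPow K J s := by
  unfold normPow
  have : ((I * J : (Ideal (𝓞 K))⁰) : Ideal (𝓞 K)) = (I : Ideal (𝓞 K)) * J := by simp
  rw [this, map_mul, Nat.cast_mul, Real.mul_rpow (Nat.cast_nonneg _) (Nat.cast_nonneg _)]

theorem normPow_one (s : ℝ) : normPow K (1 : (Ideal (𝓞 K))⁰) s = 1 := by
  unfold normPow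
  have : ((1 : (Ideal (𝓞 K))⁰) : Ideal (𝓞 K)) = ⊤ := by simp
  rw [this, Ideal.absNorm_top, Nat.cast_one, Real.one_rpow]

theorem norm_term (ψ : ClassGroup (𝓞 K) →* ℂˣ) (s : ℝ) (I : (Ideal (𝓞 K))⁰) :
    ‖term K ψ s I‖ = normPow K I s := by
  rw [term, norm_mul, norm_char, one_mul, Complex.norm_real,
    Real.norm_of_nonneg (normPow_pos I s).le]

theorem term_mul (ψ : ClassGroup (𝓞 K) →* ℂˣ) (s : ℝ) (I J : (Ideal (𝓞 K))⁰) :
    term K ψ s (I * J) = term K ψ s I * term K ψ s J := by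
  simp only [term, map_mul, Units.val_mul, normPow_mul, Complex.ofReal_mul]
  ring

theorem term_one (ψ : ClassGroup (𝓞 K) →* ℂˣ) (s : ℝ) : term K ψ s 1 = 1 := by
  simp [term, normPow_one]

theorem re_term (ψ : ClassGroup (𝓞 K) →* ℂˣ) (s : ℝ) (I : (Ideal (𝓞 K))⁰) :
    (term K ψ s I).re = (ψ (ClassGroup.mk0 I) : ℂ).re * normPow K I s := by
  rw [term, Complex.re_mul_ofReal]

theorem summable_norm_term (ψ : ClassGroup (𝓞 K) →* ℂˣ) {s : ℝ} (hs : 1 < s) :
    Summable fun I => ‖term K ψ s I‖ := by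
  simp_rw [norm_term]
  exact A0.idealSummable K s hs

/-- The elementary inequality `|1 - z| ≤ exp(-Re z + |z|²)`, valid for every `z`. -/
theorem norm_one_sub_le (z : ℂ) : ‖1 - z‖ ≤ Real.exp (-z.re + ‖z‖ ^ 2) := by
  have h1 : ‖1 - z‖ ^ 2 = 1 - 2 * z.re + ‖z‖ ^ 2 := by
    rw [Complex.sq_norm, Complex.sq_norm, Complex.normSq_apply, Complex.normSq_apply]
    simp only [Complex.sub_re, Complex.one_re, Complex.sub_im, Complex.one_im]
    ring
  have h2 : ‖1 - z‖ ^ 2 ≤ Real.exp (-z.re + ‖z‖ ^ 2) ^ 2 := by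
    rw [← Real.exp_nat_mul]
    have := Real.add_one_le_exp (((2 : ℕ) : ℝ) * (-z.re + ‖z‖ ^ 2))
    push_cast at this ⊢
    nlinarith [sq_nonneg ‖z‖]
  exact le_of_pow_le_pow_left₀ two_ne_zero (Real.exp_pos _).le h2

variable (K)

/-- The primes of norm at most `X`. -/
theorem finite_primes_le (X : ℕ) :
    {v : PrimeIdeal K | Ideal.absNorm ((v.1 : (Ideal (𝓞 K))⁰) : Ideal (𝓞 K)) ≤ X}.Finite := by
  have h := Ideal.finite_setOfPred_absNorm_le (S := 𝓞 K) X
  refine Set.Finite.of_finite_image (f := fun v : PrimeIdeal K =>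
    ((v.1 : (Ideal (𝓞 K))⁰) : Ideal (𝓞 K))) (h.subset ?_) ?_
  · rintro _ ⟨v, hv, rfl⟩
    exact hv
  · intro v _ w _ hvw
    exact Subtype.ext (Subtype.ext hvw)

/-- For `S` large, the sieved sum is close to `1`. -/
theorem exists_finset_sieve_ge (ψ : ClassGroup (𝓞 K) →* ℂˣ) {s : ℝ} (hs : 1 < s) :
    ∃ S₀ : Finset (PrimeIdeal K), ∀ S : Finset (PrimeIdeal K), S₀ ⊆ S →
      (1 / 2 : ℝ) ≤ ‖∑' I, (coprimeTo K S).indicator (term K ψ s) I‖ := by
  classical
  have hA0 : Summable fun I : (Ideal (𝓞 K))⁰ => normPow K I s := A0.idealSummable K s hs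
  have htail := tendsto_tsum_compl_atTop_zero (fun I : (Ideal (𝓞 K))⁰ => normPow K I s)
  obtain ⟨T, hT⟩ := ((htail.eventually (gt_mem_nhds (by norm_num : (0 : ℝ) < 1 / 2))).exists)
  set X : ℕ := T.sup (fun I => Ideal.absNorm (I : Ideal (𝓞 K))) with hX
  refine ⟨(finite_primes_le K X).toFinset, fun S hS => ?_⟩
  have hsf : Summable (term K ψ s) := (summable_norm_term ψ hs).of_norm
  -- every ideal coprime to `S` other than `1` lies outside `T`
  have hout : ∀ I ∈ coprimeTo K S, I ≠ 1 → I ∉ T := by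
    intro I hI hI1 hIT
    have hItop : (I : Ideal (𝓞 K)) ≠ ⊤ := by
      intro h
      apply hI1
      apply Subtype.ext
      simpa using h
    obtain ⟨m, hm, hIm⟩ := Ideal.exists_le_maximal _ hItop
    have hm0 : m ≠ ⊥ := by
      rintro rfl
      exact (mem_nonZeroDivisors_iff_ne_zero.mp I.2) (le_bot_iff.mp hIm)
    let v : PrimeIdeal K := ⟨⟨m, mem_nonZeroDivisors_iff_ne_zero.mpr hm0⟩, hm.isPrime⟩
    have hvS : v ∉ S := fun hvS => hI v hvS (Ideal.dvd_iff_le.mpr hIm)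
    have hvX : ¬ Ideal.absNorm m ≤ X := by
      intro hle
      apply hvS
      apply hS
      rw [Set.Finite.mem_toFinset]
      exact hle
    have hdvd : Ideal.absNorm m ∣ Ideal.absNorm (I : Ideal (𝓞 K)) :=
      Ideal.absNorm_dvd_absNorm_of_le hIm
    have hle1 : Ideal.absNorm m ≤ Ideal.absNorm (I : Ideal (𝓞 K)) :=
      Nat.le_of_dvd (absNorm_pos I) hdvd
    have hle2 : Ideal.absNorm (I : Ideal (𝓞 K)) ≤ X :=
      Finset.le_sup (f := fun I : (Ideal (𝓞 K))⁰ => Ideal.absNorm (I : Ideal (𝓞 K))) hIT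
    exact hvX (hle1.trans hle2)
  -- split off the ideal `1`
  have h1mem : (1 : (Ideal (𝓞 K))⁰) ∈ coprimeTo K S := one_mem_coprimeTo S
  have hsplit : ∀ I, (coprimeTo K S).indicator (term K ψ s) I =
      ({1} : Set (Ideal (𝓞 K))⁰).indicator (term K ψ s) I +
        (coprimeTo K S \ {1}).indicator (term K ψ s) I := by
    intro I
    by_cases h1 : I = 1
    · subst h1
      rw [Set.indicator_of_mem h1mem, Set.indicator_of_mem (Set.mem_singleton _),
        Set.indicator_of_notMem (fun h => h.2 rfl), add_zero]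
    · by_cases hI : I ∈ coprimeTo K S
      · rw [Set.indicator_of_mem hI, Set.indicator_of_notMem (by simpa using h1),
          Set.indicator_of_mem (show I ∈ coprimeTo K S \ {1} from ⟨hI, h1⟩), zero_add]
      · rw [Set.indicator_of_notMem hI, Set.indicator_of_notMem (by simpa using h1),
          Set.indicator_of_notMem (fun h => hI h.1), add_zero]
  have hs1 : Summable (({1} : Set (Ideal (𝓞 K))⁰).indicator (term K ψ s)) := hsf.indicator _
  have hs2 : Summable ((coprimeTo K S \ {1}).indicator (term K ψ s)) := hsf.indicator _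
  have hone : ∑' I, ({1} : Set (Ideal (𝓞 K))⁰).indicator (term K ψ s) I = 1 := by
    rw [← tsum_subtype, tsum_singleton (1 : (Ideal (𝓞 K))⁰) (term K ψ s), term_one]
  have hrest : ‖∑' I, (coprimeTo K S \ {1}).indicator (term K ψ s) I‖ ≤ 1 / 2 := by
    have hle : ∀ I, ‖(coprimeTo K S \ {1}).indicator (term K ψ s) I‖ ≤
        ({x | x ∉ T} : Set (Ideal (𝓞 K))⁰).indicator (fun I => normPow K I s) I := by
      intro I
      by_cases hI : I ∈ coprimeTo K S \ {1}
      · have hIT : I ∈ ({x | x ∉ T} : Set (Ideal (𝓞 K))⁰) := hout I hI.1 hI.2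
        rw [Set.indicator_of_mem hI, Set.indicator_of_mem hIT, norm_term]
      · rw [Set.indicator_of_notMem hI, norm_zero]
        exact Set.indicator_nonneg (fun I _ => (normPow_pos I s).le) I
    have hsT : Summable (({x | x ∉ T} : Set (Ideal (𝓞 K))⁰).indicator
        (fun I => normPow K I s)) := hA0.indicator _
    calc ‖∑' I, (coprimeTo K S \ {1}).indicator (term K ψ s) I‖
        ≤ ∑' I, ({x | x ∉ T} : Set (Ideal (𝓞 K))⁰).indicator (fun I => normPow K I s) I :=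
          tsum_of_norm_bounded hsT.hasSum hle
      _ = ∑' I : {x // x ∉ T}, normPow K I s := by
          rw [← tsum_subtype]; rfl
      _ ≤ 1 / 2 := hT.le
  rw [tsum_congr hsplit, hs1.tsum_add hs2, hone]
  calc (1 / 2 : ℝ) = ‖(1 : ℂ)‖ - 1 / 2 := by norm_num
    _ ≤ ‖(1 : ℂ)‖ - ‖∑' I, (coprimeTo K S \ {1}).indicator (term K ψ s) I‖ := by linarith
    _ ≤ ‖(1 : ℂ) + ∑' I, (coprimeTo K S \ {1}).indicator (term K ψ s) I‖ := by
        have := norm_sub_norm_le (1 : ℂ) (-(∑' I, (coprimeTo K S \ {1}).indicator (term K ψ s) I))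
        rw [norm_neg, sub_neg_eq_add] at this
        exact this

theorem summable_primes (s : ℝ) (hs : 1 < s) :
    Summable fun v : PrimeIdeal K => normPow K v.1 s :=
  (A0.idealSummable K s hs).subtype _

/-- The finite form of the sieve bound: for every finite set `S` of primes containing a suitable
`S₀` (depending on `ψ`, `s`), `exp(∑_{v ∈ S} Re ψ(v) N v^(-s) - C) ≤ |L(s, ψ)|`. -/
theorem exists_finset_exp_le (ψ : ClassGroup (𝓞 K) →* ℂˣ) {s : ℝ} (hs : 1 < s) :
    ∃ S₀ : Finset (PrimeIdeal K), ∀ S : Finset (PrimeIdeal K), S₀ ⊆ S →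
      Real.exp (∑ v ∈ S, (ψ (ClassGroup.mk0 v.1) : ℂ).re * normPow K v.1 s -
        ((∑' v : PrimeIdeal K, normPow K v.1 2) + Real.log 2)) ≤ ‖idealL K ψ s‖ := by
  obtain ⟨S₀, hS₀⟩ := exists_finset_sieve_ge K ψ hs
  refine ⟨S₀, fun S hS => ?_⟩
  have h1 := hS₀ S hS
  rw [sieve_identity (term K ψ s) (term_mul ψ s) (summable_norm_term ψ hs) S, norm_mul,
    norm_prod, ← idealL_eq_tsum_term] at h1
  -- bound the finite product
  have h2 : ∏ v ∈ S, ‖1 - term K ψ s v.1‖ ≤
      Real.exp (-(∑ v ∈ S, (ψ (ClassGroup.mk0 v.1) : ℂ).re * normPow K v.1 s) +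
        ∑' v : PrimeIdeal K, normPow K v.1 2) := by
    calc ∏ v ∈ S, ‖1 - term K ψ s v.1‖
        ≤ ∏ v ∈ S, Real.exp (-(term K ψ s v.1).re + ‖term K ψ s v.1‖ ^ 2) :=
          Finset.prod_le_prod (fun v _ => norm_nonneg _) (fun v _ => norm_one_sub_le _)
      _ = Real.exp (∑ v ∈ S, (-(term K ψ s v.1).re + ‖term K ψ s v.1‖ ^ 2)) :=
          (Real.exp_sum _ _).symm
      _ ≤ _ := by
          rw [Real.exp_le_exp, Finset.sum_add_distrib, Finset.sum_neg_distrib]
          have hle : ∑ v ∈ S, ‖term K ψ s v.1‖ ^ 2 ≤ ∑' v : PrimeIdeal K, normPow K v.1 2 := by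
            calc ∑ v ∈ S, ‖term K ψ s v.1‖ ^ 2 ≤ ∑ v ∈ S, normPow K v.1 2 := by
                  refine Finset.sum_le_sum fun v _ => ?_
                  rw [norm_term]
                  unfold normPow
                  have hN : (1 : ℝ) ≤ (Ideal.absNorm ((v.1 : (Ideal (𝓞 K))⁰) : Ideal (𝓞 K)) : ℝ) := by
                    exact_mod_cast absNorm_pos v.1
                  rw [← Real.rpow_natCast, ← Real.rpow_mul (by linarith)]
                  exact Real.rpow_le_rpow_of_exponent_le hN (by push_cast; nlinarith)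
              _ ≤ ∑' v : PrimeIdeal K, normPow K v.1 2 :=
                  (summable_primes K 2 (by norm_num)).sum_le_tsum S
                    (fun v _ => (normPow_pos v.1 2).le)
          have hre : ∑ v ∈ S, (term K ψ s v.1).re =
              ∑ v ∈ S, (ψ (ClassGroup.mk0 v.1) : ℂ).re * normPow K v.1 s :=
            Finset.sum_congr rfl fun v _ => re_term ψ s v.1
          rw [hre]
          linarith
  have h3 : (1 / 2 : ℝ) ≤ ‖idealL K ψ s‖ *
      Real.exp (-(∑ v ∈ S, (ψ (ClassGroup.mk0 v.1) : ℂ).re * normPow K v.1 s) +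
        ∑' v : PrimeIdeal K, normPow K v.1 2) :=
    h1.trans (mul_le_mul_of_nonneg_left h2 (norm_nonneg _))
  set A : ℝ := ∑ v ∈ S, (ψ (ClassGroup.mk0 v.1) : ℂ).re * normPow K v.1 s with hA
  set C₂ : ℝ := ∑' v : PrimeIdeal K, normPow K v.1 2 with hC₂
  have h4 : Real.exp (A - (C₂ + Real.log 2)) = Real.exp (A - C₂) / 2 := by
    rw [show A - (C₂ + Real.log 2) = (A - C₂) - Real.log 2 by ring, Real.exp_sub,
      Real.exp_log (by norm_num)]
  rw [h4]
  have h5 : Real.exp (A - C₂) * Real.exp (-A + C₂) = 1 := by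
    rw [← Real.exp_add]; simp
  have hpos : 0 < Real.exp (A - C₂) := Real.exp_pos _
  calc Real.exp (A - C₂) / 2 = Real.exp (A - C₂) * (1 / 2) := by ring
    _ ≤ Real.exp (A - C₂) * (‖idealL K ψ s‖ * Real.exp (-A + C₂)) :=
        mul_le_mul_of_nonneg_left h3 hpos.le
    _ = ‖idealL K ψ s‖ * (Real.exp (A - C₂) * Real.exp (-A + C₂)) := by ring
    _ = ‖idealL K ψ s‖ := by rw [h5, mul_one]

/-- **Slice A4**: the sieve Euler product lower bound. -/
theorem eulerLower : EulerLower K := by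
  refine ⟨(∑' v : PrimeIdeal K, normPow K v.1 2) + Real.log 2, fun ψ s hs => ?_⟩
  obtain ⟨hs1, -⟩ := hs
  obtain ⟨S₀, hS₀⟩ := exists_finset_exp_le K ψ hs1
  have hsumRe : Summable fun v : PrimeIdeal K =>
      (ψ (ClassGroup.mk0 v.1) : ℂ).re * normPow K v.1 s := by
    refine Summable.of_norm_bounded (summable_primes K s hs1) fun v => ?_
    rw [norm_mul, Real.norm_of_nonneg (normPow_pos v.1 s).le]
    have : ‖(ψ (ClassGroup.mk0 v.1) : ℂ).re‖ ≤ 1 := by
      rw [Real.norm_eq_abs]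
      exact (Complex.abs_re_le_norm _).trans (norm_char ψ _).le
    exact mul_le_of_le_one_left (normPow_pos v.1 s).le this
  have hlim := hsumRe.hasSum
  have hlim2 : Tendsto (fun S : Finset (PrimeIdeal K) =>
      Real.exp (∑ v ∈ S, (ψ (ClassGroup.mk0 v.1) : ℂ).re * normPow K v.1 s -
        ((∑' v : PrimeIdeal K, normPow K v.1 2) + Real.log 2))) atTop
      (𝓝 (Real.exp (∑' v : PrimeIdeal K, (ψ (ClassGroup.mk0 v.1) : ℂ).re * normPow K v.1 s -
        ((∑' v : PrimeIdeal K, normPow K v.1 2) + Real.log 2)))) :=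
    (Real.continuous_exp.tendsto _).comp (hlim.sub_const _)
  refine le_of_tendsto hlim2 ?_
  filter_upwards [eventually_ge_atTop S₀] with S hS
  exact hS₀ S hS

/-- For the trivial character `idealL` is the real sum `∑ N(I)^(-s)`. -/
theorem idealL_one (s : ℝ) :
    idealL K 1 s = ((∑' I : (Ideal (𝓞 K))⁰, normPow K I s : ℝ) : ℂ) := by
  unfold idealL
  simp [Complex.ofReal_tsum]

theorem one_le_tsum_normPow {s : ℝ} (hs : 1 < s) :
    1 ≤ ∑' I : (Ideal (𝓞 K))⁰, normPow K I s := by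
  have h := (A0.idealSummable K s hs).sum_le_tsum {(1 : (Ideal (𝓞 K))⁰)}
    (fun I _ => (normPow_pos I s).le)
  simpa [normPow_one] using h

/-- **Finite form for the trivial character** (for consumers of the zeta function of another
field, e.g. slice A1): `∑_{v ∈ S} N v^(-s) ≤ log (∑_I N(I)^(-s)) + C` for every finite set `S` of
primes, with `C` independent of `s ∈ (1, 2]` and of `S`. -/
theorem exists_sum_primes_le_log :
    ∃ C : ℝ, ∀ s ∈ Set.Ioc (1 : ℝ) 2, ∀ S : Finset (PrimeIdeal K),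
      ∑ v ∈ S, normPow K v.1 s ≤ Real.log (∑' I : (Ideal (𝓞 K))⁰, normPow K I s) + C := by
  obtain ⟨C, hC⟩ := eulerLower K
  refine ⟨C, fun s hs S => ?_⟩
  have h := hC 1 s hs
  have hpos : 0 < ∑' I : (Ideal (𝓞 K))⁰, normPow K I s :=
    lt_of_lt_of_le one_pos (one_le_tsum_normPow K hs.1)
  rw [idealL_one, Complex.norm_real, Real.norm_of_nonneg hpos.le] at h
  have h2 := (Real.le_log_iff_exp_le hpos).mpr h
  have h3 : ∑ v ∈ S, normPow K v.1 s ≤
      ∑' v : PrimeIdeal K, (((1 : ClassGroup (𝓞 K) →* ℂˣ) (ClassGroup.mk0 v.1) : ℂˣ) : ℂ).re *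
        normPow K v.1 s := by
    have e : (fun v : PrimeIdeal K =>
        (((1 : ClassGroup (𝓞 K) →* ℂˣ) (ClassGroup.mk0 v.1) : ℂˣ) : ℂ).re * normPow K v.1 s) =
        fun v : PrimeIdeal K => normPow K v.1 s := by
      funext v; simp
    rw [e]
    exact (summable_primes K s hs.1).sum_le_tsum S (fun v _ => (normPow_pos v.1 s).le)
  linarith

end Fermat.Agent.S14.A4
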