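import Fermat.Agent.S14.AIface

set_option autoImplicit false

open scoped NumberField nonZeroDivisors
open Filter Topology

namespace Fermat.Agent.S14.A0

variable (K : Type) [Field K] [NumberField K]

/-- The average number of ideals of norm `k ≤ n` converges (Mathlib's ideal count). -/
theorem tendsto_sum_card_div :
    Tendsto (fun n : ℕ ↦ (∑ k ∈ Finset.Icc 1 n,
      (Nat.card {I : Ideal (𝓞 K) // Ideal.absNorm I = k} : ℝ)) / n) atTop
      (𝓝 (NumberField.dedekindZeta_residue K)) := by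
  refine ((NumberField.Ideal.tendsto_norm_le_div_atTop₀ K).comp
    tendsto_natCast_atTop_atTop).congr fun n ↦ ?_
  simp only [Function.comp_apply, Nat.cast_le, ← Nat.cast_sum]
  congr
  rw [← add_left_inj 1, ← Ideal.card_norm_le_eq_card_norm_le_add_one,
    show Finset.Icc 1 n = Finset.Ioc 0 n from Finset.Icc_succ_left_eq_Ioc _ _,
    show 1 = Nat.card {I : Ideal (𝓞 K) // Ideal.absNorm I = 0} by simp [Ideal.absNorm_eq_zero_iff],
    Finset.sum_Ioc_add_eq_sum_Icc (n.zero_le),
    ← Finset.card_preimage_eq_sum_card_image_eq (fun k _ ↦ Ideal.finite_setOfPred_absNorm_eq k)]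
  simp [Set.coe_eq_subtype]

theorem lseriesSummable_card (s : ℝ) (hs : 1 < s) :
    LSeriesSummable
      (fun n ↦ ((Nat.card {I : Ideal (𝓞 K) // Ideal.absNorm I = n} : ℝ) : ℂ)) (s : ℂ) := by
  refine LSeriesSummable_of_sum_norm_bigO_and_nonneg (r := 1) ?_ (fun _ ↦ Nat.cast_nonneg _)
    zero_le_one (by simpa using hs)
  have h := (tendsto_sum_card_div K).isBigO_one ℝ
  have h2 : (fun n : ℕ ↦ (n : ℝ)) =O[atTop] fun n : ℕ ↦ (n : ℝ) ^ (1 : ℝ) := by
    simp only [Real.rpow_one]
    exact Asymptotics.isBigO_refl _ _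
  have h3 := h.mul h2
  refine (h3.congr' ?_ ?_)
  · filter_upwards [eventually_ne_atTop 0] with n hn
    have : (n : ℝ) ≠ 0 := Nat.cast_ne_zero.mpr hn
    field_simp
  · filter_upwards with n
    simp

/-- Real form: `∑ a_n n^(-s)` converges, `a_n` the number of ideals of norm `n`. -/
theorem summable_card_mul_rpow (s : ℝ) (hs : 1 < s) :
    Summable fun n : ℕ ↦
      (Nat.card {I : Ideal (𝓞 K) // Ideal.absNorm I = n} : ℝ) * (n : ℝ) ^ (-s) := by
  have h := (lseriesSummable_card K s hs).norm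
  refine h.congr fun n ↦ ?_
  rw [LSeries.norm_term_eq]
  rcases eq_or_ne n 0 with rfl | hn
  · simp [Real.zero_rpow (by linarith : -s ≠ 0)]
  · rw [if_neg hn, Complex.ofReal_re, Complex.norm_real, Real.norm_of_nonneg (Nat.cast_nonneg _),
      Real.rpow_neg (Nat.cast_nonneg _), div_eq_mul_inv]

/-- **Slice A0**: `∑ N(I)^(-s)` over the nonzero ideals converges for `s > 1`. -/
theorem idealSummable : IdealSummable K := by
  intro s hs
  have h1 := summable_card_mul_rpow K s hs
  let N : (Ideal (𝓞 K))⁰ → ℕ := fun I ↦ Ideal.absNorm (I : Ideal (𝓞 K))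
  rw [← (Equiv.sigmaFiberEquiv N).summable_iff,
    summable_sigma_of_nonneg (fun x ↦ by
      simp only [Function.comp_apply, normPow]
      exact Real.rpow_nonneg (Nat.cast_nonneg _) _)]
  have hfin : ∀ n : ℕ, Finite {I : Ideal (𝓞 K) // Ideal.absNorm I = n} := fun n ↦
    (Ideal.finite_setOfPred_absNorm_eq n).to_subtype
  have hinj : ∀ n : ℕ, Function.Injective
      (fun y : {I : (Ideal (𝓞 K))⁰ // N I = n} ↦
        (⟨(y.1 : Ideal (𝓞 K)), y.2⟩ : {I : Ideal (𝓞 K) // Ideal.absNorm I = n})) := by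
    intro n y z hyz
    simp only [Subtype.mk.injEq] at hyz
    exact Subtype.ext (Subtype.ext hyz)
  have hfin' : ∀ n : ℕ, Finite {I : (Ideal (𝓞 K))⁰ // N I = n} := fun n ↦
    haveI := hfin n
    Finite.of_injective _ (hinj n)
  refine ⟨fun n ↦ ?_, ?_⟩
  · have := hfin' n
    exact Summable.of_finite
  · refine Summable.of_nonneg_of_le (fun n ↦ tsum_nonneg fun _ ↦ by
      simp only [Function.comp_apply]; unfold normPow; positivity) (fun n ↦ ?_) h1
    have hconst : ∀ y : {I : (Ideal (𝓞 K))⁰ // N I = n},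
        ((fun I ↦ normPow K I s) ∘ (Equiv.sigmaFiberEquiv N)) ⟨n, y⟩ = (n : ℝ) ^ (-s) := by
      intro y
      simp only [Function.comp_apply, Equiv.sigmaFiberEquiv_apply, normPow]
      have : Ideal.absNorm ((y : (Ideal (𝓞 K))⁰) : Ideal (𝓞 K)) = n := y.2
      rw [this]
    simp_rw [hconst]
    rw [tsum_const, nsmul_eq_mul]
    have := hfin n
    have hle : Nat.card {I : (Ideal (𝓞 K))⁰ // N I = n} ≤
        Nat.card {I : Ideal (𝓞 K) // Ideal.absNorm I = n} :=
      Nat.card_le_card_of_injective _ (hinj n)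
    have hnn : (0 : ℝ) ≤ (n : ℝ) ^ (-s) := by positivity
    exact mul_le_mul_of_nonneg_right (by exact_mod_cast hle) hnn

end Fermat.Agent.S14.A0
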