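import Fermat.Agent.S14.XLower
import Fermat.Agent.S14.IdealSummable
import Fermat.Agent.S14.EulerLower
import Fermat.Agent.S14.DirichletLower
import Fermat.Agent.S14.ClassLBounded

/-!
# S14, slice A5 (final, unconditional)

`xLower : XLower p hζ` for every prime `p`, from `A5.xLower` fed with the landed slices
A0 (`A0.idealSummable`), A2 (`dirichletLower`), A3 (`classLBounded`) and A4 (`A4.eulerLower`).
-/

set_option autoImplicit false

open scoped NumberField nonZeroDivisors

namespace Fermat.Agent.S14

/-- **Slice A5, unconditional**: the lower density of the rational primes `q ≡ 1 mod p` above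
which a non-trivial `ω²`-character is non-trivial. -/
theorem xLower (p : ℕ) [Fact p.Prime] {K : Type} [Field K] [NumberField K]
    [IsCyclotomicExtension {p} ℚ K] {ζ : K} (hζ : IsPrimitiveRoot ζ p) : XLower p hζ :=
  A5.xLower p hζ (A0.idealSummable (K := K)) (dirichletLower p) (classLBounded K)
    (A4.eulerLower (K := K))

end Fermat.Agent.S14
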