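/-
S14, analytic glue (AN), part 1: the Dedekind zeta function of a number field as a sum over
nonzero integral ideals, with the two-sided bound `c/(s-1) ≤ ζ_K(s) ≤ C/(s-1)` on `(1,2]`.
-/
import Mathlib

set_option autoImplicit false

open NumberField Ideal nonZeroDivisors Filter Topology

namespace Fermat.Agent.S14.ANBridge

variable (K : Type*) [Field K] [NumberField K]

/-- The weight `N(I)^(-s)` of a nonzero integral ideal. -/
noncomputable def nrm (s : ℝ) (I : (Ideal (𝓞 K))⁰) : ℝ :=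
  (absNorm (I : Ideal (𝓞 K)) : ℝ) ^ (-s)

/-- The weight `N(I)^(-s)` of an integral ideal (zero for the zero ideal when `s ≠ 0`). -/
noncomputable def nrmAll (s : ℝ) (I : Ideal (𝓞 K)) : ℝ :=
  (absNorm I : ℝ) ^ (-s)

theorem nrm_nonneg (s : ℝ) (I : (Ideal (𝓞 K))⁰) : 0 ≤ nrm K s I := by
  unfold nrm; positivity

theorem nrmAll_nonneg (s : ℝ) (I : Ideal (𝓞 K)) : 0 ≤ nrmAll K s I := by
  unfold nrmAll; positivity

/-- number of ideals of norm `n` -/
noncomputable def cnt (n : ℕ) : ℕ := Nat.card {I : Ideal (𝓞 K) // absNorm I = n}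

theorem tendsto_sum_cnt_div :
    Tendsto (fun n : ℕ ↦ (∑ k ∈ Finset.Icc 1 n, (cnt K k : ℝ)) / n) atTop
      (𝓝 (dedekindZeta_residue K)) := by
  refine ((Ideal.tendsto_norm_le_div_atTop₀ K).comp tendsto_natCast_atTop_atTop).congr fun n ↦ ?_
  simp only [Function.comp_apply, Nat.cast_le, ← Nat.cast_sum, cnt]
  congr
  rw [← add_left_inj 1, ← card_norm_le_eq_card_norm_le_add_one,
    show Finset.Icc 1 n = Finset.Ioc 0 n from Finset.Icc_succ_left_eq_Ioc _ _,
    show 1 = Nat.card {I : Ideal (𝓞 K) // absNorm I = 0} by simp [Ideal.absNorm_eq_zero_iff],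
    Finset.sum_Ioc_add_eq_sum_Icc (n.zero_le),
    ← Finset.card_preimage_eq_sum_card_image_eq (fun k _ ↦ finite_setOfPred_absNorm_eq k)]
  simp [Set.coe_eq_subtype]

theorem isBigO_sum_cnt :
    (fun n : ℕ ↦ ∑ k ∈ Finset.Icc 1 n, (cnt K k : ℝ)) =O[atTop] fun n : ℕ ↦ (n : ℝ) ^ (1 : ℝ) := by
  simp only [Real.rpow_one]
  refine Asymptotics.isBigO_of_div_tendsto_nhds ?_ (dedekindZeta_residue K) (tendsto_sum_cnt_div K)
  filter_upwards [eventually_ne_atTop 0] with n hn h
  exact absurd (by exact_mod_cast h) hn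

theorem lseriesSummable_cnt {s : ℝ} (hs : 1 < s) :
    LSeriesSummable (fun n ↦ ((cnt K n : ℝ) : ℂ)) (s : ℂ) :=
  LSeriesSummable_of_sum_norm_bigO_and_nonneg (isBigO_sum_cnt K) (fun _ ↦ Nat.cast_nonneg _)
    zero_le_one (by simpa using hs)

theorem summable_cnt_mul {s : ℝ} (hs : 1 < s) :
    Summable (fun n : ℕ ↦ (cnt K n : ℝ) * (n : ℝ) ^ (-s)) := by
  have h := (lseriesSummable_cnt K hs).norm
  refine h.congr fun n ↦ ?_
  rw [LSeries.norm_term_eq]
  split_ifs with hn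
  · subst hn
    simp [Real.zero_rpow (by linarith : -s ≠ 0)]
  · simp [Real.rpow_neg, div_eq_mul_inv]


instance finite_fiber (n : ℕ) : Finite {I : Ideal (𝓞 K) // absNorm I = n} :=
  (finite_setOfPred_absNorm_eq n).to_subtype

theorem tsum_fiber (s : ℝ) (n : ℕ) :
    ∑' I : {I : Ideal (𝓞 K) // absNorm I = n}, nrmAll K s I.1 = (cnt K n : ℝ) * (n : ℝ) ^ (-s) := by
  have : ∀ I : {I : Ideal (𝓞 K) // absNorm I = n}, nrmAll K s I.1 = (n : ℝ) ^ (-s) := by
    rintro ⟨I, hI⟩
    simp [nrmAll, hI]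
  simp_rw [this]
  rw [tsum_const, cnt]
  simp

theorem summable_nrmAll {s : ℝ} (hs : 1 < s) : Summable (nrmAll K s) := by
  rw [← (Equiv.sigmaFiberEquiv (fun I : Ideal (𝓞 K) ↦ absNorm I)).summable_iff]
  refine (summable_sigma_of_nonneg (fun _ ↦ nrmAll_nonneg K s _)).mpr
    ⟨fun n ↦ Summable.of_finite, ?_⟩
  refine (summable_cnt_mul K hs).congr fun n ↦ ?_
  exact (tsum_fiber K s n).symm

theorem tsum_nrmAll {s : ℝ} (hs : 1 < s) :
    ∑' I, nrmAll K s I = ∑' n : ℕ, (cnt K n : ℝ) * (n : ℝ) ^ (-s) := by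
  rw [← (Equiv.sigmaFiberEquiv (fun I : Ideal (𝓞 K) ↦ absNorm I)).tsum_eq]
  rw [Summable.tsum_sigma]
  · exact tsum_congr fun n ↦ tsum_fiber K s n
  · exact ((Equiv.sigmaFiberEquiv (fun I : Ideal (𝓞 K) ↦ absNorm I)).summable_iff).mpr
      (summable_nrmAll K hs)

theorem nrm_eq (s : ℝ) (I : (Ideal (𝓞 K))⁰) : nrm K s I = nrmAll K s I.1 := rfl

theorem summable_nrm {s : ℝ} (hs : 1 < s) : Summable (nrm K s) :=
  (summable_nrmAll K hs).comp_injective Subtype.val_injective

/-- The Dedekind zeta function at a real point, as a sum over nonzero ideals. -/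
noncomputable def izeta (s : ℝ) : ℝ := ∑' I, nrm K s I

theorem izeta_eq_tsum_nrmAll {s : ℝ} (hs : 1 < s) : izeta K s = ∑' I, nrmAll K s I := by
  unfold izeta
  refine Function.Injective.tsum_eq (f := nrmAll K s) Subtype.val_injective ?_
  intro I hI
  rw [Function.mem_support] at hI
  refine ⟨⟨I, mem_nonZeroDivisors_of_ne_zero ?_⟩, rfl⟩
  rintro rfl
  apply hI
  simp [nrmAll, Real.zero_rpow (by linarith : -s ≠ 0)]

theorem izeta_eq_dedekindZeta {s : ℝ} (hs : 1 < s) : ((izeta K s : ℝ) : ℂ) = dedekindZeta K s := by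
  rw [izeta_eq_tsum_nrmAll K hs, tsum_nrmAll K hs, dedekindZeta, LSeries, Complex.ofReal_tsum]
  refine tsum_congr fun n ↦ ?_
  rw [LSeries.term]
  split_ifs with hn
  · subst hn
    simp [Real.zero_rpow (by linarith : -s ≠ 0)]
  · have hn' : (0 : ℝ) < n := by exact_mod_cast Nat.pos_of_ne_zero hn
    rw [cnt]
    push_cast
    rw [Complex.ofReal_cpow hn'.le, div_eq_mul_inv, ← Complex.cpow_neg]
    simp

theorem one_le_izeta {s : ℝ} (hs : 1 < s) : 1 ≤ izeta K s := by
  have h := (summable_nrm K hs).le_tsum (1 : (Ideal (𝓞 K))⁰) (fun _ _ ↦ nrm_nonneg K s _)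
  simpa [nrm, izeta] using h

theorem izeta_anti {s t : ℝ} (hs : 1 < s) (hst : s ≤ t) : izeta K t ≤ izeta K s := by
  refine (summable_nrm K (hs.trans_le hst)).tsum_le_tsum (fun I ↦ ?_) (summable_nrm K hs)
  unfold nrm
  have h1 : (1 : ℝ) ≤ absNorm (I : Ideal (𝓞 K)) := by
    exact_mod_cast Nat.one_le_iff_ne_zero.mpr (absNorm_ne_zero_of_nonZeroDivisors I)
  exact Real.rpow_le_rpow_of_exponent_le h1 (by linarith)

theorem tendsto_izeta :
    Tendsto (fun s : ℝ ↦ (s - 1) * izeta K s) (𝓝[>] 1) (𝓝 (dedekindZeta_residue K)) := by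
  have h := tendsto_sub_one_mul_dedekindZeta_nhdsGT K
  have h2 : Tendsto (fun s : ℝ ↦ (((s - 1) * izeta K s : ℝ) : ℂ)) (𝓝[>] 1)
      (𝓝 (dedekindZeta_residue K : ℂ)) := by
    refine h.congr' ?_
    filter_upwards [self_mem_nhdsWithin] with s hs
    rw [Complex.ofReal_mul, izeta_eq_dedekindZeta K hs]
    push_cast
    rfl
  exact (Complex.continuous_re.tendsto _).comp h2 |>.congr fun s ↦ by simp

theorem exists_izeta_le :
    ∃ C : ℝ, 0 < C ∧ ∀ s : ℝ, 1 < s → s ≤ 2 → izeta K s ≤ C / (s - 1) := by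
  have hκ := dedekindZeta_residue_pos K
  have h := (tendsto_izeta K).eventually (gt_mem_nhds (lt_add_one (dedekindZeta_residue K)))
  rw [eventually_nhdsWithin_iff, Metric.eventually_nhds_iff] at h
  obtain ⟨δ, hδ, hδ'⟩ := h
  set δ' := min δ 1 / 2 with hδ'_def
  have hδ'pos : 0 < δ' := by positivity
  have hδ'lt : δ' < δ := by
    have := min_le_left δ 1
    linarith
  set M := izeta K (1 + δ') with hM
  have hM1 : 1 ≤ M := one_le_izeta K (by linarith)
  refine ⟨max (dedekindZeta_residue K + 1) M, by positivity, fun s hs hs2 ↦ ?_⟩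
  have hs1 : 0 < s - 1 := by linarith
  rw [le_div_iff₀ hs1, mul_comm]
  by_cases hcase : s < 1 + δ'
  · have hd : dist s 1 < δ := by
      rw [Real.dist_eq, abs_of_pos hs1]; linarith
    exact (hδ' hd hs).le.trans (le_max_left _ _)
  · rw [not_lt] at hcase
    have h1 : izeta K s ≤ M := izeta_anti K (by linarith) hcase
    have h0 : 0 ≤ izeta K s := le_trans zero_le_one (one_le_izeta K hs)
    calc (s - 1) * izeta K s ≤ 1 * M := by
          apply mul_le_mul (by linarith) h1 h0 zero_le_one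
      _ = M := one_mul M
      _ ≤ _ := le_max_right _ _

theorem exists_le_izeta :
    ∃ c : ℝ, 0 < c ∧ ∀ s : ℝ, 1 < s → s ≤ 2 → c / (s - 1) ≤ izeta K s := by
  have hκ := dedekindZeta_residue_pos K
  have h := (tendsto_izeta K).eventually (lt_mem_nhds (half_lt_self hκ))
  rw [eventually_nhdsWithin_iff, Metric.eventually_nhds_iff] at h
  obtain ⟨δ, hδ, hδ'⟩ := h
  refine ⟨min (dedekindZeta_residue K / 2) δ, by positivity, fun s hs hs2 ↦ ?_⟩
  have hs1 : 0 < s - 1 := by linarith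
  rw [div_le_iff₀ hs1, mul_comm]
  by_cases hcase : s < 1 + δ
  · have hd : dist s 1 < δ := by
      rw [Real.dist_eq, abs_of_pos hs1]; linarith
    exact (min_le_left _ _).trans (hδ' hd hs).le
  · rw [not_lt] at hcase
    have h1 := one_le_izeta K hs
    calc min (dedekindZeta_residue K / 2) δ ≤ δ := min_le_right _ _
      _ ≤ (s - 1) * 1 := by linarith
      _ ≤ (s - 1) * izeta K s := by
          apply mul_le_mul_of_nonneg_left h1 hs1.le

end Fermat.Agent.S14.ANBridge
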