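/-
S14, analytic glue (AN), part 2: for every number field `L`, the sum of `N(P)^(-s)` over any
finite set of nonzero primes is at most `log (1/(s-1)) + C`, uniformly for `s ∈ (1,2]`.
(Squarefree products of distinct primes are distinct ideals, so
`∏ (1 + N P^(-s)) ≤ ζ_L(s) ≤ C/(s-1)`.)
-/
import Mathlib
import Fermat.Agent.S14.ANBridge
import Fermat.Agent.S14.AIface

set_option autoImplicit false

open NumberField Ideal nonZeroDivisors Filter Topology

namespace Fermat.Agent.S14.ANPrimeSum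

open Fermat.Agent.S14.ANBridge

variable (L : Type*) [Field L] [NumberField L]

/-- The product map on finite sets of nonzero primes is injective. -/
theorem prod_injOn (T : Finset (Ideal (𝓞 L))) (hT : ∀ P ∈ T, P.IsPrime ∧ P ≠ ⊥) :
    Set.InjOn (fun S : Finset (Ideal (𝓞 L)) ↦ ∏ P ∈ S, P) (T.powerset : Set _) := by
  have key : ∀ S ∈ T.powerset, ∀ S' ∈ T.powerset, (∏ P ∈ S, P) = ∏ P ∈ S', P → S ⊆ S' := by
    intro S hS S' hS' h P hP
    rw [Finset.mem_powerset] at hS hS'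
    have hPprime := (hT P (hS hP)).1
    have h1 : (∏ Q ∈ S, Q) ≤ P := Ideal.le_of_dvd (Finset.dvd_prod_of_mem _ hP)
    rw [h] at h1
    obtain ⟨P', hP', hle⟩ := (Ideal.IsPrime.prod_le hPprime).mp h1
    have hmax : P'.IsMaximal := (hT P' (hS' hP')).1.isMaximal (hT P' (hS' hP')).2
    rw [hmax.eq_of_le hPprime.ne_top hle] at hP'
    exact hP'
  intro S hS S' hS' h
  exact Finset.Subset.antisymm (key S hS S' hS' h) (key S' hS' S hS h.symm)

theorem prod_one_add_le {s : ℝ} (hs : 1 < s) (T : Finset (Ideal (𝓞 L)))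
    (hT : ∀ P ∈ T, P.IsPrime ∧ P ≠ ⊥) :
    ∏ P ∈ T, (1 + nrmAll L s P) ≤ izeta L s := by
  classical
  rw [izeta_eq_tsum_nrmAll L hs, Finset.prod_one_add]
  have h1 : ∀ S : Finset (Ideal (𝓞 L)), ∏ P ∈ S, nrmAll L s P = nrmAll L s (∏ P ∈ S, P) := by
    intro S
    simp only [nrmAll]
    rw [map_prod, Nat.cast_prod, Real.finsetProd_rpow _ _ (fun _ _ ↦ Nat.cast_nonneg _)]
  simp_rw [h1]
  rw [← Finset.sum_image (f := nrmAll L s) (g := fun S : Finset (Ideal (𝓞 L)) ↦ ∏ P ∈ S, P)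
    (prod_injOn L T hT)]
  exact (summable_nrmAll L hs).sum_le_tsum _ (fun _ _ ↦ nrmAll_nonneg L s _)

theorem sum_sq_le {s : ℝ} (hs : 1 < s) (T : Finset (Ideal (𝓞 L)))
    (hT : ∀ P ∈ T, P.IsPrime ∧ P ≠ ⊥) :
    ∑ P ∈ T, (nrmAll L s P) ^ 2 ≤ izeta L 2 := by
  rw [izeta_eq_tsum_nrmAll L one_lt_two]
  refine le_trans (Finset.sum_le_sum fun P hP ↦ ?_)
    ((summable_nrmAll L one_lt_two).sum_le_tsum T (fun _ _ ↦ nrmAll_nonneg L 2 _))
  have h1 : (1 : ℝ) ≤ absNorm P := by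
    have : absNorm P ≠ 0 := by
      rw [Ne, Ideal.absNorm_eq_zero_iff]; exact (hT P hP).2
    exact_mod_cast Nat.one_le_iff_ne_zero.mpr this
  simp only [nrmAll]
  rw [← Real.rpow_natCast, ← Real.rpow_mul (by positivity)]
  exact Real.rpow_le_rpow_of_exponent_le h1 (by push_cast; linarith)

theorem add_sq_le_log {x : ℝ} (hx : 0 ≤ x) : x ≤ Real.log (1 + x) + x ^ 2 := by
  have h1 : 0 < 1 + x := by linarith
  have h2 := Real.one_sub_inv_le_log_of_pos h1
  have h3 : x - x ^ 2 ≤ 1 - (1 + x)⁻¹ := by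
    rw [← sub_nonneg]
    have : 1 - (1 + x)⁻¹ - (x - x ^ 2) = x ^ 3 / (1 + x) := by
      field_simp; ring
    rw [this]; positivity
  linarith

/-- **AN1** (literal text of board message #706): the prime sum of any number field is at most
`log (1/(s-1)) + C` on `(1,2]`. -/
theorem primeSum_le (L : Type) [Field L] [NumberField L] :
    ∃ C : ℝ, ∀ s ∈ Set.Ioc (1 : ℝ) 2, ∀ T : Finset (Ideal (𝓞 L)),
      (∀ P ∈ T, P.IsPrime ∧ P ≠ ⊥) →
      ∑ P ∈ T, (Ideal.absNorm P : ℝ) ^ (-s) ≤ Real.log (1 / (s - 1)) + C := by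
  obtain ⟨C, hC, hCle⟩ := exists_izeta_le L
  refine ⟨Real.log C + izeta L 2, fun s hs T hT ↦ ?_⟩
  obtain ⟨hs1, hs2⟩ := hs
  have hpos : ∀ P ∈ T, (0 : ℝ) < 1 + nrmAll L s P := fun P _ ↦ by
    have := nrmAll_nonneg L s P; linarith
  have h1 : ∑ P ∈ T, nrmAll L s P ≤
      ∑ P ∈ T, (Real.log (1 + nrmAll L s P) + (nrmAll L s P) ^ 2) :=
    Finset.sum_le_sum fun P _ ↦ add_sq_le_log (nrmAll_nonneg L s P)
  rw [Finset.sum_add_distrib, ← Real.log_prod (fun P hP ↦ (hpos P hP).ne')] at h1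
  have h2 : Real.log (∏ P ∈ T, (1 + nrmAll L s P)) ≤ Real.log (C / (s - 1)) :=
    Real.log_le_log (Finset.prod_pos hpos)
      ((prod_one_add_le L hs1 T hT).trans (hCle s hs1 hs2))
  have h3 : Real.log (C / (s - 1)) = Real.log (1 / (s - 1)) + Real.log C := by
    rw [div_eq_mul_one_div, Real.log_mul hC.ne' (by
      have : 0 < s - 1 := by linarith
      positivity), add_comm]
  have h4 := sum_sq_le L hs1 T hT
  change ∑ P ∈ T, nrmAll L s P ≤ _
  linarith

/-- **AN1** in the `PrimeIdeal`/`normPow` form of the skeleton (board message #717). -/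
theorem primeSum_le' (L : Type) [Field L] [NumberField L] :
    ∃ C : ℝ, ∀ s ∈ Set.Ioc (1 : ℝ) 2, ∀ T : Finset (PrimeIdeal L),
      ∑ v ∈ T, normPow L v.1 s ≤ Real.log (1 / (s - 1)) + C := by
  classical
  obtain ⟨C, hC⟩ := primeSum_le L
  refine ⟨C, fun s hs T ↦ ?_⟩
  have hinj : Set.InjOn (fun v : PrimeIdeal L ↦ ((v.1 : (Ideal (𝓞 L))⁰) : Ideal (𝓞 L)))
      (T : Set (PrimeIdeal L)) := fun v _ w _ h ↦ Subtype.ext (Subtype.ext h)
  have h := hC s hs (T.image fun v : PrimeIdeal L ↦ ((v.1 : (Ideal (𝓞 L))⁰) : Ideal (𝓞 L))) (by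
    intro P hP
    obtain ⟨v, -, rfl⟩ := Finset.mem_image.mp hP
    exact ⟨v.2, nonZeroDivisors.ne_zero v.1.2⟩)
  rw [Finset.sum_image hinj] at h
  exact h

end Fermat.Agent.S14.ANPrimeSum
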