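import Fermat.Agent.S14.Iface

set_option autoImplicit false

open scoped NumberField nonZeroDivisors

namespace Fermat.Agent.S14

namespace CaseAux

/-- Cancelling the common power of a prime element `π` in `u c₀^p b = a d₀^p`. -/
theorem exists_coprime_rep {R : Type*} [CommRing R] [IsDomain R] [WfDvdMonoid R] {π : R}
    (hπ : Prime π) (p : ℕ) (hp : p ≠ 0) {u a b c₀ d₀ : R} (hu : ¬ π ∣ u) (ha : ¬ π ∣ a)
    (hb : ¬ π ∣ b) (hd₀ : d₀ ≠ 0) (h : u * c₀ ^ p * b = a * d₀ ^ p) :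
    ∃ c d : R, ¬ π ∣ c ∧ ¬ π ∣ d ∧ u * c ^ p * b = a * d ^ p := by
  have ha0 : a ≠ 0 := by rintro rfl; exact ha (dvd_zero _)
  have hc₀ : c₀ ≠ 0 := by
    rintro rfl
    rw [zero_pow hp, mul_zero, zero_mul] at h
    exact mul_ne_zero ha0 (pow_ne_zero _ hd₀) h.symm
  obtain ⟨n, d, hd, rfl⟩ := WfDvdMonoid.max_power_factor hd₀ hπ.irreducible
  obtain ⟨k, c, hc, rfl⟩ := WfDvdMonoid.max_power_factor hc₀ hπ.irreducible
  refine ⟨c, d, hc, hd, ?_⟩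
  have hπ0 : π ≠ 0 := hπ.ne_zero
  have hucb : ¬ π ∣ u * c ^ p * b := by
    intro h1
    rcases hπ.dvd_or_dvd h1 with h2 | h2
    · rcases hπ.dvd_or_dvd h2 with h3 | h3
      · exact hu h3
      · exact hc (hπ.dvd_of_dvd_pow h3)
    · exact hb h2
  have hadp : ¬ π ∣ a * d ^ p := by
    intro h1
    rcases hπ.dvd_or_dvd h1 with h2 | h2
    · exact ha h2
    · exact hd (hπ.dvd_of_dvd_pow h2)
  obtain ⟨q, rfl⟩ : ∃ q, p = q + 1 := ⟨p - 1, by omega⟩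
  rcases Nat.lt_trichotomy k n with hkn | hkn | hkn
  · exfalso
    obtain ⟨j, rfl⟩ := Nat.exists_eq_add_of_lt hkn
    apply hucb
    have h2 : π ^ (k * (q + 1)) * (u * c ^ (q + 1) * b) =
        π ^ (k * (q + 1)) * (π * (π ^ (j * (q + 1) + q) * (a * d ^ (q + 1)))) := by
      calc π ^ (k * (q + 1)) * (u * c ^ (q + 1) * b) = u * (π ^ k * c) ^ (q + 1) * b := by ring
        _ = a * (π ^ (k + j + 1) * d) ^ (q + 1) := h
        _ = π ^ (k * (q + 1)) * (π * (π ^ (j * (q + 1) + q) * (a * d ^ (q + 1)))) := by ring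
    exact ⟨_, mul_left_cancel₀ (pow_ne_zero _ hπ0) h2⟩
  · subst hkn
    have h2 : π ^ (k * (q + 1)) * (u * c ^ (q + 1) * b) =
        π ^ (k * (q + 1)) * (a * d ^ (q + 1)) := by
      calc π ^ (k * (q + 1)) * (u * c ^ (q + 1) * b) = u * (π ^ k * c) ^ (q + 1) * b := by ring
        _ = a * (π ^ k * d) ^ (q + 1) := h
        _ = π ^ (k * (q + 1)) * (a * d ^ (q + 1)) := by ring
    exact mul_left_cancel₀ (pow_ne_zero _ hπ0) h2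
  · exfalso
    obtain ⟨j, rfl⟩ := Nat.exists_eq_add_of_lt hkn
    apply hadp
    have h2 : π ^ (n * (q + 1)) * (a * d ^ (q + 1)) =
        π ^ (n * (q + 1)) * (π * (π ^ (j * (q + 1) + q) * (u * c ^ (q + 1) * b))) := by
      calc π ^ (n * (q + 1)) * (a * d ^ (q + 1)) = a * (π ^ n * d) ^ (q + 1) := by ring
        _ = u * (π ^ (n + j + 1) * c) ^ (q + 1) * b := h.symm
        _ = π ^ (n * (q + 1)) * (π * (π ^ (j * (q + 1) + q) * (u * c ^ (q + 1) * b))) := by ring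
    exact ⟨_, mul_left_cancel₀ (pow_ne_zero _ hπ0) h2⟩

variable (p : ℕ) [Fact p.Prime]
variable {K : Type} [Field K] [NumberField K] [IsCyclotomicExtension {p} ℚ K]
variable {ζ : K} (hζ : IsPrimitiveRoot ζ p)

theorem coe_intAut (σ : K ≃ₐ[ℚ] K) (x : 𝓞 K) :
    algebraMap (𝓞 K) K (intAut K σ x) = σ (algebraMap (𝓞 K) K x) :=
  algebraMap_galRestrict_apply ℤ σ x

theorem prime_lam : Prime (lam p hζ) := by
  have h := hζ.zeta_sub_one_prime'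
  have h2 : lam p hζ = -(hζ.toInteger - 1) := by unfold lam; ring
  rw [h2]; exact h.neg

theorem lam_dvd_p : lam p hζ ∣ (p : 𝓞 K) := by
  have h := hζ.toInteger_sub_one_dvd_prime'
  have h2 : lam p hζ = -(hζ.toInteger - 1) := by unfold lam; ring
  rw [h2]; exact (neg_dvd).mpr h

theorem not_lam_dvd_unit (u : (𝓞 K)ˣ) : ¬ lam p hζ ∣ (u : 𝓞 K) :=
  fun h => (prime_lam p hζ).not_isUnit (isUnit_of_dvd_unit h u.isUnit)

include hζ in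
theorem exists_aut_sq (hp2 : p ≠ 2) : ∃ σ : K ≃ₐ[ℚ] K, σ ζ = ζ ^ 2 := by
  have hp : p.Prime := Fact.out
  have hpos : 0 < p := hp.pos
  have hcop : Nat.Coprime 2 p := by
    rw [Nat.coprime_comm]
    exact (Nat.coprime_primes hp Nat.prime_two).mpr hp2
  have hζ2 : IsPrimitiveRoot (ζ ^ 2) p := hζ.pow_of_coprime 2 hcop
  have h1 : minpoly ℚ ζ = minpoly ℚ (ζ ^ 2) := by
    rw [← Polynomial.cyclotomic_eq_minpoly_rat hζ hpos, ← Polynomial.cyclotomic_eq_minpoly_rat hζ2 hpos]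
  have : IsGalois ℚ K := IsCyclotomicExtension.isGalois {p} ℚ K
  have halg : IsAlgebraic ℚ ζ := Algebra.IsAlgebraic.isAlgebraic ζ
  exact minpoly.exists_algEquiv_of_root' halg (by rw [h1]; exact minpoly.aeval ℚ (ζ ^ 2))

include hζ in
theorem dvd_of_zeta_pow_eq_pow (hp2 : p ≠ 2) (j : ℕ) (w : K) (h : ζ ^ j = w ^ p) : p ∣ j := by
  have hp : p.Prime := Fact.out
  have hodd : Odd p := hp.odd_of_ne_two hp2
  have hw : IsOfFinOrder w := by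
    rw [isOfFinOrder_iff_pow_eq_one]
    refine ⟨p * p, Nat.mul_pos hp.pos hp.pos, ?_⟩
    rw [pow_mul, ← h, ← pow_mul, mul_comm, pow_mul, hζ.pow_eq_one, one_pow]
  obtain ⟨r, -, hr | hr⟩ := hζ.exists_pow_or_neg_mul_pow_of_isOfFinOrder hodd hw
  · rw [hr, ← pow_mul, mul_comm, pow_mul, hζ.pow_eq_one, one_pow] at h
    exact (hζ.pow_eq_one_iff_dvd j).mp h
  · have h2 : ζ ^ (2 * j) = 1 := by
      rw [mul_comm, pow_mul, h, hr, neg_pow, ← pow_mul, mul_comm r p, pow_mul ζ, hζ.pow_eq_one,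
        one_pow, mul_one, ← pow_mul, mul_comm, pow_mul, neg_one_sq, one_pow]
    have h3 := (hζ.pow_eq_one_iff_dvd _).mp h2
    exact (Nat.Coprime.dvd_mul_left ((Nat.coprime_primes hp Nat.prime_two).mpr hp2)).mp h3

omit [NumberField K] [IsCyclotomicExtension {p} ℚ K] in
theorem exists_unit_of_pow_eq (v : (𝓞 K)ˣ) (δ : K) (h : δ ^ p = algebraMap (𝓞 K) K (v : 𝓞 K)) :
    ∃ w : (𝓞 K)ˣ, algebraMap (𝓞 K) K (w : 𝓞 K) = δ := by
  have hp : p.Prime := Fact.out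
  have h1 : IsIntegral ℤ δ := by
    refine IsIntegral.of_pow hp.pos ?_
    rw [h]; exact (v : 𝓞 K).2
  have hv0 : algebraMap (𝓞 K) K (v : 𝓞 K) ≠ 0 := by
    simp
  have hδ0 : δ ≠ 0 := by
    rintro rfl
    rw [zero_pow hp.ne_zero] at h
    exact hv0 h.symm
  have h2 : IsIntegral ℤ δ⁻¹ := by
    refine IsIntegral.of_pow hp.pos ?_
    rw [inv_pow, h]
    have : algebraMap (𝓞 K) K ((v⁻¹ : (𝓞 K)ˣ) : 𝓞 K) = (algebraMap (𝓞 K) K (v : 𝓞 K))⁻¹ := by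
      apply eq_inv_of_mul_eq_one_left
      rw [← map_mul]; simp
    rw [← this]; exact ((v⁻¹ : (𝓞 K)ˣ) : 𝓞 K).2
  refine ⟨⟨⟨δ, h1⟩, ⟨δ⁻¹, h2⟩, ?_, ?_⟩, rfl⟩
  · apply NumberField.RingOfIntegers.ext
    show δ * δ⁻¹ = 1
    exact mul_inv_cancel₀ hδ0
  · apply NumberField.RingOfIntegers.ext
    show δ⁻¹ * δ = 1
    exact inv_mul_cancel₀ hδ0

local notation "ι" => algebraMap (𝓞 K) K

omit [IsCyclotomicExtension {p} ℚ K] in
include hζ in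
/-- The unit part of an `ω²`-eigen element `α = u β^p` is an `ω²`-eigen unit. -/
theorem unit_eigen {α β : K} {u : (𝓞 K)ˣ} (hβ : β ≠ 0) (hα : α = ι (u : 𝓞 K) * β ^ p)
    (he : IsEigen p hζ α) (σ : K ≃ₐ[ℚ] K) (a : ℕ) (hσ : σ ζ = ζ ^ a) :
    ∃ w : (𝓞 K)ˣ, intAut K σ (u : 𝓞 K) = (u : 𝓞 K) ^ (a ^ 2) * (w : 𝓞 K) ^ p := by
  obtain ⟨γ, hγ⟩ := he σ a hσ
  have hσβ : σ β ≠ 0 := by simpa using hβ
  have huu : ι (u : 𝓞 K) * ι ((u⁻¹ : (𝓞 K)ˣ) : 𝓞 K) = 1 := by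
    rw [← map_mul]; simp
  have hXY : ι (u : 𝓞 K) ^ (a ^ 2) * ι ((u⁻¹ : (𝓞 K)ˣ) : 𝓞 K) ^ (a ^ 2) = 1 := by
    rw [← mul_pow, huu, one_pow]
  have h1 : σ (ι (u : 𝓞 K)) * (σ β) ^ p =
      ι (u : 𝓞 K) ^ (a ^ 2) * (β ^ p) ^ (a ^ 2) * γ ^ p := by
    rw [← map_pow, ← map_mul, ← hα, hγ, hα, mul_pow]
  let v : (𝓞 K)ˣ := Units.map (intAut K σ).toMonoidHom u * u⁻¹ ^ (a ^ 2)
  have hvK : ι (v : 𝓞 K) = σ (ι (u : 𝓞 K)) * ι ((u⁻¹ : (𝓞 K)ˣ) : 𝓞 K) ^ (a ^ 2) := by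
    have : (v : 𝓞 K) = intAut K σ (u : 𝓞 K) * ((u⁻¹ : (𝓞 K)ˣ) : 𝓞 K) ^ (a ^ 2) := by
      simp [v]
    rw [this, map_mul, map_pow]
    congr 1
    exact coe_intAut σ _
  have hv : (γ * β ^ (a ^ 2) / σ β) ^ p = ι (v : 𝓞 K) := by
    rw [hvK, div_pow, mul_pow, div_eq_iff (pow_ne_zero _ hσβ)]
    have hB : (β ^ (a ^ 2)) ^ p = (β ^ p) ^ (a ^ 2) := by
      rw [← pow_mul, ← pow_mul, mul_comm]
    rw [hB]
    linear_combination (-(ι ((u⁻¹ : (𝓞 K)ˣ) : 𝓞 K) ^ (a ^ 2))) * h1 -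
      ((β ^ p) ^ (a ^ 2) * γ ^ p) * hXY
  obtain ⟨w, hw⟩ := exists_unit_of_pow_eq p v _ hv
  refine ⟨w, ?_⟩
  apply NumberField.RingOfIntegers.ext
  have h2 : ι (intAut K σ (u : 𝓞 K)) = σ (ι (u : 𝓞 K)) := coe_intAut σ _
  have h3 : ι ((u : 𝓞 K) ^ (a ^ 2) * (w : 𝓞 K) ^ p) =
      ι (u : 𝓞 K) ^ (a ^ 2) * (ι (w : 𝓞 K)) ^ p := by
    rw [map_mul, map_pow, map_pow]
  show ι (intAut K σ (u : 𝓞 K)) = ι ((u : 𝓞 K) ^ (a ^ 2) * (w : 𝓞 K) ^ p)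
  have hw' : ι (w : 𝓞 K) = γ * β ^ (a ^ 2) / σ β := hw
  rw [h2, h3, hw', hv, hvK]
  linear_combination (-(σ (ι (u : 𝓞 K)))) * hXY

include hζ in
theorem l2_one (l2 : 𝓞 K → ZMod p)
    (hmul : ∀ u w : 𝓞 K, ¬ lam p hζ ∣ u → ¬ lam p hζ ∣ w → l2 (u * w) = l2 u + l2 w) :
    l2 1 = 0 := by
  have hπ := prime_lam p hζ
  have h := hmul 1 1 hπ.not_dvd_one hπ.not_dvd_one
  rw [mul_one] at h
  exact left_eq_add.mp h

include hζ in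
theorem l2_pow (l2 : 𝓞 K → ZMod p)
    (hmul : ∀ u w : 𝓞 K, ¬ lam p hζ ∣ u → ¬ lam p hζ ∣ w → l2 (u * w) = l2 u + l2 w)
    (z : 𝓞 K) (hz : ¬ lam p hζ ∣ z) (n : ℕ) : l2 (z ^ n) = n * l2 z := by
  have hπ := prime_lam p hζ
  induction n with
  | zero => simp [l2_one p hζ l2 hmul]
  | succ n ih =>
    rw [pow_succ, hmul _ _ (fun h => hz (hπ.dvd_of_dvd_pow h)) hz, ih]
    push_cast
    ring

include hζ in
theorem l2_pow_p (l2 : 𝓞 K → ZMod p)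
    (hmul : ∀ u w : 𝓞 K, ¬ lam p hζ ∣ u → ¬ lam p hζ ∣ w → l2 (u * w) = l2 u + l2 w)
    (z : 𝓞 K) (hz : ¬ lam p hζ ∣ z) : l2 (z ^ p) = 0 := by
  rw [l2_pow p hζ l2 hmul z hz p]
  simp

include hζ in
/-- The local condition at `1 - ζ` forces `ℓ₂(u) = 0` for the unit part of `α = u β^p`. -/
theorem l2_unit_eq_zero (l2 : 𝓞 K → ZMod p)
    (hmul : ∀ u w : 𝓞 K, ¬ lam p hζ ∣ u → ¬ lam p hζ ∣ w → l2 (u * w) = l2 u + l2 w)
    (hcong : ∀ u w : 𝓞 K, ¬ lam p hζ ∣ u → (p : 𝓞 K) ∣ u - w → l2 u = l2 w)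
    {α β : K} {u : (𝓞 K)ˣ} (hα : α = ι (u : 𝓞 K) * β ^ p)
    (hl : IsLocalPow p hζ α) : l2 (u : 𝓞 K) = 0 := by
  have hp : p.Prime := Fact.out
  have hπ := prime_lam p hζ
  have hu := not_lam_dvd_unit p hζ u
  obtain ⟨m, a, b, x, y, ha, hb, hy, hrel, hdiv⟩ := hl
  have hζ1 : (1 : K) - ζ ≠ 0 := sub_ne_zero.mpr (hζ.ne_one hp.one_lt).symm
  have hL0 : (1 - ζ) ^ m ≠ 0 := zpow_ne_zero _ hζ1
  have hLp : (1 - ζ) ^ ((p : ℤ) * m) = ((1 - ζ) ^ m) ^ p := by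
    rw [zpow_mul', zpow_natCast]
  obtain ⟨c₀, d₀, hd₀, hcd⟩ := IsFractionRing.div_surjective (A := 𝓞 K) (β / (1 - ζ) ^ m)
  have hd₀' : d₀ ≠ 0 := nonZeroDivisors.ne_zero hd₀
  have hd₀K : ι d₀ ≠ 0 := by simpa using hd₀'
  have hc₀ : ι c₀ = β / (1 - ζ) ^ m * ι d₀ := by
    rw [← hcd]; field_simp
  have hrel' : ι (u : 𝓞 K) * β ^ p * ι b = ((1 - ζ) ^ m) ^ p * ι a := by
    rw [← hLp, ← hα]; exact hrel
  have hmain : (u : 𝓞 K) * c₀ ^ p * b = a * d₀ ^ p := by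
    apply NumberField.RingOfIntegers.ext
    show ι ((u : 𝓞 K) * c₀ ^ p * b) = ι (a * d₀ ^ p)
    rw [map_mul, map_mul, map_pow, map_mul, map_pow, hc₀, mul_pow, div_pow]
    have hLp0 : ((1 - ζ) ^ m) ^ p ≠ 0 := pow_ne_zero _ hL0
    field_simp
    linear_combination hrel'
  obtain ⟨c, d, hc, hd, hcd'⟩ :=
    exists_coprime_rep hπ p hp.ne_zero hu ha hb hd₀' hmain
  have hndp : ∀ z : 𝓞 K, ¬ lam p hζ ∣ z → ¬ lam p hζ ∣ z ^ p :=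
    fun z hz h => hz (hπ.dvd_of_dvd_pow h)
  have hnmul : ∀ z w : 𝓞 K, ¬ lam p hζ ∣ z → ¬ lam p hζ ∣ w → ¬ lam p hζ ∣ z * w :=
    fun z w hz hw h => (hπ.dvd_or_dvd h).elim hz hw
  have hpp := l2_pow_p p hζ l2 hmul
  have hx : ¬ lam p hζ ∣ x := by
    intro hx
    have h1 : lam p hζ ∣ a * y ^ p - b * x ^ p := (lam_dvd_p p hζ).trans hdiv
    have h2 : lam p hζ ∣ b * x ^ p := Dvd.dvd.mul_left (dvd_pow hx hp.ne_zero) b
    have h3 : lam p hζ ∣ a * y ^ p := by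
      have := dvd_add h1 h2
      simpa using this
    exact hnmul _ _ ha (hndp y hy) h3
  have e1 : l2 a = l2 b := by
    have h := hcong (a * y ^ p) (b * x ^ p) (hnmul _ _ ha (hndp y hy)) hdiv
    rw [hmul _ _ ha (hndp y hy), hmul _ _ hb (hndp x hx), hpp y hy, hpp x hx, add_zero,
      add_zero] at h
    exact h
  have e2 : l2 (u : 𝓞 K) + l2 b = l2 a := by
    have h := congrArg l2 hcd'
    rw [hmul _ _ (hnmul _ _ hu (hndp c hc)) hb, hmul _ _ hu (hndp c hc), hpp c hc, add_zero,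
      hmul _ _ ha (hndp d hd), hpp d hd, add_zero] at h
    exact h
  rw [e1] at e2
  exact add_eq_right.mp e2

end CaseAux

variable (p : ℕ) [Fact p.Prime]
variable {K : Type} [Field K] [NumberField K] [IsCyclotomicExtension {p} ℚ K]
variable {ζ : K} (hζ : IsPrimitiveRoot ζ p)

/-- **Slice CA** (glue, case A): `α = u β^p` with `u` a unit. -/
theorem caseA (h5 : 5 ≤ p) : CaseA p hζ := by
  intro hL hE hU α u β hβ hα he hl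
  have hp : p.Prime := Fact.out
  have hp2 : p ≠ 2 := by omega
  have hπ := CaseAux.prime_lam p hζ
  have hα' : α = algebraMap (𝓞 K) K (u : 𝓞 K) * β ^ p := hα
  obtain ⟨k, m, w, hkm⟩ := hU u (CaseAux.unit_eigen p hζ hβ hα' he)
  obtain ⟨l2, hmul, hcong, hz, heta⟩ := hL
  have hl2u := CaseAux.l2_unit_eq_zero p hζ l2 hmul hcong hα' hl
  obtain ⟨ηu, hηu⟩ := hE.1
  have hηn : ¬ lam p hζ ∣ eta p hζ := by
    rw [← hηu]; exact CaseAux.not_lam_dvd_unit p hζ ηu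
  have hζu : IsUnit hζ.toInteger := hζ.toInteger_isPrimitiveRoot.isUnit hp.ne_zero
  have hζn : ¬ lam p hζ ∣ hζ.toInteger := by
    obtain ⟨ζu, hζu'⟩ := hζu
    rw [← hζu']; exact CaseAux.not_lam_dvd_unit p hζ ζu
  have hwn : ¬ lam p hζ ∣ (w : 𝓞 K) := CaseAux.not_lam_dvd_unit p hζ w
  have hndpow : ∀ (z : 𝓞 K) (n : ℕ), ¬ lam p hζ ∣ z → ¬ lam p hζ ∣ z ^ n :=
    fun z n hz h => hz (hπ.dvd_of_dvd_pow h)
  have hnmul : ∀ z w : 𝓞 K, ¬ lam p hζ ∣ z → ¬ lam p hζ ∣ w → ¬ lam p hζ ∣ z * w :=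
    fun z w hz hw h => (hπ.dvd_or_dvd h).elim hz hw
  -- `ℓ₂` kills the exponent of `η`
  have hk : p ∣ k := by
    rw [hkm, hmul _ _ (hnmul _ _ (hndpow _ k hηn) (hndpow _ m hζn)) (hndpow _ p hwn),
      hmul _ _ (hndpow _ k hηn) (hndpow _ m hζn), CaseAux.l2_pow_p p hζ l2 hmul _ hwn,
      CaseAux.l2_pow p hζ l2 hmul _ hηn, CaseAux.l2_pow p hζ l2 hmul _ hζn, hz, mul_zero,
      add_zero, add_zero] at hl2u
    rcases mul_eq_zero.mp hl2u with h | h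
    · exact (ZMod.natCast_eq_zero_iff k p).mp h
    · exact absurd h heta
  obtain ⟨k', rfl⟩ := hk
  -- `u = ζ^m w'^p`
  let w' : (𝓞 K)ˣ := ηu ^ k' * w
  have hw' : (w' : 𝓞 K) = eta p hζ ^ k' * (w : 𝓞 K) := by
    simp [w', hηu]
  have hu' : (u : 𝓞 K) = hζ.toInteger ^ m * (w' : 𝓞 K) ^ p := by
    rw [hkm, hw']; ring
  -- the automorphism `ζ ↦ ζ²` kills the exponent of `ζ`
  obtain ⟨σ, hσ⟩ := CaseAux.exists_aut_sq p hζ hp2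
  obtain ⟨w₂, hw₂⟩ := CaseAux.unit_eigen p hζ hβ hα' he σ 2 hσ
  have hζK : algebraMap (𝓞 K) K hζ.toInteger = ζ := rfl
  have huK : algebraMap (𝓞 K) K (u : 𝓞 K) = ζ ^ m * algebraMap (𝓞 K) K (w' : 𝓞 K) ^ p := by
    rw [hu', map_mul, map_pow, map_pow, hζK]
  have hW0 : algebraMap (𝓞 K) K (w' : 𝓞 K) ≠ 0 := by simp
  have hw₂0 : algebraMap (𝓞 K) K (w₂ : 𝓞 K) ≠ 0 := by simp
  have hζ0 : ζ ≠ 0 := hζ.ne_zero hp.ne_zero
  have h1 : σ (algebraMap (𝓞 K) K (u : 𝓞 K)) =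
      algebraMap (𝓞 K) K (u : 𝓞 K) ^ (2 ^ 2) * algebraMap (𝓞 K) K (w₂ : 𝓞 K) ^ p := by
    rw [← CaseAux.coe_intAut, hw₂, map_mul, map_pow, map_pow]
  rw [huK, map_mul, map_pow, map_pow, hσ] at h1
  have h2 : ζ ^ (2 * m) = (σ (algebraMap (𝓞 K) K (w' : 𝓞 K)) /
      (algebraMap (𝓞 K) K (w' : 𝓞 K) ^ 4 * algebraMap (𝓞 K) K (w₂ : 𝓞 K))) ^ p := by
    rw [div_pow, eq_div_iff (pow_ne_zero _ (mul_ne_zero (pow_ne_zero _ hW0) hw₂0))]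
    have hz2 : ζ ^ (2 * m) ≠ 0 := pow_ne_zero _ hζ0
    apply mul_left_cancel₀ hz2
    rw [pow_mul]
    linear_combination -h1
  have hm : p ∣ m := by
    have h3 := CaseAux.dvd_of_zeta_pow_eq_pow p hζ hp2 _ _ h2
    exact (Nat.Coprime.dvd_mul_left ((Nat.coprime_primes hp Nat.prime_two).mpr hp2)).mp h3
  have hζm : ζ ^ m = 1 := (hζ.pow_eq_one_iff_dvd m).mpr hm
  refine ⟨algebraMap (𝓞 K) K (w' : 𝓞 K) * β, ?_⟩
  rw [hα', huK, hζm, one_mul, mul_pow]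

end Fermat.Agent.S14
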