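import Fermat.Agent.S14.LCFrontier

/-!
# Slice A3 of S14, part 3: counting the ideals of a class with a power saving error term

`#{I : N(I) ≤ x, [I] = C} = κ x + O(x^(1 - 1/n))`, `n = [K : ℚ]`, with `κ` independent of `C`.
The main term is Mathlib's (`NumberField.Ideal.tendsto_norm_le_and_mk_eq_div_atTop`); the error
term comes from `lattice_count_rate` and `coverDim_frontier_normLeOne`.
-/

set_option autoImplicit false

open Filter Topology Ideal Module Submodule
open NumberField NumberField.InfinitePlace NumberField.mixedEmbedding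
  NumberField.mixedEmbedding.fundamentalCone NumberField.Units
open scoped nonZeroDivisors Pointwise Real

namespace Fermat.Agent.S14.LC

variable (K : Type*) [Field K] [NumberField K]

/-- The number of nonzero ideals of norm `≤ s` in the class `C`. -/
noncomputable def classN (C : ClassGroup (𝓞 K)) (s : ℝ) : ℕ :=
  Nat.card {I : (Ideal (𝓞 K))⁰ // (absNorm (I : Ideal (𝓞 K)) : ℝ) ≤ s ∧ ClassGroup.mk0 I = C}

variable {K} in
theorem classN_eq {C : ClassGroup (𝓞 K)} {J : (Ideal (𝓞 K))⁰} (hJ : ClassGroup.mk0 J = C⁻¹)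
    (s : ℝ) :
    classN K C s =
      Nat.card {I : (Ideal (𝓞 K))⁰ // (J : Ideal (𝓞 K)) ∣ I ∧ IsPrincipal (I : Ideal (𝓞 K)) ∧
        (absNorm (I : Ideal (𝓞 K)) : ℝ) ≤ s * absNorm (J : Ideal (𝓞 K))} := by
  unfold classN
  simp_rw [← nonZeroDivisors_dvd_iff_dvd_coe]
  refine Nat.card_congr ?_
  refine ((Equiv.dvd J).subtypeEquiv fun I ↦ ?_).trans
    (Equiv.subtypeSubtypeEquivSubtypeInter (fun I : (Ideal (𝓞 K))⁰ ↦ J ∣ I) _)
  rw [← ClassGroup.mk0_eq_one_iff (SetLike.coe_mem _)]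
  simp_rw [Equiv.dvd_apply, Submonoid.coe_mul, ← Submonoid.mul_def, _root_.map_mul, hJ,
    inv_mul_eq_one, Nat.cast_mul, mul_comm s, eq_comm, and_comm, and_congr_left_iff]
  exact fun _ ↦
    (mul_le_mul_iff_of_pos_left (Nat.cast_pos.mpr (absNorm_pos_of_nonZeroDivisors J))).symm

theorem smul_normLeOne_eq {t : ℝ} (ht : 0 < t) :
    t • normLeOne K =
      {x | x ∈ fundamentalCone K ∧ mixedEmbedding.norm x ≤ t ^ finrank ℚ K} := by
  ext x
  rw [Set.mem_smul_set_iff_inv_smul_mem₀ ht.ne', mem_normLeOne,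
    smul_mem_iff_mem (inv_ne_zero ht.ne'), mixedEmbedding.norm_smul, abs_of_pos (inv_pos.2 ht),
    inv_pow, inv_mul_le_iff₀ (pow_pos ht _), mul_one]
  rfl

theorem card_lattice_inter (J : (Ideal (𝓞 K))⁰) {t : ℝ} (ht : 0 < t) :
    Nat.card ((idealLattice K (FractionalIdeal.mk0 K J) : Set (mixedSpace K)) ∩
        t • normLeOne K : Set (mixedSpace K)) =
      Nat.card {I : (Ideal (𝓞 K))⁰ // (J : Ideal (𝓞 K)) ∣ I ∧ IsPrincipal (I : Ideal (𝓞 K)) ∧
          (absNorm (I : Ideal (𝓞 K)) : ℝ) ≤ t ^ finrank ℚ K} * torsionOrder K := by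
  rw [card_isPrincipal_dvd_norm_le, smul_normLeOne_eq K ht]
  refine Nat.card_congr ?_
  refine (Equiv.subtypeEquivRight fun x => ?_).trans
    (Equiv.subtypeSubtypeEquivSubtypeInter (· ∈ idealSet K J)
      (fun x => mixedEmbedding.norm x ≤ t ^ finrank ℚ K)).symm
  simp only [idealSet, Set.mem_inter_iff, Set.mem_ofPred_eq, SetLike.mem_coe]
  tauto

/-- The main term constant of the count of ideals in a class (Mathlib's value). -/
noncomputable def kappa0 : ℝ :=
  (2 ^ nrRealPlaces K * (2 * π) ^ nrComplexPlaces K * regulator K) /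
    (torsionOrder K * Real.sqrt |discr K|)

variable {K} in
theorem card_lattice_inter_eq {C : ClassGroup (𝓞 K)} {J : (Ideal (𝓞 K))⁰}
    (hJ : ClassGroup.mk0 J = C⁻¹) {t : ℝ} (ht : 0 < t) :
    Nat.card ((idealLattice K (FractionalIdeal.mk0 K J) : Set (mixedSpace K)) ∩
        t • normLeOne K : Set (mixedSpace K)) =
      classN K C (t ^ finrank ℚ K / absNorm (J : Ideal (𝓞 K))) * torsionOrder K := by
  have hJ0 : ((absNorm (J : Ideal (𝓞 K)) : ℕ) : ℝ) ≠ 0 :=
    Nat.cast_ne_zero.mpr (absNorm_ne_zero_of_nonZeroDivisors J)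
  rw [card_lattice_inter K J ht, classN_eq hJ, div_mul_cancel₀ _ hJ0]

open scoped Classical in
variable {K} in
theorem exists_class_rate (C : ClassGroup (𝓞 K)) :
    ∃ M : ℝ, ∀ x : ℝ, 1 ≤ x →
      |(classN K C x : ℝ) - kappa0 K * x| ≤ M * x ^ (1 - 1 / (finrank ℚ K : ℝ)) := by
  obtain ⟨J, hJ⟩ := ClassGroup.mk0_surjective C⁻¹
  set n := finrank ℚ K with hn
  have hn0 : 0 < n := finrank_pos
  set NJ : ℝ := (absNorm (J : Ideal (𝓞 K)) : ℝ) with hNJ
  have hNJ1 : 1 ≤ NJ := by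
    have : 1 ≤ absNorm (J : Ideal (𝓞 K)) := absNorm_pos_of_nonZeroDivisors J
    rw [hNJ]
    exact_mod_cast this
  have hNJ0 : 0 < NJ := by linarith
  set w : ℝ := (torsionOrder K : ℝ) with hw
  have hw1 : 1 ≤ w := by
    have : 1 ≤ torsionOrder K := torsionOrder_pos K
    rw [hw]
    exact_mod_cast this
  have hw0 : 0 < w := by linarith
  set L := idealLattice K (FractionalIdeal.mk0 K J) with hL
  have hfin : finrank ℝ (mixedSpace K) = n := mixedEmbedding.finrank K
  -- the limit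
  have hlim : Tendsto (fun t : ℝ => (Nat.card ((L : Set (mixedSpace K)) ∩
      t • normLeOne K : Set (mixedSpace K)) : ℝ) / t ^ finrank ℝ (mixedSpace K)) atTop
      (𝓝 (kappa0 K * (w / NJ))) := by
    have hu : Tendsto (fun t : ℝ => t ^ n / NJ) atTop atTop :=
      (tendsto_pow_atTop hn0.ne').atTop_div_const hNJ0
    have h1 := ((NumberField.Ideal.tendsto_norm_le_and_mk_eq_div_atTop K C).comp hu).mul_const
      (w / NJ)
    refine h1.congr' ?_
    filter_upwards [eventually_gt_atTop 0] with t ht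
    have htn : (0 : ℝ) < t ^ n := pow_pos ht n
    rw [hfin, card_lattice_inter_eq hJ ht]
    simp only [Function.comp_apply, Nat.cast_mul]
    change (classN K C (t ^ n / NJ) : ℝ) / (t ^ n / NJ) * (w / NJ) =
      (classN K C (t ^ n / NJ) : ℝ) * w / t ^ n
    generalize (classN K C (t ^ n / NJ) : ℝ) = a
    field_simp
  have hfr : CoverDim (frontier (normLeOne K)) (finrank ℝ (mixedSpace K) - 1) := by
    rw [hfin]
    exact coverDim_frontier_normLeOne K
  obtain ⟨M, hM⟩ := lattice_count_rate L (isBounded_normLeOne K) hfr hlim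
  refine ⟨M * NJ ^ (1 - 1 / (n : ℝ)), fun x hx => ?_⟩
  have hx0 : 0 < x := by linarith
  set y : ℝ := x * NJ with hy
  have hy1 : 1 ≤ y := by nlinarith
  have hy0 : 0 < y := by linarith
  set t : ℝ := y ^ ((n : ℝ)⁻¹) with ht
  have ht1 : 1 ≤ t := Real.one_le_rpow hy1 (by positivity)
  have ht0 : 0 < t := by linarith
  have htn : t ^ n = y := Real.rpow_inv_natCast_pow hy0.le hn0.ne'
  have htn1 : t ^ (n - 1) = y ^ (1 - 1 / (n : ℝ)) := by
    have h1 : t ^ (n - 1) * t = y := by rw [← pow_succ, Nat.sub_add_cancel hn0, htn]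
    have h2 : y ^ (1 - 1 / (n : ℝ)) * t = y := by
      rw [ht, ← Real.rpow_add hy0]
      have : 1 - 1 / (n : ℝ) + (n : ℝ)⁻¹ = 1 := by rw [one_div]; ring
      rw [this, Real.rpow_one]
    exact mul_right_cancel₀ ht0.ne' (h1.trans h2.symm)
  have hkey := hM t ht1
  rw [hfin, card_lattice_inter_eq hJ ht0, htn, htn1] at hkey
  have hyx : y / NJ = x := by rw [hy]; field_simp
  have hyx' : y / ((absNorm (J : Ideal (𝓞 K)) : ℕ) : ℝ) = x := hyx
  rw [hyx'] at hkey
  push_cast at hkey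
  have e1 : (classN K C x : ℝ) * (torsionOrder K : ℝ) - kappa0 K * (w / NJ) * y =
      w * ((classN K C x : ℝ) - kappa0 K * x) := by
    rw [hy, hw]
    field_simp
  rw [e1, abs_mul, abs_of_pos hw0] at hkey
  have e2 : y ^ (1 - 1 / (n : ℝ)) = x ^ (1 - 1 / (n : ℝ)) * NJ ^ (1 - 1 / (n : ℝ)) := by
    rw [hy, Real.mul_rpow hx0.le hNJ0.le]
  rw [e2] at hkey
  have habs : 0 ≤ |(classN K C x : ℝ) - kappa0 K * x| := abs_nonneg _
  calc |(classN K C x : ℝ) - kappa0 K * x| ≤ w * |(classN K C x : ℝ) - kappa0 K * x| := by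
        nlinarith
    _ ≤ M * (x ^ (1 - 1 / (n : ℝ)) * NJ ^ (1 - 1 / (n : ℝ))) := hkey
    _ = M * NJ ^ (1 - 1 / (n : ℝ)) * x ^ (1 - 1 / (n : ℝ)) := by ring

/-- **A3a**: the number of nonzero ideals of norm `≤ x` in a class `C` is
`κ x + O(x^(1 - 1/n))`, `n = [K : ℚ]`, with `κ` and the `O`-constant independent of `C`. -/
theorem classCount :
    ∃ κ M : ℝ, ∀ C : ClassGroup (𝓞 K), ∀ x : ℝ, 1 ≤ x →
      |(Nat.card {I : (Ideal (𝓞 K))⁰ //
          (Ideal.absNorm (I : Ideal (𝓞 K)) : ℝ) ≤ x ∧ ClassGroup.mk0 I = C} : ℝ) - κ * x|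
        ≤ M * x ^ (1 - 1 / (Module.finrank ℚ K : ℝ)) := by
  choose M hM using fun C : ClassGroup (𝓞 K) => exists_class_rate C
  refine ⟨kappa0 K, ∑ C, |M C|, fun C x hx => ?_⟩
  have hx0 : 0 < x := by linarith
  have hpow : 0 ≤ x ^ (1 - 1 / (Module.finrank ℚ K : ℝ)) := Real.rpow_nonneg hx0.le _
  refine (hM C x hx).trans ?_
  gcongr
  calc M C ≤ |M C| := le_abs_self _
    _ ≤ ∑ C', |M C'| :=
      Finset.single_le_sum (f := fun C' => |M C'|) (fun _ _ => abs_nonneg _) (Finset.mem_univ C)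

end Fermat.Agent.S14.LC
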