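/-
S14, slice A3 (second design, adapter): if the partial zeta functions of any two ideal classes,

  `Z_c(s) = ∑_{I ≠ 0, [I] = c} N(I)^(-s)`,

differ by a bounded amount on `(1, 2]`, then the `L`-series of every non-trivial class group
character is bounded on `(1, 2]`:  `L(ψ, s) = ∑_c ψ(c) (Z_c(s) - Z_1(s))` because `∑_c ψ(c) = 0`.
-/
import Mathlib
import Fermat.Agent.S14.AIface

set_option autoImplicit false

open scoped NumberField nonZeroDivisors

noncomputable section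

namespace Fermat.Agent.S14.LC2

variable (K : Type) [Field K] [NumberField K]

/-- The partial zeta function of an ideal class, as a real number. -/
def partialZeta (c : ClassGroup (𝓞 K)) (s : ℝ) : ℝ :=
  ∑' I : {I : (Ideal (𝓞 K))⁰ // ClassGroup.mk0 I = c}, normPow K I.1 s

theorem sum_char_eq_zero (ψ : ClassGroup (𝓞 K) →* ℂˣ) (hψ : ∃ c, ψ c ≠ 1) :
    ∑ c : ClassGroup (𝓞 K), (ψ c : ℂ) = 0 := by
  have h := sum_hom_units_eq_zero (G := ClassGroup (𝓞 K)) (R := ℂ)
    ((Units.coeHom ℂ).comp ψ) (by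
      obtain ⟨c, hc⟩ := hψ
      intro h
      apply hc
      have h2 := DFunLike.congr_fun h c
      simp only [MonoidHom.coe_comp, Function.comp_apply, Units.coeHom_apply,
        MonoidHom.one_apply] at h2
      exact Units.ext h2)
  simpa using h

theorem norm_char (ψ : ClassGroup (𝓞 K) →* ℂˣ) (c : ClassGroup (𝓞 K)) :
    ‖(ψ c : ℂ)‖ = 1 := by
  have hfin : c ^ Fintype.card (ClassGroup (𝓞 K)) = 1 := pow_card_eq_one
  have h1 : (ψ c : ℂ) ^ Fintype.card (ClassGroup (𝓞 K)) = 1 := by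
    rw [← Units.val_pow_eq_pow_val, ← map_pow, hfin, map_one, Units.val_one]
  exact Complex.norm_eq_one_of_pow_eq_one h1 Fintype.card_ne_zero

/-- The class `L`-series as a finite combination of the partial zeta functions. -/
theorem idealL_eq_sum (hsum : IdealSummable K) (ψ : ClassGroup (𝓞 K) →* ℂˣ) (s : ℝ)
    (hs : 1 < s) :
    idealL K ψ s = ∑ c : ClassGroup (𝓞 K), (ψ c : ℂ) * (partialZeta K c s : ℂ) := by
  unfold idealL
  set f : (Ideal (𝓞 K))⁰ → ℂ := fun I => (ψ (ClassGroup.mk0 I) : ℂ) * (normPow K I s : ℂ)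
    with hf
  have hnn : ∀ I : (Ideal (𝓞 K))⁰, 0 ≤ normPow K I s := fun I =>
    Real.rpow_nonneg (Nat.cast_nonneg _) _
  have hfs : Summable f := by
    apply Summable.of_norm
    have : (fun I => ‖f I‖) = fun I : (Ideal (𝓞 K))⁰ => normPow K I s := by
      funext I
      simp only [hf, norm_mul, norm_char, one_mul, Complex.norm_real, Real.norm_eq_abs,
        abs_of_nonneg (hnn I)]
    rw [this]
    exact hsum s hs
  -- split along the fibres of `mk0`
  let e := Equiv.sigmaFiberEquiv (fun I : (Ideal (𝓞 K))⁰ => ClassGroup.mk0 I)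
  have h1 : ∑' I, f I = ∑' x : (Σ c : ClassGroup (𝓞 K),
      {I : (Ideal (𝓞 K))⁰ // ClassGroup.mk0 I = c}), f (e x) := (e.tsum_eq f).symm
  have hfs' : Summable fun x : (Σ c : ClassGroup (𝓞 K),
      {I : (Ideal (𝓞 K))⁰ // ClassGroup.mk0 I = c}) => f (e x) := (e.summable_iff).mpr hfs
  have h2 := hfs'.tsum_sigma' (fun c => hfs'.sigma_factor c)
  rw [h1, h2, tsum_fintype]
  refine Finset.sum_congr rfl fun c _ => ?_
  have h3 : ∀ I : {I : (Ideal (𝓞 K))⁰ // ClassGroup.mk0 I = c},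
      f (e ⟨c, I⟩) = (ψ c : ℂ) * ((normPow K I.1 s : ℝ) : ℂ) := by
    intro I
    simp only [hf, e, Equiv.sigmaFiberEquiv_apply, I.2]
  simp only [h3]
  rw [tsum_mul_left, partialZeta, Complex.ofReal_tsum]

/-- **Adapter (second A3 design).**  Uniformly bounded differences of the partial zeta functions
of the ideal classes on `(1, 2]` give `ClassLBounded K`. -/
theorem classLBounded_of_partialZeta (hsum : IdealSummable K)
    (h : ∃ C0 : ℝ, ∀ c c' : ClassGroup (𝓞 K), ∀ s ∈ Set.Ioc (1 : ℝ) 2,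
      |(∑' I : {I : (Ideal (𝓞 K))⁰ // ClassGroup.mk0 I = c}, normPow K I.1 s) -
        (∑' I : {I : (Ideal (𝓞 K))⁰ // ClassGroup.mk0 I = c'}, normPow K I.1 s)| ≤ C0) :
    ClassLBounded K := by
  obtain ⟨C0, hC0⟩ := h
  intro ψ hψ
  refine ⟨Fintype.card (ClassGroup (𝓞 K)) * C0, fun s hs => ?_⟩
  have h0 := sum_char_eq_zero K ψ hψ
  have hL : idealL K ψ s = ∑ c : ClassGroup (𝓞 K),
      (ψ c : ℂ) * ((partialZeta K c s - partialZeta K 1 s : ℝ) : ℂ) := by
    rw [idealL_eq_sum K hsum ψ s hs.1]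
    have : ∑ c : ClassGroup (𝓞 K), (ψ c : ℂ) * ((partialZeta K c s - partialZeta K 1 s : ℝ) : ℂ)
        = ∑ c : ClassGroup (𝓞 K), (ψ c : ℂ) * (partialZeta K c s : ℂ)
          - (∑ c : ClassGroup (𝓞 K), (ψ c : ℂ)) * (partialZeta K 1 s : ℂ) := by
      rw [Finset.sum_mul, ← Finset.sum_sub_distrib]
      refine Finset.sum_congr rfl fun c _ => ?_
      push_cast
      ring
    rw [this, h0, zero_mul, sub_zero]
  rw [hL]
  calc ‖∑ c : ClassGroup (𝓞 K), (ψ c : ℂ) * ((partialZeta K c s - partialZeta K 1 s : ℝ) : ℂ)‖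
      ≤ ∑ c : ClassGroup (𝓞 K),
          ‖(ψ c : ℂ) * ((partialZeta K c s - partialZeta K 1 s : ℝ) : ℂ)‖ := norm_sum_le _ _
    _ ≤ ∑ _c : ClassGroup (𝓞 K), C0 := by
        refine Finset.sum_le_sum fun c _ => ?_
        rw [norm_mul, norm_char, one_mul, Complex.norm_real, Real.norm_eq_abs]
        exact hC0 c 1 s hs
    _ = Fintype.card (ClassGroup (𝓞 K)) * C0 := by
        rw [Finset.sum_const, Finset.card_univ, nsmul_eq_mul]

/-- One-sided variant: it suffices to compare every class with the trivial class. -/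
theorem classLBounded_of_partialZeta_one (hsum : IdealSummable K)
    (h : ∃ C0 : ℝ, ∀ c : ClassGroup (𝓞 K), ∀ s ∈ Set.Ioc (1 : ℝ) 2,
      |(∑' I : {I : (Ideal (𝓞 K))⁰ // ClassGroup.mk0 I = c}, normPow K I.1 s) -
        (∑' I : {I : (Ideal (𝓞 K))⁰ // ClassGroup.mk0 I = 1}, normPow K I.1 s)| ≤ C0) :
    ClassLBounded K := by
  obtain ⟨C0, hC0⟩ := h
  refine classLBounded_of_partialZeta K hsum ⟨2 * C0, fun c c' s hs => ?_⟩
  have h1 := hC0 c s hs
  have h2 := hC0 c' s hs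
  rw [abs_le] at h1 h2 ⊢
  constructor <;> linarith [h1.1, h1.2, h2.1, h2.2]

end Fermat.Agent.S14.LC2
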