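import Mathlib
import Fermat.Prelude.Def_ExtCitation_AdmissibleExtension_v2
import Fermat.Prelude.Def_ClassGroup_GaloisAction

set_option autoImplicit false

open scoped NumberField nonZeroDivisors

namespace Fermat.Agent.S14

variable (p : ℕ) [Fact p.Prime]
variable (K : Type) [Field K] [NumberField K]

/-- The action of `Gal(K/ℚ)` on the ring of integers, as ring automorphisms. -/
noncomputable def intAut (σ : K ≃ₐ[ℚ] K) : 𝓞 K ≃+* 𝓞 K :=
  (galRestrict ℤ ℚ K (𝓞 K) σ).toRingEquiv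

/-- The action of `Gal(K/ℚ)` on the class group. -/
noncomputable def clAct (σ : K ≃ₐ[ℚ] K) : ClassGroup (𝓞 K) ≃* ClassGroup (𝓞 K) :=
  ClassGroup.mulEquiv (intAut K σ)

variable {K}

/-- The prime element `1 - ζ` of the ring of integers. -/
noncomputable def lam {ζ : K} (hζ : IsPrimitiveRoot ζ p) : 𝓞 K :=
  have : NeZero p := ⟨(Fact.out : p.Prime).ne_zero⟩
  1 - hζ.toInteger

/-- Thaine's unit `η = ∏_{a=1}^{p-1} (1 + ζ^(a⁻¹))^(a² mod p)` (the `ω²`-projection of `1 + ζ`). -/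
noncomputable def eta {ζ : K} (hζ : IsPrimitiveRoot ζ p) : 𝓞 K :=
  have : NeZero p := ⟨(Fact.out : p.Prime).ne_zero⟩
  ∏ a ∈ Finset.Ico 1 p, (1 + hζ.toInteger ^ ((a : ZMod p)⁻¹).val) ^ (a ^ 2 % p)

/-- `α` is an `ω²`-eigenvector modulo `p`-th powers. -/
def IsEigen {ζ : K} (_hζ : IsPrimitiveRoot ζ p) (α : K) : Prop :=
  ∀ (σ : K ≃ₐ[ℚ] K) (a : ℕ), σ ζ = ζ ^ a → ∃ γ : K, σ α = α ^ (a ^ 2) * γ ^ p

/-- `α` generates the `p`-th power of a fractional ideal. -/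
def IsIdealPow (α : K) : Prop :=
  ∃ I : FractionalIdeal (𝓞 K)⁰ K, FractionalIdeal.spanSingleton (𝓞 K)⁰ α = I ^ p

/-- `α` is, up to a `p`-th power of `1 - ζ`, a `p`-th power modulo `p` (local condition at the
prime above `p`). -/
def IsLocalPow {ζ : K} (hζ : IsPrimitiveRoot ζ p) (α : K) : Prop :=
  ∃ (m : ℤ) (a b x y : 𝓞 K), ¬ lam p hζ ∣ a ∧ ¬ lam p hζ ∣ b ∧ ¬ lam p hζ ∣ y ∧
    α * (b : K) = (1 - ζ) ^ ((p : ℤ) * m) * (a : K) ∧ (p : 𝓞 K) ∣ a * y ^ p - b * x ^ p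

/-- A character of the class group of type `ω²`. -/
def IsOmegaTwoChar {ζ : K} (_hζ : IsPrimitiveRoot ζ p)
    (χ : ClassGroup (𝓞 K) →* Multiplicative (ZMod p)) : Prop :=
  ∀ (σ : K ≃ₐ[ℚ] K) (a : ℕ), σ ζ = ζ ^ a → ∀ c, χ (clAct K σ c) = χ c ^ (a ^ 2)

/-- The Kummer core: in `ℚ(ζ_p)` an `ω²`-eigen element which generates a `p`-th power ideal and
is locally a `p`-th power at `1 - ζ` is a `p`-th power. -/
def KummerCore : Prop :=
  ∀ (K : Type) [Field K] [NumberField K] [IsCyclotomicExtension {p} ℚ K] (ζ : K)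
    (hζ : IsPrimitiveRoot ζ p) (α : K), α ≠ 0 → IsEigen p hζ α → IsIdealPow p α →
    IsLocalPow p hζ α → ∃ β : K, α = β ^ p

/-- The Galois-to-Kummer bridge: a non-split admissible extension produces a counterexample to the
Kummer core. -/
def GBridge : Prop :=
  ∀ (V : Type) [AddCommGroup V] [Module (ZMod p) V]
    [DistribMulAction (AlgebraicClosure ℚ ≃ₐ[ℚ] AlgebraicClosure ℚ) V]
    [SMulCommClass (AlgebraicClosure ℚ ≃ₐ[ℚ] AlgebraicClosure ℚ) (ZMod p) V]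
    (C : Submodule (ZMod p) V),
    ExtCitation.IsAdmissibleExtensionCts p V C → ¬ ExtCitation.SplitsGlobally C →
    ∃ (K : Type) (_ : Field K) (_ : NumberField K) (_ : IsCyclotomicExtension {p} ℚ K) (ζ : K)
      (hζ : IsPrimitiveRoot ζ p) (α : K), α ≠ 0 ∧ IsEigen p hζ α ∧ IsIdealPow p α ∧
        IsLocalPow p hζ α ∧ ¬ ∃ β : K, α = β ^ p

theorem extVanishingCts_of (hG : GBridge p) (hKC : KummerCore p) :
    ExtCitation.ExtVanishingCts p := by
  intro V _ _ _ _ C hadm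
  by_contra hns
  obtain ⟨K, _, _, _, ζ, hζ, α, hα0, he, hi, hl, hnp⟩ := hG V C hadm hns
  exact hnp (hKC K ζ hζ α hα0 he hi hl)

end Fermat.Agent.S14
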