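/-
S14, chain G (second seat on G1a): lifting finite-level decomposition and inertia elements into
the decomposition / inertia groups of a valuation subring of the algebraic closure, modulo a
closed normal subgroup, and the consequences for an admissible extension.
-/
import Mathlib
import Fermat.Prelude.Def_FLTPrelim_Ramification
import Fermat.Prelude.Def_ExtCitation_AdmissibleExtension_v2
import Fermat.Agent.S54.Frobenius
import Fermat.Agent.S13.Mink

set_option autoImplicit false
set_option linter.unusedSectionVars false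

open scoped Pointwise NumberField

namespace Fermat.Agent.S14.GDec

open Fermat.Agent.S54 Fermat.Agent.S13

section Core

variable {L : Type*} [Field L] [Algebra ℚ L] [IsAlgClosure ℚ L]

/-- The ring of all algebraic integers maps into every valuation subring. -/
def toVal (A : ValuationSubring L) : integralClosure ℤ L →+* A where
  toFun b := ⟨b.1, mem_valuationSubring_of_isIntegral A b.2⟩
  map_one' := rfl
  map_mul' _ _ := rfl
  map_zero' := rfl
  map_add' _ _ := rfl

/-- The prime of the ring of all algebraic integers cut out by a valuation subring. -/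
def primeBelow (A : ValuationSubring L) : Ideal (integralClosure ℤ L) :=
  (IsLocalRing.maximalIdeal A).comap (toVal A)

theorem mem_primeBelow (A : ValuationSubring L) (b : integralClosure ℤ L) :
    b ∈ primeBelow A ↔ (b : L) ∈ A.nonunits := by
  rw [show (b : L) = ((toVal A b : A) : L) from rfl, A.coe_mem_nonunits_iff]
  rfl

instance primeBelow_isPrime (A : ValuationSubring L) : (primeBelow A).IsPrime :=
  Ideal.comap_isPrime (toVal A) _

/-- An automorphism which preserves the set of integral nonunits of `A` (in both directions)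
lies in the decomposition group of `A`. -/
theorem mem_decompositionSubgroup_of_forall (A : ValuationSubring L) {ℓ : ℕ} (hℓ : ℓ.Prime)
    (hA : A.LiesOverPrime ℓ) (σ : L ≃ₐ[ℚ] L)
    (h : ∀ b : L, IsIntegral ℤ b → (b ∈ A.nonunits ↔ σ b ∈ A.nonunits)) :
    σ ∈ A.decompositionSubgroup ℚ := by
  have hA' : (ℓ : L) ∈ A.nonunits := hA
  have : CharZero L := charZero_of_injective_algebraMap (algebraMap ℚ L).injective
  have halg : Algebra.IsAlgebraic ℚ L := IsAlgClosure.isAlgebraic
  -- a general step: if `τ` preserves integral non-nonunits, it preserves `A`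
  have step : ∀ τ : L ≃ₐ[ℚ] L, (∀ b : L, IsIntegral ℤ b → b ∉ A.nonunits → τ b ∉ A.nonunits) →
      ∀ x ∈ A, τ x ∈ A := by
    intro τ hτ x hx
    have hxalg : IsAlgebraic ℤ x :=
      (IsFractionRing.isAlgebraic_iff ℤ ℚ L).mpr (Algebra.IsAlgebraic.isAlgebraic x)
    obtain ⟨b, hb, hbn, hbx⟩ := exists_integral_denominator A hℓ hA' hx hxalg
    have hτbn : τ b ∉ A.nonunits := hτ b hb hbn
    have hτb0 : τ b ≠ 0 := fun h0 => hτbn (h0 ▸ A.nonunits.zero_mem)
    have hτbinv : (τ b)⁻¹ ∈ A := inv_mem_of_notMem_nonunits A hτbn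
    have hint : IsIntegral ℤ (τ (b * x)) := hbx.map (τ : L →ₐ[ℚ] L).toRingHom.toIntAlgHom
    have hτa : τ (b * x) ∈ A := mem_valuationSubring_of_isIntegral A hint
    have hτx : τ x = (τ b)⁻¹ * τ (b * x) := by
      rw [map_mul, ← mul_assoc, inv_mul_cancel₀ hτb0, one_mul]
    exact hτx ▸ A.mul_mem _ _ hτbinv hτa
  have h1 : ∀ x ∈ A, σ x ∈ A := step σ fun b hb hbn hσ => hbn ((h b hb).mpr hσ)
  have h2 : ∀ x ∈ A, σ⁻¹ x ∈ A := by
    refine step σ⁻¹ fun b hb hbn hσ => hbn ?_
    have hint : IsIntegral ℤ (σ⁻¹ b) := hb.map ((σ⁻¹ : L ≃ₐ[ℚ] L) : L →ₐ[ℚ] L).toRingHom.toIntAlgHom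
    have := (h (σ⁻¹ b) hint).mp hσ
    rwa [← AlgEquiv.mul_apply, mul_inv_cancel, AlgEquiv.one_apply] at this
  rw [MulAction.mem_stabilizer_iff]
  ext x
  rw [ValuationSubring.mem_pointwise_smul_iff_inv_smul_mem]
  constructor
  · intro hx
    have := h1 _ hx
    rwa [AlgEquiv.smul_def, ← AlgEquiv.mul_apply, mul_inv_cancel, AlgEquiv.one_apply] at this
  · intro hx
    exact h2 x hx

/-- **Lifting decomposition elements.**  Let `H` be a closed normal subgroup of the absolute
Galois group and `g` an automorphism mapping the `H`-invariant integral nonunits of `A` into the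
nonunits of `A`.  Then `h * g` lies in the decomposition group of `A` for some `h ∈ H`. -/
theorem exists_mul_mem_decompositionSubgroup (H : Subgroup (L ≃ₐ[ℚ] L)) [H.Normal]
    (hH : IsClosed (H : Set (L ≃ₐ[ℚ] L))) (A : ValuationSubring L) {ℓ : ℕ} (hℓ : ℓ.Prime)
    (hA : A.LiesOverPrime ℓ) (g : L ≃ₐ[ℚ] L)
    (hg : ∀ x : L, IsIntegral ℤ x → (∀ h ∈ H, h x = x) → x ∈ A.nonunits → g x ∈ A.nonunits) :
    ∃ h ∈ H, h * g ∈ A.decompositionSubgroup ℚ := by
  have : IsGalois ℚ L := IsAlgClosure.isGalois ℚ L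
  have hA' : (ℓ : L) ∈ A.nonunits := hA
  let _ : TopologicalSpace (integralClosure ℤ L) := ⊥
  have : DiscreteTopology (integralClosure ℤ L) := ⟨rfl⟩
  have : CompactSpace H := isCompact_iff_compactSpace.mp hH.isCompact
  have : ContinuousSMul H (integralClosure ℤ L) := by
    rw [continuousSMul_iff_stabilizer_isOpen]
    intro b
    have h1 := Mink.isOpen_stabilizer (L := L) b
    have h2 : ((MulAction.stabilizer H b : Subgroup H) : Set H) =
        (fun h : H => (h : L ≃ₐ[ℚ] L)) ⁻¹'
          ((MulAction.stabilizer (L ≃ₐ[ℚ] L) b : Subgroup (L ≃ₐ[ℚ] L)) : Set (L ≃ₐ[ℚ] L)) := by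
      ext h
      rfl
    rw [h2]
    exact h1.preimage continuous_subtype_val
  have hinv : Algebra.IsInvariant (FixedPoints.subalgebra ℤ (integralClosure ℤ L) H)
      (integralClosure ℤ L) H := ⟨fun b hb => ⟨⟨b, hb⟩, rfl⟩⟩
  set Q : Ideal (integralClosure ℤ L) := primeBelow A with hQ
  -- `H`-invariant integers are preserved by every automorphism
  have hfix : ∀ (k : L ≃ₐ[ℚ] L) (x : integralClosure ℤ L), (∀ h : H, h • x = x) →
      ∀ h : H, h • (k • x) = k • x := by
    intro k x hx h
    have h1 : k⁻¹ * (h : L ≃ₐ[ℚ] L) * k ∈ H := by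
      have := ‹H.Normal›.conj_mem _ h.2 k⁻¹
      simpa using this
    have h2 := hx ⟨_, h1⟩
    have h3 : (h : L ≃ₐ[ℚ] L) • (k • x) = k • ((k⁻¹ * (h : L ≃ₐ[ℚ] L) * k) • x) := by
      simp [mul_smul]
    show (h : L ≃ₐ[ℚ] L) • (k • x) = k • x
    rw [h3]
    exact congrArg (k • ·) h2
  -- the prime `under (g • Q)` is contained in `under Q`
  have hle : Ideal.under (FixedPoints.subalgebra ℤ (integralClosure ℤ L) H) (g • Q) ≤
      Ideal.under (FixedPoints.subalgebra ℤ (integralClosure ℤ L) H) Q := by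
    intro x hx
    rw [Ideal.mem_comap, Ideal.mem_pointwise_smul_iff_inv_smul_mem] at hx
    rw [Ideal.mem_comap]
    have hx' : ∀ h : H, h • (g⁻¹ • (x : integralClosure ℤ L)) = g⁻¹ • (x : integralClosure ℤ L) :=
      hfix g⁻¹ x x.2
    have h1 := hg ((g⁻¹ • (x : integralClosure ℤ L) : integralClosure ℤ L) : L)
      (g⁻¹ • (x : integralClosure ℤ L)).2
      (fun h hh => congrArg Subtype.val (hx' ⟨h, hh⟩)) ((mem_primeBelow A _).mp hx)
    rw [mem_primeBelow]
    have e : g (((g⁻¹ • (x : integralClosure ℤ L) : integralClosure ℤ L) : L)) =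
        ((x : integralClosure ℤ L) : L) := by
      show g (g⁻¹ ((x : integralClosure ℤ L) : L)) = _
      rw [← AlgEquiv.mul_apply, mul_inv_cancel, AlgEquiv.one_apply]
    rwa [e] at h1
  -- `under (g • Q)` is maximal, because it lies over `ℓ`
  have hint : Algebra.IsIntegral ℤ (FixedPoints.subalgebra ℤ (integralClosure ℤ L) H) := by
    refine ⟨fun x => ?_⟩
    have h1 : IsIntegral ℤ ((x : integralClosure ℤ L) : L) := (x : integralClosure ℤ L).2
    have h2 : IsIntegral ℤ (x : integralClosure ℤ L) :=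
      (isIntegral_algHom_iff (integralClosure ℤ L).val Subtype.val_injective).mp h1
    exact (isIntegral_algHom_iff (FixedPoints.subalgebra ℤ (integralClosure ℤ L) H).val
      Subtype.val_injective).mp h2
  have hmaxZ : (Ideal.span {(ℓ : ℤ)}).IsMaximal :=
    PrincipalIdealRing.isMaximal_of_irreducible
      (Nat.prime_iff_prime_int.mp hℓ).irreducible
  have hcomap : (Ideal.under (FixedPoints.subalgebra ℤ (integralClosure ℤ L) H) (g • Q)).comap
      (algebraMap ℤ (FixedPoints.subalgebra ℤ (integralClosure ℤ L) H)) = Ideal.span {(ℓ : ℤ)} := by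
    symm
    refine hmaxZ.eq_of_le (Ideal.comap_ne_top _ (Ideal.IsPrime.ne_top inferInstance)) ?_
    rw [Ideal.span_le, Set.singleton_subset_iff]
    rw [SetLike.mem_coe, Ideal.mem_comap, Ideal.mem_comap,
      Ideal.mem_pointwise_smul_iff_inv_smul_mem, mem_primeBelow]
    simpa using hA'
  have hmax : (Ideal.under (FixedPoints.subalgebra ℤ (integralClosure ℤ L) H) (g • Q)).IsMaximal :=
    Ideal.isMaximal_of_isIntegral_of_isMaximal_comap (R := ℤ) _ (hcomap ▸ hmaxZ)
  have hunder : Ideal.under (FixedPoints.subalgebra ℤ (integralClosure ℤ L) H) (g • Q) =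
      Ideal.under (FixedPoints.subalgebra ℤ (integralClosure ℤ L) H) Q :=
    hmax.eq_of_le (Ideal.comap_ne_top _ (Ideal.IsPrime.ne_top inferInstance)) hle
  obtain ⟨h1, hh1⟩ := Algebra.IsInvariant.exists_smul_of_under_eq_of_profinite
    (A := FixedPoints.subalgebra ℤ (integralClosure ℤ L) H) (G := H) (g • Q) Q hunder
  have hσ : ((h1 : L ≃ₐ[ℚ] L) * g) • Q = Q := by
    rw [mul_smul]
    exact hh1.symm
  refine ⟨h1, h1.2, mem_decompositionSubgroup_of_forall A hℓ hA _ fun b hb => ?_⟩
  have h2 : (⟨b, hb⟩ : integralClosure ℤ L) ∈ Q ↔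
      ((h1 : L ≃ₐ[ℚ] L) * g) • (⟨b, hb⟩ : integralClosure ℤ L) ∈ Q := by
    conv_rhs => rw [← hσ]
    exact (Ideal.smul_mem_pointwise_smul_iff).symm
  rw [mem_primeBelow, mem_primeBelow] at h2
  exact h2

/-- **Lifting inertia elements.**  Let `H` be a closed normal subgroup of the absolute Galois
group and `g` an automorphism moving every `H`-invariant integer by a nonunit of `A`.  Then
`h * g` lies in the inertia group of `A` for some `h ∈ H`. -/
theorem exists_mul_mem_inertiaSubgroupIn (H : Subgroup (L ≃ₐ[ℚ] L)) [H.Normal]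
    (hH : IsClosed (H : Set (L ≃ₐ[ℚ] L))) (A : ValuationSubring L) {ℓ : ℕ} (hℓ : ℓ.Prime)
    (hA : A.LiesOverPrime ℓ) (g : L ≃ₐ[ℚ] L)
    (hg : ∀ x : L, IsIntegral ℤ x → (∀ h ∈ H, h x = x) → g x - x ∈ A.nonunits) :
    ∃ h ∈ H, h * g ∈ A.inertiaSubgroupIn ℚ := by
  obtain ⟨h, hh, hall⟩ := Mink.exists_mul_forall_sub_mem H hH (primeBelow A) g (by
    intro x hx
    rw [mem_primeBelow]
    exact hg (x : L) x.2 (fun h hh => congrArg Subtype.val (hx ⟨h, hh⟩)))
  refine ⟨h, hh, Mink.mem_inertiaSubgroupIn_of_forall_isIntegral A hℓ hA (h * g) fun b hb => ?_⟩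
  have := hall ⟨b, hb⟩
  rw [mem_primeBelow] at this
  exact this

/-- A prime ideal containing a nonzero natural number contains a prime number. -/
theorem exists_prime_natCast_mem {R : Type*} [CommRing R] (P : Ideal R) [P.IsPrime] :
    ∀ n : ℕ, n ≠ 0 → (n : R) ∈ P → ∃ ℓ : ℕ, ℓ.Prime ∧ (ℓ : R) ∈ P := by
  intro n
  induction n using Nat.strong_induction_on with
  | _ n ih =>
    intro hn hmem
    have hn1 : n ≠ 1 := by
      rintro rfl
      exact (Ideal.IsPrime.ne_top inferInstance) ((Ideal.eq_top_iff_one P).mpr (by simpa using hmem))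
    have hq : (n.minFac).Prime := Nat.minFac_prime hn1
    have hdvd : n.minFac ∣ n := Nat.minFac_dvd n
    obtain ⟨m, hm⟩ := hdvd
    have hm0 : m ≠ 0 := by
      rintro rfl
      exact hn (by simpa using hm)
    have hmem' : ((n.minFac : ℕ) : R) * (m : R) ∈ P := by
      have : (n : R) = ((n.minFac : ℕ) : R) * (m : R) := by
        conv_lhs => rw [hm]
        push_cast
        ring
      rwa [this] at hmem
    rcases Ideal.IsPrime.mem_or_mem inferInstance hmem' with h | h
    · exact ⟨n.minFac, hq, h⟩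
    · have hlt : m < n := by
        have h2 : 2 ≤ n.minFac := hq.two_le
        have hmpos : 0 < m := Nat.pos_of_ne_zero hm0
        nlinarith
      exact ih m hlt hm0 h

/-- **A valuation subring above a given ideal.**  For an injective ring homomorphism `f : R → L`,
a proper ideal `P` of `R` containing the natural number `ℓ` is cut out by a valuation subring
of `L` lying over `ℓ`. -/
theorem exists_valuationSubring_of_ideal {R : Type*} [CommRing R] (f : R →+* L)
    (hf : Function.Injective f) (P : Ideal R) (hP : P ≠ ⊤) {ℓ : ℕ} (hℓ : (ℓ : R) ∈ P) :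
    ∃ A : ValuationSubring L, A.LiesOverPrime ℓ ∧ ∀ x ∈ P, f x ∈ A.nonunits := by
  have hbij : Function.Bijective f.rangeRestrict :=
    ⟨fun a b hab => hf (congrArg Subtype.val hab), f.rangeRestrict_surjective⟩
  have hne : P.map f.rangeRestrict ≠ ⊤ := by
    intro h
    apply hP
    have := Ideal.comap_map_of_bijective f.rangeRestrict hbij (I := P)
    rw [h, Ideal.comap_top] at this
    exact this.symm
  obtain ⟨A, -, hA⟩ := Ideal.image_subset_nonunits_valuationSubring (P.map f.rangeRestrict) hne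
  have key : ∀ x ∈ P, f x ∈ A.nonunits := fun x hx =>
    hA ⟨f.rangeRestrict x, Ideal.mem_map_of_mem _ hx, rfl⟩
  refine ⟨A, ?_, key⟩
  have := key _ hℓ
  rwa [map_natCast] at this

end Core

section Admissible

open ExtCitation

variable {p : ℕ} [Fact p.Prime] {V : Type} [AddCommGroup V] [Module (ZMod p) V]
  [DistribMulAction (AlgebraicClosure ℚ ≃ₐ[ℚ] AlgebraicClosure ℚ) V]
  [SMulCommClass (AlgebraicClosure ℚ ≃ₐ[ℚ] AlgebraicClosure ℚ) (ZMod p) V]
  {C : Submodule (ZMod p) V}

/-- **The decomposition group at `p` acts through the cyclotomic character.**  An element of a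
decomposition group above `p` with trivial mod-`p` cyclotomic character acts trivially on an
admissible extension. -/
theorem smul_eq_of_mem_decomposition (hadm : IsAdmissibleExtensionCts p V C)
    (A : ValuationSubring (AlgebraicClosure ℚ)) (hA : A.LiesOverPrime p)
    (σ : AlgebraicClosure ℚ ≃ₐ[ℚ] AlgebraicClosure ℚ) (hσ : σ ∈ A.decompositionSubgroup ℚ)
    (h1 : cycloExp p σ = 1) (v : V) : σ • v = v := by
  obtain ⟨C', hstab, hcompl⟩ := hadm.locally_split A hA
  have hv : v ∈ C ⊔ C' := by rw [hcompl.sup_eq_top]; exact Submodule.mem_top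
  obtain ⟨c, hc, c', hc', rfl⟩ := Submodule.mem_sup.mp hv
  have e1 : σ • c = c := hadm.fixed_sub σ c hc
  have e2 : σ • c' - c' ∈ C := by
    have := hadm.cyclo_quot σ c'
    rwa [h1, Nat.cast_one, one_smul] at this
  have e3 : σ • c' - c' ∈ C' := C'.sub_mem (hstab σ hσ c' hc') hc'
  have e4 : σ • c' - c' = 0 := by
    have : σ • c' - c' ∈ C ⊓ C' := ⟨e2, e3⟩
    rw [hcompl.inf_eq_bot] at this
    exact (Submodule.mem_bot _).mp this
  rw [smul_add, e1, sub_eq_zero.mp e4]

end Admissible

end Fermat.Agent.S14.GDec
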