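import Fermat.Agent.S14.GAlg

/-!
# S14, slice G1a, part 2: the Kummer datum of a non-split admissible extension

Group theory: `b (τ⁻¹ σ τ) = χ(τ) • b σ`, hence `τ⁻¹ σ τ σ^(-a)` acts trivially when
`a ≡ χ(τ)`, and `[ker χ : actKer V] = p` in the non-split case.

Field theory: `M = fixedField (actKer V)` is a finite Galois extension of `ℚ` containing a
primitive `p`-th root of unity `ζ`, `K = ℚ(ζ) ⊆ M`, `[M : K] = p` and `Gal(M/ℚ)` acts on
`Gal(M/K)` through `χ`.
-/

set_option autoImplicit false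

open scoped NumberField

namespace Fermat.Agent.S14.GD

open ExtCitation

variable {p : ℕ} [Fact p.Prime]
variable {V : Type} [AddCommGroup V] [Module (ZMod p) V] [DistribMulAction GQ V]
  [SMulCommClass GQ (ZMod p) V]
variable {C : Submodule (ZMod p) V} (hadm : IsAdmissibleExtensionCts p V C)
include hadm

theorem pow_smul_eq {σ : GQ} (hσ : chi p σ = 1) (v₀ : V) (a : ℕ) :
    σ ^ a • v₀ = v₀ + (a : ZMod p) • (σ • v₀ - v₀) := by
  induction a with
  | zero => simp
  | succ a ih =>
    have hc : σ • v₀ - v₀ ∈ C := smul_sub_mem hadm hσ v₀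
    have h1 : σ ^ a • (σ • v₀ - v₀) = σ • v₀ - v₀ := hadm.fixed_sub _ _ hc
    have h2 : σ ^ (a + 1) • v₀ = σ ^ a • v₀ + σ ^ a • (σ • v₀ - v₀) := by
      rw [pow_succ, mul_smul, ← smul_add]
      congr 1
      abel
    rw [h2, ih, h1, Nat.cast_succ, add_smul, one_smul]
    abel

theorem conj_smul_eq {σ : GQ} (hσ : chi p σ = 1) (τ : GQ) (v₀ : V) :
    (τ⁻¹ * σ * τ) • v₀ = v₀ + ((chi p τ : (ZMod p)ˣ) : ZMod p) • (σ • v₀ - v₀) := by
  have hc : σ • v₀ - v₀ ∈ C := smul_sub_mem hadm hσ v₀
  have hc1 : τ • v₀ - ((chi p τ : (ZMod p)ˣ) : ZMod p) • v₀ ∈ C := smul_sub_chi_smul_mem hadm τ v₀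
  have h1 : σ • (τ • v₀ - ((chi p τ : (ZMod p)ˣ) : ZMod p) • v₀) =
      τ • v₀ - ((chi p τ : (ZMod p)ˣ) : ZMod p) • v₀ := hadm.fixed_sub _ _ hc1
  have h2 : σ • τ • v₀ = τ • v₀ + ((chi p τ : (ZMod p)ˣ) : ZMod p) • (σ • v₀ - v₀) := by
    rw [smul_sub, smul_comm σ (((chi p τ : (ZMod p)ˣ) : ZMod p)) v₀] at h1
    rw [smul_sub]
    have := eq_add_of_sub_eq h1
    rw [this]
    abel
  have h3 : τ⁻¹ • (((chi p τ : (ZMod p)ˣ) : ZMod p) • (σ • v₀ - v₀)) =
      ((chi p τ : (ZMod p)ˣ) : ZMod p) • (σ • v₀ - v₀) :=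
    hadm.fixed_sub _ _ (C.smul_mem _ hc)
  rw [mul_smul, mul_smul, h2, smul_add, inv_smul_smul, h3]

/-- The conjugation rule: `τ⁻¹ σ τ` and `σ ^ a` differ by an element acting trivially when
`a ≡ χ(τ)`. -/
theorem conj_mul_pow_mem {σ : GQ} (hσ : chi p σ = 1) (τ : GQ) (a : ℕ)
    (ha : (a : ZMod p) = ((chi p τ : (ZMod p)ˣ) : ZMod p)) :
    (σ ^ a)⁻¹ * (τ⁻¹ * σ * τ) ∈ actKer V := by
  obtain ⟨v₀, hv₀⟩ := exists_notMem hadm
  apply mem_actKer_of_fix hadm hv₀
  rw [mul_smul, conj_smul_eq hadm hσ τ v₀, ← ha, ← pow_smul_eq hadm hσ v₀ a, inv_smul_smul]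

/-- In the non-split case the kernel of the action has index `p` in the kernel of the cyclotomic
character. -/
theorem relIndex_actKer (hns : ∃ σ : GQ, chi p σ = 1 ∧ σ ∉ actKer V) :
    (actKer V).relIndex (chi p).ker = p := by
  obtain ⟨v₀, hv₀⟩ := exists_notMem hadm
  have hker : (bHom hadm v₀).ker = (actKer V).subgroupOf (chi p).ker := by
    ext σ
    rw [MonoidHom.mem_ker, bHom_eq_one_iff hadm hv₀, Subgroup.mem_subgroupOf]
  rw [Subgroup.relIndex, ← hker, Subgroup.index_ker]
  have hcard : Nat.card (Multiplicative C) = p := hadm.card_sub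
  have hdvd : Nat.card (bHom hadm v₀).range ∣ p := by
    have := Subgroup.card_subgroup_dvd_card (bHom hadm v₀).range
    rwa [hcard] at this
  rcases (Nat.dvd_prime Fact.out).mp hdvd with h1 | hp
  · exfalso
    obtain ⟨σ, hσ, hσn⟩ := hns
    apply hσn
    have hbot := Subgroup.card_eq_one.mp h1
    have hmem : bHom hadm v₀ ⟨σ, MonoidHom.mem_ker.mpr hσ⟩ ∈ (bHom hadm v₀).range := ⟨_, rfl⟩
    rw [hbot] at hmem
    exact (bHom_eq_one_iff hadm hv₀ _).mp (Subgroup.mem_bot.mp hmem)
  · exact hp

omit [Fact (Nat.Prime p)] hadm in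
/-- Packaging: a Kummer datum from fields with arbitrary `ℚ`-algebra instances. -/
theorem kummerDatum_of_inst (K M : Type) [Field K] [Field M] [instK : Algebra ℚ K]
    [instM : Algebra ℚ M] [Algebra K M] [FiniteDimensional ℚ K] [FiniteDimensional ℚ M]
    [IsGalois ℚ M] [IsCyclotomicExtension {p} ℚ K] (ζ : K) (hζ : IsPrimitiveRoot ζ p)
    (h1 : Module.finrank K M = p)
    (h2 : ∀ (τ : M ≃ₐ[ℚ] M) (g : M ≃ₐ[K] M) (a : ℕ),
      τ (algebraMap K M ζ) = algebraMap K M ζ ^ a → ∀ x : M, τ.symm (g (τ x)) = (g ^ a) x)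
    (h3 : ∀ P : Ideal (𝓞 M), P.IsPrime → P ≠ ⊥ → (p : 𝓞 M) ∉ P → ∀ τ : M ≃ₐ[ℚ] M,
      (∀ x : 𝓞 M, ∃ y ∈ P, (y : M) = τ (x : M) - (x : M)) → τ = 1)
    (h4 : ∃ P : Ideal (𝓞 M), P.IsPrime ∧ (p : 𝓞 M) ∈ P ∧ ∀ g : M ≃ₐ[K] M,
      (∀ x : 𝓞 M, x ∈ P → ∃ y ∈ P, (y : M) = g (x : M)) → g = 1) :
    KummerDatum p := by
  have hczK : CharZero K := charZero_of_injective_algebraMap (algebraMap ℚ K).injective
  have hczM : CharZero M := charZero_of_injective_algebraMap (algebraMap ℚ M).injective
  obtain rfl : instK = DivisionRing.toRatAlgebra := Subsingleton.elim _ _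
  obtain rfl : instM = DivisionRing.toRatAlgebra := Subsingleton.elim _ _
  have hK : NumberField K := { to_charZero := inferInstance, to_finiteDimensional := inferInstance }
  have hM : NumberField M := { to_charZero := inferInstance, to_finiteDimensional := inferInstance }
  exact ⟨K, M, inferInstance, inferInstance, hK, hM, inferInstance, inferInstance, inferInstance,
    ζ, hζ, h1, h2, h3, h4⟩

/-- **G1a, main step.**  A non-split admissible extension yields a Kummer datum, given the two
ramification statements of slice `GRam` at the level of the absolute Galois group. -/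
theorem kummerDatum_of_ram
    (hns : ∃ σ : GQ, cycloExp p σ = 1 ∧ ∃ v : V, σ • v ≠ v)
    (hunram : ∀ (P : Ideal (𝓞 (IntermediateField.fixedField (actKer V)))), P.IsPrime → P ≠ ⊥ →
      (p : 𝓞 (IntermediateField.fixedField (actKer V))) ∉ P → ∀ σ : GQ,
      (∀ x : 𝓞 (IntermediateField.fixedField (actKer V)), ∃ y ∈ P,
        ((y : IntermediateField.fixedField (actKer V)) : AlgebraicClosure ℚ) =
          σ ((x : IntermediateField.fixedField (actKer V)) : AlgebraicClosure ℚ) -
            ((x : IntermediateField.fixedField (actKer V)) : AlgebraicClosure ℚ)) →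
      σ ∈ actKer V)
    (hsplit : ∃ P : Ideal (𝓞 (IntermediateField.fixedField (actKer V))), P.IsPrime ∧
      (p : 𝓞 (IntermediateField.fixedField (actKer V))) ∈ P ∧
      ∀ σ : GQ, chi p σ = 1 →
        (∀ x : 𝓞 (IntermediateField.fixedField (actKer V)), x ∈ P → ∃ y ∈ P,
          ((y : IntermediateField.fixedField (actKer V)) : AlgebraicClosure ℚ) =
            σ ((x : IntermediateField.fixedField (actKer V)) : AlgebraicClosure ℚ)) →
        σ ∈ actKer V) :
    KummerDatum p := by
  have hacl : IsAlgClosure ℚ (AlgebraicClosure ℚ) := AlgebraicClosure.instIsAlgClosure ℚ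
  have hgalQ : IsGalois ℚ (AlgebraicClosure ℚ) := IsAlgClosure.isGalois ℚ _
  have hopen := isOpen_actKer hadm
  have hclosed : IsClosed ((actKer V : Subgroup GQ) : Set GQ) :=
    Subgroup.isClosed_of_isOpen _ hopen
  have hfix : (IntermediateField.fixedField (actKer V)).fixingSubgroup = actKer V :=
    InfiniteGalois.fixingSubgroup_fixedField ⟨actKer V, hclosed⟩
  have hfd : FiniteDimensional ℚ (IntermediateField.fixedField (actKer V)) :=
    (InfiniteGalois.isOpen_iff_finite _).mp (by rw [hfix]; exact hopen)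
  have hgal : IsGalois ℚ (IntermediateField.fixedField (actKer V)) :=
    (InfiniteGalois.normal_iff_isGalois _).mp (hfix ▸ inferInstance)
  have hns' : ∃ σ : GQ, chi p σ = 1 ∧ σ ∉ actKer V := by
    obtain ⟨σ, hσ, v, hv⟩ := hns
    exact ⟨σ, (cycloExp_eq_one_iff p σ).mp hσ, fun h => hv (h v)⟩
  have hp1 : 1 < p := (Fact.out : p.Prime).one_lt
  have : NeZero p := ⟨(Fact.out : p.Prime).ne_zero⟩
  -- the root of unity
  obtain ⟨ζ, hζ⟩ := HasEnoughRootsOfUnity.exists_primitiveRoot (AlgebraicClosure ℚ) p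
  have hζmem : ζ ∈ IntermediateField.fixedField (actKer V) := by
    rintro ⟨σ, hσ⟩
    show σ ζ = ζ
    rw [apply_root p σ hζ.pow_eq_one,
      (cycloExp_eq_one_iff p σ).mpr (chi_eq_one_of_mem_actKer hadm hσ), pow_one]
  let ζM : IntermediateField.fixedField (actKer V) := ⟨ζ, hζmem⟩
  have hζM : IsPrimitiveRoot ζM p := IsPrimitiveRoot.coe_submonoidClass_iff.mp hζ
  let K : IntermediateField ℚ (IntermediateField.fixedField (actKer V)) :=
    IntermediateField.adjoin ℚ {ζM}
  have hcyc : IsCyclotomicExtension {p} ℚ K :=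
    hζM.intermediateField_adjoin_isCyclotomicExtension ℚ
  let ζK : K := ⟨ζM, IntermediateField.mem_adjoin_simple_self ℚ ζM⟩
  have hζK : IsPrimitiveRoot ζK p := IsPrimitiveRoot.coe_submonoidClass_iff.mp hζM
  -- restriction to `M`
  let res : GQ →* (IntermediateField.fixedField (actKer V) ≃ₐ[ℚ]
      IntermediateField.fixedField (actKer V)) :=
    AlgEquiv.restrictNormalHom (IntermediateField.fixedField (actKer V))
  have hres_surj : Function.Surjective res := AlgEquiv.restrictNormalHom_surjective _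
  have hres_ker : res.ker = actKer V :=
    (IntermediateField.restrictNormalHom_ker _).trans hfix
  have hres_apply : ∀ (σ : GQ) (x : IntermediateField.fixedField (actKer V)),
      ((res σ x : IntermediateField.fixedField (actKer V)) : AlgebraicClosure ℚ) = σ x :=
    fun σ x => AlgEquiv.restrictNormal_commutes σ _ x
  have hfixζ : ∀ σ : GQ, res σ ζM = ζM ↔ chi p σ = 1 := by
    intro σ
    rw [← cycloExp_eq_one_iff, Subtype.ext_iff, hres_apply]
    show σ ζ = ζ ↔ _
    rw [apply_root p σ hζ.pow_eq_one]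
    constructor
    · intro h
      have hlt : cycloExp p σ < p := by
        rw [cycloExp_eq]; exact ZMod.val_lt _
      exact hζ.pow_inj hlt hp1 (by rw [h, pow_one])
    · intro h
      rw [h, pow_one]
  -- the degree
  have hfixK : K.fixingSubgroup = (chi p).ker.map res := by
    ext τ
    rw [Subgroup.mem_map]
    constructor
    · intro hτ
      obtain ⟨σ, rfl⟩ := hres_surj τ
      refine ⟨σ, MonoidHom.mem_ker.mpr ((hfixζ σ).mp ?_), rfl⟩
      exact (IntermediateField.mem_fixingSubgroup_iff K _).mp hτ ζM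
        (IntermediateField.mem_adjoin_simple_self ℚ ζM)
    · rintro ⟨σ, hσ, rfl⟩
      have h1 : res σ ζM = ζM := (hfixζ σ).mpr (MonoidHom.mem_ker.mp hσ)
      have hle : K ≤ IntermediateField.fixedField (MulAction.stabilizer
          (IntermediateField.fixedField (actKer V) ≃ₐ[ℚ]
            IntermediateField.fixedField (actKer V)) ζM) := by
        rw [IntermediateField.adjoin_le_iff]
        rintro x (rfl : x = ζM) ⟨g, hg⟩
        exact hg
      exact (IntermediateField.le_iff_le _ _).mp hle (MulAction.mem_stabilizer_iff.mpr h1)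
  have hfin : Module.finrank K (IntermediateField.fixedField (actKer V)) = p := by
    rw [← IsGalois.card_fixingSubgroup_eq_finrank K, hfixK, ← Subgroup.relIndex_ker, hres_ker]
    exact relIndex_actKer hadm hns'
  -- lifting elements of `Gal(M/K)`
  have hlift : ∀ g : IntermediateField.fixedField (actKer V) ≃ₐ[K]
      IntermediateField.fixedField (actKer V),
      ∃ g' : GQ, res g' = AlgEquiv.restrictScalarsHom ℚ g ∧ chi p g' = 1 := by
    intro g
    obtain ⟨g', hg'⟩ := hres_surj (AlgEquiv.restrictScalarsHom ℚ g)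
    refine ⟨g', hg', ?_⟩
    rw [← hfixζ, hg']
    exact g.commutes ζK
  -- the conjugation rule
  have hconj : ∀ (τ : IntermediateField.fixedField (actKer V) ≃ₐ[ℚ]
      IntermediateField.fixedField (actKer V))
      (g : IntermediateField.fixedField (actKer V) ≃ₐ[K]
        IntermediateField.fixedField (actKer V)) (a : ℕ),
      τ (algebraMap K (IntermediateField.fixedField (actKer V)) ζK) =
        algebraMap K (IntermediateField.fixedField (actKer V)) ζK ^ a →
      ∀ x : IntermediateField.fixedField (actKer V), τ.symm (g (τ x)) = (g ^ a) x := by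
    intro τ g a ha x
    obtain ⟨τ', rfl⟩ := hres_surj τ
    obtain ⟨g', hg', hg1⟩ := hlift g
    have ha' : (a : ZMod p) = ((chi p τ' : (ZMod p)ˣ) : ZMod p) := by
      have h1 : τ' ζ = ζ ^ a := by
        have h0 := congrArg (fun y : IntermediateField.fixedField (actKer V) =>
          (y : AlgebraicClosure ℚ)) ha
        have h2 : ((res τ' ζM : IntermediateField.fixedField (actKer V)) : AlgebraicClosure ℚ) =
            ((ζM ^ a : IntermediateField.fixedField (actKer V)) : AlgebraicClosure ℚ) := h0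
        rw [hres_apply] at h2
        exact h2
      rw [apply_root p τ' hζ.pow_eq_one,
        (hζ.isOfFinOrder (Fact.out : p.Prime).ne_zero).pow_eq_pow_iff_modEq, ← hζ.eq_orderOf] at h1
      rw [← natCast_cycloExp]
      exact ((ZMod.natCast_eq_natCast_iff _ _ _).mpr h1).symm
    have hmem := conj_mul_pow_mem hadm hg1 τ' a ha'
    rw [← hres_ker, MonoidHom.mem_ker, map_mul, map_inv, map_pow, map_mul, map_mul, map_inv, hg',
      inv_mul_eq_one, ← map_pow] at hmem
    have h3 := congrArg (fun f : IntermediateField.fixedField (actKer V) ≃ₐ[ℚ]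
      IntermediateField.fixedField (actKer V) => f x) hmem
    exact h3.symm
  -- unramified outside `p`
  have hun : ∀ P : Ideal (𝓞 (IntermediateField.fixedField (actKer V))), P.IsPrime → P ≠ ⊥ →
      (p : 𝓞 (IntermediateField.fixedField (actKer V))) ∉ P →
      ∀ τ : IntermediateField.fixedField (actKer V) ≃ₐ[ℚ] IntermediateField.fixedField (actKer V),
      (∀ x : 𝓞 (IntermediateField.fixedField (actKer V)), ∃ y ∈ P,
        (y : IntermediateField.fixedField (actKer V)) =
          τ (x : IntermediateField.fixedField (actKer V)) -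
            (x : IntermediateField.fixedField (actKer V))) → τ = 1 := by
    intro P hP hP0 hpP τ hτ
    obtain ⟨σ, rfl⟩ := hres_surj τ
    have hσ : σ ∈ actKer V := hunram P hP hP0 hpP σ (fun x => by
      obtain ⟨y, hy, hyx⟩ := hτ x
      refine ⟨y, hy, ?_⟩
      rw [hyx, ← hres_apply]
      rfl)
    rw [← hres_ker] at hσ
    exact MonoidHom.mem_ker.mp hσ
  -- split at `p`
  have hsp : ∃ P : Ideal (𝓞 (IntermediateField.fixedField (actKer V))), P.IsPrime ∧
      (p : 𝓞 (IntermediateField.fixedField (actKer V))) ∈ P ∧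
      ∀ g : IntermediateField.fixedField (actKer V) ≃ₐ[K] IntermediateField.fixedField (actKer V),
      (∀ x : 𝓞 (IntermediateField.fixedField (actKer V)), x ∈ P → ∃ y ∈ P,
        (y : IntermediateField.fixedField (actKer V)) =
          g (x : IntermediateField.fixedField (actKer V))) → g = 1 := by
    obtain ⟨P, hP, hpP, h⟩ := hsplit
    refine ⟨P, hP, hpP, fun g hg => ?_⟩
    obtain ⟨g', hg', hg1⟩ := hlift g
    have hmem : g' ∈ actKer V := h g' hg1 (fun x hx => by
      obtain ⟨y, hy, hyx⟩ := hg x hx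
      refine ⟨y, hy, ?_⟩
      rw [hyx, ← hres_apply, hg']
      rfl)
    rw [← hres_ker, MonoidHom.mem_ker, hg'] at hmem
    exact AlgEquiv.restrictScalarsHom_injective ℚ (by rw [hmem, map_one])
  exact kummerDatum_of_inst K (IntermediateField.fixedField (actKer V)) ζK hζK hfin hconj hun hsp

end Fermat.Agent.S14.GD
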