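import Fermat.Agent.S14.GIface

set_option autoImplicit false

open scoped NumberField nonZeroDivisors

namespace Fermat.Agent.S14.GK

open Module

variable (p : ℕ) [Fact p.Prime]
variable {K M : Type} [Field K] [Field M] [NumberField K] [NumberField M] [Algebra K M]
  [IsGalois ℚ M] [IsCyclotomicExtension {p} ℚ K] {ζ : K} (hζ : IsPrimitiveRoot ζ p)

include hζ in
/-- **Sub-slice GK1**: the Kummer generator of `M/K` together with its `ω²`-eigen property. -/
theorem exists_gen (h1 : Module.finrank K M = p)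
    (h2 : ∀ (τ : M ≃ₐ[ℚ] M) (g : M ≃ₐ[K] M) (a : ℕ),
      τ (algebraMap K M ζ) = algebraMap K M ζ ^ a → ∀ x : M, τ.symm (g (τ x)) = (g ^ a) x) :
    ∃ (α : K) (β : M), α ≠ 0 ∧ β ^ p = algebraMap K M α ∧ IsEigen p hζ α ∧
      ¬ ∃ γ : K, α = γ ^ p := by
  classical
  have hp : p.Prime := Fact.out
  haveI : IsGalois K M := IsGalois.tower_top_of_isGalois ℚ K M
  haveI : FiniteDimensional K M := FiniteDimensional.right ℚ K M
  have hcard : Nat.card (M ≃ₐ[K] M) = p := by
    rw [IsGalois.card_aut_eq_finrank, h1]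
  -- a non-trivial element
  obtain ⟨g, hg⟩ : ∃ g : M ≃ₐ[K] M, g ≠ 1 := by
    by_contra hcon
    push_neg at hcon
    have : Nat.card (M ≃ₐ[K] M) = 1 := by
      rw [Nat.card_eq_one_iff_unique]
      exact ⟨⟨fun a b => by rw [hcon a, hcon b]⟩, ⟨1⟩⟩
    rw [this] at hcard
    exact hp.one_lt.ne hcard
  have hord : orderOf g = p := by
    have hdvd : orderOf g ∣ p := hcard ▸ orderOf_dvd_natCard g
    rcases (Nat.dvd_prime hp).mp hdvd with h | h
    · exact absurd (orderOf_eq_one_iff.mp h) hg
    · exact h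
  -- eigenvector for the eigenvalue `ζ`
  have hroot : (minpoly K g.toLinearMap).IsRoot ζ := by
    rw [minpoly_algEquiv_toLinearMap g (isOfFinOrder_of_finite g), hord]
    simp [hζ.pow_eq_one]
  obtain ⟨β, hβ⟩ := (Module.End.hasEigenvalue_of_isRoot hroot).exists_hasEigenvector
  have hβ0 : β ≠ 0 := hβ.2
  have hgβ : g β = algebraMap K M ζ * β := by
    have := hβ.apply_eq_smul
    rw [AlgEquiv.toLinearMap_apply] at this
    rw [this, Algebra.smul_def]
  have hgpow : ∀ n : ℕ, (g ^ n) β = algebraMap K M ζ ^ n * β := by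
    intro n
    induction n with
    | zero => simp
    | succ n ih =>
      rw [pow_succ', AlgEquiv.mul_apply, ih, map_mul, map_pow, AlgEquiv.commutes, hgβ]
      ring
  have hζM : IsPrimitiveRoot (algebraMap K M ζ) p :=
    hζ.map_of_injective (algebraMap K M).injective
  -- membership in `K` from invariance under `g`
  have hfix : ∀ x : M, g x = x → x ∈ Set.range (algebraMap K M) := by
    intro x hx
    rw [IsGalois.mem_range_algebraMap_iff_fixed]
    intro f
    have hf : f ∈ Subgroup.zpowers g := mem_zpowers_of_prime_card hcard hg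
    obtain ⟨n, rfl⟩ := Subgroup.mem_zpowers_iff.mp hf
    have hn : ∀ n : ℕ, (g ^ n) x = x := by
      intro n
      induction n with
      | zero => simp
      | succ n ih => rw [pow_succ', AlgEquiv.mul_apply, ih, hx]
    rcases Int.eq_nat_or_neg n with ⟨k, rfl | rfl⟩
    · rw [zpow_natCast]; exact hn k
    · rw [zpow_neg, zpow_natCast]
      have := hn k
      calc (g ^ k)⁻¹ x = (g ^ k)⁻¹ ((g ^ k) x) := by rw [this]
        _ = x := by
          change (g ^ k).symm ((g ^ k) x) = x
          exact AlgEquiv.symm_apply_apply _ _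
  have hβp : g (β ^ p) = β ^ p := by
    rw [map_pow, hgβ, mul_pow, hζM.pow_eq_one, one_mul]
  obtain ⟨α, hα⟩ := hfix _ hβp
  have hα0 : α ≠ 0 := by
    rintro rfl
    rw [map_zero] at hα
    exact hβ0 (pow_eq_zero_iff hp.ne_zero |>.mp hα.symm)
  refine ⟨α, β, hα0, hα.symm, ?_, ?_⟩
  · -- eigen property
    intro σ a hσ
    let τ : M ≃ₐ[ℚ] M := AlgEquiv.liftNormal σ M
    have hτ : ∀ x : K, τ (algebraMap K M x) = algebraMap K M (σ x) :=
      fun x => AlgEquiv.liftNormal_commutes σ M x
    have hτζ : τ (algebraMap K M ζ) = algebraMap K M ζ ^ a := by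
      rw [hτ, hσ, map_pow]
    have hconj := h2 τ g a hτζ β
    rw [hgpow a] at hconj
    have hgτ : g (τ β) = algebraMap K M ζ ^ (a * a) * τ β := by
      have := congrArg τ hconj
      rw [AlgEquiv.apply_symm_apply, map_mul, map_pow, hτζ, ← pow_mul] at this
      exact this
    have hβpow0 : β ^ (a ^ 2) ≠ 0 := pow_ne_zero _ hβ0
    have hδ : g (τ β / β ^ (a ^ 2)) = τ β / β ^ (a ^ 2) := by
      have hz : algebraMap K M ζ ^ (a * a) ≠ 0 := pow_ne_zero _ (hζM.ne_zero hp.ne_zero)
      rw [map_div₀, map_pow, hgβ, hgτ, mul_pow, pow_two, mul_div_mul_left _ _ hz]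
    obtain ⟨γ, hγ⟩ := hfix _ hδ
    refine ⟨γ, ?_⟩
    apply (algebraMap K M).injective
    rw [← hτ, hα, map_pow, map_mul, map_pow, map_pow, hα, hγ, div_pow, ← pow_mul, ← pow_mul,
      mul_comm p (a ^ 2)]
    field_simp
  · -- not a `p`-th power
    rintro ⟨γ, rfl⟩
    have hγ0 : γ ≠ 0 := by
      rintro rfl
      exact hα0 (zero_pow hp.ne_zero)
    have hγM : algebraMap K M γ ≠ 0 := by
      simpa using hγ0
    haveI : NeZero p := ⟨hp.ne_zero⟩
    have hone : (β / algebraMap K M γ) ^ p = 1 := by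
      rw [div_pow, ← hα, map_pow]
      exact div_self (pow_ne_zero _ hγM)
    obtain ⟨i, -, hi⟩ := hζM.eq_pow_of_pow_eq_one hone
    have hβK : β = algebraMap K M (ζ ^ i * γ) := by
      rw [map_mul, map_pow, hi]
      field_simp
    have h3 : g β = β := by
      rw [hβK, AlgEquiv.commutes]
    rw [hgβ] at h3
    have h4 : algebraMap K M ζ = 1 := by
      have := mul_right_cancel₀ hβ0 (h3.trans (one_mul β).symm)
      exact this
    have h5 : ζ = 1 := by
      apply (algebraMap K M).injective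
      rw [h4, map_one]
    exact hζ.ne_one hp.one_lt h5

end Fermat.Agent.S14.GK
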