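import Fermat.Agent.S14.GIface

/-!
# S14, slice G1b: ramification lemmas for a Kummer datum (shared by GK2 / GK3)

* `GKR.ramificationIdx_eq_one_of_inertia`: trivial inertia group in `Gal(M/K)` at a prime `P` of
  `𝓞 M` gives `e(P | 𝓞 K) = 1`.
* `GKR.ramificationIdx_inertiaDeg_eq_one_of_stabilizer`: trivial decomposition group in `Gal(M/K)`
  at `P` gives `e(P | 𝓞 K) = 1` and `f(P | 𝓞 K) = 1`.
* `GKR.exists_unramified_above`: under conjuncts 3 and 4 of `KummerDatum`, every height-one prime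
  of `𝓞 K` has an unramified prime of `𝓞 M` above it.
* `GKR.valuation_eq_exp_neg_count`, `GKR.exists_pow_eq_spanSingleton`: a nonzero element of the
  fraction field of a Dedekind domain all of whose adic valuations are `n`-th powers spans the
  `n`-th power of a fractional ideal.
-/

set_option autoImplicit false

open scoped NumberField nonZeroDivisors Pointwise

namespace Fermat.Agent.S14.GKR

section General

open IsDedekindDomain in
/-- The adic valuation of a nonzero element is `exp (- count)` of the principal fractional ideal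
it spans. -/
theorem valuation_eq_exp_neg_count {R : Type*} [CommRing R] [IsDedekindDomain R] {F : Type*}
    [Field F] [Algebra R F] [IsFractionRing R F] (v : HeightOneSpectrum R) {x : F} (hx : x ≠ 0) :
    v.valuation F x =
      WithZero.exp (-(FractionalIdeal.count F v (FractionalIdeal.spanSingleton R⁰ x))) := by
  obtain ⟨a, b, hb, rfl⟩ := IsFractionRing.div_surjective (A := R) x
  have hb0 : b ≠ 0 := nonZeroDivisors.ne_zero hb
  have ha0 : a ≠ 0 := by
    rintro rfl
    simp at hx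
  have hsa : (Ideal.span {a} : Ideal R) ≠ 0 := by
    simpa [Ideal.zero_eq_bot, Ideal.span_singleton_eq_bot] using ha0
  have hsb : (Ideal.span {b} : Ideal R) ≠ 0 := by
    simpa [Ideal.zero_eq_bot, Ideal.span_singleton_eq_bot] using hb0
  have hA : ((Ideal.span {a} : Ideal R) : FractionalIdeal R⁰ F) ≠ 0 :=
    fun h => hsa (FractionalIdeal.coeIdeal_eq_zero.mp h)
  have hB : ((Ideal.span {b} : Ideal R) : FractionalIdeal R⁰ F) ≠ 0 :=
    fun h => hsb (FractionalIdeal.coeIdeal_eq_zero.mp h)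
  have e1 : FractionalIdeal.spanSingleton R⁰ (algebraMap R F a / algebraMap R F b) =
      ((Ideal.span {a} : Ideal R) : FractionalIdeal R⁰ F) *
        ((Ideal.span {b} : Ideal R) : FractionalIdeal R⁰ F)⁻¹ := by
    rw [FractionalIdeal.coeIdeal_span_singleton, FractionalIdeal.coeIdeal_span_singleton,
      FractionalIdeal.spanSingleton_inv, FractionalIdeal.spanSingleton_mul_spanSingleton,
      div_eq_mul_inv]
  rw [e1, FractionalIdeal.count_mul F v hA (inv_ne_zero hB), FractionalIdeal.count_inv,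
    FractionalIdeal.count_coe F v hsa, FractionalIdeal.count_coe F v hsb, map_div₀,
    HeightOneSpectrum.valuation_of_algebraMap, HeightOneSpectrum.valuation_of_algebraMap,
    v.intValuation_if_neg ha0, v.intValuation_if_neg hb0, ← WithZero.exp_sub]
  congr 1
  ring

open IsDedekindDomain in
/-- A nonzero element all of whose adic valuations are `n`-th powers spans the `n`-th power of a
fractional ideal. -/
theorem exists_pow_eq_spanSingleton {R : Type*} [CommRing R] [IsDedekindDomain R] {F : Type*}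
    [Field F] [Algebra R F] [IsFractionRing R F] (n : ℕ) (hn : n ≠ 0) {α : F} (hα : α ≠ 0)
    (h : ∀ v : HeightOneSpectrum R, ∃ t : WithZero (Multiplicative ℤ), v.valuation F α = t ^ n) :
    ∃ I : FractionalIdeal R⁰ F, FractionalIdeal.spanSingleton R⁰ α = I ^ n := by
  classical
  set J : FractionalIdeal R⁰ F := FractionalIdeal.spanSingleton R⁰ α with hJ
  have hJ0 : J ≠ 0 := by
    rw [hJ, Ne, FractionalIdeal.spanSingleton_eq_zero_iff]
    exact hα
  have hdvd : ∀ v : HeightOneSpectrum R, (n : ℤ) ∣ FractionalIdeal.count F v J := by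
    intro v
    obtain ⟨t, ht⟩ := h v
    have hv0 : v.valuation F α ≠ 0 := by simpa using hα
    have ht0 : t ≠ 0 := by
      rintro rfl
      rw [zero_pow hn] at ht
      exact hv0 ht
    rw [valuation_eq_exp_neg_count v hα, ← WithZero.exp_log ht0, ← WithZero.exp_nsmul] at ht
    have h2 := WithZero.exp_injective ht
    refine ⟨-(WithZero.log t), ?_⟩
    rw [hJ]
    have h3 : (n • WithZero.log t : ℤ) = n * WithZero.log t := by simp
    linarith
  refine ⟨∏ᶠ v : HeightOneSpectrum R,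
    (v.asIdeal : FractionalIdeal R⁰ F) ^ (FractionalIdeal.count F v J / (n : ℤ)), ?_⟩
  have hfin : Function.HasFiniteMulSupport (fun v : HeightOneSpectrum R =>
      (v.asIdeal : FractionalIdeal R⁰ F) ^ (FractionalIdeal.count F v J / (n : ℤ))) := by
    refine Set.Finite.subset (FractionalIdeal.finite_factors J) ?_
    intro v hv
    simp only [Function.mem_mulSupport] at hv
    simp only [Set.mem_compl_iff, Set.mem_ofPred_eq]
    intro h0
    apply hv
    rw [h0]
    simp
  rw [finprod_pow hfin]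
  conv_lhs => rw [← FractionalIdeal.finprod_heightOneSpectrum_factorization' F hJ0]
  refine finprod_congr (fun v => ?_)
  rw [← zpow_natCast, ← zpow_mul, Int.ediv_mul_cancel (hdvd v)]

/-- A prime of `𝓞 K` containing `p` lies over `(p)`. -/
theorem liesOver_span_of_mem (p : ℕ) [Fact p.Prime] {K : Type} [Field K] (P : Ideal (𝓞 K))
    [P.IsPrime] (h : (p : 𝓞 K) ∈ P) : P.LiesOver (Ideal.span {(p : ℤ)}) := by
  have hmax : (Ideal.span {(p : ℤ)}).IsMaximal :=
    PrincipalIdealRing.isMaximal_of_irreducible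
      (Nat.prime_iff_prime_int.mp (Fact.out : p.Prime)).irreducible
  refine ⟨?_⟩
  have hle : Ideal.span {(p : ℤ)} ≤ P.under ℤ := by
    rw [Ideal.span_le, Set.singleton_subset_iff]
    show algebraMap ℤ (𝓞 K) (p : ℤ) ∈ P
    simpa using h
  exact hmax.eq_of_le (Ideal.IsPrime.under ℤ P).ne_top hle

end General

/-- The action of `Gal(M/K)` on `𝓞 M` is the restriction of the action on `M`. -/
theorem coe_smul_int {K M : Type} [Field K] [Field M] [Algebra K M] (g : M ≃ₐ[K] M) (x : 𝓞 M) :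
    ((g • x : 𝓞 M) : M) = g (x : M) := rfl

variable {K M : Type} [Field K] [Field M] [NumberField K] [NumberField M] [Algebra K M]
  [IsGalois ℚ M]

/-- If the inertia group of `P` in `Gal(M/K)` is trivial then `P` is unramified over `𝓞 K`. -/
theorem ramificationIdx_eq_one_of_inertia
    (P : Ideal (𝓞 M)) [P.IsPrime]
    (h : ∀ g : M ≃ₐ[K] M, (∀ x : 𝓞 M, ∃ y ∈ P, (y : M) = g (x : M) - (x : M)) → g = 1) :
    P.ramificationIdx (𝓞 K) = 1 := by
  have : IsGalois K M := IsGalois.tower_top_of_isGalois ℚ K M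
  have hgg : IsGaloisGroup Gal(M/K) (𝓞 K) (𝓞 M) :=
    IsGaloisGroup.of_isFractionRing Gal(M/K) (𝓞 K) (𝓞 M) K M
  have hcard : Nat.card (P.inertia Gal(M/K)) = (P.under (𝓞 K)).ramificationIdxIn (𝓞 M) :=
    Ideal.card_inertia_eq_ramificationIdxIn (P.under (𝓞 K)) P
  rw [Ideal.ramificationIdxIn_eq_ramificationIdx (P.under (𝓞 K)) P Gal(M/K)] at hcard
  rw [← hcard]
  have hbot : P.inertia Gal(M/K) = ⊥ := by
    rw [eq_bot_iff]
    intro g hg
    rw [Subgroup.mem_bot]
    refine h g (fun x => ⟨g • x - x, hg x, ?_⟩)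
    simp [coe_smul_int]
  rw [hbot]
  simp

/-- If the decomposition group of `P` in `Gal(M/K)` is trivial then `P` is unramified of
residue degree one over `𝓞 K`. -/
theorem ramificationIdx_inertiaDeg_eq_one_of_stabilizer
    (P : Ideal (𝓞 M)) [P.IsPrime]
    (h : ∀ g : M ≃ₐ[K] M, (∀ x : 𝓞 M, x ∈ P → ∃ y ∈ P, (y : M) = g (x : M)) → g = 1) :
    P.ramificationIdx (𝓞 K) = 1 ∧ P.inertiaDeg (𝓞 K) = 1 := by
  have : IsGalois K M := IsGalois.tower_top_of_isGalois ℚ K M
  have hgg : IsGaloisGroup Gal(M/K) (𝓞 K) (𝓞 M) :=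
    IsGaloisGroup.of_isFractionRing Gal(M/K) (𝓞 K) (𝓞 M) K M
  have hcard := Ideal.card_stabilizer_eq (G := Gal(M/K)) (P.under (𝓞 K)) P
  rw [Ideal.ramificationIdxIn_eq_ramificationIdx (P.under (𝓞 K)) P Gal(M/K),
    Ideal.inertiaDegIn_eq_inertiaDeg (P.under (𝓞 K)) P Gal(M/K)] at hcard
  have hbot : MulAction.stabilizer Gal(M/K) P = ⊥ := by
    rw [eq_bot_iff]
    intro g hg
    rw [Subgroup.mem_bot]
    rw [MulAction.mem_stabilizer_iff] at hg
    refine h g (fun x hx => ⟨g • x, ?_, rfl⟩)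
    rw [← hg]
    exact Ideal.smul_mem_pointwise_smul g x P hx
  rw [hbot] at hcard
  simp only [Subgroup.card_bot] at hcard
  exact ⟨Nat.eq_one_of_mul_eq_one_right hcard.symm, Nat.eq_one_of_mul_eq_one_left hcard.symm⟩

variable (p : ℕ) [Fact p.Prime]

/-- Under conjuncts 3 (trivial inertia off `p`) and 4 (a prime above `p` with trivial
decomposition group over `K`) of `KummerDatum`, every height-one prime of `𝓞 K` has an unramified
prime of `𝓞 M` above it. -/
theorem exists_unramified_above [IsCyclotomicExtension {p} ℚ K]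
    (h3 : ∀ P : Ideal (𝓞 M), P.IsPrime → P ≠ ⊥ → (p : 𝓞 M) ∉ P → ∀ τ : M ≃ₐ[ℚ] M,
      (∀ x : 𝓞 M, ∃ y ∈ P, (y : M) = τ (x : M) - (x : M)) → τ = 1)
    (h4 : ∃ P : Ideal (𝓞 M), P.IsPrime ∧ (p : 𝓞 M) ∈ P ∧ ∀ g : M ≃ₐ[K] M,
      (∀ x : 𝓞 M, x ∈ P → ∃ y ∈ P, (y : M) = g (x : M)) → g = 1)
    (v : IsDedekindDomain.HeightOneSpectrum (𝓞 K)) :
    ∃ w : IsDedekindDomain.HeightOneSpectrum (𝓞 M), w.asIdeal.LiesOver v.asIdeal ∧
      w.asIdeal.ramificationIdx (𝓞 K) = 1 := by
  have hp0 : p ≠ 0 := (Fact.out : p.Prime).ne_zero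
  by_cases hpv : (p : 𝓞 K) ∈ v.asIdeal
  · obtain ⟨P, hP, hpP, hstab⟩ := h4
    have hP0 : P ≠ ⊥ := by
      rintro rfl
      have h0 : ((p : ℕ) : 𝓞 M) = 0 := by simpa using hpP
      exact hp0 (by exact_mod_cast h0)
    have hPu : (P.under (𝓞 K)).IsPrime := Ideal.IsPrime.under (𝓞 K) P
    have hpu : (p : 𝓞 K) ∈ P.under (𝓞 K) := by
      rw [Ideal.under_def, Ideal.mem_comap]
      simpa using hpP
    have hζ := IsCyclotomicExtension.zeta_spec p ℚ K
    have l1 := liesOver_span_of_mem p (P.under (𝓞 K)) hpu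
    have l2 := liesOver_span_of_mem p v.asIdeal hpv
    have e1 := IsCyclotomicExtension.Rat.eq_span_zeta_sub_one_of_liesOver' p K hζ (P.under (𝓞 K))
    have e2 := IsCyclotomicExtension.Rat.eq_span_zeta_sub_one_of_liesOver' p K hζ v.asIdeal
    refine ⟨⟨P, hP, hP0⟩, ⟨by rw [e2, ← e1]⟩, ?_⟩
    exact (ramificationIdx_inertiaDeg_eq_one_of_stabilizer P hstab).1
  · have hvmax : v.asIdeal.IsMaximal := v.isMaximal
    obtain ⟨Q, hQmax, hQlies⟩ :=
      Ideal.exists_maximal_ideal_liesOver_of_isIntegral (S := 𝓞 M) v.asIdeal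
    have hQ0 : Q ≠ ⊥ := Ideal.ne_bot_of_liesOver_of_ne_bot v.ne_bot Q
    have hpQ : (p : 𝓞 M) ∉ Q := by
      intro hmem
      apply hpv
      rw [hQlies.over, Ideal.under_def, Ideal.mem_comap]
      simpa using hmem
    have hQp : Q.IsPrime := hQmax.isPrime
    refine ⟨⟨Q, hQp, hQ0⟩, hQlies, ?_⟩
    refine ramificationIdx_eq_one_of_inertia Q (fun g hg => ?_)
    have h1 := h3 Q hQp hQ0 hpQ (g.restrictScalars ℚ) hg
    ext x
    have h2 := congrArg (fun τ : M ≃ₐ[ℚ] M => τ x) h1
    simpa using h2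

end Fermat.Agent.S14.GKR
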