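import Mathlib
import Fermat.Agent.S14.GAlg
import Fermat.Agent.S13.Mink

/-!
# S14, slice G1a (GRam): the ramification input of an admissible extension at finite level

Let `C ⊆ V` be an admissible extension, `N := GD.actKer V` the kernel of the Galois action and
`Mf := IntermediateField.fixedField N` the field cut out by `V`.

* `GR.unram`: an automorphism acting trivially on `𝓞 Mf` modulo a non-zero prime `P ∤ p` acts
  trivially on `V` (lift into an inertia group of `Gal(ℚ̄/ℚ)` modulo `N` by the frozen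
  `S13/Mink` lemmas, then `unramified_outside`).
* `GR.split`: there is a prime `P ∣ p` of `𝓞 Mf` such that every `σ` in the kernel of the
  cyclotomic character with `σ P ⊆ P` acts trivially on `V` (lift into a decomposition group
  modulo `N`, then `locally_split`: `σ` fixes `C` pointwise and `C'` pointwise).

The general lemmas (`unram_core`, `split_core`) are stated for an arbitrary algebraic closure `L`
of `ℚ` and a closed normal subgroup `H` of `Gal(L/ℚ)`.
-/

set_option autoImplicit false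

open scoped Pointwise NumberField

namespace Fermat.Agent.S14.GR

open ExtCitation Fermat.Agent.S54 Fermat.Agent.S13

section General

variable {L : Type*} [Field L] [Algebra ℚ L]

/-- Chevalley: a proper ideal of the ring of integers of an intermediate field is contained in
the maximal ideal of some valuation subring of the big field. -/
theorem exists_valuationSubring_of_ne_top (E : IntermediateField ℚ L) (P : Ideal (𝓞 E))
    (hP : P ≠ ⊤) : ∃ A : ValuationSubring L, ∀ y ∈ P, (((y : 𝓞 E) : E) : L) ∈ A.nonunits := by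
  let ι : 𝓞 E →+* L := (algebraMap E L).comp (algebraMap (𝓞 E) E)
  have hιinj : Function.Injective ι :=
    (algebraMap E L).injective.comp NumberField.RingOfIntegers.coe_injective
  have hsurj : Function.Surjective ι.rangeRestrict := ι.rangeRestrict_surjective
  have hI : P.map ι.rangeRestrict ≠ ⊤ := by
    intro htop
    have h1 : (1 : ι.range) ∈ P.map ι.rangeRestrict := htop ▸ Submodule.mem_top
    obtain ⟨y, hy, hy1⟩ := (Ideal.mem_map_iff_of_surjective ι.rangeRestrict hsurj).mp h1
    have h2 : ι y = ι 1 := by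
      have := congrArg Subtype.val hy1
      simpa using this
    rw [hιinj h2] at hy
    exact hP ((Ideal.eq_top_iff_one P).mpr hy)
  obtain ⟨A, -, hA⟩ := Ideal.image_subset_nonunits_valuationSubring _ hI
  refine ⟨A, fun y hy => ?_⟩
  exact hA ⟨ι.rangeRestrict y, Ideal.mem_map_of_mem _ hy, rfl⟩

/-- A non-zero prime of the ring of integers of an intermediate field contains a rational
prime. -/
theorem exists_prime_natCast_mem (E : IntermediateField ℚ L) (P : Ideal (𝓞 E)) (hP : P.IsPrime)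
    (hP0 : P ≠ ⊥) : ∃ ℓ : ℕ, ℓ.Prime ∧ (ℓ : 𝓞 E) ∈ P := by
  obtain ⟨x, hx, hx0⟩ := Submodule.exists_mem_ne_zero_of_ne_bot hP0
  have hxint : IsIntegral ℤ x := NumberField.RingOfIntegers.isIntegral x
  have h0 : P.comap (algebraMap ℤ (𝓞 E)) ≠ ⊥ := Ideal.comap_ne_bot_of_integral_mem hx0 hx hxint
  have hprime : (P.comap (algebraMap ℤ (𝓞 E))).IsPrime := Ideal.comap_isPrime _ _
  have hg := Submodule.IsPrincipal.prime_generator_of_isPrime (P.comap (algebraMap ℤ (𝓞 E))) h0
  have hgmem := Submodule.IsPrincipal.generator_mem (P.comap (algebraMap ℤ (𝓞 E)))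
  set g := Submodule.IsPrincipal.generator (P.comap (algebraMap ℤ (𝓞 E))) with hgdef
  refine ⟨g.natAbs, Int.prime_iff_natAbs_prime.mp hg, ?_⟩
  have h1 : ((g.natAbs : ℕ) : ℤ) ∈ P.comap (algebraMap ℤ (𝓞 E)) := by
    rcases Int.natAbs_eq g with h | h
    · rw [← h]; exact hgmem
    · have h3 : ((g.natAbs : ℕ) : ℤ) = -g := by omega
      rw [h3]
      exact (P.comap (algebraMap ℤ (𝓞 E))).neg_mem hgmem
  have h2 := Ideal.mem_comap.mp h1
  simpa using h2


variable [IsAlgClosure ℚ L]

/-- **Lifting decomposition, integral level.**  Let `H` be a closed normal subgroup of the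
absolute Galois group, `Q` a prime of the ring of all algebraic integers, and `g` an automorphism
which preserves membership in `Q` for `H`-invariant integers.  Then some `h * g` with `h ∈ H`
stabilises `Q`. -/
theorem exists_mul_smul_eq (H : Subgroup (L ≃ₐ[ℚ] L)) [H.Normal]
    (hH : IsClosed (H : Set (L ≃ₐ[ℚ] L))) (Q : Ideal (integralClosure ℤ L)) [Q.IsPrime]
    (g : L ≃ₐ[ℚ] L)
    (hg : ∀ x : integralClosure ℤ L, (∀ h : H, h • x = x) → (g • x ∈ Q ↔ x ∈ Q)) :
    ∃ h : L ≃ₐ[ℚ] L, h ∈ H ∧ (h * g) • Q = Q := by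
  have : IsGalois ℚ L := IsAlgClosure.isGalois ℚ L
  let _ : TopologicalSpace (integralClosure ℤ L) := ⊥
  have : DiscreteTopology (integralClosure ℤ L) := ⟨rfl⟩
  have : CompactSpace H := isCompact_iff_compactSpace.mp hH.isCompact
  have : ContinuousSMul H (integralClosure ℤ L) := by
    rw [continuousSMul_iff_stabilizer_isOpen]
    intro b
    have h1 := Mink.isOpen_stabilizer (L := L) b
    have h2 : ((MulAction.stabilizer H b : Subgroup H) : Set H) =
        (fun h : H => (h : L ≃ₐ[ℚ] L)) ⁻¹'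
          ((MulAction.stabilizer (L ≃ₐ[ℚ] L) b : Subgroup (L ≃ₐ[ℚ] L)) : Set (L ≃ₐ[ℚ] L)) := by
      ext h
      rfl
    rw [h2]
    exact h1.preimage continuous_subtype_val
  have hinv : Algebra.IsInvariant (FixedPoints.subalgebra ℤ (integralClosure ℤ L) H)
      (integralClosure ℤ L) H := ⟨fun b hb => ⟨⟨b, hb⟩, rfl⟩⟩
  have hfix : ∀ (k : L ≃ₐ[ℚ] L) (x : integralClosure ℤ L), (∀ h : H, h • x = x) →
      ∀ h : H, h • (k • x) = k • x := by
    intro k x hx h
    have h1 : k⁻¹ * (h : L ≃ₐ[ℚ] L) * k ∈ H := by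
      have := ‹H.Normal›.conj_mem _ h.2 k⁻¹
      simpa using this
    have h2 := hx ⟨_, h1⟩
    have h3 : (h : L ≃ₐ[ℚ] L) • (k • x) = k • ((k⁻¹ * (h : L ≃ₐ[ℚ] L) * k) • x) := by
      simp [mul_smul]
    show (h : L ≃ₐ[ℚ] L) • (k • x) = k • x
    rw [h3]
    exact congrArg (k • ·) h2
  have hunder : Ideal.under (FixedPoints.subalgebra ℤ (integralClosure ℤ L) H) (g • Q) =
      Ideal.under (FixedPoints.subalgebra ℤ (integralClosure ℤ L) H) Q := by
    ext x
    rw [Ideal.mem_comap, Ideal.mem_comap, Ideal.mem_pointwise_smul_iff_inv_smul_mem]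
    have hx' : ∀ h : H, h • (g⁻¹ • (x : integralClosure ℤ L)) = g⁻¹ • (x : integralClosure ℤ L) :=
      hfix g⁻¹ x x.2
    have h1 := hg _ hx'
    rw [smul_inv_smul] at h1
    exact h1.symm
  obtain ⟨h1, hh1⟩ := Algebra.IsInvariant.exists_smul_of_under_eq_of_profinite
    (A := FixedPoints.subalgebra ℤ (integralClosure ℤ L) H) (G := H) (g • Q) Q hunder
  refine ⟨h1, h1.2, ?_⟩
  rw [mul_smul]
  exact hh1.symm

/-- **From integers to the valuation ring, decomposition version.**  If `τ` preserves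
membership in the maximal ideal of `A` for integral elements, then `τ` lies in the decomposition
group of `A`. -/
theorem mem_decompositionSubgroup_of_forall_isIntegral (A : ValuationSubring L) {ℓ : ℕ}
    (hℓ : ℓ.Prime) (hA : A.LiesOverPrime ℓ) (τ : L ≃ₐ[ℚ] L)
    (key : ∀ b : L, IsIntegral ℤ b → (τ b ∈ A.nonunits ↔ b ∈ A.nonunits)) :
    τ ∈ A.decompositionSubgroup ℚ := by
  have hA' : (ℓ : L) ∈ A.nonunits := hA
  have : CharZero L := charZero_of_injective_algebraMap (algebraMap ℚ L).injective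
  have halg : Algebra.IsAlgebraic ℚ L := IsAlgClosure.isAlgebraic
  have aux : ∀ ρ : L ≃ₐ[ℚ] L,
      (∀ b : L, IsIntegral ℤ b → b ∉ A.nonunits → ρ b ∉ A.nonunits) → ∀ x ∈ A, ρ x ∈ A := by
    intro ρ hρ x hx
    have hxalg : IsAlgebraic ℤ x :=
      (IsFractionRing.isAlgebraic_iff ℤ ℚ L).mpr (Algebra.IsAlgebraic.isAlgebraic x)
    obtain ⟨b, hb, hbn, hbx⟩ := exists_integral_denominator A hℓ hA' hx hxalg
    have hρbn : ρ b ∉ A.nonunits := hρ b hb hbn
    have hρb0 : ρ b ≠ 0 := fun h => hρbn (h ▸ A.nonunits.zero_mem)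
    have hρbinv : (ρ b)⁻¹ ∈ A := inv_mem_of_notMem_nonunits A hρbn
    have hρa : ρ (b * x) ∈ A := mem_valuationSubring_of_isIntegral A (map_isIntegral_int ρ hbx)
    have hρx : ρ x = (ρ b)⁻¹ * ρ (b * x) := by
      rw [map_mul, ← mul_assoc, inv_mul_cancel₀ hρb0, one_mul]
    rw [hρx]
    exact A.mul_mem _ _ hρbinv hρa
  have h1 := aux τ (fun b hb hbn h => hbn ((key b hb).mp h))
  have h2 := aux τ⁻¹ (fun b hb hbn h => hbn (by
    have h3 := (key (τ⁻¹ b) (map_isIntegral_int τ⁻¹ hb)).mpr h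
    rwa [← AlgEquiv.mul_apply, mul_inv_cancel, AlgEquiv.one_apply] at h3))
  rw [ValuationSubring.decompositionSubgroup, MulAction.mem_stabilizer_iff]
  ext x
  rw [ValuationSubring.mem_pointwise_smul_iff_inv_smul_mem]
  constructor
  · intro h
    have := h1 _ h
    rwa [AlgEquiv.smul_def, ← AlgEquiv.mul_apply, mul_inv_cancel, AlgEquiv.one_apply] at this
  · intro hx
    exact h2 x hx


/-- **Unramified primes, integral core.**  Let `H` be a closed normal subgroup of the absolute
Galois group with fixed field `E`, `P` a non-zero prime of `𝓞 E` and `σ` an automorphism acting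
trivially on `𝓞 E` modulo `P`.  Then some `h * σ` with `h ∈ H` lies in the inertia group of a
valuation subring `A` whose residue characteristic `ℓ` lies in `P`. -/
theorem unram_core (H : Subgroup (L ≃ₐ[ℚ] L)) [H.Normal]
    (hH : IsClosed (H : Set (L ≃ₐ[ℚ] L)))
    (P : Ideal (𝓞 (IntermediateField.fixedField H))) (hP : P.IsPrime) (hP0 : P ≠ ⊥)
    (σ : L ≃ₐ[ℚ] L)
    (hσ : ∀ x : 𝓞 (IntermediateField.fixedField H), ∃ y ∈ P,
      ((y : IntermediateField.fixedField H) : L) =
        σ ((x : IntermediateField.fixedField H) : L) - ((x : IntermediateField.fixedField H) : L)) :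
    ∃ (ℓ : ℕ) (A : ValuationSubring L) (h : L ≃ₐ[ℚ] L), ℓ.Prime ∧
      (ℓ : 𝓞 (IntermediateField.fixedField H)) ∈ P ∧ A.LiesOverPrime ℓ ∧ h ∈ H ∧
        h * σ ∈ A.inertiaSubgroupIn ℚ := by
  obtain ⟨A, hAP⟩ := exists_valuationSubring_of_ne_top (IntermediateField.fixedField H) P hP.ne_top
  obtain ⟨ℓ, hℓ, hℓP⟩ := exists_prime_natCast_mem (IntermediateField.fixedField H) P hP hP0
  have hA : A.LiesOverPrime ℓ := by
    have := hAP _ hℓP
    show (ℓ : L) ∈ A.nonunits
    simpa using this
  let fB : integralClosure ℤ L →+* A :=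
    { toFun := fun b => ⟨b.1, mem_valuationSubring_of_isIntegral A b.2⟩
      map_one' := rfl
      map_mul' := fun _ _ => rfl
      map_zero' := rfl
      map_add' := fun _ _ => rfl }
  let Q : Ideal (integralClosure ℤ L) := (IsLocalRing.maximalIdeal A).comap fB
  have hQmem : ∀ b : integralClosure ℤ L, b ∈ Q ↔ (b : L) ∈ A.nonunits := fun b => by
    rw [show (b : L) = ((fB b : A) : L) from rfl, A.coe_mem_nonunits_iff]
    rfl
  have hQprime : Q.IsPrime := Ideal.comap_isPrime fB _
  have key : ∀ x : integralClosure ℤ L, (∀ h : H, h • x = x) → σ • x - x ∈ Q := by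
    intro x hx
    have hxK : (x : L) ∈ IntermediateField.fixedField H := by
      rw [IntermediateField.mem_fixedField_iff]
      intro f hf
      exact congrArg Subtype.val (hx ⟨f, hf⟩)
    have hxint : IsIntegral ℤ (⟨(x : L), hxK⟩ : IntermediateField.fixedField H) :=
      (isIntegral_algHom_iff (IsScalarTower.toAlgHom ℤ (IntermediateField.fixedField H) L)
        (algebraMap (IntermediateField.fixedField H) L).injective).mp x.2
    obtain ⟨y, hyP, hy⟩ := hσ ⟨⟨(x : L), hxK⟩, hxint⟩
    rw [hQmem]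
    show σ (x : L) - (x : L) ∈ A.nonunits
    have h2 := hAP y hyP
    rw [hy] at h2
    exact h2
  obtain ⟨h, hhN, hh⟩ := Mink.exists_mul_forall_sub_mem H hH Q σ key
  have hmem : h * σ ∈ A.inertiaSubgroupIn ℚ :=
    Mink.mem_inertiaSubgroupIn_of_forall_isIntegral A hℓ hA (h * σ)
      (fun b hb => (hQmem _).mp (hh ⟨b, hb⟩))
  exact ⟨ℓ, A, h, hℓ, hℓP, hA, hhN, hmem⟩

/-- **Decomposition groups, integral core.**  Let `H` be a closed normal subgroup of the
absolute Galois group with fixed field `E` and `A` a valuation subring of residue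
characteristic `ℓ`.  The prime `P := 𝔪_A ∩ 𝓞 E` has the property: if `σ` has finite order
modulo `H` and maps `P` into itself, then some `h * σ` with `h ∈ H` lies in the decomposition
group of `A`. -/
theorem split_core (H : Subgroup (L ≃ₐ[ℚ] L)) [H.Normal]
    (hH : IsClosed (H : Set (L ≃ₐ[ℚ] L))) (A : ValuationSubring L) {ℓ : ℕ} (hℓ : ℓ.Prime)
    (hA : A.LiesOverPrime ℓ) :
    ∃ P : Ideal (𝓞 (IntermediateField.fixedField H)), P.IsPrime ∧
      (ℓ : 𝓞 (IntermediateField.fixedField H)) ∈ P ∧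
      ∀ σ : L ≃ₐ[ℚ] L, (∃ k : ℕ, 0 < k ∧ σ ^ k ∈ H) →
        (∀ x : 𝓞 (IntermediateField.fixedField H), x ∈ P → ∃ y ∈ P,
          ((y : IntermediateField.fixedField H) : L) =
            σ ((x : IntermediateField.fixedField H) : L)) →
        ∃ h : L ≃ₐ[ℚ] L, h ∈ H ∧ h * σ ∈ A.decompositionSubgroup ℚ := by
  have hA' : (ℓ : L) ∈ A.nonunits := hA
  have hint : ∀ x : 𝓞 (IntermediateField.fixedField H),
      IsIntegral ℤ (((x : IntermediateField.fixedField H) : L)) := fun x =>
    (NumberField.RingOfIntegers.isIntegral_coe x).map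
      (IsScalarTower.toAlgHom ℤ (IntermediateField.fixedField H) L)
  let f : 𝓞 (IntermediateField.fixedField H) →+* A :=
    { toFun := fun x => ⟨((x : IntermediateField.fixedField H) : L),
        mem_valuationSubring_of_isIntegral A (hint x)⟩
      map_one' := by ext; simp
      map_mul' := fun _ _ => by ext; simp
      map_zero' := by ext; simp
      map_add' := fun _ _ => by ext; simp }
  let P : Ideal (𝓞 (IntermediateField.fixedField H)) := (IsLocalRing.maximalIdeal A).comap f
  have hPmem : ∀ x : 𝓞 (IntermediateField.fixedField H),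
      x ∈ P ↔ (((x : IntermediateField.fixedField H) : L)) ∈ A.nonunits := fun x => by
    rw [show (((x : IntermediateField.fixedField H) : L)) = ((f x : A) : L) from rfl,
      A.coe_mem_nonunits_iff]
    rfl
  have hPprime : P.IsPrime := Ideal.comap_isPrime f _
  have hℓP : ((ℓ : ℕ) : 𝓞 (IntermediateField.fixedField H)) ∈ P := by
    rw [hPmem]
    simpa using hA'
  refine ⟨P, hPprime, hℓP, ?_⟩
  rintro σ ⟨k, hk, hσk⟩ hσP
  -- invariance of `H`-fixed elements under any automorphism
  have hfixL : ∀ (ρ : L ≃ₐ[ℚ] L) (x : L), (∀ h ∈ H, h x = x) → ∀ h ∈ H, h (ρ x) = ρ x := by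
    intro ρ x hx h hh
    have h1 : ρ⁻¹ * h * ρ ∈ H := by
      have := ‹H.Normal›.conj_mem _ hh ρ⁻¹
      simpa using this
    have h2 := hx _ h1
    have h3 : h (ρ x) = ρ ((ρ⁻¹ * h * ρ) x) := by
      simp only [AlgEquiv.mul_apply]
      rw [← AlgEquiv.mul_apply ρ ρ⁻¹, mul_inv_cancel, AlgEquiv.one_apply]
    rw [h3, h2]
  -- `σ` maps invariant integral nonunits to nonunits
  have hS1 : ∀ x : L, IsIntegral ℤ x → (∀ h ∈ H, h x = x) → x ∈ A.nonunits →
      σ x ∈ A.nonunits := by
    intro x hxi hx hxn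
    have hxK : x ∈ IntermediateField.fixedField H := by
      rw [IntermediateField.mem_fixedField_iff]
      exact hx
    have hxint : IsIntegral ℤ (⟨x, hxK⟩ : IntermediateField.fixedField H) :=
      (isIntegral_algHom_iff (IsScalarTower.toAlgHom ℤ (IntermediateField.fixedField H) L)
        (algebraMap (IntermediateField.fixedField H) L).injective).mp hxi
    obtain ⟨y, hyP, hy⟩ := hσP ⟨⟨x, hxK⟩, hxint⟩ ((hPmem _).mpr hxn)
    have h2 := (hPmem y).mp hyP
    rw [hy] at h2
    exact h2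
  have hS2 : ∀ (j : ℕ) (x : L), IsIntegral ℤ x → (∀ h ∈ H, h x = x) → x ∈ A.nonunits →
      (σ ^ j) x ∈ A.nonunits := by
    intro j
    induction j with
    | zero => intro x _ _ hxn; simpa using hxn
    | succ j ih =>
      intro x hxi hx hxn
      rw [pow_succ', AlgEquiv.mul_apply]
      exact hS1 _ (map_isIntegral_int (σ ^ j) hxi) (hfixL (σ ^ j) x hx) (ih x hxi hx hxn)
  have hS3 : ∀ x : L, IsIntegral ℤ x → (∀ h ∈ H, h x = x) → x ∈ A.nonunits →
      σ⁻¹ x ∈ A.nonunits := by
    intro x hxi hx hxn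
    obtain ⟨j, rfl⟩ := Nat.exists_eq_succ_of_ne_zero hk.ne'
    have h1 : σ⁻¹ x = (σ ^ j) x := by
      have h2 : (σ ^ (j + 1)) x = x := hx _ hσk
      rw [pow_succ', AlgEquiv.mul_apply] at h2
      have h3 : σ⁻¹ (σ ((σ ^ j) x)) = σ⁻¹ x := congrArg (fun z => σ⁻¹ z) h2
      rw [← AlgEquiv.mul_apply σ⁻¹ σ, inv_mul_cancel, AlgEquiv.one_apply] at h3
      exact h3.symm
    rw [h1]
    exact hS2 j x hxi hx hxn
  let fB : integralClosure ℤ L →+* A :=
    { toFun := fun b => ⟨b.1, mem_valuationSubring_of_isIntegral A b.2⟩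
      map_one' := rfl
      map_mul' := fun _ _ => rfl
      map_zero' := rfl
      map_add' := fun _ _ => rfl }
  let Q : Ideal (integralClosure ℤ L) := (IsLocalRing.maximalIdeal A).comap fB
  have hQmem : ∀ b : integralClosure ℤ L, b ∈ Q ↔ (b : L) ∈ A.nonunits := fun b => by
    rw [show (b : L) = ((fB b : A) : L) from rfl, A.coe_mem_nonunits_iff]
    rfl
  have hQprime : Q.IsPrime := Ideal.comap_isPrime fB _
  have key : ∀ x : integralClosure ℤ L, (∀ h : H, h • x = x) → (σ • x ∈ Q ↔ x ∈ Q) := by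
    intro x hx
    have hx' : ∀ h ∈ H, h (x : L) = (x : L) := fun h hh => congrArg Subtype.val (hx ⟨h, hh⟩)
    rw [hQmem, hQmem]
    show σ (x : L) ∈ A.nonunits ↔ (x : L) ∈ A.nonunits
    constructor
    · intro h
      have := hS3 _ (map_isIntegral_int σ x.2) (hfixL σ _ hx') h
      rwa [← AlgEquiv.mul_apply, inv_mul_cancel, AlgEquiv.one_apply] at this
    · exact hS1 _ x.2 hx'
  obtain ⟨h, hhH, hh⟩ := exists_mul_smul_eq H hH Q σ key
  refine ⟨h, hhH, mem_decompositionSubgroup_of_forall_isIntegral A hℓ hA (h * σ) fun b hb => ?_⟩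
  have h1 : (h * σ) • (⟨b, hb⟩ : integralClosure ℤ L) ∈ (h * σ) • Q ↔
      (⟨b, hb⟩ : integralClosure ℤ L) ∈ Q := Ideal.smul_mem_pointwise_smul_iff
  rw [hh, hQmem, hQmem] at h1
  exact h1

end General

section Main

variable {p : ℕ} [Fact p.Prime] {V : Type} [AddCommGroup V] [Module (ZMod p) V]
  [DistribMulAction GQ V] [SMulCommClass GQ (ZMod p) V] {C : Submodule (ZMod p) V}

local notation3 "Mf" =>
  (IntermediateField.fixedField (GD.actKer V) : IntermediateField ℚ (AlgebraicClosure ℚ))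

/-- **Unramified outside `p`, finite level.**  If `σ` acts trivially modulo a prime `P ∤ p` of
the ring of integers of the field cut out by `V`, then `σ` acts trivially on `V`. -/
theorem unram (hadm : IsAdmissibleExtensionCts p V C) (P : Ideal (𝓞 Mf)) (hP : P.IsPrime)
    (hP0 : P ≠ ⊥) (hp : (p : 𝓞 Mf) ∉ P) (σ : GQ)
    (hσ : ∀ x : 𝓞 Mf, ∃ y ∈ P,
      ((y : Mf) : AlgebraicClosure ℚ) =
        σ ((x : Mf) : AlgebraicClosure ℚ) - ((x : Mf) : AlgebraicClosure ℚ)) :
    σ ∈ GD.actKer V := by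
  have : IsAlgClosure ℚ (AlgebraicClosure ℚ) := AlgebraicClosure.instIsAlgClosure ℚ
  have hclosed : IsClosed ((GD.actKer V : Subgroup GQ) : Set GQ) :=
    Subgroup.isClosed_of_isOpen _ (GD.isOpen_actKer hadm)
  obtain ⟨ℓ, A, h, hℓ, hℓP, hA, hhN, hmem⟩ := unram_core (GD.actKer V) hclosed P hP hP0 σ hσ
  have hℓp : ℓ ≠ p := by
    rintro rfl
    exact hp hℓP
  have h1 : h * σ ∈ GD.actKer V := fun v =>
    hadm.unramified_outside ℓ hℓ hℓp A hA (h * σ) hmem v
  have h2 := (GD.actKer V).mul_mem ((GD.actKer V).inv_mem hhN) h1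
  simpa using h2

/-- **Split at `p`, finite level.**  There is a prime `P ∣ p` of the ring of integers of the
field cut out by `V` such that every `σ` in the kernel of the cyclotomic character which maps
`P` into itself acts trivially on `V`. -/
theorem split (hadm : IsAdmissibleExtensionCts p V C) :
    ∃ P : Ideal (𝓞 Mf), P.IsPrime ∧ (p : 𝓞 Mf) ∈ P ∧ ∀ σ : GQ, GD.chi p σ = 1 →
      (∀ x : 𝓞 Mf, x ∈ P → ∃ y ∈ P,
        ((y : Mf) : AlgebraicClosure ℚ) = σ ((x : Mf) : AlgebraicClosure ℚ)) →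
      σ ∈ GD.actKer V := by
  have : IsAlgClosure ℚ (AlgebraicClosure ℚ) := AlgebraicClosure.instIsAlgClosure ℚ
  have hpp : p.Prime := Fact.out
  have hclosed : IsClosed ((GD.actKer V : Subgroup GQ) : Set GQ) :=
    Subgroup.isClosed_of_isOpen _ (GD.isOpen_actKer hadm)
  obtain ⟨A, hA⟩ := exists_liesOverPrime (AlgebraicClosure ℚ) hpp
  obtain ⟨P, hPprime, hpP, hP⟩ := split_core (GD.actKer V) hclosed A hpp hA
  refine ⟨P, hPprime, hpP, fun σ hσχ hσP => ?_⟩
  -- `σ` has finite order on the finite set `V`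
  have hfin : Finite V := Nat.finite_of_card_ne_zero (by
    rw [hadm.card_total]
    exact pow_ne_zero 2 hpp.ne_zero)
  have hk : ∃ k : ℕ, 0 < k ∧ σ ^ k ∈ GD.actKer V := by
    have hord := isOfFinOrder_of_finite (MulAction.toPermHom GQ V σ)
    refine ⟨orderOf (MulAction.toPermHom GQ V σ), hord.orderOf_pos, fun v => ?_⟩
    have h1 : (MulAction.toPermHom GQ V σ) ^ orderOf (MulAction.toPermHom GQ V σ) = 1 :=
      pow_orderOf_eq_one _
    rw [← map_pow] at h1
    have h2 := DFunLike.congr_fun h1 v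
    simpa using h2
  obtain ⟨h, hhN, hτ⟩ := hP σ hk hσP
  obtain ⟨C', hC'stab, hC'⟩ := hadm.locally_split A hA
  have hτχ : GD.chi p (h * σ) = 1 := by
    rw [map_mul, hσχ, GD.chi_eq_one_of_mem_actKer hadm hhN, one_mul]
  have h1 : h * σ ∈ GD.actKer V := by
    intro v
    obtain ⟨c, hc, c', hc', rfl⟩ : ∃ c ∈ C, ∃ c' ∈ C', c + c' = v := by
      have hv : v ∈ C ⊔ C' := by
        rw [hC'.sup_eq_top]
        exact Submodule.mem_top
      exact Submodule.mem_sup.mp hv
    have e1 : (h * σ) • c = c := hadm.fixed_sub _ _ hc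
    have e2 : (h * σ) • c' - c' ∈ C := GD.smul_sub_mem hadm hτχ c'
    have e3 : (h * σ) • c' - c' ∈ C' := C'.sub_mem (hC'stab _ hτ _ hc') hc'
    have e4 : (h * σ) • c' - c' = 0 := by
      have := Submodule.mem_inf.mpr ⟨e2, e3⟩
      rw [hC'.inf_eq_bot] at this
      exact (Submodule.mem_bot _).mp this
    rw [smul_add, e1, sub_eq_zero.mp e4]
  have h2 := (GD.actKer V).mul_mem ((GD.actKer V).inv_mem hhN) h1
  simpa using h2

end Main

end Fermat.Agent.S14.GR
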