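/-
S14, slice G1a, sub-slice GRam (second seat on `GR.split`): the decomposition group at a prime
above `p` of the fixed field `Mf` of the kernel of the action is trivial over `ℚ(ζ_p)`.

For an admissible extension `C ⊆ V` with open kernel `H = GD.actKer V`, there is a prime `P` of
`𝓞 Mf` above `p` such that every `σ` with `χ(σ) = 1` mapping `P` into itself acts trivially on
`V`.  (Lift `σ` modulo `H` into the decomposition group of a valuation subring `A` above `p`
with the profinite transitivity lemma; there `σ` fixes `C` and the locally split complement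
pointwise.)
-/
import Mathlib
import Fermat.Agent.S14.GAlg
import Fermat.Agent.S13.Mink

set_option autoImplicit false

open scoped Pointwise NumberField

namespace Fermat.Agent.S14.GRS

open Fermat.Agent.S54 Fermat.Agent.S13 ExtCitation

section Core

variable {L : Type*} [Field L] [Algebra ℚ L] [IsAlgClosure ℚ L]

/-- **From integers to the valuation ring, decomposition form.**  If `σ` preserves the set of
integral elements lying in the maximal ideal of `A` (in both directions), then `σ` lies in the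
decomposition group of `A`. -/
theorem mem_decompositionSubgroup_of_forall_isIntegral (A : ValuationSubring L) {ℓ : ℕ}
    (hℓ : ℓ.Prime) (hA : A.LiesOverPrime ℓ) (σ : L ≃ₐ[ℚ] L)
    (key : ∀ b : L, IsIntegral ℤ b → (σ b ∈ A.nonunits ↔ b ∈ A.nonunits)) :
    σ ∈ A.decompositionSubgroup ℚ := by
  have hA' : (ℓ : L) ∈ A.nonunits := hA
  have : CharZero L := charZero_of_injective_algebraMap (algebraMap ℚ L).injective
  have halg : Algebra.IsAlgebraic ℚ L := IsAlgClosure.isAlgebraic
  -- a general statement for any `τ` preserving non-membership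
  have gen : ∀ τ : L ≃ₐ[ℚ] L, (∀ b : L, IsIntegral ℤ b → b ∉ A.nonunits → τ b ∉ A.nonunits) →
      ∀ x ∈ A, τ x ∈ A := by
    intro τ hτ x hx
    have hxalg : IsAlgebraic ℤ x :=
      (IsFractionRing.isAlgebraic_iff ℤ ℚ L).mpr (Algebra.IsAlgebraic.isAlgebraic x)
    obtain ⟨b, hb, hbn, hbx⟩ := exists_integral_denominator A hℓ hA' hx hxalg
    have hτbn : τ b ∉ A.nonunits := hτ b hb hbn
    have hτb0 : τ b ≠ 0 := fun h => hτbn (h ▸ A.nonunits.zero_mem)
    have hτbinv : (τ b)⁻¹ ∈ A := inv_mem_of_notMem_nonunits A hτbn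
    have hτbx : τ (b * x) ∈ A :=
      mem_valuationSubring_of_isIntegral A (map_isIntegral_int (τ : L →+* L) hbx)
    have hτx : τ x = (τ b)⁻¹ * τ (b * x) := by
      rw [map_mul, ← mul_assoc, inv_mul_cancel₀ hτb0, one_mul]
    exact hτx ▸ A.mul_mem _ _ hτbinv hτbx
  have keyA : ∀ x ∈ A, σ x ∈ A := gen σ (fun b hb hbn h => hbn ((key b hb).mp h))
  have keyA' : ∀ x ∈ A, σ⁻¹ x ∈ A := by
    refine gen σ⁻¹ (fun b hb hbn h => hbn ?_)
    have hint : IsIntegral ℤ (σ⁻¹ b) := map_isIntegral_int ((σ⁻¹ : L ≃ₐ[ℚ] L) : L →+* L) hb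
    have := (key (σ⁻¹ b) hint).mpr h
    rwa [← AlgEquiv.mul_apply, mul_inv_cancel, AlgEquiv.one_apply] at this
  rw [MulAction.mem_stabilizer_iff]
  ext x
  rw [ValuationSubring.mem_pointwise_smul_iff_inv_smul_mem]
  constructor
  · intro h
    have := keyA _ h
    rwa [AlgEquiv.smul_def, ← AlgEquiv.mul_apply, mul_inv_cancel, AlgEquiv.one_apply] at this
  · intro hx
    exact keyA' x hx

end Core

section Core2

variable {L : Type*} [Field L] [Algebra ℚ L] [IsAlgClosure ℚ L]

/-- **Lifting the decomposition group, integral level.**  Let `H` be a closed normal subgroup of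
the absolute Galois group, `Q` a prime of the ring of all algebraic integers, and `g` an
automorphism which preserves membership in `Q` of the `H`-invariant integers.  Then some `h * g`
with `h ∈ H` stabilizes `Q`. -/
theorem exists_mul_smul_eq (H : Subgroup (L ≃ₐ[ℚ] L)) [H.Normal]
    (hH : IsClosed (H : Set (L ≃ₐ[ℚ] L))) (Q : Ideal (integralClosure ℤ L)) [Q.IsPrime]
    (g : L ≃ₐ[ℚ] L)
    (hg : ∀ x : integralClosure ℤ L, (∀ h : H, h • x = x) → (g • x ∈ Q ↔ x ∈ Q)) :
    ∃ h : L ≃ₐ[ℚ] L, h ∈ H ∧ (h * g) • Q = Q := by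
  have : IsGalois ℚ L := IsAlgClosure.isGalois ℚ L
  let _ : TopologicalSpace (integralClosure ℤ L) := ⊥
  have : DiscreteTopology (integralClosure ℤ L) := ⟨rfl⟩
  have : CompactSpace H := isCompact_iff_compactSpace.mp hH.isCompact
  have : ContinuousSMul H (integralClosure ℤ L) := by
    rw [continuousSMul_iff_stabilizer_isOpen]
    intro b
    have h1 := Mink.isOpen_stabilizer (L := L) b
    have h2 : ((MulAction.stabilizer H b : Subgroup H) : Set H) =
        (fun h : H => (h : L ≃ₐ[ℚ] L)) ⁻¹'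
          ((MulAction.stabilizer (L ≃ₐ[ℚ] L) b : Subgroup (L ≃ₐ[ℚ] L)) : Set (L ≃ₐ[ℚ] L)) := by
      ext h
      rfl
    rw [h2]
    exact h1.preimage continuous_subtype_val
  have hinv : Algebra.IsInvariant (FixedPoints.subalgebra ℤ (integralClosure ℤ L) H)
      (integralClosure ℤ L) H := ⟨fun b hb => ⟨⟨b, hb⟩, rfl⟩⟩
  -- `H`-invariant integers are preserved by every automorphism
  have hfix : ∀ (k : L ≃ₐ[ℚ] L) (x : integralClosure ℤ L), (∀ h : H, h • x = x) →
      ∀ h : H, h • (k • x) = k • x := by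
    intro k x hx h
    have h1 : k⁻¹ * (h : L ≃ₐ[ℚ] L) * k ∈ H := by
      have := ‹H.Normal›.conj_mem _ h.2 k⁻¹
      simpa using this
    have h2 := hx ⟨_, h1⟩
    have h3 : (h : L ≃ₐ[ℚ] L) • (k • x) = k • ((k⁻¹ * (h : L ≃ₐ[ℚ] L) * k) • x) := by
      simp [mul_smul]
    show (h : L ≃ₐ[ℚ] L) • (k • x) = k • x
    rw [h3]
    exact congrArg (k • ·) h2
  have hunder : Ideal.under (FixedPoints.subalgebra ℤ (integralClosure ℤ L) H) (g • Q) =
      Ideal.under (FixedPoints.subalgebra ℤ (integralClosure ℤ L) H) Q := by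
    ext x
    rw [Ideal.mem_comap, Ideal.mem_comap, Ideal.mem_pointwise_smul_iff_inv_smul_mem]
    have hx' : ∀ h : H, h • (g⁻¹ • (x : integralClosure ℤ L)) = g⁻¹ • (x : integralClosure ℤ L) :=
      hfix g⁻¹ x x.2
    have h1 := hg _ hx'
    rw [smul_inv_smul] at h1
    exact h1.symm
  obtain ⟨h1, hh1⟩ := Algebra.IsInvariant.exists_smul_of_under_eq_of_profinite
    (A := FixedPoints.subalgebra ℤ (integralClosure ℤ L) H) (G := H) (g • Q) Q hunder
  refine ⟨(h1 : L ≃ₐ[ℚ] L), h1.2, ?_⟩
  rw [mul_smul]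
  exact hh1.symm

end Core2

section Main

variable {p : ℕ} [Fact p.Prime] {V : Type} [AddCommGroup V] [Module (ZMod p) V]
  [DistribMulAction GQ V] [SMulCommClass GQ (ZMod p) V] {C : Submodule (ZMod p) V}

/-- **GR.split** (literal text of board message #726). -/
theorem split (hadm : IsAdmissibleExtensionCts p V C) :
    ∃ P : Ideal (𝓞 (IntermediateField.fixedField (GD.actKer V))), P.IsPrime ∧
      (p : 𝓞 (IntermediateField.fixedField (GD.actKer V))) ∈ P ∧
      ∀ σ : GQ, GD.chi p σ = 1 →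
        (∀ x : 𝓞 (IntermediateField.fixedField (GD.actKer V)), x ∈ P → ∃ y ∈ P,
          ((y : IntermediateField.fixedField (GD.actKer V)) : AlgebraicClosure ℚ) =
            σ ((x : IntermediateField.fixedField (GD.actKer V)) : AlgebraicClosure ℚ)) →
        σ ∈ GD.actKer V := by
  have hp : p.Prime := Fact.out
  have : IsAlgClosure ℚ (AlgebraicClosure ℚ) := AlgebraicClosure.instIsAlgClosure ℚ
  have : IsGalois ℚ (AlgebraicClosure ℚ) := IsAlgClosure.isGalois ℚ (AlgebraicClosure ℚ)
  set H : Subgroup GQ := GD.actKer V with hHdef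
  have hopen : IsOpen (H : Set GQ) := GD.isOpen_actKer hadm
  have hclosed : IsClosed (H : Set GQ) := Subgroup.isClosed_of_isOpen H hopen
  have hnormal : H.Normal := GD.actKer_normal V
  set K : IntermediateField ℚ (AlgebraicClosure ℚ) := IntermediateField.fixedField H with hKdef
  obtain ⟨A, hA⟩ := exists_liesOverPrime (AlgebraicClosure ℚ) hp
  have hA' : (p : AlgebraicClosure ℚ) ∈ A.nonunits := hA
  -- the prime of `𝓞 K` below `A`
  have hint : ∀ x : 𝓞 K, IsIntegral ℤ (((x : K) : AlgebraicClosure ℚ)) := fun x =>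
    (NumberField.RingOfIntegers.isIntegral_coe x).map
      (IsScalarTower.toAlgHom ℤ K (AlgebraicClosure ℚ))
  let f : 𝓞 K →+* A :=
    { toFun := fun x => ⟨((x : K) : AlgebraicClosure ℚ),
        mem_valuationSubring_of_isIntegral A (hint x)⟩
      map_one' := by ext; simp
      map_mul' := fun _ _ => by ext; simp
      map_zero' := by ext; simp
      map_add' := fun _ _ => by ext; simp }
  let P : Ideal (𝓞 K) := (IsLocalRing.maximalIdeal A).comap f
  have hPmem : ∀ x : 𝓞 K, x ∈ P ↔ (((x : K) : AlgebraicClosure ℚ)) ∈ A.nonunits := fun x => by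
    rw [show (((x : K) : AlgebraicClosure ℚ)) = ((f x : A) : AlgebraicClosure ℚ) from rfl,
      A.coe_mem_nonunits_iff]
    rfl
  have hPprime : P.IsPrime := Ideal.comap_isPrime f _
  have hpP : ((p : ℕ) : 𝓞 K) ∈ P := by
    rw [hPmem]
    simpa using hA'
  refine ⟨P, hPprime, hpP, fun σ hχ hσ => ?_⟩
  -- the prime of the ring of all algebraic integers below `A`
  let fB : integralClosure ℤ (AlgebraicClosure ℚ) →+* A :=
    { toFun := fun b => ⟨b.1, mem_valuationSubring_of_isIntegral A b.2⟩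
      map_one' := rfl
      map_mul' := fun _ _ => rfl
      map_zero' := rfl
      map_add' := fun _ _ => rfl }
  let Q : Ideal (integralClosure ℤ (AlgebraicClosure ℚ)) := (IsLocalRing.maximalIdeal A).comap fB
  have hQmem : ∀ b : integralClosure ℤ (AlgebraicClosure ℚ),
      b ∈ Q ↔ (b : AlgebraicClosure ℚ) ∈ A.nonunits := fun b => by
    rw [show (b : AlgebraicClosure ℚ) = ((fB b : A) : AlgebraicClosure ℚ) from rfl,
      A.coe_mem_nonunits_iff]
    rfl
  have hQprime : Q.IsPrime := Ideal.comap_isPrime fB _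
  -- `H`-invariant integers are preserved by every automorphism
  have hfix : ∀ (k : GQ) (x : integralClosure ℤ (AlgebraicClosure ℚ)), (∀ h : H, h • x = x) →
      ∀ h : H, h • (k • x) = k • x := by
    intro k x hx h
    have h1 : k⁻¹ * (h : GQ) * k ∈ H := by
      have := hnormal.conj_mem _ h.2 k⁻¹
      simpa using this
    have h2 := hx ⟨_, h1⟩
    have h3 : (h : GQ) • (k • x) = k • ((k⁻¹ * (h : GQ) * k) • x) := by
      simp [mul_smul]
    show (h : GQ) • (k • x) = k • x
    rw [h3]
    exact congrArg (k • ·) h2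
  -- forward direction: `σ` maps `H`-invariant integers of `Q` into `Q`
  have hfwd : ∀ x : integralClosure ℤ (AlgebraicClosure ℚ), (∀ h : H, h • x = x) →
      x ∈ Q → σ • x ∈ Q := by
    intro x hx hxQ
    have hxK : (x : AlgebraicClosure ℚ) ∈ K := fun h => congrArg Subtype.val (hx h)
    have hxint : IsIntegral ℤ (⟨(x : AlgebraicClosure ℚ), hxK⟩ : K) := by
      have := x.2
      exact (isIntegral_algHom_iff (IsScalarTower.toAlgHom ℤ K (AlgebraicClosure ℚ))
        (algebraMap K (AlgebraicClosure ℚ)).injective).mp this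
    obtain ⟨y, hyP, hy⟩ := hσ ⟨⟨(x : AlgebraicClosure ℚ), hxK⟩, hxint⟩
      ((hPmem ⟨⟨(x : AlgebraicClosure ℚ), hxK⟩, hxint⟩).mpr ((hQmem x).mp hxQ))
    rw [hQmem]
    have h2 := (hPmem y).mp hyP
    rw [hy] at h2
    exact h2
  have hpow : ∀ (k : ℕ) (x : integralClosure ℤ (AlgebraicClosure ℚ)), (∀ h : H, h • x = x) →
      x ∈ Q → (σ ^ k) • x ∈ Q := by
    intro k
    induction k with
    | zero => intro x _ hxQ; simpa using hxQ
    | succ k ih =>
      intro x hx hxQ
      rw [pow_succ, mul_smul]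
      exact ih (σ • x) (hfix σ x hx) (hfwd x hx hxQ)
  -- finite index
  have hfin : Finite (GQ ⧸ H) := Subgroup.quotient_finite_of_isOpen H hopen
  have hfi : H.FiniteIndex := Subgroup.finiteIndex_of_finite_quotient
  have hn0 : H.index ≠ 0 := Subgroup.FiniteIndex.index_ne_zero
  have hσn : σ ^ H.index ∈ H := Subgroup.pow_index_mem H σ
  have key : ∀ x : integralClosure ℤ (AlgebraicClosure ℚ), (∀ h : H, h • x = x) →
      (σ • x ∈ Q ↔ x ∈ Q) := by
    intro x hx
    refine ⟨fun hσx => ?_, hfwd x hx⟩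
    obtain ⟨m, hm⟩ := Nat.exists_eq_add_one_of_ne_zero hn0
    have h1 := hpow m (σ • x) (hfix σ x hx) hσx
    rw [← mul_smul, ← pow_succ, ← hm] at h1
    have h2 : (σ ^ H.index) • x = x := hx ⟨_, hσn⟩
    rwa [h2] at h1
  obtain ⟨h, hhH, hstab⟩ := @exists_mul_smul_eq _ _ _ _ H hnormal hclosed Q hQprime σ key
  -- `g = h * σ` lies in the decomposition group of `A`
  have hgdec : h * σ ∈ A.decompositionSubgroup ℚ := by
    refine mem_decompositionSubgroup_of_forall_isIntegral A hp hA (h * σ) (fun b hb => ?_)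
    have e1 : (h * σ) b ∈ A.nonunits ↔
        (h * σ) • (⟨b, hb⟩ : integralClosure ℤ (AlgebraicClosure ℚ)) ∈ Q := by
      rw [hQmem]; rfl
    rw [e1, ← hQmem ⟨b, hb⟩]
    conv_lhs => rw [← hstab]
    exact Ideal.smul_mem_pointwise_smul_iff
  have hχg : GD.chi p (h * σ) = 1 := by
    rw [map_mul, GD.chi_eq_one_of_mem_actKer hadm hhH, hχ, one_mul]
  obtain ⟨C', hC'stab, hcompl⟩ := hadm.locally_split A hA
  have hgact : h * σ ∈ GD.actKer V := by
    intro v
    have hv : v ∈ C ⊔ C' := by rw [hcompl.sup_eq_top]; exact Submodule.mem_top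
    obtain ⟨c, hc, c', hc', rfl⟩ := Submodule.mem_sup.mp hv
    have h1 : (h * σ) • c = c := hadm.fixed_sub _ c hc
    have h2 : (h * σ) • c' - c' ∈ C := GD.smul_sub_mem hadm hχg c'
    have h3 : (h * σ) • c' - c' ∈ C' := C'.sub_mem (hC'stab _ hgdec c' hc') hc'
    have h4 : (h * σ) • c' - c' = 0 := Submodule.disjoint_def.mp hcompl.disjoint _ h2 h3
    rw [smul_add, h1, sub_eq_zero.mp h4]
  have : σ = h⁻¹ * (h * σ) := by group
  rw [this]
  exact H.mul_mem (H.inv_mem hhH) hgact

end Main

end Fermat.Agent.S14.GRS
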