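import Mathlib

/-!
# Slice A3 of S14, part 1: a quantitative lattice point count (measure free)

`CoverDim S d`: for every `N ≥ 1` the set `S` is covered by `≤ C N^d` closed balls of radius
`ρ / N`.  If the frontier of a bounded set `S ⊆ ℝ^ι` satisfies `CoverDim (frontier S) (n - 1)` and
the number `f t` of integer points of `t • S` satisfies `f t / t ^ n → κ`, then
`|f t - κ t ^ n| ≤ M t ^ (n - 1)`.
-/

set_option autoImplicit false

open Metric Set Filter Topology Bornology
open scoped Pointwise NNReal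

namespace Fermat.Agent.S14.LC

/-- `S` can be covered, for every `N ≥ 1`, by `≤ C N^d` closed balls of radius `ρ / N`. -/
def CoverDim {X : Type*} [PseudoMetricSpace X] (S : Set X) (d : ℕ) : Prop :=
  ∃ C ρ : ℝ, ∀ N : ℕ, 0 < N → ∃ J : Finset X, (J.card : ℝ) ≤ C * (N : ℝ) ^ d ∧
    S ⊆ ⋃ c ∈ J, closedBall c (ρ / N)

theorem CoverDim.mono {X : Type*} [PseudoMetricSpace X] {S T : Set X} {d : ℕ}
    (hT : CoverDim T d) (h : S ⊆ T) : CoverDim S d := by
  obtain ⟨C, ρ, H⟩ := hT
  exact ⟨C, ρ, fun N hN => let ⟨J, h1, h2⟩ := H N hN; ⟨J, h1, h.trans h2⟩⟩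

theorem CoverDim.iUnion {X : Type*} [PseudoMetricSpace X] {ι : Type*} [Finite ι]
    {S : ι → Set X} {d : ℕ} (h : ∀ i, CoverDim (S i) d) : CoverDim (⋃ i, S i) d := by
  classical
  cases nonempty_fintype ι
  choose C ρ H using h
  refine ⟨∑ i, C i, ∑ i, |ρ i|, fun N hN => ?_⟩
  choose J h1 h2 using fun i => H i N hN
  refine ⟨Finset.univ.biUnion J, ?_, ?_⟩
  · calc ((Finset.univ.biUnion J).card : ℝ) ≤ ∑ i, ((J i).card : ℝ) := by
          exact_mod_cast Finset.card_biUnion_le
      _ ≤ ∑ i, C i * (N : ℝ) ^ d := Finset.sum_le_sum fun i _ => h1 i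
      _ = (∑ i, C i) * (N : ℝ) ^ d := by rw [Finset.sum_mul]
  · intro x hx
    obtain ⟨i, hi⟩ := mem_iUnion.1 hx
    have := h2 i hi
    simp only [mem_iUnion, exists_prop] at this ⊢
    obtain ⟨c, hc, hxc⟩ := this
    refine ⟨c, Finset.mem_biUnion.2 ⟨i, Finset.mem_univ _, hc⟩, ?_⟩
    refine closedBall_subset_closedBall ?_ hxc
    have hN' : (0 : ℝ) < N := by exact_mod_cast hN
    apply div_le_div_of_nonneg_right _ hN'.le
    calc ρ i ≤ |ρ i| := le_abs_self _
      _ ≤ ∑ j, |ρ j| :=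
        Finset.single_le_sum (f := fun j => |ρ j|) (fun j _ => abs_nonneg _) (Finset.mem_univ i)

theorem CoverDim.image {X Y : Type*} [PseudoMetricSpace X] [PseudoMetricSpace Y] {S : Set X}
    {d : ℕ} {f : X → Y} {K : ℝ≥0} (hf : LipschitzOnWith K f S) (hS : CoverDim S d) :
    CoverDim (f '' S) d := by
  classical
  obtain ⟨C, ρ, H⟩ := hS
  refine ⟨C, 2 * K * ρ, fun N hN => ?_⟩
  obtain ⟨J, h1, h2⟩ := H N hN
  let g : X → X := fun c => if h : (closedBall c (ρ / N) ∩ S).Nonempty then h.some else c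
  refine ⟨J.image (fun c => f (g c)), ?_, ?_⟩
  · exact le_trans (by exact_mod_cast Finset.card_image_le) h1
  · rintro _ ⟨x, hx, rfl⟩
    have := h2 hx
    simp only [mem_iUnion, exists_prop] at this ⊢
    obtain ⟨c, hc, hxc⟩ := this
    have hne : (closedBall c (ρ / N) ∩ S).Nonempty := ⟨x, hxc, hx⟩
    refine ⟨f (g c), Finset.mem_image.2 ⟨c, hc, rfl⟩, ?_⟩
    have hg : g c = hne.some := dif_pos hne
    have hgs : g c ∈ closedBall c (ρ / N) ∩ S := hg ▸ hne.some_mem
    rw [mem_closedBall]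
    calc dist (f x) (f (g c)) ≤ K * dist x (g c) := hf.dist_le_mul x hx (g c) hgs.2
      _ ≤ K * (ρ / N + ρ / N) := by
          gcongr
          calc dist x (g c) ≤ dist x c + dist c (g c) := dist_triangle _ _ _
            _ ≤ ρ / N + ρ / N :=
              add_le_add (mem_closedBall.1 hxc)
                (by rw [dist_comm]; exact mem_closedBall.1 hgs.1)
      _ = 2 * K * ρ / N := by ring

/-- A face of the unit cube of `ℝ^κ` has covering dimension `≤ card κ - 1`. -/
theorem coverDim_face {κ : Type*} [Fintype κ] (j : κ) (b : ℝ) :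
    CoverDim {p : κ → ℝ | (∀ i, p i ∈ Icc (0 : ℝ) 1) ∧ p j = b} (Fintype.card κ - 1) := by
  classical
  refine ⟨2 ^ (Fintype.card κ - 1), 1, fun N hN => ?_⟩
  have hN' : (0 : ℝ) < N := by exact_mod_cast hN
  let c : ({i // i ≠ j} → Fin (N + 1)) → (κ → ℝ) := fun a i =>
    if h : i = j then b else ((a ⟨i, h⟩ : ℕ) : ℝ) / N
  refine ⟨Finset.univ.image c, ?_, ?_⟩
  · have h1 : ((Finset.univ.image c).card : ℝ) ≤ ((N + 1 : ℕ) : ℝ) ^ (Fintype.card κ - 1) := by
      have : (Finset.univ.image c).card ≤ (N + 1) ^ (Fintype.card κ - 1) := by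
        refine Finset.card_image_le.trans ?_
        rw [Finset.card_univ, Fintype.card_fun, Fintype.card_fin, Fintype.card_subtype_compl,
          Fintype.card_subtype_eq]
      exact_mod_cast this
    refine h1.trans ?_
    rw [← mul_pow]
    apply pow_le_pow_left₀ (by positivity)
    push_cast
    have : (1 : ℝ) ≤ N := by exact_mod_cast hN
    linarith
  · rintro p ⟨hp, hpj⟩
    simp only [mem_iUnion, exists_prop]
    have hfl : ∀ i, ⌊(N : ℝ) * p i⌋₊ < N + 1 := by
      intro i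
      have : ⌊(N : ℝ) * p i⌋₊ ≤ N := by
        apply Nat.floor_le_of_le
        calc (N : ℝ) * p i ≤ N * 1 := by gcongr; exact (hp i).2
          _ = N := mul_one _
      omega
    let a : {i // i ≠ j} → Fin (N + 1) := fun i => ⟨⌊(N : ℝ) * p i.1⌋₊, hfl i.1⟩
    refine ⟨c a, Finset.mem_image.2 ⟨a, Finset.mem_univ _, rfl⟩, ?_⟩
    rw [mem_closedBall, dist_pi_le_iff (by positivity)]
    intro i
    by_cases h : i = j
    · simp only [c, h, dif_pos, hpj, dist_self]
      positivity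
    · simp only [c, a, h, dif_neg, not_false_eq_true]
      rw [Real.dist_eq]
      have h0 : 0 ≤ (N : ℝ) * p i := mul_nonneg hN'.le (hp i).1
      have hfl1 := Nat.floor_le h0
      have hlt := Nat.lt_floor_add_one ((N : ℝ) * p i)
      have e : p i - (⌊(N : ℝ) * p i⌋₊ : ℝ) / N = ((N : ℝ) * p i - ⌊(N : ℝ) * p i⌋₊) / N := by
        field_simp
      rw [e, abs_div, abs_of_pos hN']
      apply div_le_div_of_nonneg_right _ hN'.le
      rw [abs_le]
      constructor <;> linarith

theorem segment_inter_frontier {E : Type*} [NormedAddCommGroup E] [NormedSpace ℝ E] (A : Set E)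
    {x y : E} (hx : x ∈ A) (hy : y ∉ A) : ∃ w ∈ segment ℝ x y, w ∈ frontier A := by
  by_contra hcon
  simp only [not_exists, not_and] at hcon
  have hsub : segment ℝ x y ⊆ interior A ∪ (closure A)ᶜ := by
    intro w hw
    by_cases hwc : w ∈ closure A
    · left
      by_contra hwi
      exact hcon w hw ⟨hwc, hwi⟩
    · right
      exact hwc
  rcases (convex_segment x y).isPreconnected.subset_or_subset isOpen_interior
    isClosed_closure.isOpen_compl
    (Set.disjoint_left.mpr fun w hw hw' => hw' (interior_subset_closure hw)) hsub with h1 | h1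
  · exact hy (interior_subset (h1 (right_mem_segment ℝ x y)))
  · exact h1 (left_mem_segment ℝ x y) (subset_closure hx)

theorem ncard_biUnion_le {α β : Type*} (J : Finset α) (f : α → Set β) (M : ℕ)
    (h : ∀ c ∈ J, (f c).ncard ≤ M) : (⋃ c ∈ J, f c).ncard ≤ J.card * M := by
  classical
  induction J using Finset.induction_on with
  | empty => simp
  | insert a s ha ih =>
    rw [Finset.set_biUnion_insert, Finset.card_insert_of_notMem ha]
    calc (f a ∪ ⋃ x ∈ s, f x).ncard ≤ (f a).ncard + (⋃ x ∈ s, f x).ncard :=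
          Set.ncard_union_le _ _
      _ ≤ M + s.card * M :=
          add_le_add (h a (Finset.mem_insert_self _ _))
            (ih fun c hc => h c (Finset.mem_insert_of_mem hc))
      _ = (s.card + 1) * M := by ring

section Count

variable {ι : Type*} [Fintype ι]

/-- The integer points `z` with `t⁻¹ • (z + v) ∈ S`. -/
def pts (S : Set (ι → ℝ)) (v : ι → ℝ) (t : ℝ) : Set (ι → ℤ) :=
  {z | (fun i => t⁻¹ * ((z i : ℝ) + v i)) ∈ S}

theorem finite_box (y : ι → ℝ) (R : ℝ) : {z : ι → ℤ | ∀ i, |(z i : ℝ) - y i| ≤ R}.Finite := by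
  classical
  refine Set.Finite.subset (Set.finite_Icc (fun i : ι => ⌊y i - R⌋) (fun i => ⌈y i + R⌉)) ?_
  intro z hz
  rw [Set.mem_Icc, Pi.le_def, Pi.le_def]
  refine ⟨fun i => ?_, fun i => ?_⟩
  · have h1 := (abs_le.1 (hz i)).1
    have h2 : ((⌊y i - R⌋ : ℤ) : ℝ) ≤ z i := by linarith [Int.floor_le (y i - R)]
    exact_mod_cast h2
  · have h1 := (abs_le.1 (hz i)).2
    have h2 : (z i : ℝ) ≤ (⌈y i + R⌉ : ℤ) := by linarith [Int.le_ceil (y i + R)]
    exact_mod_cast h2

theorem finite_pts {S : Set (ι → ℝ)} (hS : IsBounded S) (v : ι → ℝ) {t : ℝ} (ht : 0 < t) :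
    (pts S v t).Finite := by
  obtain ⟨C, hC⟩ := isBounded_iff_forall_norm_le.1 hS
  refine Set.Finite.subset (finite_box (fun i => -v i) (t * C)) ?_
  intro z hz i
  have h1 : ‖(fun i => t⁻¹ * ((z i : ℝ) + v i)) i‖ ≤ C := (norm_le_pi_norm _ i).trans (hC _ hz)
  rw [Real.norm_eq_abs, abs_mul, abs_of_pos (inv_pos.2 ht), inv_mul_le_iff₀ ht] at h1
  simpa using h1

theorem exists_ncard_box_le (ι : Type*) [Fintype ι] (R : ℝ) : ∃ M : ℕ, ∀ y : ι → ℝ,
    {z : ι → ℤ | ∀ i, |(z i : ℝ) - y i| ≤ R}.ncard ≤ M := by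
  classical
  have hfin : {z : ι → ℤ | ∀ i, |(z i : ℝ) - (0 : ι → ℝ) i| ≤ 2 * R}.Finite := finite_box 0 (2 * R)
  refine ⟨{z : ι → ℤ | ∀ i, |(z i : ℝ) - (0 : ι → ℝ) i| ≤ 2 * R}.ncard, fun y => ?_⟩
  rcases Set.eq_empty_or_nonempty {z : ι → ℤ | ∀ i, |(z i : ℝ) - y i| ≤ R} with h | ⟨z₀, hz₀⟩
  · rw [h]
    simp
  · refine Set.ncard_le_ncard_of_injOn (fun z => z - z₀) ?_ ?_ hfin
    · intro z hz i
      simp only [Pi.sub_apply, Int.cast_sub, Pi.zero_apply, sub_zero]
      have h1 := abs_le.1 (hz i)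
      have h2 := abs_le.1 (hz₀ i)
      rw [abs_le]
      constructor <;> linarith
    · intro a _ b _ hab
      simpa using hab

theorem shift_le {S : Set (ι → ℝ)} (hS : IsBounded S)
    (hfr : CoverDim (frontier S) (Fintype.card ι - 1)) :
    ∃ B : ℝ, 0 ≤ B ∧ ∀ t : ℝ, 1 ≤ t → ∀ v : ι → ℝ, (∀ i, |v i| ≤ 1) →
      |((pts S v t).ncard : ℝ) - (pts S 0 t).ncard| ≤ B * t ^ (Fintype.card ι - 1) := by
  classical
  obtain ⟨C, ρ, H⟩ := hfr
  obtain ⟨M, hM⟩ := exists_ncard_box_le ι (1 + |ρ|)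
  refine ⟨|C| * 2 ^ (Fintype.card ι - 1) * M, by positivity, fun t ht v hv => ?_⟩
  have ht0 : 0 < t := by linarith
  set N : ℕ := ⌈t⌉₊ with hN
  have hNpos : 0 < N := Nat.ceil_pos.2 ht0
  have htN : t ≤ N := Nat.le_ceil t
  have hN2 : (N : ℝ) ≤ 2 * t := by
    have := Nat.ceil_lt_add_one ht0.le
    linarith
  obtain ⟨J, hJ1, hJ2⟩ := H N hNpos
  set W : Set (ι → ℤ) := ⋃ c ∈ J, {z : ι → ℤ | ∀ i, |(z i : ℝ) - t * c i| ≤ 1 + |ρ|} with hW
  have hWcard : (W.ncard : ℝ) ≤
      |C| * 2 ^ (Fintype.card ι - 1) * M * t ^ (Fintype.card ι - 1) := by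
    have h1 : W.ncard ≤ J.card * M := ncard_biUnion_le J _ M fun c _ => hM _
    calc (W.ncard : ℝ) ≤ (J.card : ℝ) * M := by exact_mod_cast h1
      _ ≤ (C * (N : ℝ) ^ (Fintype.card ι - 1)) * M := by gcongr
      _ ≤ (|C| * (2 * t) ^ (Fintype.card ι - 1)) * M := by
          gcongr
          exact le_abs_self C
      _ = _ := by rw [mul_pow]; ring
  have hWfin : W.Finite := Set.Finite.biUnion J.finite_toSet fun c _ => finite_box _ _
  have key : ∀ z : ι → ℤ, (z ∈ pts S v t ∧ z ∉ pts S 0 t) ∨ (z ∈ pts S 0 t ∧ z ∉ pts S v t) →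
      z ∈ W := by
    intro z hz
    set x₀ : ι → ℝ := fun i => t⁻¹ * ((z i : ℝ) + (0 : ι → ℝ) i) with hx₀
    set x₁ : ι → ℝ := fun i => t⁻¹ * ((z i : ℝ) + v i) with hx₁
    have hdist : dist x₀ x₁ ≤ t⁻¹ := by
      rw [dist_pi_le_iff (inv_nonneg.2 ht0.le)]
      intro i
      rw [Real.dist_eq]
      have : x₀ i - x₁ i = -(t⁻¹ * v i) := by
        simp only [hx₀, hx₁, Pi.zero_apply]
        ring
      rw [this, abs_neg, abs_mul, abs_of_pos (inv_pos.2 ht0)]
      calc t⁻¹ * |v i| ≤ t⁻¹ * 1 := by gcongr; exact hv i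
        _ = t⁻¹ := mul_one _
    obtain ⟨y, hyseg, hyfr⟩ : ∃ y ∈ segment ℝ x₀ x₁, y ∈ frontier S := by
      rcases hz with ⟨h1, h0⟩ | ⟨h0, h1⟩
      · have := segment_inter_frontier S (x := x₁) (y := x₀) h1 h0
        rwa [segment_symm] at this
      · exact segment_inter_frontier S h0 h1
    have hy0 : dist x₀ y ≤ t⁻¹ := by
      have := dist_add_dist_of_mem_segment hyseg
      linarith [dist_nonneg (x := y) (y := x₁)]
    have := hJ2 hyfr
    simp only [mem_iUnion, exists_prop] at this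
    obtain ⟨c, hc, hyc⟩ := this
    rw [hW]
    simp only [mem_iUnion, exists_prop]
    refine ⟨c, hc, fun i => ?_⟩
    have h1 : |x₀ i - y i| ≤ t⁻¹ := by
      rw [← Real.dist_eq]
      exact (dist_le_pi_dist x₀ y i).trans hy0
    have h2 : |y i - c i| ≤ |ρ| / t := by
      rw [← Real.dist_eq]
      refine (dist_le_pi_dist y c i).trans ((mem_closedBall.1 hyc).trans ?_)
      calc ρ / N ≤ |ρ| / N := by gcongr; exact le_abs_self ρ
        _ ≤ |ρ| / t := by gcongr
    have h3 : (z i : ℝ) - t * c i = t * ((x₀ i - y i) + (y i - c i)) := by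
      simp only [hx₀, Pi.zero_apply, add_zero]
      field_simp
      ring
    rw [h3, abs_mul, abs_of_pos ht0]
    calc t * |x₀ i - y i + (y i - c i)| ≤ t * (t⁻¹ + |ρ| / t) := by
          gcongr
          exact (abs_add_le _ _).trans (add_le_add h1 h2)
      _ = 1 + |ρ| := by field_simp
  have hA : (pts S v t).ncard ≤ (pts S 0 t).ncard + W.ncard := by
    refine (Set.ncard_le_ncard (t := pts S 0 t ∪ W) ?_
      ((finite_pts hS 0 ht0).union hWfin)).trans (Set.ncard_union_le _ _)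
    intro z hz
    by_cases h0 : z ∈ pts S 0 t
    · exact Or.inl h0
    · exact Or.inr (key z (Or.inl ⟨hz, h0⟩))
  have hB : (pts S 0 t).ncard ≤ (pts S v t).ncard + W.ncard := by
    refine (Set.ncard_le_ncard (t := pts S v t ∪ W) ?_
      ((finite_pts hS v ht0).union hWfin)).trans (Set.ncard_union_le _ _)
    intro z hz
    by_cases h0 : z ∈ pts S v t
    · exact Or.inl h0
    · exact Or.inr (key z (Or.inr ⟨hz, h0⟩))
  have hA' : ((pts S v t).ncard : ℝ) ≤ (pts S 0 t).ncard + W.ncard := by exact_mod_cast hA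
  have hB' : ((pts S 0 t).ncard : ℝ) ≤ (pts S v t).ncard + W.ncard := by exact_mod_cast hB
  rw [abs_le]
  constructor <;> linarith

theorem ncard_pts_two_mul [DecidableEq ι] {S : Set (ι → ℝ)} (hS : IsBounded S) {t : ℝ}
    (ht : 0 < t) :
    (pts S 0 (2 * t)).ncard =
      ∑ ε : ι → Fin 2, (pts S (fun i => ((ε i : ℕ) : ℝ) / 2) t).ncard := by
  have hfin := finite_pts hS 0 (by positivity : (0 : ℝ) < 2 * t)
  let f : (ι → ℤ) → (ι → Fin 2) := fun z i => ⟨(z i % 2).toNat, by omega⟩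
  rw [Set.ncard_eq_toFinset_card _ hfin, Finset.card_eq_sum_card_fiberwise (f := f)
    (t := Finset.univ) (fun _ _ => Finset.mem_univ _)]
  refine Finset.sum_congr rfl fun ε _ => ?_
  have hfun : ∀ q : ι → ℤ, (fun i => (2 * t)⁻¹ * (((2 * q i + ((ε i : ℕ) : ℤ) : ℤ) : ℝ) +
      (0 : ι → ℝ) i)) = fun i => t⁻¹ * ((q i : ℝ) + ((ε i : ℕ) : ℝ) / 2) := by
    intro q
    funext i
    push_cast
    simp only [Pi.zero_apply, add_zero]
    field_simp
  have himg : (↑(hfin.toFinset.filter fun z => f z = ε) : Set (ι → ℤ)) =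
      (fun q : ι → ℤ => fun i => 2 * q i + ((ε i : ℕ) : ℤ)) ''
        pts S (fun i => ((ε i : ℕ) : ℝ) / 2) t := by
    ext z
    simp only [Finset.coe_filter, Set.Finite.mem_toFinset, Set.mem_ofPred_eq, Set.mem_image]
    constructor
    · rintro ⟨hz, hfz⟩
      have hzi : ∀ i, z i = 2 * (z i / 2) + ((ε i : ℕ) : ℤ) := by
        intro i
        have h1 := congrFun hfz i
        have h2 : ((ε i : ℕ) : ℤ) = z i % 2 := by
          rw [← h1]
          simp only [f]
          omega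
        omega
      have hz' : z = fun i => 2 * (z i / 2) + ((ε i : ℕ) : ℤ) := funext hzi
      refine ⟨fun i => z i / 2, ?_, hz'.symm⟩
      show (fun i => t⁻¹ * (((z i / 2 : ℤ) : ℝ) + ((ε i : ℕ) : ℝ) / 2)) ∈ S
      rw [← hfun]
      have hz2 : (fun i => (2 * t)⁻¹ * ((z i : ℝ) + (0 : ι → ℝ) i)) ∈ S := hz
      convert hz2 using 3 with i
      rw [← hzi i]
    · rintro ⟨q, hq, rfl⟩
      refine ⟨?_, ?_⟩
      · show (fun i => (2 * t)⁻¹ * (((2 * q i + ((ε i : ℕ) : ℤ) : ℤ) : ℝ) + (0 : ι → ℝ) i)) ∈ S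
        rw [hfun]
        exact hq
      · funext i
        apply Fin.ext
        simp only [f]
        have := (ε i).2
        omega
  rw [← Set.ncard_coe_finset, himg, Set.ncard_image_of_injective]
  intro a b hab
  funext i
  have := congrFun hab i
  simpa using this

/-- **Quantitative count in `ℝ^ι`**: rate `O(t^(n-1))` from the covering dimension of the
frontier, given the existence of the limit. -/
theorem count_rate [Nonempty ι] {S : Set (ι → ℝ)} (hS : IsBounded S)
    (hfr : CoverDim (frontier S) (Fintype.card ι - 1)) {κ : ℝ}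
    (hlim : Tendsto (fun t : ℝ => ((pts S 0 t).ncard : ℝ) / t ^ Fintype.card ι) atTop (𝓝 κ)) :
    ∃ M : ℝ, ∀ t : ℝ, 1 ≤ t →
      |((pts S 0 t).ncard : ℝ) - κ * t ^ Fintype.card ι| ≤ M * t ^ (Fintype.card ι - 1) := by
  classical
  obtain ⟨B, hB0, hB⟩ := shift_le hS hfr
  set n := Fintype.card ι with hn
  have hn1 : 1 ≤ n := Fintype.card_pos
  set f : ℝ → ℝ := fun t => ((pts S 0 t).ncard : ℝ) with hf
  have hstep : ∀ t : ℝ, 1 ≤ t → |f (2 * t) - 2 ^ n * f t| ≤ 2 ^ n * (B * t ^ (n - 1)) := by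
    intro t ht
    have ht0 : 0 < t := by linarith
    have e1 : f (2 * t) = ∑ ε : ι → Fin 2, ((pts S (fun i => ((ε i : ℕ) : ℝ) / 2) t).ncard : ℝ) := by
      simp only [hf]
      rw [ncard_pts_two_mul hS ht0]
      push_cast
      rfl
    have e2 : (2 : ℝ) ^ n * f t = ∑ _ε : ι → Fin 2, f t := by
      rw [Finset.sum_const, Finset.card_univ, Fintype.card_fun, Fintype.card_fin, nsmul_eq_mul]
      push_cast
      rfl
    have e3 : (2 : ℝ) ^ n * (B * t ^ (n - 1)) = ∑ _ε : ι → Fin 2, B * t ^ (n - 1) := by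
      rw [Finset.sum_const, Finset.card_univ, Fintype.card_fun, Fintype.card_fin, nsmul_eq_mul]
      push_cast
      rfl
    rw [e1, e2, e3, ← Finset.sum_sub_distrib]
    refine (Finset.abs_sum_le_sum_abs _ _).trans (Finset.sum_le_sum fun ε _ => ?_)
    refine hB t ht _ fun i => ?_
    have h2 : ((ε i : ℕ) : ℝ) ≤ 1 := by
      have := (ε i).2
      have h3 : ((ε i : ℕ)) ≤ 1 := by omega
      exact_mod_cast h3
    have h0 : (0 : ℝ) ≤ ((ε i : ℕ) : ℝ) := Nat.cast_nonneg _
    rw [abs_le]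
    constructor <;> linarith
  set g : ℝ → ℝ := fun t => f t / t ^ n with hg
  have hgstep : ∀ t : ℝ, 1 ≤ t → |g (2 * t) - g t| ≤ B / t := by
    intro t ht
    have ht0 : 0 < t := by linarith
    have e : g (2 * t) - g t = (f (2 * t) - 2 ^ n * f t) / (2 ^ n * t ^ n) := by
      simp only [hg]
      rw [mul_pow]
      field_simp
    rw [e, abs_div, abs_of_pos (by positivity : (0 : ℝ) < 2 ^ n * t ^ n),
      div_le_div_iff₀ (by positivity) ht0]
    calc |f (2 * t) - 2 ^ n * f t| * t ≤ 2 ^ n * (B * t ^ (n - 1)) * t := by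
          gcongr
          exact hstep t ht
      _ = B * (2 ^ n * (t ^ (n - 1) * t)) := by ring
      _ = B * (2 ^ n * t ^ n) := by rw [← pow_succ, Nat.sub_add_cancel hn1]
  have hgk : ∀ k : ℕ, ∀ t : ℝ, 1 ≤ t → |g (2 ^ k * t) - g t| ≤ 2 * B / t * (1 - 1 / 2 ^ k) := by
    intro k
    induction k with
    | zero => intro t _; simp
    | succ k ih =>
      intro t ht
      have ht0 : 0 < t := by linarith
      have h2k : (1 : ℝ) ≤ 2 ^ k := one_le_pow₀ (by norm_num)
      have h1 : 1 ≤ 2 ^ k * t := by nlinarith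
      have hs := hgstep (2 ^ k * t) h1
      have e : (2 : ℝ) ^ (k + 1) * t = 2 * (2 ^ k * t) := by ring
      rw [e]
      calc |g (2 * (2 ^ k * t)) - g t|
          ≤ |g (2 * (2 ^ k * t)) - g (2 ^ k * t)| + |g (2 ^ k * t) - g t| := abs_sub_le _ _ _
        _ ≤ B / (2 ^ k * t) + 2 * B / t * (1 - 1 / 2 ^ k) := add_le_add hs (ih t ht)
        _ = 2 * B / t * (1 - 1 / 2 ^ (k + 1)) := by
            field_simp
            ring
  have hbound : ∀ t : ℝ, 1 ≤ t → |κ - g t| ≤ 2 * B / t := by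
    intro t ht
    have ht0 : 0 < t := by linarith
    have htend : Tendsto (fun k : ℕ => g (2 ^ k * t)) atTop (𝓝 κ) := by
      refine hlim.comp ?_
      exact (tendsto_pow_atTop_atTop_of_one_lt (by norm_num : (1 : ℝ) < 2)).atTop_mul_const ht0
    have htend2 : Tendsto (fun k : ℕ => |g (2 ^ k * t) - g t|) atTop (𝓝 |κ - g t|) :=
      (htend.sub_const (g t)).abs
    refine le_of_tendsto' htend2 fun k => (hgk k t ht).trans ?_
    have h1 : (0 : ℝ) ≤ 1 / 2 ^ k := by positivity
    have h2 : 0 ≤ 2 * B / t := by positivity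
    nlinarith
  refine ⟨2 * B, fun t ht => ?_⟩
  have ht0 : 0 < t := by linarith
  have htn : (0 : ℝ) < t ^ n := by positivity
  have e : f t - κ * t ^ n = -(t ^ n * (κ - g t)) := by
    simp only [hg]
    field_simp
    ring
  show |f t - κ * t ^ n| ≤ 2 * B * t ^ (n - 1)
  rw [e, abs_neg, abs_mul, abs_of_pos htn]
  calc t ^ n * |κ - g t| ≤ t ^ n * (2 * B / t) := by
        gcongr
        exact hbound t ht
    _ = 2 * B * (t ^ (n - 1) * t) / t := by rw [← pow_succ, Nat.sub_add_cancel hn1]; ring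
    _ = 2 * B * t ^ (n - 1) := by field_simp

end Count

section Lattice

open Module

variable {E : Type*} [NormedAddCommGroup E] [NormedSpace ℝ E] [FiniteDimensional ℝ E]

/-- **Quantitative count for a `ℤ`-lattice**: if the frontier of the bounded set `D` has covering
dimension `≤ n - 1` and `#(L ∩ t • D) / t ^ n → κ`, then
`|#(L ∩ t • D) - κ t ^ n| ≤ M t ^ (n - 1)` for `t ≥ 1`. -/
theorem lattice_count_rate [Nontrivial E] (L : Submodule ℤ E) [DiscreteTopology L]
    [IsZLattice ℝ L] {D : Set E} (hD : IsBounded D)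
    (hfr : CoverDim (frontier D) (finrank ℝ E - 1)) {κ : ℝ}
    (hlim : Tendsto (fun t : ℝ => (Nat.card ((L : Set E) ∩ t • D : Set E) : ℝ) / t ^ finrank ℝ E)
      atTop (𝓝 κ)) :
    ∃ M : ℝ, ∀ t : ℝ, 1 ≤ t →
      |(Nat.card ((L : Set E) ∩ t • D : Set E) : ℝ) - κ * t ^ finrank ℝ E| ≤
        M * t ^ (finrank ℝ E - 1) := by
  classical
  let b := Module.Free.chooseBasis ℤ L
  let b' := b.ofZLatticeBasis ℝ L
  let e : E ≃L[ℝ] (Module.Free.ChooseBasisIndex ℤ L → ℝ) := b'.equivFunL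
  have hcard : Fintype.card (Module.Free.ChooseBasisIndex ℤ L) = finrank ℝ E :=
    (finrank_eq_card_basis b').symm
  have : Nonempty (Module.Free.ChooseBasisIndex ℤ L) :=
    Fintype.card_pos_iff.1 (hcard ▸ Module.finrank_pos)
  have hL : ∀ x : E, x ∈ L ↔ ∃ z : Module.Free.ChooseBasisIndex ℤ L → ℤ,
      e x = fun i => (z i : ℝ) := by
    intro x
    have hspan : Submodule.span ℤ (Set.range b') = L := b.ofZLatticeBasis_span ℝ
    rw [← SetLike.ext_iff.1 hspan x, Basis.mem_span_iff_repr_mem]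
    constructor
    · intro h
      choose z hz using h
      refine ⟨z, funext fun i => ?_⟩
      exact (hz i).symm
    · rintro ⟨z, hz⟩ i
      exact ⟨z i, (congrFun hz i).symm⟩
  have key : ∀ t : ℝ, 0 < t →
      Nat.card ((L : Set E) ∩ t • D : Set E) = (pts (e '' D) 0 t).ncard := by
    intro t ht
    have himg : ((L : Set E) ∩ t • D : Set E) =
        (fun z : Module.Free.ChooseBasisIndex ℤ L → ℤ => e.symm (fun i => (z i : ℝ))) ''
          pts (e '' D) 0 t := by
      ext x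
      simp only [Set.mem_inter_iff, SetLike.mem_coe, Set.mem_image]
      constructor
      · rintro ⟨hxL, hxD⟩
        obtain ⟨z, hz⟩ := (hL x).1 hxL
        rw [Set.mem_smul_set_iff_inv_smul_mem₀ ht.ne'] at hxD
        refine ⟨z, ?_, ?_⟩
        · refine ⟨t⁻¹ • x, hxD, ?_⟩
          rw [map_smul, hz]
          funext i
          simp
        · rw [← hz]
          exact e.symm_apply_apply x
      · rintro ⟨z, ⟨d, hd, hdz⟩, rfl⟩
        refine ⟨(hL _).2 ⟨z, e.apply_symm_apply _⟩, ?_⟩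
        rw [Set.mem_smul_set_iff_inv_smul_mem₀ ht.ne']
        have : t⁻¹ • e.symm (fun i => (z i : ℝ)) = d := by
          apply e.injective
          rw [map_smul, e.apply_symm_apply, hdz]
          funext i
          simp
        rw [this]
        exact hd
    rw [Nat.card_coe_set_eq, himg, Set.ncard_image_of_injective]
    intro a c hac
    have h1 := e.symm.injective hac
    funext i
    have := congrFun h1 i
    exact_mod_cast this
  have hS : IsBounded (e '' D) := e.lipschitz.isBounded_image hD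
  have hfr' : CoverDim (frontier (e '' D)) (Fintype.card (Module.Free.ChooseBasisIndex ℤ L) - 1) := by
    rw [hcard]
    have : frontier (e '' D) = e '' frontier D := (e.toHomeomorph.image_frontier D).symm
    rw [this]
    exact CoverDim.image (e.lipschitz.lipschitzOnWith) hfr
  have hlim' : Tendsto (fun t : ℝ => ((pts (e '' D) 0 t).ncard : ℝ) /
      t ^ Fintype.card (Module.Free.ChooseBasisIndex ℤ L)) atTop (𝓝 κ) := by
    refine hlim.congr' ?_
    filter_upwards [eventually_gt_atTop 0] with t ht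
    rw [key t ht, hcard]
  obtain ⟨M, hM⟩ := count_rate hS hfr' hlim'
  refine ⟨M, fun t ht => ?_⟩
  have := hM t ht
  rw [hcard] at this
  rw [key t (by linarith)]
  exact this

end Lattice

end Fermat.Agent.S14.LC
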