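import Fermat.Agent.S14.LCCover

/-!
# Slice A3 of S14, part 2: the frontier of `normLeOne K` has covering dimension `≤ n - 1`

The frontier of Mathlib's `normLeOne K` lies in the images of the faces of a unit cube under
finitely many `C¹` charts (radial coordinate, logarithmic coordinates along a fundamental system
of units, angles at the complex places; one chart for each choice of signs at the real places).
-/

set_option autoImplicit false

open Metric Set Filter Topology Bornology
open NumberField NumberField.InfinitePlace NumberField.mixedEmbedding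
  NumberField.mixedEmbedding.fundamentalCone NumberField.Units
  NumberField.Units.dirichletUnitTheorem
open scoped NNReal

namespace Fermat.Agent.S14.LC

theorem exists_lipschitzOn_cube {κ F : Type*} [Fintype κ] [NormedAddCommGroup F]
    [NormedSpace ℝ F] {f : (κ → ℝ) → F} (hf : ContDiff ℝ 1 f) :
    ∃ C : ℝ≥0, LipschitzOnWith C f {p | ∀ i, p i ∈ Icc (0 : ℝ) 1} := by
  have hs : {p : κ → ℝ | ∀ i, p i ∈ Icc (0 : ℝ) 1} = Icc (0 : κ → ℝ) 1 := by
    ext p
    simp only [Set.mem_ofPred_eq, Set.mem_Icc, Pi.le_def, Pi.zero_apply, Pi.one_apply]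
    exact forall_and
  rw [hs]
  obtain ⟨C, hC⟩ := (isCompact_Icc (a := (0 : κ → ℝ)) (b := 1)).exists_bound_of_continuousOn
    (hf.continuous_fderiv one_ne_zero).continuousOn
  refine ⟨C.toNNReal, Convex.lipschitzOnWith_of_nnnorm_fderiv_le (𝕜 := ℝ)
    (fun x _ => hf.differentiable one_ne_zero x) (fun x hx => ?_) (convex_Icc _ _)⟩
  rw [← NNReal.coe_le_coe, coe_nnnorm, Real.coe_toNNReal']
  exact (hC x hx).trans (le_max_left _ _)

variable (K : Type*) [Field K] [NumberField K]

theorem frontier_normLeOne_subset :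
    frontier (normLeOne K) ⊆
      normAtAllPlaces ⁻¹' (compactSet K \ expMapBasis '' interior (paramSet K)) := fun _ hx =>
  ⟨closure_normLeOne_subset K hx.1, fun h => hx.2 (subset_interior_normLeOne K h)⟩

open scoped Classical in
theorem mem_compactSet_diff {v : realSpace K}
    (hv : v ∈ compactSet K \ expMapBasis '' interior (paramSet K)) :
    ∃ c : ℝ, ∃ y : realSpace K, c ∈ Icc (0 : ℝ) 1 ∧ y w₀ = 0 ∧ (∀ w, y w ∈ Icc (0 : ℝ) 1) ∧
      v = c • expMapBasis y ∧ (c = 0 ∨ c = 1 ∨ ∃ w, w ≠ w₀ ∧ (y w = 0 ∨ y w = 1)) := by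
  obtain ⟨hv1, hv2⟩ := hv
  obtain ⟨c, hc, ⟨_, ⟨y, hy, rfl⟩, rfl⟩⟩ := hv1
  have hy0 : y w₀ = 0 := by simpa using hy w₀ (Set.mem_univ _)
  have hyw : ∀ w, w ≠ w₀ → y w ∈ Icc (0 : ℝ) 1 := fun w hw => by
    simpa [hw] using hy w (Set.mem_univ _)
  refine ⟨c, y, hc, hy0, fun w => ?_, rfl, ?_⟩
  · by_cases hw : w = w₀
    · rw [hw, hy0]
      exact ⟨le_rfl, zero_le_one⟩
    · exact hyw w hw
  · by_contra hcon
    simp only [not_or, not_exists, not_and] at hcon
    obtain ⟨hc0, hc1, hyne⟩ := hcon
    have hc0' : 0 < c := lt_of_le_of_ne hc.1 (Ne.symm hc0)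
    have hc1' : c < 1 := lt_of_le_of_ne hc.2 hc1
    apply hv2
    refine ⟨fun w => if w = w₀ then Real.log c else y w, ?_, ?_⟩
    · rw [interior_paramSet, Set.mem_univ_pi]
      intro w
      split_ifs with h
      · exact Real.log_neg hc0' hc1'
      · exact ⟨lt_of_le_of_ne (hyw w h).1 (Ne.symm (hyne w h).1),
          lt_of_le_of_ne (hyw w h).2 (hyne w h).2⟩
    · rw [expMapBasis_apply'', if_pos rfl, Real.exp_log hc0']
      congr with w
      split_ifs with h
      · simpa [h, eq_comm] using hy w₀
      · rfl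

/-- The parameters of the charts: radial/logarithmic coordinates indexed by the infinite places,
angles indexed by the complex places. -/
abbrev PIdx : Type _ := InfinitePlace K ⊕ {w : InfinitePlace K // IsComplex w}

open scoped Classical in
/-- The `realSpace` part of the charts. -/
noncomputable def chartR (p : PIdx K → ℝ) : realSpace K :=
  p (Sum.inl w₀) • expMapBasis (fun w => if w = w₀ then 0 else p (Sum.inl w))

/-- The charts covering the frontier of `normLeOne K`. -/
noncomputable def chart (ε : {w : InfinitePlace K // IsReal w} → Bool) (p : PIdx K → ℝ) :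
    mixedSpace K :=
  (fun w => (if ε w then (1 : ℝ) else -1) * chartR K p w.1,
   fun w => (chartR K p w.1 : ℂ) *
      Complex.exp (((Real.pi * (2 * p (Sum.inr w) - 1) : ℝ) : ℂ) * Complex.I))

open scoped Classical in
theorem contDiff_chartR (w : InfinitePlace K) :
    ContDiff ℝ 1 (fun p : PIdx K → ℝ => chartR K p w) := by
  have h1 : ContDiff ℝ 1 (fun p : PIdx K → ℝ =>
      (fun w => if w = w₀ then (0 : ℝ) else p (Sum.inl w) : realSpace K)) := by
    refine contDiff_pi.2 fun w => ?_
    by_cases h : w = w₀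
    · simp only [h, if_true]
      exact contDiff_const
    · simp only [h, if_false]
      exact contDiff_apply ℝ ℝ (Sum.inl w)
  have h2 : ContDiff ℝ 1 (fun p : PIdx K → ℝ =>
      (completeBasis K).equivFun.symm (fun w => if w = w₀ then (0 : ℝ) else p (Sum.inl w))) :=
    (completeBasis K).equivFunL.symm.contDiff.comp h1
  have h3 : ContDiff ℝ 1 (fun p : PIdx K → ℝ =>
      ((completeBasis K).equivFun.symm (fun w => if w = w₀ then (0 : ℝ) else p (Sum.inl w))) w) :=
    (contDiff_apply ℝ ℝ w).comp h2
  simp only [chartR, Pi.smul_apply, smul_eq_mul, expMapBasis_apply, expMap_apply]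
  exact (contDiff_apply ℝ ℝ (Sum.inl w₀)).mul (Real.contDiff_exp.comp (contDiff_const.mul h3))

open scoped Classical in
theorem contDiff_chart (ε : {w : InfinitePlace K // IsReal w} → Bool) :
    ContDiff ℝ 1 (chart K ε) := by
  unfold chart
  refine ContDiff.prodMk (contDiff_pi.2 fun w => contDiff_const.mul (contDiff_chartR K w.1))
    (contDiff_pi.2 fun w => ?_)
  refine (Complex.ofRealCLM.contDiff.comp (contDiff_chartR K w.1)).mul ?_
  refine ContDiff.cexp ?_
  refine (Complex.ofRealCLM.contDiff.comp ?_).mul contDiff_const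
  exact contDiff_const.mul
    ((contDiff_const.mul (contDiff_apply ℝ ℝ (Sum.inr w))).sub contDiff_const)

theorem frontier_subset_charts :
    frontier (normLeOne K) ⊆ ⋃ ε : {w : InfinitePlace K // IsReal w} → Bool,
      ⋃ jb : InfinitePlace K × Bool, chart K ε '' {p : PIdx K → ℝ |
        (∀ i, p i ∈ Icc (0 : ℝ) 1) ∧ p (Sum.inl jb.1) = if jb.2 then 1 else 0} := by
  classical
  intro x hx
  obtain ⟨c, y, hc, hy0, hy, hv, hface⟩ := mem_compactSet_diff K (frontier_normLeOne_subset K hx)
  set θ : {w : InfinitePlace K // IsComplex w} → ℝ :=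
    fun w => (Complex.arg (x.2 w) + Real.pi) / (2 * Real.pi) with hθ
  set p : PIdx K → ℝ := Sum.elim (fun w => if w = w₀ then c else y w) θ with hp
  have hR : chartR K p = normAtAllPlaces x := by
    have hv' : normAtAllPlaces x = c • expMapBasis y := hv
    rw [hv']
    unfold chartR
    have h1 : p (Sum.inl w₀) = c := by simp [hp]
    have h2 : (fun w => if w = w₀ then 0 else p (Sum.inl w)) = y := by
      funext w
      by_cases h : w = w₀
      · simp [h, hy0]
      · simp [hp, h]
    rw [h1, h2]
  have hpi : 0 < Real.pi := Real.pi_pos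
  have hθ01 : ∀ w, θ w ∈ Icc (0 : ℝ) 1 := by
    intro w
    have h1 := Complex.neg_pi_lt_arg (x.2 w)
    have h2 := Complex.arg_le_pi (x.2 w)
    constructor
    · apply div_nonneg <;> linarith
    · rw [hθ, div_le_one (by positivity)]
      linarith
  have hx' : chart K (fun w => decide (0 ≤ x.1 w)) p = x := by
    unfold chart
    rw [hR]
    refine Prod.ext (funext fun w => ?_) (funext fun w => ?_)
    · simp only [normAtPlace_apply_of_isReal w.2, Real.norm_eq_abs, decide_eq_true_eq]
      split_ifs with h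
      · rw [one_mul, abs_of_nonneg h]
      · rw [abs_of_neg (not_le.1 h)]
        ring
    · simp only [normAtPlace_apply_of_isComplex w.2]
      have : Real.pi * (2 * p (Sum.inr w) - 1) = Complex.arg (x.2 w) := by
        simp only [hp, Sum.elim_inr, hθ]
        field_simp
        ring
      rw [this]
      exact Complex.norm_mul_exp_arg_mul_I _
  have hcube : ∀ i, p i ∈ Icc (0 : ℝ) 1 := by
    rintro (w | w)
    · simp only [hp, Sum.elim_inl]
      split_ifs
      · exact hc
      · exact hy w
    · exact hθ01 w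
  simp only [mem_iUnion]
  refine ⟨fun w => decide (0 ≤ x.1 w), ?_⟩
  rcases hface with h | h | ⟨w, hw, h | h⟩
  · exact ⟨(w₀, false), p, ⟨hcube, by simp [hp, h]⟩, hx'⟩
  · exact ⟨(w₀, true), p, ⟨hcube, by simp [hp, h]⟩, hx'⟩
  · exact ⟨(w, false), p, ⟨hcube, by simp [hp, hw, h]⟩, hx'⟩
  · exact ⟨(w, true), p, ⟨hcube, by simp [hp, hw, h]⟩, hx'⟩

open scoped Classical in
/-- **The frontier of `normLeOne K` has covering dimension `≤ [K : ℚ] - 1`.** -/
theorem coverDim_frontier_normLeOne :
    CoverDim (frontier (normLeOne K)) (Module.finrank ℚ K - 1) := by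
  have hcard : Fintype.card (PIdx K) = Module.finrank ℚ K := by
    rw [Fintype.card_sum, card_eq_nrRealPlaces_add_nrComplexPlaces,
      ← card_add_two_mul_card_eq_rank]
    have : Fintype.card {w : InfinitePlace K // IsComplex w} = nrComplexPlaces K := by
      unfold nrComplexPlaces
      exact Fintype.card_congr (Equiv.refl _)
    omega
  rw [← hcard]
  refine CoverDim.mono (CoverDim.iUnion fun ε => CoverDim.iUnion fun jb => ?_)
    (frontier_subset_charts K)
  obtain ⟨C, hC⟩ := exists_lipschitzOn_cube (contDiff_chart K ε)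
  exact CoverDim.image (hC.mono fun p hp => hp.1) (coverDim_face _ _)

end Fermat.Agent.S14.LC
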