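import Mathlib

/-!
# S14, slice A3 / P3: the shift estimate for smooth weights on the mixed space

For a bounded, boundedly supported, Lipschitz cutoff `φ` on the logarithmic space, the weight
`wt φ s x = φ (logMap x) * N(x)^(-s)` on the mixed space satisfies
`|wt (x + ν) - wt x| ≤ C ‖ν‖ ‖x‖^(-d s - 1)` as soon as `R ‖ν‖ ≤ ‖x‖`, with `C`, `R` uniform in
`s ∈ [1, 2]` (`d = [K : ℚ]`).  On the support of `φ ∘ logMap` all coordinates of `x` are
comparable to `‖x‖`, so the logarithms of the coordinates are Lipschitz there.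
-/

set_option autoImplicit false

open NumberField NumberField.mixedEmbedding NumberField.Units
  NumberField.Units.dirichletUnitTheorem NumberField.InfinitePlace
open scoped Classical

namespace Fermat.Agent.S14.P3

variable (K : Type) [Field K] [NumberField K]

/-- The weight `F_s(x) = φ(logMap x) · N(x)^(-s)` on the mixed space. -/
noncomputable def wt (φ : logSpace K → ℝ) (s : ℝ) (x : mixedSpace K) : ℝ :=
  φ (logMap x) * mixedEmbedding.norm x ^ (-s)

variable {K}

lemma normAtPlace_le_norm (w : InfinitePlace K) (x : mixedSpace K) : normAtPlace w x ≤ ‖x‖ := by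
  rw [norm_eq_sup'_normAtPlace]
  exact Finset.le_sup' (fun w => normAtPlace w x) (Finset.mem_univ w)

lemma exists_normAtPlace_eq_norm (x : mixedSpace K) :
    ∃ w : InfinitePlace K, normAtPlace w x = ‖x‖ := by
  rw [norm_eq_sup'_normAtPlace]
  obtain ⟨w, -, hw⟩ := Finset.exists_mem_eq_sup' Finset.univ_nonempty
    (fun w : InfinitePlace K => normAtPlace w x)
  exact ⟨w, hw.symm⟩

lemma abs_normAtPlace_sub_le (w : InfinitePlace K) (x ν : mixedSpace K) :
    |normAtPlace w (x + ν) - normAtPlace w x| ≤ ‖ν‖ := by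
  have h1 := normAtPlace_add_le w x ν
  have h2 := normAtPlace_add_le w (x + ν) (-ν)
  rw [add_neg_cancel_right, normAtPlace_neg] at h2
  have h3 := normAtPlace_le_norm w ν
  rw [abs_le]
  constructor <;> linarith

lemma log_norm_eq {x : mixedSpace K} (hx : mixedEmbedding.norm x ≠ 0) :
    Real.log (mixedEmbedding.norm x) =
      ∑ w : InfinitePlace K, (mult w : ℝ) * Real.log (normAtPlace w x) := by
  rw [mixedEmbedding.norm_apply, Real.log_prod]
  · refine Finset.sum_congr rfl fun w _ => ?_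
    rw [Real.log_pow]
  · intro w _
    exact pow_ne_zero _ (mixedEmbedding.norm_ne_zero_iff.mp hx w)

lemma sum_mult_real : ∑ w : InfinitePlace K, (mult w : ℝ) = (Module.finrank ℚ K : ℝ) := by
  rw [← Nat.cast_sum, sum_mult_eq]

lemma mult_le_two_real (w : InfinitePlace K) : (mult w : ℝ) ≤ 2 := by
  unfold mult
  split_ifs <;> norm_num

lemma finrank_pos_real : (0 : ℝ) < (Module.finrank ℚ K : ℝ) := by
  exact_mod_cast (Module.finrank_pos : 0 < Module.finrank ℚ K)

lemma normAtPlace_pos {x : mixedSpace K} (hx : mixedEmbedding.norm x ≠ 0) (w : InfinitePlace K) :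
    0 < normAtPlace w x :=
  lt_of_le_of_ne (normAtPlace_nonneg w x) (Ne.symm (mixedEmbedding.norm_ne_zero_iff.mp hx w))

lemma norm_pos_of_norm_ne_zero {x : mixedSpace K} (hx : mixedEmbedding.norm x ≠ 0) : 0 < ‖x‖ := by
  rw [norm_pos_iff]
  rintro rfl
  exact hx (map_zero _)

/-- On the support of a cutoff of `logMap`, all coordinates are comparable to the norm. -/
lemma normAtPlace_ge_of_logMap_le {x : mixedSpace K} (hx : mixedEmbedding.norm x ≠ 0) {B : ℝ}
    (hB : ‖logMap x‖ ≤ B) (w : InfinitePlace K) :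
    Real.exp (-(2 * (Fintype.card (InfinitePlace K) : ℝ) * B)) * ‖x‖ ≤ normAtPlace w x := by
  have hd : (0 : ℝ) < (Module.finrank ℚ K : ℝ) := finrank_pos_real
  set m : ℝ := Real.log (mixedEmbedding.norm x) * (Module.finrank ℚ K : ℝ)⁻¹ with hm
  set r : ℝ := (Fintype.card (InfinitePlace K) : ℝ) with hr
  have hB0 : 0 ≤ B := (norm_nonneg _).trans hB
  have r1 : (1 : ℝ) ≤ r := by
    have : 1 ≤ Fintype.card (InfinitePlace K) := Fintype.card_pos
    rw [hr]
    exact_mod_cast this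
  have h1 : ∀ w : InfinitePlace K, w ≠ w₀ →
      |(mult w : ℝ) * (Real.log (normAtPlace w x) - m)| ≤ B := by
    intro w hw
    have h := norm_le_pi_norm (logMap x) ⟨w, hw⟩
    rw [logMap_apply, Real.norm_eq_abs] at h
    exact h.trans hB
  have h2 : ∑ w : InfinitePlace K, (mult w : ℝ) * (Real.log (normAtPlace w x) - m) = 0 := by
    simp_rw [mul_sub]
    rw [Finset.sum_sub_distrib, ← log_norm_eq hx, ← Finset.sum_mul, sum_mult_real, hm]
    field_simp
    ring
  have h3 : ∀ w : InfinitePlace K,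
      |(mult w : ℝ) * (Real.log (normAtPlace w x) - m)| ≤ r * B := by
    intro w
    by_cases hw : w = w₀
    · have h4 : (mult w : ℝ) * (Real.log (normAtPlace w x) - m) =
          - ∑ v ∈ Finset.univ.erase w, (mult v : ℝ) * (Real.log (normAtPlace v x) - m) := by
        rw [← Finset.add_sum_erase Finset.univ _ (Finset.mem_univ w)] at h2
        linarith
      rw [h4, abs_neg]
      refine (Finset.abs_sum_le_sum_abs _ _).trans ?_
      calc ∑ v ∈ Finset.univ.erase w, |(mult v : ℝ) * (Real.log (normAtPlace v x) - m)|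
          ≤ ∑ _v ∈ Finset.univ.erase w, B :=
            Finset.sum_le_sum fun v hv => h1 v (hw ▸ Finset.ne_of_mem_erase hv)
        _ = ((Finset.univ.erase w).card : ℝ) * B := by rw [Finset.sum_const, nsmul_eq_mul]
        _ ≤ r * B := by
            apply mul_le_mul_of_nonneg_right _ hB0
            rw [hr]
            exact_mod_cast (Finset.card_erase_le).trans (le_of_eq Finset.card_univ)
    · calc |(mult w : ℝ) * (Real.log (normAtPlace w x) - m)| ≤ B := h1 w hw
        _ ≤ r * B := by nlinarith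
  have h4 : ∀ w : InfinitePlace K, |Real.log (normAtPlace w x) - m| ≤ r * B := by
    intro w
    have hmw : (1 : ℝ) ≤ mult w := one_le_mult
    have h := h3 w
    rw [abs_mul, abs_of_pos (by linarith : (0 : ℝ) < mult w)] at h
    calc |Real.log (normAtPlace w x) - m|
        ≤ mult w * |Real.log (normAtPlace w x) - m| := le_mul_of_one_le_left (abs_nonneg _) hmw
      _ ≤ r * B := h
  obtain ⟨w₁, hw₁⟩ := exists_normAtPlace_eq_norm x
  have e1 := abs_le.mp (h4 w)
  have e2 := abs_le.mp (h4 w₁)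
  have e3 : Real.log (normAtPlace w₁ x) - 2 * r * B ≤ Real.log (normAtPlace w x) := by linarith
  have e4 := Real.exp_le_exp.mpr e3
  rw [Real.exp_log (normAtPlace_pos hx w), Real.exp_sub, Real.exp_log (normAtPlace_pos hx w₁),
    hw₁] at e4
  calc Real.exp (-(2 * r * B)) * ‖x‖ = ‖x‖ / Real.exp (2 * r * B) := by
        rw [Real.exp_neg, div_eq_inv_mul]
    _ ≤ normAtPlace w x := e4

lemma abs_log_sub_log_le {a a' : ℝ} (ha : 0 < a) (h : |a' - a| ≤ a / 2) :
    0 < a' ∧ |Real.log a' - Real.log a| ≤ 2 * |a' - a| / a := by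
  have h' := abs_le.mp h
  have ha' : 0 < a' := by linarith
  refine ⟨ha', ?_⟩
  have e1 : Real.log a' - Real.log a ≤ (a' - a) / a := by
    have h1 := Real.log_le_sub_one_of_pos (div_pos ha' ha)
    rw [Real.log_div ha'.ne' ha.ne'] at h1
    have e : a' / a - 1 = (a' - a) / a := by field_simp
    linarith
  have e2 : Real.log a - Real.log a' ≤ (a - a') / a' := by
    have h1 := Real.log_le_sub_one_of_pos (div_pos ha ha')
    rw [Real.log_div ha.ne' ha'.ne'] at h1
    have e : a / a' - 1 = (a - a') / a' := by field_simp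
    linarith
  have t0 : 0 ≤ |a' - a| := abs_nonneg _
  have t1 : a - a' ≤ |a' - a| := by rw [← abs_sub_comm]; exact le_abs_self _
  have t2 : a' - a ≤ |a' - a| := le_abs_self _
  rw [abs_le]
  constructor
  · have h3 : (a - a') / a' ≤ 2 * |a' - a| / a := by
      rw [div_le_div_iff₀ ha' ha]
      nlinarith [mul_le_mul_of_nonneg_right t1 ha.le,
        mul_le_mul_of_nonneg_left (by linarith : a ≤ 2 * a') t0]
    linarith
  · have h3 : (a' - a) / a ≤ 2 * |a' - a| / a :=
      div_le_div_of_nonneg_right (by linarith) ha.le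
    linarith

lemma abs_exp_sub_one_le_mul (t : ℝ) : |Real.exp t - 1| ≤ |t| * Real.exp |t| := by
  rcases le_total 0 t with h | h
  · rw [abs_of_nonneg h, abs_of_nonneg (by linarith [Real.add_one_le_exp t])]
    have h1 := Real.add_one_le_exp (-t)
    have h2 : Real.exp t * Real.exp (-t) = 1 := by rw [← Real.exp_add]; simp
    have h3 := mul_le_mul_of_nonneg_left h1 (Real.exp_pos t).le
    nlinarith
  · rw [abs_of_nonpos h,
      abs_of_nonpos (by linarith [Real.exp_le_one_iff.mpr h] : Real.exp t - 1 ≤ 0)]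
    have h1 := Real.add_one_le_exp t
    have h2 : 1 ≤ Real.exp (-t) := Real.one_le_exp (by linarith)
    nlinarith

/-- The key estimate at a point all of whose coordinates are comparable to its norm. -/
lemma key_estimate (φ : logSpace K → ℝ) {L : ℝ} (hL : 0 ≤ L) (h1 : ∀ y, |φ y| ≤ 1)
    (hlip : ∀ y y', |φ y - φ y'| ≤ L * ‖y - y'‖) {c : ℝ} (hc0 : 0 < c) (hc1 : c ≤ 1)
    {s : ℝ} (hs1 : 1 ≤ s) (hs2 : s ≤ 2) {x ν : mixedSpace K} (hx : mixedEmbedding.norm x ≠ 0)
    (hxc : ∀ w, c * ‖x‖ ≤ normAtPlace w x) (hν : ‖ν‖ ≤ c / 2 * ‖x‖) :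
    |wt K φ s (x + ν) - wt K φ s x| ≤
      ((4 * L + 2 * (Module.finrank ℚ K : ℝ)) * Real.exp (2 * (Module.finrank ℚ K : ℝ)) * 2 *
        c ^ (-(2 * (Module.finrank ℚ K : ℝ) + 1))) * ‖ν‖ *
        ‖x‖ ^ (-((Module.finrank ℚ K : ℝ) * s) - 1) := by
  set d : ℝ := (Module.finrank ℚ K : ℝ) with hd
  have hd0 : 0 < d := finrank_pos_real
  have hxpos : 0 < ‖x‖ := norm_pos_of_norm_ne_zero hx
  have hcx : 0 < c * ‖x‖ := mul_pos hc0 hxpos
  set δ : ℝ := 2 * ‖ν‖ / (c * ‖x‖) with hδ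
  have hδ0 : 0 ≤ δ := by positivity
  have hδ1 : δ ≤ 1 := by
    rw [hδ, div_le_one hcx]
    linarith
  -- coordinates
  have hco : ∀ w : InfinitePlace K, 0 < normAtPlace w (x + ν) ∧
      |Real.log (normAtPlace w (x + ν)) - Real.log (normAtPlace w x)| ≤ δ := by
    intro w
    have ha : 0 < normAtPlace w x := normAtPlace_pos hx w
    have hdiff := abs_normAtPlace_sub_le w x ν
    have hhalf : |normAtPlace w (x + ν) - normAtPlace w x| ≤ normAtPlace w x / 2 := by
      have := hxc w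
      linarith
    obtain ⟨hpos, hlog⟩ := abs_log_sub_log_le ha hhalf
    refine ⟨hpos, hlog.trans ?_⟩
    rw [hδ]
    exact div_le_div₀ (by positivity) (by linarith) hcx (hxc w)
  have hx' : mixedEmbedding.norm (x + ν) ≠ 0 :=
    mixedEmbedding.norm_ne_zero_iff.mpr fun w => (hco w).1.ne'
  -- the logarithm of the norm
  set Δ : ℝ := Real.log (mixedEmbedding.norm (x + ν)) - Real.log (mixedEmbedding.norm x) with hΔ
  have hΔle : |Δ| ≤ d * δ := by
    rw [hΔ, log_norm_eq hx, log_norm_eq hx', ← Finset.sum_sub_distrib]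
    refine (Finset.abs_sum_le_sum_abs _ _).trans ?_
    calc ∑ w : InfinitePlace K, |(mult w : ℝ) * Real.log (normAtPlace w (x + ν)) -
            (mult w : ℝ) * Real.log (normAtPlace w x)|
        ≤ ∑ w : InfinitePlace K, (mult w : ℝ) * δ := Finset.sum_le_sum fun w _ => by
          rw [← mul_sub, abs_mul, abs_of_nonneg (Nat.cast_nonneg _)]
          exact mul_le_mul_of_nonneg_left (hco w).2 (Nat.cast_nonneg _)
      _ = d * δ := by rw [← Finset.sum_mul, sum_mult_real]
  -- logMap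
  have hlm : ‖logMap (x + ν) - logMap x‖ ≤ 4 * δ := by
    rw [pi_norm_le_iff_of_nonneg (by positivity)]
    intro w
    rw [Pi.sub_apply, logMap_apply, logMap_apply, Real.norm_eq_abs]
    have e : (mult w.1 : ℝ) * (Real.log (normAtPlace w.1 (x + ν)) -
          Real.log (mixedEmbedding.norm (x + ν)) * (Module.finrank ℚ K : ℝ)⁻¹) -
        (mult w.1 : ℝ) * (Real.log (normAtPlace w.1 x) -
          Real.log (mixedEmbedding.norm x) * (Module.finrank ℚ K : ℝ)⁻¹) =
        (mult w.1 : ℝ) * ((Real.log (normAtPlace w.1 (x + ν)) - Real.log (normAtPlace w.1 x)) -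
          Δ * d⁻¹) := by
      rw [hΔ, hd]; ring
    rw [e, abs_mul, abs_of_nonneg (Nat.cast_nonneg _)]
    have e1 : |Δ * d⁻¹| ≤ δ := by
      rw [abs_mul, abs_of_pos (inv_pos.mpr hd0)]
      calc |Δ| * d⁻¹ ≤ d * δ * d⁻¹ := mul_le_mul_of_nonneg_right hΔle (inv_pos.mpr hd0).le
        _ = δ := by field_simp
    have e2 : |(Real.log (normAtPlace w.1 (x + ν)) - Real.log (normAtPlace w.1 x)) - Δ * d⁻¹| ≤
        2 * δ := by
      refine (abs_sub _ _).trans ?_
      have := (hco w.1).2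
      linarith
    calc (mult w.1 : ℝ) * |(Real.log (normAtPlace w.1 (x + ν)) - Real.log (normAtPlace w.1 x)) -
          Δ * d⁻¹| ≤ 2 * (2 * δ) :=
          mul_le_mul (mult_le_two_real w.1) e2 (abs_nonneg _) (by norm_num)
      _ = 4 * δ := by ring
  have hφ : |φ (logMap (x + ν)) - φ (logMap x)| ≤ L * (4 * δ) :=
    (hlip _ _).trans (mul_le_mul_of_nonneg_left hlm hL)
  -- the norms
  have hN : 0 < mixedEmbedding.norm x := lt_of_le_of_ne (mixedEmbedding.norm_nonneg x) (Ne.symm hx)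
  have hN' : 0 < mixedEmbedding.norm (x + ν) :=
    lt_of_le_of_ne (mixedEmbedding.norm_nonneg _) (Ne.symm hx')
  have hNlow : (c * ‖x‖) ^ Module.finrank ℚ K ≤ mixedEmbedding.norm x := by
    rw [mixedEmbedding.norm_apply, ← sum_mult_eq, ← Finset.prod_pow_eq_pow_sum]
    exact Finset.prod_le_prod (fun w _ => pow_nonneg hcx.le _)
      fun w _ => pow_le_pow_left₀ hcx.le (hxc w) _
  have hNs : mixedEmbedding.norm x ^ (-s) ≤ (c * ‖x‖) ^ (-(d * s)) := by
    calc mixedEmbedding.norm x ^ (-s) ≤ ((c * ‖x‖) ^ Module.finrank ℚ K) ^ (-s) :=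
          Real.rpow_le_rpow_of_nonpos (pow_pos hcx _) hNlow (by linarith)
      _ = (c * ‖x‖) ^ (-(d * s)) := by
          rw [← Real.rpow_natCast, ← Real.rpow_mul hcx.le, hd]
          congr 1; ring
  have hN's : mixedEmbedding.norm (x + ν) ^ (-s) =
      mixedEmbedding.norm x ^ (-s) * Real.exp (-(s * Δ)) := by
    rw [Real.rpow_def_of_pos hN', Real.rpow_def_of_pos hN, ← Real.exp_add, hΔ]
    congr 1; ring
  have hsΔ : |-(s * Δ)| ≤ 2 * d := by
    rw [abs_neg, abs_mul, abs_of_nonneg (by linarith : (0 : ℝ) ≤ s)]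
    calc s * |Δ| ≤ 2 * (d * δ) := mul_le_mul hs2 hΔle (abs_nonneg _) (by norm_num)
      _ ≤ 2 * d := by nlinarith
  have hsΔ' : |-(s * Δ)| ≤ 2 * d * δ := by
    rw [abs_neg, abs_mul, abs_of_nonneg (by linarith : (0 : ℝ) ≤ s)]
    calc s * |Δ| ≤ 2 * (d * δ) := mul_le_mul hs2 hΔle (abs_nonneg _) (by norm_num)
      _ = 2 * d * δ := by ring
  have hexp1 : Real.exp (-(s * Δ)) ≤ Real.exp (2 * d) :=
    Real.exp_le_exp.mpr ((le_abs_self _).trans hsΔ)
  have hexp2 : |Real.exp (-(s * Δ)) - 1| ≤ 2 * d * δ * Real.exp (2 * d) :=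
    (abs_exp_sub_one_le_mul _).trans
      (mul_le_mul hsΔ' (Real.exp_le_exp.mpr hsΔ) (Real.exp_pos _).le (by positivity))
  -- assemble
  have hmain : |wt K φ s (x + ν) - wt K φ s x| ≤
      mixedEmbedding.norm x ^ (-s) * ((4 * L + 2 * d) * Real.exp (2 * d) * δ) := by
    have e : wt K φ s (x + ν) - wt K φ s x = mixedEmbedding.norm x ^ (-s) *
        ((φ (logMap (x + ν)) - φ (logMap x)) * Real.exp (-(s * Δ)) +
          φ (logMap x) * (Real.exp (-(s * Δ)) - 1)) := by
      rw [wt, wt, hN's]; ring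
    rw [e, abs_mul, abs_of_nonneg (Real.rpow_nonneg hN.le _)]
    apply mul_le_mul_of_nonneg_left _ (Real.rpow_nonneg hN.le _)
    refine (abs_add_le _ _).trans ?_
    rw [abs_mul, abs_mul, abs_of_pos (Real.exp_pos _)]
    have t1 : |φ (logMap (x + ν)) - φ (logMap x)| * Real.exp (-(s * Δ)) ≤
        L * (4 * δ) * Real.exp (2 * d) :=
      mul_le_mul hφ hexp1 (Real.exp_pos _).le (by positivity)
    have t2 : |φ (logMap x)| * |Real.exp (-(s * Δ)) - 1| ≤ 1 * (2 * d * δ * Real.exp (2 * d)) :=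
      mul_le_mul (h1 _) hexp2 (abs_nonneg _) (by norm_num)
    calc _ ≤ L * (4 * δ) * Real.exp (2 * d) + 1 * (2 * d * δ * Real.exp (2 * d)) :=
          add_le_add t1 t2
      _ = (4 * L + 2 * d) * Real.exp (2 * d) * δ := by ring
  refine hmain.trans ?_
  have hpos1 : 0 ≤ (4 * L + 2 * d) * Real.exp (2 * d) * δ := by positivity
  calc mixedEmbedding.norm x ^ (-s) * ((4 * L + 2 * d) * Real.exp (2 * d) * δ)
      ≤ (c * ‖x‖) ^ (-(d * s)) * ((4 * L + 2 * d) * Real.exp (2 * d) * δ) :=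
        mul_le_mul_of_nonneg_right hNs hpos1
    _ = (4 * L + 2 * d) * Real.exp (2 * d) * 2 * c ^ (-(d * s) - 1) * ‖ν‖ *
          ‖x‖ ^ (-(d * s) - 1) := by
        have e : ∀ k A X : ℝ, (A * X) * (k * (2 * ‖ν‖ / (c * ‖x‖))) =
            k * 2 * (A / c) * ‖ν‖ * (X / ‖x‖) := by
          intro k A X
          field_simp
        rw [hδ, Real.rpow_sub_one hc0.ne', Real.rpow_sub_one hxpos.ne',
          Real.mul_rpow hc0.le hxpos.le, e]
    _ ≤ (4 * L + 2 * d) * Real.exp (2 * d) * 2 * c ^ (-(2 * d + 1)) * ‖ν‖ *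
          ‖x‖ ^ (-(d * s) - 1) := by
        have hcp : c ^ (-(d * s) - 1) ≤ c ^ (-(2 * d + 1)) :=
          Real.rpow_le_rpow_of_exponent_ge hc0 hc1 (by
            have := mul_le_mul_of_nonneg_left hs2 hd0.le
            linarith)
        have hpos2 : 0 ≤ (4 * L + 2 * d) * Real.exp (2 * d) * 2 := by positivity
        have hpos3 : 0 ≤ ‖x‖ ^ (-(d * s) - 1) := Real.rpow_nonneg hxpos.le _
        exact mul_le_mul_of_nonneg_right (mul_le_mul_of_nonneg_right
          (mul_le_mul_of_nonneg_left hcp hpos2) (norm_nonneg _)) hpos3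

/-- The weight vanishes where the norm vanishes or the cutoff vanishes. -/
lemma wt_eq_zero (φ : logSpace K → ℝ) {s : ℝ} (hs : s ≠ 0) {x : mixedSpace K}
    (h : mixedEmbedding.norm x = 0 ∨ φ (logMap x) = 0) : wt K φ s x = 0 := by
  rcases h with h | h
  · rw [wt, h, Real.zero_rpow (neg_ne_zero.mpr hs), mul_zero]
  · rw [wt, h, zero_mul]

variable (K)

/-- **P3, the shift estimate** (homogeneous form): for a bounded, boundedly supported Lipschitz
cutoff `φ` on the logarithmic space, `|wt (x + ν) - wt x| ≤ C ‖ν‖ ‖x‖^(-d s - 1)` whenever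
`R ‖ν‖ ≤ ‖x‖`, uniformly in `s ∈ [1, 2]`. -/
theorem shift_estimate (φ : logSpace K → ℝ) (B L : ℝ)
    (h1 : ∀ y, |φ y| ≤ 1) (hsupp : ∀ y, φ y ≠ 0 → ‖y‖ ≤ B)
    (hlip : ∀ y y', |φ y - φ y'| ≤ L * ‖y - y'‖) :
    ∃ C R : ℝ, 0 < C ∧ 0 < R ∧ ∀ s : ℝ, 1 ≤ s → s ≤ 2 → ∀ x ν : mixedSpace K, R * ‖ν‖ ≤ ‖x‖ →
      |wt K φ s (x + ν) - wt K φ s x| ≤
        C * ‖ν‖ * ‖x‖ ^ (-((Module.finrank ℚ K : ℝ) * s) - 1) := by
  set d : ℝ := (Module.finrank ℚ K : ℝ) with hd
  have hd0 : 0 < d := finrank_pos_real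
  set c : ℝ := Real.exp (-(2 * (Fintype.card (InfinitePlace K) : ℝ) * (max B 0))) with hc
  have hc0 : 0 < c := Real.exp_pos _
  have hc1 : c ≤ 1 := by
    rw [hc]
    apply Real.exp_le_one_iff.mpr
    have : 0 ≤ 2 * (Fintype.card (InfinitePlace K) : ℝ) * (max B 0) := by positivity
    linarith
  have hlip' : ∀ y y', |φ y - φ y'| ≤ max L 0 * ‖y - y'‖ := fun y y' =>
    (hlip y y').trans (mul_le_mul_of_nonneg_right (le_max_left _ _) (norm_nonneg _))
  have hL0 : 0 ≤ max L 0 := le_max_right _ _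
  set C₁ : ℝ := (4 * max L 0 + 2 * d) * Real.exp (2 * d) * 2 * c ^ (-(2 * d + 1)) with hC₁def
  have hC₁ : 0 < C₁ := by positivity
  have hge1 : (1 : ℝ) ≤ (4 / 3 : ℝ) ^ (2 * d + 1) :=
    Real.one_le_rpow (by norm_num) (by positivity)
  have hCle : C₁ ≤ C₁ * (4 / 3 : ℝ) ^ (2 * d + 1) := le_mul_of_one_le_right hC₁.le hge1
  refine ⟨C₁ * (4 / 3 : ℝ) ^ (2 * d + 1), 4 / c, by positivity, by positivity, ?_⟩
  intro s hs1 hs2 x ν hR
  have hs0 : s ≠ 0 := by linarith
  have hx0 : 0 ≤ ‖x‖ := norm_nonneg x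
  have hν : ‖ν‖ ≤ c / 4 * ‖x‖ := by
    have h := mul_le_mul_of_nonneg_left hR (by positivity : 0 ≤ c / 4)
    calc ‖ν‖ = c / 4 * (4 / c * ‖ν‖) := by field_simp
      _ ≤ c / 4 * ‖x‖ := h
  have hcx : 0 ≤ c * ‖x‖ := mul_nonneg hc0.le hx0
  by_cases hgood : mixedEmbedding.norm x ≠ 0 ∧ φ (logMap x) ≠ 0
  · obtain ⟨hx, hφx⟩ := hgood
    have hB := (hsupp _ hφx).trans (le_max_left B 0)
    have hxc : ∀ w, c * ‖x‖ ≤ normAtPlace w x := fun w => normAtPlace_ge_of_logMap_le hx hB w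
    have hkey := key_estimate φ hL0 h1 hlip' hc0 hc1 hs1 hs2 hx hxc
      (by linarith : ‖ν‖ ≤ c / 2 * ‖x‖)
    refine hkey.trans ?_
    exact mul_le_mul_of_nonneg_right (mul_le_mul_of_nonneg_right hCle (norm_nonneg _))
      (Real.rpow_nonneg hx0 _)
  · by_cases hgood' : mixedEmbedding.norm (x + ν) ≠ 0 ∧ φ (logMap (x + ν)) ≠ 0
    · obtain ⟨hx', hφx'⟩ := hgood'
      have hB := (hsupp _ hφx').trans (le_max_left B 0)
      have hxc : ∀ w, c * ‖x + ν‖ ≤ normAtPlace w (x + ν) := fun w =>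
        normAtPlace_ge_of_logMap_le hx' hB w
      have hxpos : 0 < ‖x‖ := by
        rcases hx0.lt_or_eq with h | h
        · exact h
        · exfalso
          have hx00 : x = 0 := norm_eq_zero.mp h.symm
          have hν0 : ν = 0 := by
            apply norm_eq_zero.mp
            have : ‖ν‖ ≤ 0 := by rw [← h] at hν; linarith
            exact le_antisymm this (norm_nonneg _)
          apply hx'
          rw [hx00, hν0, add_zero, map_zero]
      have hx'norm : 3 / 4 * ‖x‖ ≤ ‖x + ν‖ := by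
        have t1 : ‖x‖ ≤ ‖x + ν‖ + ‖ν‖ := by
          calc ‖x‖ = ‖(x + ν) - ν‖ := by rw [add_sub_cancel_right]
            _ ≤ ‖x + ν‖ + ‖ν‖ := norm_sub_le _ _
        have t2 : c / 4 * ‖x‖ ≤ 1 / 4 * ‖x‖ :=
          mul_le_mul_of_nonneg_right (by linarith) hx0
        linarith
      have hν' : ‖-ν‖ ≤ c / 2 * ‖x + ν‖ := by
        rw [norm_neg]
        have t3 : c / 2 * (3 / 4 * ‖x‖) ≤ c / 2 * ‖x + ν‖ :=
          mul_le_mul_of_nonneg_left hx'norm (by positivity)
        nlinarith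
      have hkey := key_estimate φ hL0 h1 hlip' hc0 hc1 hs1 hs2 hx' hxc hν'
      rw [add_neg_cancel_right, abs_sub_comm, norm_neg] at hkey
      have hpow : ‖x + ν‖ ^ (-(d * s) - 1) ≤ (4 / 3 : ℝ) ^ (2 * d + 1) * ‖x‖ ^ (-(d * s) - 1) := by
        have hexp : -(d * s) - 1 ≤ 0 := by
          have := mul_pos hd0 (by linarith : (0 : ℝ) < s)
          linarith
        calc ‖x + ν‖ ^ (-(d * s) - 1) ≤ (3 / 4 * ‖x‖) ^ (-(d * s) - 1) :=
              Real.rpow_le_rpow_of_nonpos (by positivity) hx'norm hexp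
          _ = (3 / 4 : ℝ) ^ (-(d * s) - 1) * ‖x‖ ^ (-(d * s) - 1) :=
              Real.mul_rpow (by norm_num) hx0
          _ ≤ (4 / 3 : ℝ) ^ (2 * d + 1) * ‖x‖ ^ (-(d * s) - 1) := by
              apply mul_le_mul_of_nonneg_right _ (Real.rpow_nonneg hx0 _)
              have e : (3 / 4 : ℝ) ^ (-(d * s) - 1) = (4 / 3 : ℝ) ^ (d * s + 1) := by
                rw [show -(d * s) - 1 = -(d * s + 1) by ring, Real.rpow_neg (by norm_num),
                  ← Real.inv_rpow (by norm_num)]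
                norm_num
              rw [e]
              apply Real.rpow_le_rpow_of_exponent_le (by norm_num)
              have := mul_le_mul_of_nonneg_left hs2 hd0.le
              linarith
      calc |wt K φ s (x + ν) - wt K φ s x| ≤ C₁ * ‖ν‖ * ‖x + ν‖ ^ (-(d * s) - 1) := hkey
        _ ≤ C₁ * ‖ν‖ * ((4 / 3 : ℝ) ^ (2 * d + 1) * ‖x‖ ^ (-(d * s) - 1)) :=
            mul_le_mul_of_nonneg_left hpow (by positivity)
        _ = C₁ * (4 / 3 : ℝ) ^ (2 * d + 1) * ‖ν‖ * ‖x‖ ^ (-(d * s) - 1) := by ring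
    · have e1 : wt K φ s x = 0 := wt_eq_zero φ hs0 (by
        by_contra hcon
        exact hgood ⟨fun h => hcon (Or.inl h), fun h => hcon (Or.inr h)⟩)
      have e2 : wt K φ s (x + ν) = 0 := wt_eq_zero φ hs0 (by
        by_contra hcon
        exact hgood' ⟨fun h => hcon (Or.inl h), fun h => hcon (Or.inr h)⟩)
      rw [e1, e2, sub_zero, abs_zero]
      have : 0 ≤ ‖x‖ ^ (-(d * s) - 1) := Real.rpow_nonneg hx0 _
      positivity

/-- **P3, the shift estimate** (form for lattice sums): away from the unit ball the decay is at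
least `‖x‖^(-(d+1))`, `d = [K : ℚ]` being the dimension of the mixed space. -/
theorem shift_estimate' (φ : logSpace K → ℝ) (B L : ℝ)
    (h1 : ∀ y, |φ y| ≤ 1) (hsupp : ∀ y, φ y ≠ 0 → ‖y‖ ≤ B)
    (hlip : ∀ y y', |φ y - φ y'| ≤ L * ‖y - y'‖) :
    ∃ C R : ℝ, 0 < C ∧ 0 < R ∧ ∀ s : ℝ, 1 ≤ s → s ≤ 2 → ∀ x ν : mixedSpace K, R * ‖ν‖ ≤ ‖x‖ →
      1 ≤ ‖x‖ → |wt K φ s (x + ν) - wt K φ s x| ≤ C * ‖ν‖ / ‖x‖ ^ (Module.finrank ℚ K + 1) := by
  obtain ⟨C, R, hC, hR, h⟩ := shift_estimate K φ B L h1 hsupp hlip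
  refine ⟨C, R, hC, hR, fun s hs1 hs2 x ν hxν hx1 => (h s hs1 hs2 x ν hxν).trans ?_⟩
  have hd0 : (0 : ℝ) < (Module.finrank ℚ K : ℝ) := finrank_pos_real
  rw [div_eq_mul_inv]
  apply mul_le_mul_of_nonneg_left _ (by positivity)
  calc ‖x‖ ^ (-((Module.finrank ℚ K : ℝ) * s) - 1)
      ≤ ‖x‖ ^ (-(((Module.finrank ℚ K + 1 : ℕ) : ℝ))) := by
        apply Real.rpow_le_rpow_of_exponent_le hx1
        have := mul_le_mul_of_nonneg_left hs1 hd0.le
        push_cast
        linarith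
    _ = (‖x‖ ^ (Module.finrank ℚ K + 1))⁻¹ := by
        rw [Real.rpow_neg (by linarith), Real.rpow_natCast]

variable {K}

/-- The weight is bounded by `1` at the points of norm `0` or `≥ 1` (e.g. at the lattice points
of an integral ideal). -/
theorem abs_wt_le_one (φ : logSpace K → ℝ) (h1 : ∀ y, |φ y| ≤ 1) {s : ℝ} (hs : 0 < s)
    (x : mixedSpace K) (hx : mixedEmbedding.norm x = 0 ∨ 1 ≤ mixedEmbedding.norm x) :
    |wt K φ s x| ≤ 1 := by
  rcases hx with hx | hx
  · rw [wt_eq_zero φ hs.ne' (Or.inl hx), abs_zero]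
    exact zero_le_one
  · rw [wt, abs_mul, abs_of_nonneg (Real.rpow_nonneg (by linarith) _)]
    calc |φ (logMap x)| * mixedEmbedding.norm x ^ (-s) ≤ 1 * 1 :=
          mul_le_mul (h1 _) (Real.rpow_le_one_of_one_le_of_nonpos hx (by linarith))
            (Real.rpow_nonneg (by linarith) _) zero_le_one
      _ = 1 := one_mul 1

end Fermat.Agent.S14.P3
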