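import Fermat.Agent.S14.S2Field
import Fermat.Agent.S14.PrimeSum

/-!
# S14, slice A1 (glue, second seat): upper density of `S2`

`S2F.exists_field` gives a number field `L` in which every `q ∈ S2Set` has `p (p - 1)` distinct
primes of norm `q`; `S2U.primeSum_le L` bounds the prime sum of `L` by `log (1/(s-1)) + C`.
-/

set_option autoImplicit false

open scoped NumberField nonZeroDivisors

namespace Fermat.Agent.S14.S2UB

open Fermat.Agent.S14

variable (p : ℕ) [Fact p.Prime]
variable {K : Type} [Field K] [NumberField K] [IsCyclotomicExtension {p} ℚ K]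
variable {ζ : K} (hζ : IsPrimitiveRoot ζ p)

/-- **Slice A1**: `∑_{q ∈ F} q^(-s) ≤ log (1/(s-1)) / (p (p-1)) + C` for finite `F ⊆ S2Set`. -/
theorem s2Upper_of (hL : HasL2 p hζ) (hu : IsUnit (eta p hζ)) : S2Upper p hζ := by
  classical
  have hp : p.Prime := Fact.out
  obtain ⟨L, _, _, hfield⟩ := S2F.exists_field p hζ hL hu
  obtain ⟨C, hC⟩ := S2U.primeSum_le L
  have hn : (0 : ℝ) < (p : ℝ) * ((p : ℝ) - 1) := by
    have h2 : (2 : ℝ) ≤ p := by exact_mod_cast hp.two_le
    have h1 : (0 : ℝ) < (p : ℝ) - 1 := by linarith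
    have h0 : (0 : ℝ) < p := by linarith
    exact mul_pos h0 h1
  have hncast : ((p * (p - 1) : ℕ) : ℝ) = (p : ℝ) * ((p : ℝ) - 1) := by
    rw [Nat.cast_mul, Nat.cast_sub hp.one_le, Nat.cast_one]
  refine ⟨C / ((p : ℝ) * ((p : ℝ) - 1)), ?_⟩
  intro s hs F hF
  choose f hfinj hfnorm using fun q : {q // q ∈ F} => hfield q.1 (hF q.1 q.2)
  set g : {q // q ∈ F} × Fin (p * (p - 1)) → PrimeIdeal L := fun x => f x.1 x.2 with hg
  have hginj : Function.Injective g := by
    rintro ⟨q, i⟩ ⟨q', i'⟩ h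
    have h1 : Ideal.absNorm ((f q i).1 : Ideal (𝓞 L)) = Ideal.absNorm ((f q' i').1 : Ideal (𝓞 L)) :=
      by
        have : f q i = f q' i' := h
        rw [this]
    rw [hfnorm, hfnorm] at h1
    have hq : q = q' := Subtype.ext h1
    subst hq
    have hi : i = i' := hfinj q h
    rw [hi]
  have hsum := hC s hs ((Finset.univ : Finset ({q // q ∈ F} × Fin (p * (p - 1)))).image g)
  rw [Finset.sum_image (fun x _ y _ h => hginj h)] at hsum
  have hterm : ∀ x : {q // q ∈ F} × Fin (p * (p - 1)),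
      normPow L (g x).1 s = ((x.1 : ℕ) : ℝ) ^ (-s) := by
    intro x
    show ((Ideal.absNorm ((f x.1 x.2).1 : Ideal (𝓞 L)) : ℕ) : ℝ) ^ (-s) = _
    rw [hfnorm]
  rw [Finset.sum_congr rfl (fun x _ => hterm x), ← Finset.univ_product_univ,
    Finset.sum_product] at hsum
  simp only [Finset.sum_const, Finset.card_univ, Fintype.card_fin, nsmul_eq_mul] at hsum
  rw [← Finset.mul_sum, Finset.univ_eq_attach,
    Finset.sum_attach F (fun q => ((q : ℕ) : ℝ) ^ (-s)), hncast] at hsum
  rw [← add_div, le_div_iff₀ hn]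
  linarith [hsum]

end Fermat.Agent.S14.S2UB
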