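import Fermat.Agent.S14.ThOffQ

/-!
# S14, slice T (Thaine), sub-slice F3: the cyclotomic input at the primes above `q`

`K = ℚ(ζ_p)`, `F` a `{q}`-cyclotomic extension of `K` (`q ≠ p` prime), `ζq ∈ F` a primitive
`q`-th root of unity, `𝔓` a prime of `𝓞 F` containing `q`.

* `sub_one_mem_of_pow_eq_one` : every `q`-th root of unity of `𝓞 F` is `≡ 1 mod 𝔓`;
* `galRestrict_sub_mem` (C3) : `Gal(F/K)` acts trivially on `𝓞 F ⧸ 𝔓`;
* `emultiplicity_toInteger_sub_one` (C4) : `π = ζq - 1` has multiplicity exactly `1` at `𝔓`;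
* `galRestrict_toInteger_sub_one` / `geom_sum_sub_natCast_mem` (C5) : if `σ ζq = ζq ^ s` then
  `σ π = π * ε` with `ε = ∑_{i<s} ζq^i ≡ s mod 𝔓`.
-/

set_option autoImplicit false

open scoped NumberField nonZeroDivisors

namespace Fermat.Agent.S14.ThCyc

section General

variable {F : Type} [Field F] [NumberField F]

omit [NumberField F] in
/-- If the rational prime `q` lies in the prime `𝔓`, every `q`-th root of unity of `𝓞 F` is
congruent to `1` modulo `𝔓`. -/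
theorem sub_one_mem_of_pow_eq_one {q : ℕ} [hq : Fact q.Prime] (𝔓 : Ideal (𝓞 F)) [h𝔓 : 𝔓.IsPrime]
    (hq𝔓 : (q : 𝓞 F) ∈ 𝔓) {ω : 𝓞 F} (hω : ω ^ q = 1) : ω - 1 ∈ 𝔓 := by
  have hq0 : ((q : ℕ) : 𝓞 F ⧸ 𝔓) = 0 := by
    have := Ideal.Quotient.eq_zero_iff_mem.mpr hq𝔓
    simpa using this
  have hchar : CharP (𝓞 F ⧸ 𝔓) q := (CharP.charP_iff_prime_eq_zero hq.out).mpr hq0
  have h1 : (Ideal.Quotient.mk 𝔓 ω - 1) ^ q = 0 := by
    rw [sub_pow_char, one_pow, ← map_pow, hω, map_one, sub_self]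
  have h2 : Ideal.Quotient.mk 𝔓 ω - 1 = 0 := pow_eq_zero_iff (hq.out.ne_zero) |>.mp h1
  rw [← Ideal.Quotient.eq_zero_iff_mem, map_sub, map_one]
  exact h2

end General

section Main

variable (p q : ℕ) [Fact p.Prime] [Fact q.Prime]
variable {K : Type} [Field K] [NumberField K] [IsCyclotomicExtension {p} ℚ K]
variable {F : Type} [Field F] [NumberField F] [Algebra K F] [IsCyclotomicExtension {q} K F]

/-- (C3) `Gal(F/K)` acts trivially on the residue field of a prime `𝔓` of `𝓞 F` above `q`. -/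
theorem galRestrict_sub_mem (hpq : p ≠ q) (𝔓 : Ideal (𝓞 F)) [h𝔓 : 𝔓.IsPrime]
    (hq𝔓 : (q : 𝓞 F) ∈ 𝔓) (σ : F ≃ₐ[K] F) (x : 𝓞 F) :
    galRestrict (𝓞 K) K F (𝓞 F) σ x - x ∈ 𝔓 := by
  have hp : p.Prime := Fact.out
  have hq : q.Prime := Fact.out
  have : NeZero p := ⟨hp.ne_zero⟩
  have : NeZero q := ⟨hq.ne_zero⟩
  have : NeZero (p * q) := ⟨Nat.mul_ne_zero hp.ne_zero hq.ne_zero⟩
  have hcyc : IsCyclotomicExtension {p * q} ℚ F := TFO.isCyclotomicExtension_mul p q K F hpq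
  obtain ⟨ζ, hζ⟩ := IsCyclotomicExtension.exists_isPrimitiveRoot ℚ K
    (Set.mem_singleton p) hp.ne_zero
  obtain ⟨ζq, hζq⟩ := IsCyclotomicExtension.exists_isPrimitiveRoot K F
    (Set.mem_singleton q) hq.ne_zero
  have hζF : IsPrimitiveRoot (algebraMap K F ζ) p := hζ.map_of_injective (algebraMap K F).injective
  have hcop : Nat.Coprime (orderOf (algebraMap K F ζ)) (orderOf ζq) := by
    rw [← hζF.eq_orderOf, ← hζq.eq_orderOf]
    exact (Nat.coprime_primes hp hq).mpr hpq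
  have hprim : IsPrimitiveRoot (algebraMap K F ζ * ζq) (p * q) := by
    have h := IsPrimitiveRoot.orderOf (algebraMap K F ζ * ζq)
    rwa [(Commute.all _ ζq).orderOf_mul_eq_mul_orderOf_of_coprime hcop, ← hζF.eq_orderOf,
      ← hζq.eq_orderOf] at h
  have htop := IsCyclotomicExtension.Rat.adjoin_singleton_eq_top hprim
  set σ' := galRestrict (𝓞 K) K F (𝓞 F) σ with hσ'
  -- the generator
  have hgen : hprim.toInteger = algebraMap (𝓞 K) (𝓞 F) hζ.toInteger * hζq.toInteger := by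
    apply NumberField.RingOfIntegers.ext
    show algebraMap K F ζ * ζq =
      algebraMap (𝓞 F) F (algebraMap (𝓞 K) (𝓞 F) hζ.toInteger * hζq.toInteger)
    rw [map_mul, ← IsScalarTower.algebraMap_apply (𝓞 K) (𝓞 F) F,
      IsScalarTower.algebraMap_apply (𝓞 K) K F]
    rfl
  have hb : σ' hζq.toInteger - hζq.toInteger ∈ 𝔓 := by
    have h1 : σ' hζq.toInteger - 1 ∈ 𝔓 := by
      apply sub_one_mem_of_pow_eq_one 𝔓 hq𝔓
      rw [← map_pow, hζq.toInteger_isPrimitiveRoot.pow_eq_one, map_one]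
    have h2 : hζq.toInteger - 1 ∈ 𝔓 :=
      sub_one_mem_of_pow_eq_one 𝔓 hq𝔓 hζq.toInteger_isPrimitiveRoot.pow_eq_one
    have : σ' hζq.toInteger - hζq.toInteger = (σ' hζq.toInteger - 1) - (hζq.toInteger - 1) := by
      ring
    rw [this]
    exact 𝔓.sub_mem h1 h2
  have hx : x ∈ Algebra.adjoin ℤ {hprim.toInteger} := by rw [htop]; trivial
  induction hx using Algebra.adjoin_induction with
  | mem y hy =>
    rw [Set.mem_singleton_iff] at hy
    rw [hy, hgen, map_mul, AlgEquiv.commutes, ← mul_sub]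
    exact 𝔓.mul_mem_left _ hb
  | algebraMap r =>
    have : σ' (algebraMap ℤ (𝓞 F) r) = algebraMap ℤ (𝓞 F) r := by simp
    rw [this, sub_self]
    exact 𝔓.zero_mem
  | add y z _ _ hy hz =>
    have : σ' (y + z) - (y + z) = (σ' y - y) + (σ' z - z) := by rw [map_add]; ring
    rw [this]
    exact 𝔓.add_mem hy hz
  | mul y z _ _ hy hz =>
    have : σ' (y * z) - y * z = σ' y * (σ' z - z) + (σ' y - y) * z := by rw [map_mul]; ring
    rw [this]
    exact 𝔓.add_mem (𝔓.mul_mem_left _ hz) (𝔓.mul_mem_right _ hy)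

end Main

section Uniformizer

variable {F : Type} [Field F] [NumberField F]

omit [NumberField F] in
/-- For a primitive `q`-th root of unity `b` of `𝓞 F` (`q` prime), `(b - 1)^(q-1)` divides `q`. -/
theorem sub_one_pow_dvd_natCast {q : ℕ} (hq : q.Prime) {b : 𝓞 F} (hb : IsPrimitiveRoot b q) :
    (b - 1) ^ (q - 1) ∣ (q : 𝓞 F) := by
  have hq1 : q - 1 + 1 = q := Nat.sub_add_cancel hq.one_le
  have hb' : IsPrimitiveRoot b (q - 1 + 1) := by rwa [hq1]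
  have hprod := IsPrimitiveRoot.prod_one_sub_pow_eq_order hb'
  have hcast : ((q - 1 : ℕ) : 𝓞 F) + 1 = (q : 𝓞 F) := by
    rw [← Nat.cast_add_one, hq1]
  rw [hcast] at hprod
  have hpow : (b - 1) ^ (q - 1) = ∏ _k ∈ Finset.range (q - 1), (b - 1) := by
    rw [Finset.prod_const, Finset.card_range]
  rw [hpow, ← hprod]
  refine Finset.prod_dvd_prod_of_dvd _ _ fun k _ => ?_
  have h1 : b - 1 ∣ b ^ (k + 1) - 1 ^ (k + 1) := sub_dvd_pow_sub_pow b 1 (k + 1)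
  rw [one_pow] at h1
  have h2 : (1 : 𝓞 F) - b ^ (k + 1) = -(b ^ (k + 1) - 1) := by ring
  rw [h2, dvd_neg]
  exact h1

omit [NumberField F] in
/-- A prime ideal of `𝓞 F` containing the rational prime `q` lies over `(q)`. -/
theorem liesOver_span_of_natCast_mem {q : ℕ} (hq : q.Prime) (𝔓 : Ideal (𝓞 F)) [h𝔓 : 𝔓.IsPrime]
    (hq𝔓 : (q : 𝓞 F) ∈ 𝔓) : 𝔓.LiesOver (Ideal.span {(q : ℤ)}) := by
  have hmax : (Ideal.span {(q : ℤ)}).IsMaximal :=
    PrincipalIdealRing.isMaximal_of_irreducible (Nat.prime_iff_prime_int.mp hq).irreducible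
  have hle : Ideal.span {(q : ℤ)} ≤ 𝔓.under ℤ := by
    rw [Ideal.span_singleton_le_iff_mem, Ideal.mem_comap]
    simpa using hq𝔓
  have hne : 𝔓.under ℤ ≠ ⊤ := (Ideal.IsPrime.under ℤ 𝔓).ne_top
  exact ⟨hmax.eq_of_le hne hle⟩

variable (p q : ℕ) [Fact p.Prime] [Fact q.Prime]
variable (K : Type) [Field K] [NumberField K] [IsCyclotomicExtension {p} ℚ K]
variable [Algebra K F] [IsCyclotomicExtension {q} K F]

include K in
/-- The multiplicity of a prime `𝔓` of `𝓞 F` above `q` in `(q)` is `q - 1`. -/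
theorem emultiplicity_span_natCast (hpq : p ≠ q) (𝔓 : Ideal (𝓞 F)) [h𝔓 : 𝔓.IsPrime]
    (hq𝔓 : (q : 𝓞 F) ∈ 𝔓) :
    emultiplicity 𝔓 (Ideal.span {(q : 𝓞 F)}) = ((q - 1 : ℕ) : ℕ∞) := by
  have hp : p.Prime := Fact.out
  have hq : q.Prime := Fact.out
  have hq0 : (q : 𝓞 F) ≠ 0 := by exact_mod_cast hq.ne_zero
  have h𝔓0 : 𝔓 ≠ ⊥ := by
    rintro rfl
    exact hq0 ((Ideal.mem_bot).mp hq𝔓)
  have hprime : Prime 𝔓 := Ideal.prime_of_isPrime h𝔓0 h𝔓
  have hlies := liesOver_span_of_natCast_mem hq 𝔓 hq𝔓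
  have hcyc : IsCyclotomicExtension {p * q} ℚ F := TFO.isCyclotomicExtension_mul p q K F hpq
  have hndvd : ¬ q ∣ p := fun h => hpq ((Nat.prime_dvd_prime_iff_eq hq hp).mp h).symm
  have hram : 𝔓.ramificationIdx ℤ = q ^ 0 * (q - 1) :=
    IsCyclotomicExtension.Rat.ramificationIdx_eq (p * q) (m := p) (p := q) (k := 0) F 𝔓
      (by ring) hndvd
  have hmap : (Ideal.span {(q : ℤ)}).map (algebraMap ℤ (𝓞 F)) = Ideal.span {(q : 𝓞 F)} := by
    rw [Ideal.map_span, Set.image_singleton]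
    simp
  have hne : Ideal.span {(q : 𝓞 F)} ≠ ⊥ := by
    rw [Ne, Ideal.span_singleton_eq_bot]
    exact hq0
  have hmul := Ideal.IsDedekindDomain.ramificationIdx_eq_multiplicity (Ideal.span {(q : ℤ)}) 𝔓
    (by rw [hmap]; exact hne)
  rw [hmap, hram, pow_zero, one_mul] at hmul
  have hfin : FiniteMultiplicity 𝔓 (Ideal.span {(q : 𝓞 F)}) :=
    FiniteMultiplicity.of_prime_left hprime hne
  rw [hfin.emultiplicity_eq_multiplicity, ← hmul]

include K in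
/-- (C4) `π = b - 1` (for `b` a primitive `q`-th root of unity of `𝓞 F`) has multiplicity exactly
`1` at every prime `𝔓` of `𝓞 F` above `q`. -/
theorem emultiplicity_sub_one (hpq : p ≠ q) (𝔓 : Ideal (𝓞 F)) [h𝔓 : 𝔓.IsPrime]
    (hq𝔓 : (q : 𝓞 F) ∈ 𝔓) {b : 𝓞 F} (hb : IsPrimitiveRoot b q) :
    emultiplicity 𝔓 (Ideal.span {b - 1}) = 1 := by
  have hq : q.Prime := Fact.out
  have hb1 : b - 1 ∈ 𝔓 := sub_one_mem_of_pow_eq_one 𝔓 hq𝔓 hb.pow_eq_one
  have hmult := emultiplicity_span_natCast p q K hpq 𝔓 hq𝔓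
  have hdvd : Ideal.span {b - 1} ^ (q - 1) ∣ Ideal.span {(q : 𝓞 F)} := by
    rw [Ideal.span_singleton_pow, Ideal.dvd_iff_le, Ideal.span_singleton_le_span_singleton]
    exact sub_one_pow_dvd_natCast hq hb
  show emultiplicity 𝔓 (Ideal.span {b - 1}) = ((1 : ℕ) : ℕ∞)
  rw [emultiplicity_eq_coe]
  refine ⟨?_, fun h2 => ?_⟩
  · rw [pow_one, Ideal.dvd_iff_le, Ideal.span_singleton_le_iff_mem]
    exact hb1
  · have h3 : 𝔓 ^ (2 * (q - 1)) ∣ Ideal.span {(q : 𝓞 F)} := by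
      rw [pow_mul]
      exact (pow_dvd_pow_of_dvd h2 (q - 1)).trans hdvd
    have h4 := pow_dvd_iff_le_emultiplicity.mp h3
    rw [hmult] at h4
    have h5 : 2 * (q - 1) ≤ q - 1 := by exact_mod_cast h4
    have := hq.two_le
    omega

end Uniformizer

section Action

variable {F : Type} [Field F] [NumberField F]

omit [NumberField F] in
/-- (C5a) If `σ b = b ^ s` then `σ (b - 1) = (b - 1) * ε` with `ε = ∑_{i<s} b^i`. -/
theorem map_sub_one_eq {G : Type*} [FunLike G (𝓞 F) (𝓞 F)] [RingHomClass G (𝓞 F) (𝓞 F)] (σ : G)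
    {b : 𝓞 F} {s : ℕ} (hσ : σ b = b ^ s) :
    σ (b - 1) = (b - 1) * ∑ i ∈ Finset.range s, b ^ i := by
  rw [map_sub, map_one, hσ, mul_geom_sum]

omit [NumberField F] in
/-- (C5b) For a `q`-th root of unity `b` and a prime `𝔓 ∋ q`: `∑_{i<s} b^i ≡ s mod 𝔓`. -/
theorem geom_sum_sub_natCast_mem {q : ℕ} [Fact q.Prime] (𝔓 : Ideal (𝓞 F)) [h𝔓 : 𝔓.IsPrime]
    (hq𝔓 : (q : 𝓞 F) ∈ 𝔓) {b : 𝓞 F} (hb : b ^ q = 1) (s : ℕ) :
    (∑ i ∈ Finset.range s, b ^ i) - (s : 𝓞 F) ∈ 𝔓 := by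
  have h1 : (∑ i ∈ Finset.range s, b ^ i) - (s : 𝓞 F) = ∑ i ∈ Finset.range s, (b ^ i - 1) := by
    rw [Finset.sum_sub_distrib, Finset.sum_const, Finset.card_range, nsmul_eq_mul, mul_one]
  rw [h1]
  refine 𝔓.sum_mem fun i _ => ?_
  apply sub_one_mem_of_pow_eq_one 𝔓 hq𝔓
  rw [← pow_mul, mul_comm, pow_mul, hb, one_pow]

/-- (C5c) The integral form of `σ ζq = ζq ^ s`. -/
theorem galRestrict_toInteger {K : Type} [Field K] [NumberField K] [Algebra K F] {q : ℕ}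
    [NeZero q] {ζq : F} (hζq : IsPrimitiveRoot ζq q) (σ : F ≃ₐ[K] F) {s : ℕ}
    (hσ : σ ζq = ζq ^ s) :
    galRestrict (𝓞 K) K F (𝓞 F) σ hζq.toInteger = hζq.toInteger ^ s := by
  apply NumberField.RingOfIntegers.ext
  have h1 : algebraMap (𝓞 F) F (galRestrict (𝓞 K) K F (𝓞 F) σ hζq.toInteger) =
      σ (algebraMap (𝓞 F) F hζq.toInteger) := algebraMap_galRestrict_apply (𝓞 K) σ _
  show algebraMap (𝓞 F) F (galRestrict (𝓞 K) K F (𝓞 F) σ hζq.toInteger) =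
    algebraMap (𝓞 F) F (hζq.toInteger ^ s)
  rw [h1, map_pow]
  exact hσ

end Action

end Fermat.Agent.S14.ThCyc
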