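import Mathlib

/-!
# S14, slice T (Thaine), sub-slice F2: the norm `κ = N_{F/K} γ` away from `q`

`K = ℚ(ζ_p)`, `F` any `{q}`-cyclotomic extension of `K` (e.g. `CyclotomicField q K`), `q ≠ p`
prime.  If the principal ideal `(γ)` of `𝓞 F` is stable under `Gal(F/K)` (for instance
`u₁ · τ γ = u₂ · γ` with units `u₁, u₂` and `τ` a generator), then for every nonzero prime `P` of
`𝓞 K` not containing `q` the multiplicity of `P` in `(N_{F/K} γ)` is divisible by `[F : K] = q - 1`,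
hence by `p` when `p ∣ q - 1`.

* `isCyclotomicExtension_mul` : `F` is a `{p * q}`-cyclotomic extension of `ℚ`;
* `finrank_eq` : `[F : K] = q - 1`;
* `ramificationIdx_off` / `ramificationIdx_over` : `e(𝔓 | P) = 1` off `q`, `= q - 1` over `q`;
* `algebraMap_intNorm_eq`, `ramificationIdx_mul_multiplicity` : generic Galois statements;
* `multiplicity_off`, `multiplicity_over` : the multiplicities of `κ`.
-/

set_option autoImplicit false

open scoped NumberField nonZeroDivisors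

namespace Fermat.Agent.S14.TFO

section Setup

/-- (E1) `F = K(ζ_q) = ℚ(ζ_{pq})`. -/
theorem isCyclotomicExtension_mul (p q : ℕ) [Fact p.Prime] [Fact q.Prime]
    (K : Type) [Field K] [NumberField K] [IsCyclotomicExtension {p} ℚ K]
    (F : Type) [Field F] [NumberField F] [Algebra K F] [IsCyclotomicExtension {q} K F]
    (hpq : p ≠ q) : IsCyclotomicExtension {p * q} ℚ F := by
  have hp : p.Prime := Fact.out
  have hq : q.Prime := Fact.out
  have h1 : IsCyclotomicExtension ({p} ∪ {q}) ℚ F :=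
    IsCyclotomicExtension.trans {p} {q} ℚ K F (algebraMap K F).injective
  obtain ⟨ζp, hζp⟩ := h1.exists_isPrimitiveRoot (n := p) (by simp) hp.ne_zero
  obtain ⟨ζq, hζq⟩ := h1.exists_isPrimitiveRoot (n := q) (by simp) hq.ne_zero
  have hcop : Nat.Coprime p q := (Nat.coprime_primes hp hq).mpr hpq
  have hζ : IsPrimitiveRoot (ζp * ζq) (p * q) := by
    have h2 : orderOf (ζp * ζq) = p * q := by
      rw [(Commute.all ζp ζq).orderOf_mul_eq_mul_orderOf_of_coprime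
        (by rw [← hζp.eq_orderOf, ← hζq.eq_orderOf]; exact hcop),
        ← hζp.eq_orderOf, ← hζq.eq_orderOf]
    rw [← h2]
    exact IsPrimitiveRoot.orderOf _
  refine (IsCyclotomicExtension.iff_adjoin_eq_top _ _ _).2 ⟨fun n hn _ => ?_, ?_⟩
  · rw [Set.mem_singleton_iff] at hn
    subst hn
    exact ⟨_, hζ⟩
  · rw [eq_top_iff, ← ((IsCyclotomicExtension.iff_adjoin_eq_top _ _ _).1 h1).2]
    refine Algebra.adjoin_mono ?_
    rintro b ⟨n, hn, hn0, hb⟩
    refine ⟨p * q, rfl, mul_ne_zero hp.ne_zero hq.ne_zero, ?_⟩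
    rcases hn with hn | hn
    · rw [Set.mem_singleton_iff] at hn
      subst hn
      rw [pow_mul, hb, one_pow]
    · rw [Set.mem_singleton_iff] at hn
      subst hn
      rw [mul_comm, pow_mul, hb, one_pow]

/-- (E2) `[F : K] = q - 1`. -/
theorem finrank_eq (p q : ℕ) [Fact p.Prime] [Fact q.Prime]
    (K : Type) [Field K] [NumberField K] [IsCyclotomicExtension {p} ℚ K]
    (F : Type) [Field F] [NumberField F] [Algebra K F] [IsCyclotomicExtension {q} K F]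
    (hpq : p ≠ q) : Module.finrank K F = q - 1 := by
  have hp : p.Prime := Fact.out
  have hq : q.Prime := Fact.out
  have := isCyclotomicExtension_mul p q K F hpq
  have : NeZero (p * q) := ⟨mul_ne_zero hp.ne_zero hq.ne_zero⟩
  have : NeZero p := ⟨hp.ne_zero⟩
  have h1 : Module.finrank ℚ F = (p * q).totient := IsCyclotomicExtension.Rat.finrank (p * q) F
  have h2 : Module.finrank ℚ K = p.totient := IsCyclotomicExtension.Rat.finrank p K
  have h3 := Module.finrank_mul_finrank ℚ K F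
  have hcop : Nat.Coprime p q := (Nat.coprime_primes hp hq).mpr hpq
  rw [h1, h2, Nat.totient_mul hcop, Nat.totient_prime hq] at h3
  exact Nat.eq_of_mul_eq_mul_left (Nat.totient_pos.mpr hp.pos) h3

end Setup

/-- A nonzero prime of `𝓞 K` lies over a rational prime. -/
theorem exists_prime_liesOver {K : Type} [Field K] [NumberField K]
    (P : Ideal (𝓞 K)) (hP : P.IsPrime) (hP0 : P ≠ ⊥) :
    ∃ ℓ : ℕ, ℓ.Prime ∧ P.LiesOver (Ideal.span {(ℓ : ℤ)}) := by
  have h1 : (P.under ℤ).IsPrime := Ideal.IsPrime.under ℤ P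
  have h2 : P.under ℤ ≠ ⊥ := Ideal.under_ne_bot ℤ hP0
  obtain ⟨g, hg⟩ := (IsPrincipalIdealRing.principal (P.under ℤ)).principal
  have hg' : P.under ℤ = Ideal.span {g} := hg
  have hg0 : g ≠ 0 := by
    rintro rfl
    apply h2
    rw [hg']
    simp
  have hgp : Prime g := by
    rw [← Ideal.span_singleton_prime hg0, ← hg']
    exact h1
  refine ⟨g.natAbs, Int.prime_iff_natAbs_prime.mp hgp, ⟨?_⟩⟩
  rw [Int.span_natAbs, hg']

/-- (E3) `F/K` is unramified at the primes not above `q`. -/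
theorem ramificationIdx_off (p q : ℕ) [Fact p.Prime] [Fact q.Prime]
    {K : Type} [Field K] [NumberField K] [IsCyclotomicExtension {p} ℚ K]
    {F : Type} [Field F] [NumberField F] [Algebra K F] [IsCyclotomicExtension {q} K F]
    (hpq : p ≠ q) (P : Ideal (𝓞 K)) (hP : P.IsPrime) (hP0 : P ≠ ⊥) (hq : (q : 𝓞 K) ∉ P)
    (𝔓 : Ideal (𝓞 F)) (h𝔓 : 𝔓.IsPrime) (hover : 𝔓.LiesOver P) :
    𝔓.ramificationIdx (𝓞 K) = 1 := by
  have hp : p.Prime := Fact.out
  have hqp : q.Prime := Fact.out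
  obtain ⟨ℓ, hℓ, hPℓ⟩ := exists_prime_liesOver P hP hP0
  have : Fact ℓ.Prime := ⟨hℓ⟩
  have h𝔓ℓ : 𝔓.LiesOver (Ideal.span {(ℓ : ℤ)}) := Ideal.LiesOver.trans 𝔓 P _
  have hℓq : ℓ ≠ q := by
    rintro rfl
    apply hq
    have h1 : ((ℓ : ℤ)) ∈ P.under ℤ := by
      rw [← hPℓ.over]
      exact Ideal.mem_span_singleton_self _
    have h2 := Ideal.mem_comap.mp h1
    simpa using h2
  have htower : 𝔓.ramificationIdx ℤ = P.ramificationIdx ℤ * 𝔓.ramificationIdx (𝓞 K) :=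
    Ideal.ramificationIdx_tower P 𝔓
  have := isCyclotomicExtension_mul p q K F hpq
  have : NeZero (p * q) := ⟨mul_ne_zero hp.ne_zero hqp.ne_zero⟩
  have : NeZero p := ⟨hp.ne_zero⟩
  by_cases hℓp : ℓ = p
  · subst hℓp
    have e1 : 𝔓.ramificationIdx ℤ = ℓ ^ 0 * (ℓ - 1) :=
      IsCyclotomicExtension.Rat.ramificationIdx_eq (ℓ * q) F 𝔓 (m := q) (k := 0) (by ring)
        (fun h => hpq ((Nat.prime_dvd_prime_iff_eq hp hqp).mp h))
    have e2 : P.ramificationIdx ℤ = ℓ - 1 :=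
      IsCyclotomicExtension.Rat.ramificationIdx_eq_of_prime ℓ K P
    rw [e1, e2, pow_zero, one_mul] at htower
    have hpos : 0 < ℓ - 1 := by have := hp.two_le; omega
    exact (Nat.eq_of_mul_eq_mul_left hpos (by rw [mul_one]; exact htower)).symm
  · have e1 : 𝔓.ramificationIdx ℤ = 1 :=
      IsCyclotomicExtension.Rat.ramificationIdx_eq_of_not_dvd ℓ F 𝔓 (m := p * q)
        (fun h => by
          rcases (Nat.Prime.dvd_mul hℓ).mp h with h | h
          · exact hℓp ((Nat.prime_dvd_prime_iff_eq hℓ hp).mp h)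
          · exact hℓq ((Nat.prime_dvd_prime_iff_eq hℓ hqp).mp h))
    rw [e1] at htower
    exact Nat.eq_one_of_mul_eq_one_left htower.symm

/-- (E3') `F/K` is totally ramified at the primes above `q`. -/
theorem ramificationIdx_over (p q : ℕ) [Fact p.Prime] [Fact q.Prime]
    {K : Type} [Field K] [NumberField K] [IsCyclotomicExtension {p} ℚ K]
    {F : Type} [Field F] [NumberField F] [Algebra K F] [IsCyclotomicExtension {q} K F]
    (hpq : p ≠ q) (P : Ideal (𝓞 K)) (hP : P.IsPrime) (hq : (q : 𝓞 K) ∈ P)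
    (𝔓 : Ideal (𝓞 F)) (h𝔓 : 𝔓.IsPrime) (hover : 𝔓.LiesOver P) :
    𝔓.ramificationIdx (𝓞 K) = q - 1 := by
  have hp : p.Prime := Fact.out
  have hqp : q.Prime := Fact.out
  have hPq : P.LiesOver (Ideal.span {(q : ℤ)}) := by
    refine ⟨?_⟩
    have hmax : (Ideal.span {(q : ℤ)}).IsMaximal :=
      Int.ideal_span_isMaximal_of_prime q
    refine hmax.eq_of_le (Ideal.IsPrime.under ℤ P).ne_top ?_
    rw [Ideal.span_singleton_le_iff_mem]
    exact Ideal.mem_comap.mpr (by simpa using hq)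
  have h𝔓q : 𝔓.LiesOver (Ideal.span {(q : ℤ)}) := Ideal.LiesOver.trans 𝔓 P _
  have htower : 𝔓.ramificationIdx ℤ = P.ramificationIdx ℤ * 𝔓.ramificationIdx (𝓞 K) :=
    Ideal.ramificationIdx_tower P 𝔓
  have := isCyclotomicExtension_mul p q K F hpq
  have : NeZero (p * q) := ⟨mul_ne_zero hp.ne_zero hqp.ne_zero⟩
  have : NeZero p := ⟨hp.ne_zero⟩
  have hqp' : ¬ q ∣ p := fun h => hpq ((Nat.prime_dvd_prime_iff_eq hqp hp).mp h).symm
  have e1 : 𝔓.ramificationIdx ℤ = q ^ 0 * (q - 1) :=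
    IsCyclotomicExtension.Rat.ramificationIdx_eq (p * q) F 𝔓 (m := p) (k := 0) (by ring) hqp'
  have e2 : P.ramificationIdx ℤ = 1 :=
    IsCyclotomicExtension.Rat.ramificationIdx_eq_of_not_dvd q K P (m := p) hqp'
  rw [e1, e2, pow_zero, one_mul, one_mul] at htower
  exact htower.symm

section Generic

variable {K : Type} [Field K] [NumberField K]
variable {F : Type} [Field F] [NumberField F] [Algebra K F]

/-- (E4a) If the ideal `(γ)` is Galois-invariant, the norm of `γ` is a unit times `γ ^ [F : K]`. -/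
theorem algebraMap_intNorm_eq [IsGalois K F] (γ : 𝓞 F)
    (hinv : ∀ σ : F ≃ₐ[K] F, ∃ u : (𝓞 F)ˣ, σ (γ : F) = (u : F) * (γ : F)) :
    ∃ U : (𝓞 F)ˣ, algebraMap (𝓞 K) (𝓞 F) (Algebra.intNorm (𝓞 K) (𝓞 F) γ) =
      (U : 𝓞 F) * γ ^ Module.finrank K F := by
  classical
  choose u hu using hinv
  refine ⟨∏ σ : F ≃ₐ[K] F, u σ, ?_⟩
  apply NumberField.RingOfIntegers.coe_injective
  have h1 : ((algebraMap (𝓞 K) (𝓞 F) (Algebra.intNorm (𝓞 K) (𝓞 F) γ) : 𝓞 F) : F) =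
      algebraMap K F (Algebra.norm K (γ : F)) := by
    rw [← Algebra.algebraMap_intNorm (A := 𝓞 K) (K := K) (L := F) (B := 𝓞 F) γ]
    rfl
  refine h1.trans ?_
  rw [Algebra.norm_eq_prod_automorphisms]
  simp only [hu]
  rw [Finset.prod_mul_distrib, Finset.prod_const, Finset.card_univ,
    ← Nat.card_eq_fintype_card, IsGalois.card_aut_eq_finrank]
  simp

/-- (E4b) multiplicities: `e(𝔓|P) · v_P(N γ) = [F : K] · v_𝔓(γ)`. -/
theorem ramificationIdx_mul_multiplicity [IsGalois K F] (γ : 𝓞 F) (hγ : γ ≠ 0)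
    (hinv : ∀ σ : F ≃ₐ[K] F, ∃ u : (𝓞 F)ˣ, σ (γ : F) = (u : F) * (γ : F))
    (P : Ideal (𝓞 K)) (hP : P.IsPrime) (hP0 : P ≠ ⊥)
    (𝔓 : Ideal (𝓞 F)) (h𝔓 : 𝔓.IsPrime) (hover : 𝔓.LiesOver P) :
    𝔓.ramificationIdx (𝓞 K) * multiplicity P (Ideal.span {Algebra.intNorm (𝓞 K) (𝓞 F) γ}) =
      Module.finrank K F * multiplicity 𝔓 (Ideal.span {γ}) := by
  obtain ⟨U, hU⟩ := algebraMap_intNorm_eq γ hinv
  have hκ : Algebra.intNorm (𝓞 K) (𝓞 F) γ ≠ 0 := Algebra.intNorm_ne_zero.mpr hγ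
  have hκ' : Ideal.span {Algebra.intNorm (𝓞 K) (𝓞 F) γ} ≠ ⊥ := by
    rwa [Ne, Ideal.span_singleton_eq_bot]
  have hγ' : Ideal.span {γ} ≠ ⊥ := by
    rwa [Ne, Ideal.span_singleton_eq_bot]
  have h𝔓0 : 𝔓 ≠ ⊥ := by
    intro h
    apply hP0
    rw [hover.over, h]
    exact Ideal.under_bot _ _
  have hPp : Prime P := Ideal.prime_of_isPrime hP0 hP
  have h𝔓p : Prime 𝔓 := Ideal.prime_of_isPrime h𝔓0 h𝔓
  have hmap : (Ideal.span {Algebra.intNorm (𝓞 K) (𝓞 F) γ}).map (algebraMap (𝓞 K) (𝓞 F)) =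
      Ideal.span {γ} ^ Module.finrank K F := by
    rw [Ideal.map_span, Set.image_singleton, hU, Ideal.span_singleton_mul_left_unit U.isUnit,
      Ideal.span_singleton_pow]
  have h1 := Ideal.IsDedekindDomain.emultiplicity_map_eq_ramificationIdx'_mul hκ'
    hPp.irreducible h𝔓p.irreducible h𝔓0 (w := 𝔓) (v := P)
  rw [hmap, emultiplicity_pow h𝔓p, Ideal.ramificationIdx'_eq_ramificationIdx P 𝔓 hP0] at h1
  have f1 : FiniteMultiplicity 𝔓 (Ideal.span {γ}) :=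
    FiniteMultiplicity.of_prime_left h𝔓p hγ'
  have f2 : FiniteMultiplicity P (Ideal.span {Algebra.intNorm (𝓞 K) (𝓞 F) γ}) :=
    FiniteMultiplicity.of_prime_left hPp hκ'
  rw [f1.emultiplicity_eq_multiplicity, f2.emultiplicity_eq_multiplicity] at h1
  exact_mod_cast h1.symm

end Generic

section Main

variable (p q : ℕ) [Fact p.Prime] [Fact q.Prime]
variable {K : Type} [Field K] [NumberField K] [IsCyclotomicExtension {p} ℚ K]
variable {F : Type} [Field F] [NumberField F] [Algebra K F] [IsCyclotomicExtension {q} K F]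

/-- Galois-invariance of `(γ)` from a single relation `τ γ = u · γ` with `τ` a generator. -/
theorem hinv_of_gen {K : Type} [Field K] {F : Type} [Field F] [NumberField F] [Algebra K F]
    [FiniteDimensional K F]
    (γ : 𝓞 F) (τ : F ≃ₐ[K] F) (hτ : ∀ σ : F ≃ₐ[K] F, σ ∈ Subgroup.zpowers τ)
    (u : (𝓞 F)ˣ) (h : τ (γ : F) = (u : F) * (γ : F)) :
    ∀ σ : F ≃ₐ[K] F, ∃ u : (𝓞 F)ˣ, σ (γ : F) = (u : F) * (γ : F) := by
  have key : ∀ k : ℕ, ∃ w : (𝓞 F)ˣ, (τ ^ k) (γ : F) = (w : F) * (γ : F) := by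
    intro k
    induction k with
    | zero => exact ⟨1, by simp⟩
    | succ k ih =>
      obtain ⟨w, hw⟩ := ih
      refine ⟨Units.map
        (NumberField.RingOfIntegers.mapRingEquiv (τ ^ k).toRingEquiv).toMonoidHom u * w, ?_⟩
      rw [pow_succ, AlgEquiv.mul_apply, h, map_mul, hw]
      simp only [Units.val_mul, Units.coe_map, map_mul]
      rw [mul_assoc]
      rfl
  intro σ
  obtain ⟨k, rfl⟩ := mem_powers_iff_mem_zpowers.mpr (hτ σ)
  exact key k

/-- Variant of `hinv_of_gen` for a relation `u₁ · τ γ = u₂ · γ`. -/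
theorem hinv_of_gen' {K : Type} [Field K] {F : Type} [Field F] [NumberField F] [Algebra K F]
    [FiniteDimensional K F]
    (γ : 𝓞 F) (τ : F ≃ₐ[K] F) (hτ : ∀ σ : F ≃ₐ[K] F, σ ∈ Subgroup.zpowers τ)
    (u₁ u₂ : (𝓞 F)ˣ) (h : (u₁ : F) * τ (γ : F) = (u₂ : F) * (γ : F)) :
    ∀ σ : F ≃ₐ[K] F, ∃ u : (𝓞 F)ˣ, σ (γ : F) = (u : F) * (γ : F) := by
  refine hinv_of_gen γ τ hτ (u₁⁻¹ * u₂) ?_
  have h1 : ((u₁ : 𝓞 F) : F) ≠ 0 := by
    simp
  have h2 : (((u₁⁻¹ : (𝓞 F)ˣ) : 𝓞 F) : F) * ((u₁ : 𝓞 F) : F) = 1 := by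
    rw [← map_mul, Units.inv_mul, map_one]
  apply mul_left_cancel₀ h1
  rw [h]
  simp only [Units.val_mul, map_mul]
  rw [← mul_assoc, ← mul_assoc, mul_comm ((algebraMap (𝓞 F) F) (u₁ : 𝓞 F)), h2, one_mul]

/-- **(F2)** the multiplicity of `κ = N_{F/K} γ` at a prime of `𝓞 K` not above `q` is divisible
by `p`. -/
theorem multiplicity_off (hpq : p ≠ q) (hdvd : p ∣ q - 1) (γ : 𝓞 F) (hγ : γ ≠ 0)
    (hinv : ∀ σ : F ≃ₐ[K] F, ∃ u : (𝓞 F)ˣ, σ (γ : F) = (u : F) * (γ : F))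
    (P : Ideal (𝓞 K)) (hP : P.IsPrime) (hP0 : P ≠ ⊥) (hq : (q : 𝓞 K) ∉ P) :
    p ∣ multiplicity P (Ideal.span {Algebra.intNorm (𝓞 K) (𝓞 F) γ}) := by
  have : IsGalois K F := IsCyclotomicExtension.isGalois {q} K F
  have : P.IsMaximal := hP.isMaximal hP0
  obtain ⟨𝔓, h𝔓max, hover⟩ := Ideal.exists_maximal_ideal_liesOver_of_isIntegral P (S := 𝓞 F)
  have h𝔓 : 𝔓.IsPrime := h𝔓max.isPrime
  have h1 := ramificationIdx_mul_multiplicity γ hγ hinv P hP hP0 𝔓 h𝔓 hover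
  rw [ramificationIdx_off p q hpq P hP hP0 hq 𝔓 h𝔓 hover, one_mul, finrank_eq p q K F hpq] at h1
  rw [h1]
  exact Dvd.dvd.mul_right hdvd _

/-- **(F3, multiplicity part)** at a prime `P` of `𝓞 K` above `q` and any prime `𝔓` of `𝓞 F`
above `P`: `v_P(κ) = v_𝔓(γ)`. -/
theorem multiplicity_over (hpq : p ≠ q) (γ : 𝓞 F) (hγ : γ ≠ 0)
    (hinv : ∀ σ : F ≃ₐ[K] F, ∃ u : (𝓞 F)ˣ, σ (γ : F) = (u : F) * (γ : F))
    (P : Ideal (𝓞 K)) (hP : P.IsPrime) (hP0 : P ≠ ⊥) (hq : (q : 𝓞 K) ∈ P)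
    (𝔓 : Ideal (𝓞 F)) (h𝔓 : 𝔓.IsPrime) (hover : 𝔓.LiesOver P) :
    multiplicity P (Ideal.span {Algebra.intNorm (𝓞 K) (𝓞 F) γ}) =
      multiplicity 𝔓 (Ideal.span {γ}) := by
  have : IsGalois K F := IsCyclotomicExtension.isGalois {q} K F
  have hqp : q.Prime := Fact.out
  have h1 := ramificationIdx_mul_multiplicity γ hγ hinv P hP hP0 𝔓 h𝔓 hover
  rw [ramificationIdx_over p q hpq P hP hq 𝔓 h𝔓 hover, finrank_eq p q K F hpq] at h1
  exact Nat.eq_of_mul_eq_mul_left (by have := hqp.two_le; omega) h1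

end Main

end Fermat.Agent.S14.TFO
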