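import Fermat.Agent.S14.AIface

/-!
# S14, slice A5: lower density of the rational primes above which `χ` is non-trivial

`xLower`: from the interface statements `IdealSummable K` (A0), `DirichletLower p` (A2),
`ClassLBounded K` (A3) and `EulerLower K` (A4) we deduce `XLower p hζ` (AIface).

Sketch. For `j ≠ 0` let `ψ_j = e(j χ / p)`, a non-trivial character of the class group. A3 and A4
give `∑'_v Re ψ_j(v) N v^(-s) ≤ log C_j + C₄`; summing over `j ≠ 0` (orthogonality) gives
`∑'_v (p [χ v = 1] - 1) N v^(-s) ≤ B`, i.e. `(p - 1) A - B ≤ p A_N` where `A` is the sum of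
`N v^(-s)` over all primes and `A_N` the sum over the primes with `χ v ≠ 1`. Grouping the primes
by the rational prime below them: `A ≥ (p - 1) ∑_{q ≡ 1 (p)} q^(-s)` (such `q` split completely in
`ℚ(ζ_p)`) and `A_N ≤ (p - 1) (∑_{q ∈ X} q^(-s) + τ)` (the primes over `q ≢ 1` have norm `≥ q²` or
lie over `p`). With A2 this gives `∑_{q ∈ X} q^(-s) ≥ log (1/(s-1)) / p - C`.
-/

set_option autoImplicit false
set_option linter.unusedSectionVars false
set_option linter.style.haveILetI false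

open scoped NumberField nonZeroDivisors

namespace Fermat.Agent.S14.A5

open Ideal

/-! ### The rational prime below a prime ideal -/

section NT

variable (K : Type) [Field K] [NumberField K]

/-- The rational prime below a nonzero prime ideal. -/
noncomputable def ratPrime (v : PrimeIdeal K) : ℕ :=
  Ideal.absNorm (Ideal.under ℤ (v.1 : Ideal (𝓞 K)))

variable {K}

theorem primeIdeal_ne_bot (v : PrimeIdeal K) : (v.1 : Ideal (𝓞 K)) ≠ ⊥ :=
  mem_nonZeroDivisors_iff_ne_zero.mp v.1.2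

theorem ratPrime_prime (v : PrimeIdeal K) : (ratPrime K v).Prime := by
  haveI : (v.1 : Ideal (𝓞 K)).IsPrime := v.2
  haveI : NeZero (v.1 : Ideal (𝓞 K)) := ⟨primeIdeal_ne_bot v⟩
  exact Nat.absNorm_under_prime _

theorem ratPrime_mem (v : PrimeIdeal K) : ((ratPrime K v : ℕ) : 𝓞 K) ∈ (v.1 : Ideal (𝓞 K)) :=
  Int.absNorm_under_mem _

theorem ratPrime_liesOver (v : PrimeIdeal K) :
    (v.1 : Ideal (𝓞 K)).LiesOver (span {((ratPrime K v : ℕ) : ℤ)}) :=
  Int.liesOver_span_absNorm _

theorem ratPrime_eq_of_liesOver (v : PrimeIdeal K) {q : ℕ}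
    (h : (v.1 : Ideal (𝓞 K)).LiesOver (span {(q : ℤ)})) : ratPrime K v = q := by
  unfold ratPrime
  rw [← h.over]
  simp

/-- The norm of a prime is the rational prime below it to the inertia degree. -/
theorem absNorm_eq_ratPrime_pow (v : PrimeIdeal K) :
    Ideal.absNorm (v.1 : Ideal (𝓞 K)) =
      ratPrime K v ^ (v.1 : Ideal (𝓞 K)).inertiaDeg ℤ := by
  haveI : (v.1 : Ideal (𝓞 K)).IsPrime := v.2
  haveI := ratPrime_liesOver v
  have h := Ideal.absNorm_pow_inertiaDeg (span {((ratPrime K v : ℕ) : ℤ)}) (v.1 : Ideal (𝓞 K))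
  rw [← h]
  simp

theorem one_le_absNorm (v : PrimeIdeal K) : 1 ≤ Ideal.absNorm (v.1 : Ideal (𝓞 K)) := by
  rw [absNorm_eq_ratPrime_pow]
  exact Nat.one_le_pow _ _ (ratPrime_prime v).pos

theorem coe_injective' :
    Function.Injective (fun v : PrimeIdeal K => (v.1 : Ideal (𝓞 K))) :=
  Subtype.coe_injective.comp Subtype.coe_injective

theorem image_above (q : ℕ) (hq : q.Prime) :
    (fun v : PrimeIdeal K => (v.1 : Ideal (𝓞 K))) '' {v : PrimeIdeal K | ratPrime K v = q} =
      primesOver (span {(q : ℤ)}) (𝓞 K) := by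
  ext P
  constructor
  · rintro ⟨v, hv, rfl⟩
    have hv' : ratPrime K v = q := hv
    refine ⟨v.2, ?_⟩
    rw [← hv']
    exact ratPrime_liesOver v
  · rintro ⟨hP1, hP2⟩
    have hq0 : (span {(q : ℤ)} : Ideal ℤ) ≠ ⊥ := by
      simp [hq.ne_zero]
    have hPne : P ≠ ⊥ := Ideal.ne_bot_of_mem_primesOver hq0 ⟨hP1, hP2⟩
    refine ⟨⟨⟨P, mem_nonZeroDivisors_iff_ne_zero.mpr hPne⟩, hP1⟩, ?_, rfl⟩
    exact ratPrime_eq_of_liesOver _ hP2

theorem above_eq_empty (q : ℕ) (hq : ¬ q.Prime) :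
    {v : PrimeIdeal K | ratPrime K v = q} = ∅ := by
  refine Set.eq_empty_of_forall_notMem (fun v hv => ?_)
  have hv' : ratPrime K v = q := hv
  exact hq (hv' ▸ ratPrime_prime v)

theorem finite_above (q : ℕ) : {v : PrimeIdeal K | ratPrime K v = q}.Finite := by
  by_cases hq : q.Prime
  · have : Fact q.Prime := ⟨hq⟩
    have hfin : (primesOver (span {(q : ℤ)}) (𝓞 K)).Finite :=
      IsDedekindDomain.primesOver_finite _ _
    rw [← image_above q hq] at hfin
    exact Set.Finite.of_finite_image hfin (coe_injective'.injOn)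
  · rw [above_eq_empty q hq]
    exact Set.finite_empty

theorem ncard_above (q : ℕ) (hq : q.Prime) :
    {v : PrimeIdeal K | ratPrime K v = q}.ncard = (primesOver (span {(q : ℤ)}) (𝓞 K)).ncard := by
  rw [← image_above q hq, Set.ncard_image_of_injective _ coe_injective']

end NT

/-! ### Splitting of rational primes in `ℚ(ζ_p)` -/

section Cyc

variable (p : ℕ) [hp : Fact p.Prime]
variable {K : Type} [Field K] [NumberField K] [hK : IsCyclotomicExtension {p} ℚ K]

theorem ne_of_modEq_one {q : ℕ} (h1 : q ≡ 1 [MOD p]) : q ≠ p := by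
  have hp1 : 1 < p := hp.out.one_lt
  intro h
  rw [h] at h1
  unfold Nat.ModEq at h1
  rw [Nat.mod_self, Nat.mod_eq_of_lt hp1] at h1
  exact absurd h1 (by norm_num)

include hK in
theorem inertiaDeg_eq_orderOf (v : PrimeIdeal K) (hne : ratPrime K v ≠ p) :
    (v.1 : Ideal (𝓞 K)).inertiaDeg ℤ = orderOf ((ratPrime K v : ℕ) : ZMod p) := by
  have : (v.1 : Ideal (𝓞 K)).IsPrime := v.2
  have := ratPrime_liesOver v
  have : Fact (ratPrime K v).Prime := ⟨ratPrime_prime v⟩
  have : NeZero p := ⟨hp.out.ne_zero⟩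
  have hnd : ¬ ratPrime K v ∣ p := by
    intro h
    exact hne ((Nat.prime_dvd_prime_iff_eq (ratPrime_prime v) hp.out).mp h)
  exact IsCyclotomicExtension.Rat.inertiaDeg_eq_of_not_dvd (ratPrime K v) K _ hnd

include hK in
theorem absNorm_of_one_mod (v : PrimeIdeal K) (h1 : ratPrime K v ≡ 1 [MOD p]) :
    Ideal.absNorm (v.1 : Ideal (𝓞 K)) = ratPrime K v := by
  rw [absNorm_eq_ratPrime_pow, inertiaDeg_eq_orderOf p v (ne_of_modEq_one p h1)]
  have : ((ratPrime K v : ℕ) : ZMod p) = 1 := by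
    have := (ZMod.natCast_eq_natCast_iff _ 1 p).mpr h1
    simpa using this
  rw [this, orderOf_one, pow_one]

include hK in
theorem sq_le_absNorm (v : PrimeIdeal K) (hne : ratPrime K v ≠ p)
    (h1 : ¬ ratPrime K v ≡ 1 [MOD p]) :
    ratPrime K v ^ 2 ≤ Ideal.absNorm (v.1 : Ideal (𝓞 K)) := by
  have : (v.1 : Ideal (𝓞 K)).IsPrime := v.2
  have h0 : orderOf ((ratPrime K v : ℕ) : ZMod p) ≠ 0 := by
    rw [← inertiaDeg_eq_orderOf p v hne]
    exact (Ideal.inertiaDeg_pos _ ℤ).ne'
  rw [absNorm_eq_ratPrime_pow, inertiaDeg_eq_orderOf p v hne]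
  apply Nat.pow_le_pow_right (ratPrime_prime v).pos
  have h1' : orderOf ((ratPrime K v : ℕ) : ZMod p) ≠ 1 := by
    intro h
    rw [orderOf_eq_one_iff] at h
    apply h1
    exact (ZMod.natCast_eq_natCast_iff (ratPrime K v) 1 p).mp (by simpa using h)
  omega

include hK in
theorem card_gal : Nat.card (K ≃ₐ[ℚ] K) = p - 1 := by
  have : NeZero p := ⟨hp.out.ne_zero⟩
  have : IsGalois ℚ K := IsCyclotomicExtension.isGalois {p} ℚ K
  rw [IsGalois.card_aut_eq_finrank,
    IsCyclotomicExtension.finrank K (Polynomial.cyclotomic.irreducible_rat hp.out.pos),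
    Nat.totient_prime hp.out]

include hK in
theorem ncard_above_mul (q : ℕ) (hq : q.Prime) :
    {v : PrimeIdeal K | ratPrime K v = q}.ncard *
      ((span {(q : ℤ)}).ramificationIdxIn (𝓞 K) * (span {(q : ℤ)}).inertiaDegIn (𝓞 K)) = p - 1 := by
  have : Fact q.Prime := ⟨hq⟩
  have : IsGalois ℚ K := IsCyclotomicExtension.isGalois {p} ℚ K
  rw [ncard_above q hq, ← card_gal p (K := K)]
  exact Ideal.ncard_primesOver_mul_ramificationIdxIn_mul_inertiaDegIn (span {(q : ℤ)}) (𝓞 K)
    (K ≃ₐ[ℚ] K)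

include hK in
/-- At most `p - 1` primes lie above a rational prime. -/
theorem ncard_above_le (q : ℕ) : {v : PrimeIdeal K | ratPrime K v = q}.ncard ≤ p - 1 := by
  by_cases hq : q.Prime
  · have h := ncard_above_mul p (K := K) q hq
    have hpos : 0 < p - 1 := Nat.sub_pos_of_lt hp.out.one_lt
    exact Nat.le_of_dvd hpos (Dvd.intro _ h)
  · rw [above_eq_empty q hq]; simp

include hK in
/-- Exactly `p - 1` primes lie above a rational prime `q ≡ 1 mod p`. -/
theorem ncard_above_eq (q : ℕ) (hq : q.Prime) (h1 : q ≡ 1 [MOD p]) :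
    {v : PrimeIdeal K | ratPrime K v = q}.ncard = p - 1 := by
  have : Fact q.Prime := ⟨hq⟩
  have : NeZero p := ⟨hp.out.ne_zero⟩
  have hnd : ¬ q ∣ p := by
    intro h
    exact ne_of_modEq_one p h1 ((Nat.prime_dvd_prime_iff_eq hq hp.out).mp h)
  have h := ncard_above_mul p (K := K) q hq
  rw [IsCyclotomicExtension.Rat.ramificationIdxIn_eq_of_not_dvd q K hnd,
    IsCyclotomicExtension.Rat.inertiaDegIn_eq_of_not_dvd q K hnd] at h
  have h3 : ((q : ℕ) : ZMod p) = 1 := by
    have := (ZMod.natCast_eq_natCast_iff q 1 p).mpr h1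
    simpa using this
  rw [h3, orderOf_one] at h
  simpa using h

end Cyc

/-! ### The complex characters `e(j χ / p)` -/

section Char

variable (p : ℕ) [hp : Fact p.Prime]
variable {K : Type} [Field K] [NumberField K]

/-- The complex character `e(j χ / p)`. -/
noncomputable def twist (χ : ClassGroup (𝓞 K) →* Multiplicative (ZMod p)) (j : ZMod p) :
    ClassGroup (𝓞 K) →* ℂˣ :=
  haveI : NeZero p := ⟨hp.out.ne_zero⟩
  (((ZMod.stdAddChar (N := p)).mulShift j).toMonoidHom.toHomUnits).comp χ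

theorem twist_coe (χ : ClassGroup (𝓞 K) →* Multiplicative (ZMod p)) (j : ZMod p)
    (c : ClassGroup (𝓞 K)) :
    haveI : NeZero p := ⟨hp.out.ne_zero⟩
    ((twist p χ j c : ℂˣ) : ℂ) = ZMod.stdAddChar (N := p) (j * Multiplicative.toAdd (χ c)) := by
  rfl

theorem norm_twist (χ : ClassGroup (𝓞 K) →* Multiplicative (ZMod p)) (j : ZMod p)
    (c : ClassGroup (𝓞 K)) : ‖((twist p χ j c : ℂˣ) : ℂ)‖ = 1 := by
  haveI : NeZero p := ⟨hp.out.ne_zero⟩
  rw [twist_coe, ZMod.stdAddChar_apply]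
  exact Circle.norm_coe _

/-- Orthogonality: the non-trivial twists sum to `p [χ c = 1] - 1`. -/
theorem sum_twist_re (χ : ClassGroup (𝓞 K) →* Multiplicative (ZMod p)) (c : ClassGroup (𝓞 K)) :
    ∑ j ∈ (Finset.univ : Finset (ZMod p)).erase 0, ((twist p χ j c : ℂˣ) : ℂ).re =
      (if χ c = 1 then (p : ℝ) else 0) - 1 := by
  haveI : NeZero p := ⟨hp.out.ne_zero⟩
  rw [Finset.sum_erase_eq_sub (Finset.mem_univ _)]
  have h0 : ((twist p χ 0 c : ℂˣ) : ℂ).re = 1 := by
    rw [twist_coe]; simp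
  rw [h0]
  congr 1
  rw [← Complex.re_sum]
  simp_rw [twist_coe]
  rw [AddChar.sum_mulShift _ (ZMod.isPrimitive_stdAddChar p), ZMod.card]
  by_cases h : χ c = 1
  · simp [h]
  · have : Multiplicative.toAdd (χ c) ≠ 0 := fun h' => h (by simpa using h')
    simp [h, this]

theorem twist_ne_one (χ : ClassGroup (𝓞 K) →* Multiplicative (ZMod p)) (j : ZMod p) (hj : j ≠ 0)
    (hne : ∃ c, χ c ≠ 1) : ∃ c, twist p χ j c ≠ 1 := by
  haveI : NeZero p := ⟨hp.out.ne_zero⟩
  obtain ⟨c, hc⟩ := hne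
  refine ⟨c, fun h => ?_⟩
  have h1 : ((twist p χ j c : ℂˣ) : ℂ) = 1 := by rw [h]; rfl
  rw [twist_coe] at h1
  have h2 : ZMod.stdAddChar (N := p) (j * Multiplicative.toAdd (χ c)) =
      ZMod.stdAddChar (N := p) 0 := by
    rw [h1]; simp
  have h3 := ZMod.injective_stdAddChar h2
  rcases mul_eq_zero.mp h3 with h4 | h4
  · exact hj h4
  · exact hc (by simpa using h4)

end Char

/-! ### Grouping the primes of `K` by the rational prime below -/

section An

variable (p : ℕ) [hp : Fact p.Prime]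
variable {K : Type} [Field K] [NumberField K] [hK : IsCyclotomicExtension {p} ℚ K]

theorem normPow_nonneg (I : (Ideal (𝓞 K))⁰) (s : ℝ) : 0 ≤ normPow K I s := by
  unfold normPow
  positivity

include hK in
/-- (I): the primes of norm `q ≡ 1 mod p` contribute `(p-1) ∑ q^(-s)`. -/
theorem mul_tsum_le (s : ℝ)
    (hsum : Summable fun v : PrimeIdeal K => normPow K v.1 s) :
    ((p : ℝ) - 1) * ∑' q : {q : ℕ // q.Prime ∧ q ≡ 1 [MOD p]}, ((q : ℕ) : ℝ) ^ (-s) ≤
      ∑' v : PrimeIdeal K, normPow K v.1 s := by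
  have hp1 : (0 : ℝ) < (p : ℝ) - 1 := by
    have : (1 : ℝ) < p := by exact_mod_cast hp.out.one_lt
    linarith
  rw [← le_div_iff₀' hp1]
  refine Real.tsum_le_of_sum_le (fun q => by positivity) (fun u => ?_)
  rw [le_div_iff₀' hp1]
  classical
  set W : Finset (PrimeIdeal K) := u.biUnion (fun q => (finite_above (K := K) q.1).toFinset)
    with hW
  have hdisj : Set.PairwiseDisjoint (u : Set {q : ℕ // q.Prime ∧ q ≡ 1 [MOD p]})
      (fun q => (finite_above (K := K) q.1).toFinset) := by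
    intro q _ q' _ hqq'
    rw [Function.onFun, Finset.disjoint_left]
    intro v hv hv'
    rw [Set.Finite.mem_toFinset] at hv hv'
    exact hqq' (Subtype.ext (hv.symm.trans hv'))
  have hsumW : ∑ v ∈ W, normPow K v.1 s = ((p : ℝ) - 1) * ∑ q ∈ u, ((q : ℕ) : ℝ) ^ (-s) := by
    rw [hW, Finset.sum_biUnion hdisj, Finset.mul_sum]
    refine Finset.sum_congr rfl (fun q _ => ?_)
    have hconst : ∀ v ∈ (finite_above (K := K) q.1).toFinset,
        normPow K v.1 s = ((q : ℕ) : ℝ) ^ (-s) := by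
      intro v hv
      rw [Set.Finite.mem_toFinset] at hv
      have hv' : ratPrime K v = q.1 := hv
      unfold normPow
      rw [absNorm_of_one_mod p v (hv' ▸ q.2.2), hv']
    rw [Finset.sum_congr rfl hconst, Finset.sum_const, nsmul_eq_mul,
      ← Set.ncard_eq_toFinset_card _ (finite_above (K := K) q.1),
      ncard_above_eq p (K := K) q.1 q.2.1 q.2.2, Nat.cast_sub hp.out.one_lt.le, Nat.cast_one]
  rw [← hsumW]
  exact hsum.sum_le_tsum W (fun v _ => normPow_nonneg _ _)

/-- The bounding function on rational primes. -/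
noncomputable def hfun (χ : ClassGroup (𝓞 K) →* Multiplicative (ZMod p)) (s : ℝ) (n : ℕ) : ℝ :=
  (XSet p χ).indicator (fun n : ℕ => (n : ℝ) ^ (-s)) n +
    ((if n = p then 1 else 0) + 1 / (n : ℝ) ^ 2)

theorem hfun_nonneg (χ : ClassGroup (𝓞 K) →* Multiplicative (ZMod p)) (s : ℝ) (n : ℕ) :
    0 ≤ hfun p χ s n := by
  unfold hfun
  have h1 : 0 ≤ (XSet p χ).indicator (fun n : ℕ => (n : ℝ) ^ (-s)) n :=
    Set.indicator_nonneg (fun n _ => by positivity) n
  have h2 : (0 : ℝ) ≤ if n = p then 1 else 0 := by split_ifs <;> norm_num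
  have h3 : (0 : ℝ) ≤ 1 / (n : ℝ) ^ 2 := by positivity
  linarith

include hK in
theorem normPow_le_hfun (χ : ClassGroup (𝓞 K) →* Multiplicative (ZMod p)) (s : ℝ) (hs : 1 < s)
    (v : PrimeIdeal K) (hv : χ (ClassGroup.mk0 v.1) ≠ 1) :
    normPow K v.1 s ≤ hfun p χ s (ratPrime K v) := by
  have hN1 : (1 : ℝ) ≤ (Ideal.absNorm (v.1 : Ideal (𝓞 K)) : ℝ) := by
    exact_mod_cast one_le_absNorm v
  unfold hfun
  have h1 : 0 ≤ (XSet p χ).indicator (fun n : ℕ => (n : ℝ) ^ (-s)) (ratPrime K v) :=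
    Set.indicator_nonneg (fun n _ => by positivity) _
  have h2 : (0 : ℝ) ≤ if ratPrime K v = p then 1 else 0 := by split_ifs <;> norm_num
  have h3 : (0 : ℝ) ≤ 1 / (ratPrime K v : ℝ) ^ 2 := by positivity
  by_cases hq1 : ratPrime K v ≡ 1 [MOD p]
  · have hmem : ratPrime K v ∈ XSet p χ :=
      ⟨ratPrime_prime v, hq1, v.1, v.2, ratPrime_mem v, hv⟩
    rw [Set.indicator_of_mem hmem]
    have : normPow K v.1 s = (ratPrime K v : ℝ) ^ (-s) := by
      unfold normPow
      rw [absNorm_of_one_mod p v hq1]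
    linarith
  · by_cases hqp : ratPrime K v = p
    · have : normPow K v.1 s ≤ 1 := by
        unfold normPow
        exact Real.rpow_le_one_of_one_le_of_nonpos hN1 (by linarith)
      rw [if_pos hqp]
      linarith
    · have hsq : ((ratPrime K v : ℝ)) ^ 2 ≤ (Ideal.absNorm (v.1 : Ideal (𝓞 K)) : ℝ) := by
        exact_mod_cast sq_le_absNorm p v hqp hq1
      have hqpos : (0 : ℝ) < (ratPrime K v : ℝ) ^ 2 := by
        have : (0 : ℝ) < (ratPrime K v : ℝ) := by exact_mod_cast (ratPrime_prime v).pos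
        positivity
      have : normPow K v.1 s ≤ 1 / (ratPrime K v : ℝ) ^ 2 := by
        unfold normPow
        calc (Ideal.absNorm (v.1 : Ideal (𝓞 K)) : ℝ) ^ (-s)
            ≤ (Ideal.absNorm (v.1 : Ideal (𝓞 K)) : ℝ) ^ (-1 : ℝ) :=
              Real.rpow_le_rpow_of_exponent_le hN1 (by linarith)
          _ = 1 / (Ideal.absNorm (v.1 : Ideal (𝓞 K)) : ℝ) := by
              rw [Real.rpow_neg_one, one_div]
          _ ≤ 1 / (ratPrime K v : ℝ) ^ 2 := one_div_le_one_div_of_le hqpos hsq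
      linarith

include hK in
/-- (II): the primes with nontrivial `χ` are controlled by the rational primes in `XSet`. -/
theorem tsum_nontriv_le (χ : ClassGroup (𝓞 K) →* Multiplicative (ZMod p)) (s : ℝ) (hs : 1 < s) :
    ∑' v : PrimeIdeal K, (if χ (ClassGroup.mk0 v.1) = 1 then 0 else normPow K v.1 s) ≤
      ((p : ℝ) - 1) * ((∑' n : ℕ, (XSet p χ).indicator (fun n : ℕ => (n : ℝ) ^ (-s)) n) +
        (1 + ∑' n : ℕ, 1 / (n : ℝ) ^ 2)) := by
  classical
  have hp1 : (0 : ℝ) ≤ (p : ℝ) - 1 := by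
    have : (1 : ℝ) < p := by exact_mod_cast hp.out.one_lt
    linarith
  have hu_sum : Summable fun n : ℕ => (XSet p χ).indicator (fun n : ℕ => (n : ℝ) ^ (-s)) n := by
    have : Summable fun n : ℕ => (n : ℝ) ^ (-s) := Real.summable_nat_rpow.mpr (by linarith)
    exact this.indicator _
  have hsq_sum : Summable fun n : ℕ => 1 / (n : ℝ) ^ 2 :=
    Real.summable_one_div_nat_pow.mpr (by norm_num)
  refine Real.tsum_le_of_sum_le (fun v => ?_) (fun W => ?_)
  · show (0 : ℝ) ≤ if χ (ClassGroup.mk0 v.1) = 1 then 0 else normPow K v.1 s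
    split_ifs
    · exact le_rfl
    · exact normPow_nonneg _ _
  · calc ∑ v ∈ W, (if χ (ClassGroup.mk0 v.1) = 1 then 0 else normPow K v.1 s)
        ≤ ∑ v ∈ W, hfun p χ s (ratPrime K v) := by
          refine Finset.sum_le_sum (fun v _ => ?_)
          split_ifs with h
          · exact hfun_nonneg p χ s _
          · exact normPow_le_hfun p χ s hs v h
      _ = ∑ q ∈ W.image (ratPrime K),
            (W.filter (fun v => ratPrime K v = q)).card • hfun p χ s q :=
          Finset.sum_comp (hfun p χ s) (ratPrime K)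
      _ ≤ ∑ q ∈ W.image (ratPrime K), ((p : ℝ) - 1) * hfun p χ s q := by
          refine Finset.sum_le_sum (fun q _ => ?_)
          rw [nsmul_eq_mul]
          refine mul_le_mul_of_nonneg_right ?_ (hfun_nonneg p χ s q)
          have hsub : W.filter (fun v => ratPrime K v = q) ⊆
              (finite_above (K := K) q).toFinset := by
            intro v hv
            rw [Finset.mem_filter] at hv
            rw [Set.Finite.mem_toFinset]
            exact hv.2
          have hcard := Finset.card_le_card hsub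
          rw [← Set.ncard_eq_toFinset_card _ (finite_above (K := K) q)] at hcard
          have hle := hcard.trans (ncard_above_le p (K := K) q)
          have : ((W.filter (fun v => ratPrime K v = q)).card : ℝ) ≤ ((p - 1 : ℕ) : ℝ) := by
            exact_mod_cast hle
          rwa [Nat.cast_sub hp.out.one_lt.le, Nat.cast_one] at this
      _ = ((p : ℝ) - 1) * ∑ q ∈ W.image (ratPrime K), hfun p χ s q := by
          rw [Finset.mul_sum]
      _ ≤ _ := by
          refine mul_le_mul_of_nonneg_left ?_ hp1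
          unfold hfun
          rw [Finset.sum_add_distrib, Finset.sum_add_distrib]
          have e1 : ∑ q ∈ W.image (ratPrime K),
              (XSet p χ).indicator (fun n : ℕ => (n : ℝ) ^ (-s)) q ≤
              ∑' n : ℕ, (XSet p χ).indicator (fun n : ℕ => (n : ℝ) ^ (-s)) n :=
            hu_sum.sum_le_tsum _ (fun n _ => Set.indicator_nonneg (fun n _ => by positivity) n)
          have e2 : ∑ q ∈ W.image (ratPrime K), (if q = p then (1 : ℝ) else 0) ≤ 1 := by
            rw [Finset.sum_ite_eq']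
            split_ifs <;> norm_num
          have e3 : ∑ q ∈ W.image (ratPrime K), 1 / (q : ℝ) ^ 2 ≤ ∑' n : ℕ, 1 / (n : ℝ) ^ 2 :=
            hsq_sum.sum_le_tsum _ (fun n _ => by positivity)
          linarith

end An

/-! ### The lower bound -/

section Main

variable (p : ℕ) [hp : Fact p.Prime]
variable {K : Type} [Field K] [NumberField K] [hK : IsCyclotomicExtension {p} ℚ K]

/-- Step (1): the twisted prime sums, added over `j ≠ 0`, are bounded. -/
theorem key_bound (χ : ClassGroup (𝓞 K) →* Multiplicative (ZMod p)) (s : ℝ)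
    (hsum : Summable fun v : PrimeIdeal K => normPow K v.1 s) (B : ℝ)
    (hB : ∑ j ∈ (Finset.univ : Finset (ZMod p)).erase 0,
      ∑' v : PrimeIdeal K, ((twist p χ j (ClassGroup.mk0 v.1) : ℂˣ) : ℂ).re * normPow K v.1 s ≤ B) :
    ((p : ℝ) - 1) * ∑' v : PrimeIdeal K, normPow K v.1 s - B ≤
      p * ∑' v : PrimeIdeal K, (if χ (ClassGroup.mk0 v.1) = 1 then 0 else normPow K v.1 s) := by
  have hsumj : ∀ j ∈ (Finset.univ : Finset (ZMod p)).erase 0, Summable fun v : PrimeIdeal K =>
      ((twist p χ j (ClassGroup.mk0 v.1) : ℂˣ) : ℂ).re * normPow K v.1 s := by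
    intro j _
    refine Summable.of_norm_bounded hsum (fun v => ?_)
    rw [norm_mul, Real.norm_eq_abs, Real.norm_eq_abs, abs_of_nonneg (normPow_nonneg _ _)]
    have h1 : |((twist p χ j (ClassGroup.mk0 v.1) : ℂˣ) : ℂ).re| ≤ 1 := by
      rw [← norm_twist p χ j (ClassGroup.mk0 v.1)]
      exact Complex.abs_re_le_norm _
    calc _ ≤ 1 * normPow K v.1 s := mul_le_mul_of_nonneg_right h1 (normPow_nonneg _ _)
      _ = _ := one_mul _
  have hN : Summable fun v : PrimeIdeal K =>
      (if χ (ClassGroup.mk0 v.1) = 1 then 0 else normPow K v.1 s) := by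
    refine Summable.of_nonneg_of_le (fun v => ?_) (fun v => ?_) hsum
    · split_ifs
      · exact le_rfl
      · exact normPow_nonneg _ _
    · split_ifs
      · exact normPow_nonneg _ _
      · exact le_rfl
  rw [← Summable.tsum_finsetSum hsumj] at hB
  have hpt : ∀ v : PrimeIdeal K,
      ∑ j ∈ (Finset.univ : Finset (ZMod p)).erase 0,
        ((twist p χ j (ClassGroup.mk0 v.1) : ℂˣ) : ℂ).re * normPow K v.1 s =
      ((p : ℝ) - 1) * normPow K v.1 s -
        p * (if χ (ClassGroup.mk0 v.1) = 1 then 0 else normPow K v.1 s) := by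
    intro v
    rw [← Finset.sum_mul, sum_twist_re]
    split_ifs <;> ring
  rw [tsum_congr hpt, Summable.tsum_sub (hsum.mul_left _) (hN.mul_left _),
    Summable.tsum_mul_left _ hsum, Summable.tsum_mul_left _ hN] at hB
  linarith

include hK in
/-- **Slice A5.** -/
theorem xLower {ζ : K} (hζ : IsPrimitiveRoot ζ p) (hA0 : IdealSummable K)
    (hA2 : DirichletLower p) (hA3 : ClassLBounded K) (hA4 : EulerLower K) : XLower p hζ := by
  classical
  intro χ _ hne
  obtain ⟨C₂, hC₂⟩ := hA2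
  obtain ⟨C₄, hC₄⟩ := hA4
  have hC₃ : ∀ j : ZMod p, ∃ C : ℝ, j ≠ 0 →
      ∀ s ∈ Set.Ioc (1 : ℝ) 2, ‖idealL K (twist p χ j) s‖ ≤ C := by
    intro j
    by_cases hj : j = 0
    · exact ⟨0, fun h => absurd hj h⟩
    · obtain ⟨C, hC⟩ := hA3 (twist p χ j) (twist_ne_one p χ j hj hne)
      exact ⟨C, fun _ => hC⟩
  choose C₃ hC₃ using hC₃
  set B : ℝ := ∑ j ∈ (Finset.univ : Finset (ZMod p)).erase 0, (Real.log (C₃ j) + C₄) with hB
  set τ : ℝ := 1 + ∑' n : ℕ, 1 / (n : ℝ) ^ 2 with hτ
  refine ⟨((p : ℝ) - 1) * C₂ / p + B / (p * ((p : ℝ) - 1)) + τ + 1, fun s hs => ?_⟩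
  have hs1 : 1 < s := hs.1
  have hpR : (1 : ℝ) < p := by exact_mod_cast hp.out.one_lt
  have hP : (0 : ℝ) < (p : ℝ) - 1 := by linarith
  have hp0 : (0 : ℝ) < p := by linarith
  have hsum : Summable fun v : PrimeIdeal K => normPow K v.1 s :=
    (hA0 s hs1).comp_injective Subtype.val_injective
  -- step (1)
  have hBle : ∑ j ∈ (Finset.univ : Finset (ZMod p)).erase 0,
      ∑' v : PrimeIdeal K, ((twist p χ j (ClassGroup.mk0 v.1) : ℂˣ) : ℂ).re * normPow K v.1 s
        ≤ B := by
    refine Finset.sum_le_sum (fun j hj => ?_)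
    have hj0 : j ≠ 0 := Finset.ne_of_mem_erase hj
    have h4 := hC₄ (twist p χ j) s hs
    have h3 := hC₃ j hj0 s hs
    have hpos : 0 < C₃ j := lt_of_lt_of_le (Real.exp_pos _) (h4.trans h3)
    have := (Real.le_log_iff_exp_le hpos).mpr (h4.trans h3)
    linarith
  have key1 := key_bound p χ s hsum B hBle
  have keyI := mul_tsum_le p s hsum
  have keyII := tsum_nontriv_le p (K := K) χ s hs1
  have keyA2 := hC₂ s hs
  set A : ℝ := ∑' v : PrimeIdeal K, normPow K v.1 s with hA
  set AN : ℝ := ∑' v : PrimeIdeal K,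
    (if χ (ClassGroup.mk0 v.1) = 1 then 0 else normPow K v.1 s) with hAN
  set SX : ℝ := ∑' n : ℕ, (XSet p χ).indicator (fun n : ℕ => (n : ℝ) ^ (-s)) n with hSX
  set S₁ : ℝ := ∑' q : {q : ℕ // q.Prime ∧ q ≡ 1 [MOD p]}, ((q : ℕ) : ℝ) ^ (-s) with hS₁
  set T : ℝ := Real.log (1 / (s - 1)) with hT
  -- the main inequality
  have hmain : T / p - (((p : ℝ) - 1) * C₂ / p + B / (p * ((p : ℝ) - 1)) + τ) ≤ SX := by
    have e1 : ((p : ℝ) - 1) * T - ((p : ℝ) - 1) ^ 2 * C₂ ≤ ((p : ℝ) - 1) * A := by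
      have : T - ((p : ℝ) - 1) * C₂ ≤ ((p : ℝ) - 1) * S₁ := by
        have h := mul_le_mul_of_nonneg_left keyA2 hP.le
        have e : ((p : ℝ) - 1) * (T / ((p : ℝ) - 1) - C₂) = T - ((p : ℝ) - 1) * C₂ := by
          field_simp
        linarith
      nlinarith [mul_le_mul_of_nonneg_left (this.trans keyI) hP.le]
    have e2 : ((p : ℝ) - 1) * T - ((p : ℝ) - 1) ^ 2 * C₂ - B ≤
        p * (((p : ℝ) - 1) * (SX + τ)) := by
      have := mul_le_mul_of_nonneg_left keyII hp0.le
      linarith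
    have e3 : (((p : ℝ) - 1) * T - ((p : ℝ) - 1) ^ 2 * C₂ - B) / (p * ((p : ℝ) - 1)) ≤ SX + τ := by
      rw [div_le_iff₀ (mul_pos hp0 hP)]
      linarith
    have e4 : (((p : ℝ) - 1) * T - ((p : ℝ) - 1) ^ 2 * C₂ - B) / (p * ((p : ℝ) - 1)) =
        T / p - ((p : ℝ) - 1) * C₂ / p - B / (p * ((p : ℝ) - 1)) := by
      field_simp
    linarith
  -- a finite part of the sum
  have hu_sum : Summable fun n : ℕ => (XSet p χ).indicator (fun n : ℕ => (n : ℝ) ^ (-s)) n := by
    have : Summable fun n : ℕ => (n : ℝ) ^ (-s) := Real.summable_nat_rpow.mpr (by linarith)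
    exact this.indicator _
  have htend := hu_sum.hasSum.tendsto_sum_nat
  obtain ⟨n, hn⟩ := (htend.eventually (lt_mem_nhds (sub_one_lt SX))).exists
  refine ⟨(Finset.range n).filter (fun q => q ∈ XSet p χ), fun q hq => (Finset.mem_filter.mp hq).2,
    ?_⟩
  have hFsum : ∑ q ∈ (Finset.range n).filter (fun q => q ∈ XSet p χ), (q : ℝ) ^ (-s) =
      ∑ i ∈ Finset.range n, (XSet p χ).indicator (fun n : ℕ => (n : ℝ) ^ (-s)) i := by
    rw [Finset.sum_filter]
    refine Finset.sum_congr rfl (fun i _ => ?_)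
    rw [Set.indicator_apply]
  rw [hFsum]
  linarith

end Main

end Fermat.Agent.S14.A5
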